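import Fermat.Agent.LT.Glob.InstE
import Fermat.Agent.LT.Loc.GalRing

set_option autoImplicit false
set_option linter.unusedSectionVars false
set_option linter.unusedVariables false

/-!
# The structure map `k_v → ∏_{w ∣ v} E_w` and the action of `Aut(E / k)`
-/

namespace Fermat.Agent.LT.Glob

open Matrix Filter IsDedekindDomain IsDedekindDomain.HeightOneSpectrum WithZero NumberField
open scoped MatrixGroups Topology

variable {k : Type*} [Field k] [NumberField k] (E : Type*) [Field E] [NumberField E]
  [Algebra k E]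

/-- the structure map -/
noncomputable def strE (v : HeightOneSpectrum (𝓞 k)) : v.adicCompletion k →+* RE E v :=
  RingHom.pi fun w => ext (above_fib w)

variable {E} {v : HeightOneSpectrum (𝓞 k)}

theorem strE_apply (x : v.adicCompletion k) (w : Fib E v) :
    strE E v x w = ext (above_fib w) x := rfl

theorem strE_coe (a : k) : strE E v (algebraMap k (v.adicCompletion k) a) =
    locHom E v (algebraMap k E a) :=
  funext fun w => ext_coe (above_fib w) a

theorem continuous_strE : Continuous (strE E v) :=
  continuous_pi fun w => continuous_ext (above_fib w)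

theorem strE_mem {x : v.adicCompletion k} : strE E v x ∈ OE E v ↔ x ∈ Oc v := by
  rw [mem_OE]
  constructor
  · intro h
    obtain ⟨w⟩ := (inferInstance : Nonempty (Fib E v))
    exact (ext_mem_Oc (above_fib w)).1 (h w)
  · intro h w
    exact (ext_mem_Oc (above_fib w)).2 h

theorem strE_injective : Function.Injective (strE E v) := by
  obtain ⟨w⟩ := (inferInstance : Nonempty (Fib E v))
  intro x y hxy
  exact (ext (above_fib w)).injective (congrFun hxy w)

instance : Nontrivial (RE E v) := strE_injective.nontrivial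

theorem isInducing_strE : Topology.IsInducing (strE E v) := by
  refine Topology.IsInducing.of_comp continuous_strE
    (continuous_apply (Classical.arbitrary (Fib E v))) ?_
  exact isInducing_ext (above_fib (Classical.arbitrary (Fib E v)))

theorem isUniformInducing_strE : IsUniformInducing (strE E v) :=
  AddMonoidHom.isUniformInducing_of_isInducing isInducing_strE

theorem isClosed_range_strE : IsClosed (Set.range (strE E v)) :=
  isUniformInducing_strE.isComplete_range.isClosed

theorem denseRange_locHom : DenseRange (locHom E v) := by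
  classical
  intro x
  rw [mem_closure_iff_nhds_zero]
  intro U hU
  rw [nhds_pi, Filter.mem_pi'] at hU
  obtain ⟨I, t, ht, htU⟩ := hU
  have h1 : ∀ w, ∃ n : ℕ, {y : w.1.adicCompletion E | Valued.v y ≤ exp (-(n : ℤ))} ⊆ t w :=
    fun w => exists_ball_subset (ht w)
  choose n hn using h1
  obtain ⟨m, hm⟩ := (Set.finite_range n).bddAbove
  obtain ⟨a, ha, -⟩ := approxE {v} (Function.update 0 v x) m
  refine ⟨_, ⟨a, rfl⟩, htU ?_⟩
  intro w _
  have := ha v (Finset.mem_singleton_self v) w
  rw [Function.update_self] at this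
  refine hn w (this.trans ?_)
  rw [exp_le_exp]
  have := hm ⟨w, rfl⟩
  omega

theorem eq_of_continuous_E {Z : Type*} [TopologicalSpace Z] [T2Space Z]
    {f g : RE E v → Z} (hf : Continuous f) (hg : Continuous g)
    (h : ∀ a : E, f (locHom E v a) = g (locHom E v a)) : f = g :=
  denseRange_locHom.equalizer hf hg (funext h)

/-! ### The action of the automorphisms -/

/-- the action on the places -/
noncomputable def act (θ : E ≃ₐ[k] E) (w : HeightOneSpectrum (𝓞 E)) : HeightOneSpectrum (𝓞 E) :=
  equivOfRingEquiv (RingOfIntegers.mapRingEquiv (θ : E ≃+* E)) w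

theorem above_act (θ : E ≃ₐ[k] E) (w : HeightOneSpectrum (𝓞 E)) :
    Above ((θ : E ≃+* E) : E →+* E) w (act θ w) 1 :=
  above_equiv _ (θ : E ≃+* E) (fun r => rfl) w

theorem act_liesOver (θ : E ≃ₐ[k] E) (w : Fib E v) : (act θ w.1).asIdeal.LiesOver v.asIdeal := by
  refine Above.liesOver (e := v.asIdeal.ramificationIdx' w.1.asIdeal * 1) ?_
  have h := (above_fib w).comp (above_act θ w.1)
  have e : ((θ : E ≃+* E) : E →+* E).comp (algebraMap k E) = algebraMap k E :=
    RingHom.ext fun x => θ.commutes x
  rwa [e] at h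

/-- the action on the places above `v` -/
noncomputable def actF (θ : E ≃ₐ[k] E) (w : Fib E v) : Fib E v := ⟨act θ w.1, act_liesOver θ w⟩

theorem above_actF_symm (θ : E ≃ₐ[k] E) (w : Fib E v) :
    Above ((θ : E ≃+* E) : E →+* E) (actF θ.symm w).1 w.1 1 :=
  Above.symm (θ := (θ.symm : E ≃+* E)) (above_act θ.symm w.1)

variable (v) in
/-- the action on `∏_{w ∣ v} E_w` -/
noncomputable def sHom (θ : E ≃ₐ[k] E) : RE E v →+* RE E v :=
  RingHom.pi fun w => (ext (above_actF_symm θ w)).comp (Pi.evalRingHom _ (actF θ.symm w))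

theorem sHom_apply (θ : E ≃ₐ[k] E) (x : RE E v) (w : Fib E v) :
    sHom v θ x w = ext (above_actF_symm θ w) (x (actF θ.symm w)) := rfl

theorem continuous_sHom (θ : E ≃ₐ[k] E) : Continuous (sHom v θ) :=
  continuous_pi fun w => (continuous_ext (above_actF_symm θ w)).comp (continuous_apply _)

theorem sHom_loc (θ : E ≃ₐ[k] E) (a : E) : sHom v θ (locHom E v a) = locHom E v (θ a) :=
  funext fun w => ext_coe (above_actF_symm θ w) a

theorem sHom_comp (θ θ' : E ≃ₐ[k] E) (x : RE E v) :
    sHom v θ (sHom v θ' x) = sHom v (θ * θ') x := by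
  have := eq_of_continuous_E (f := fun x => sHom v θ (sHom v θ' x)) (g := sHom v (θ * θ'))
    ((continuous_sHom θ).comp (continuous_sHom θ')) (continuous_sHom _) fun a => by
      simp only [sHom_loc, AlgEquiv.mul_apply]
  exact congrFun this x

theorem sHom_one (x : RE E v) : sHom v (1 : E ≃ₐ[k] E) x = x := by
  have := eq_of_continuous_E (f := sHom v (1 : E ≃ₐ[k] E)) (g := id)
    (continuous_sHom _) continuous_id fun a => by
      simp only [sHom_loc, AlgEquiv.one_apply, id]
  exact congrFun this x

theorem sHom_str (θ : E ≃ₐ[k] E) (x : v.adicCompletion k) :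
    sHom v θ (strE E v x) = strE E v x := by
  have := eq_of_continuous (f := fun x => sHom v θ (strE E v x)) (g := strE E v)
    ((continuous_sHom θ).comp continuous_strE) continuous_strE fun a => by
      simp only [strE_coe, sHom_loc, AlgEquiv.commutes]
  exact congrFun this x

variable (v) in
/-- the action as a ring isomorphism -/
noncomputable def sEquiv (θ : E ≃ₐ[k] E) : RE E v ≃+* RE E v :=
  RingEquiv.ofRingHom (sHom v θ) (sHom v θ⁻¹)
    (RingHom.ext fun x => by
      rw [RingHom.comp_apply, sHom_comp, mul_inv_cancel, sHom_one, RingHom.id_apply])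
    (RingHom.ext fun x => by
      rw [RingHom.comp_apply, sHom_comp, inv_mul_cancel, sHom_one, RingHom.id_apply])

theorem sEquiv_apply (θ : E ≃ₐ[k] E) (x : RE E v) : sEquiv v θ x = sHom v θ x := rfl

theorem sHom_mem (θ : E ≃ₐ[k] E) {x : RE E v} (hx : x ∈ OE E v) : sHom v θ x ∈ OE E v := by
  intro w
  rw [sHom_apply, ext_mem_Oc]
  exact hx _

theorem sHom_mem_iff (θ : E ≃ₐ[k] E) {x : RE E v} : sHom v θ x ∈ OE E v ↔ x ∈ OE E v := by
  refine ⟨fun h => ?_, sHom_mem θ⟩
  have := sHom_mem θ⁻¹ h
  rwa [sHom_comp, inv_mul_cancel, sHom_one] at this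

/-- **the automorphism of the family** -/
noncomputable def autoE (θ : E ≃ₐ[k] E) : LocFam.Auto (locE k E) where
  θ := (θ : E ≃+* E)
  s v := sEquiv v θ
  s_loc v a := sHom_loc θ a
  mem_O_iff v x := sHom_mem_iff θ

/-! ### The algebra structure -/

noncomputable instance algE : Algebra (v.adicCompletion k) (RE E v) := (strE E v).toAlgebra

theorem algebraMap_RE (x : v.adicCompletion k) :
    algebraMap (v.adicCompletion k) (RE E v) x = strE E v x := rfl

variable (v) in
/-- the action as an isomorphism of algebras -/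
noncomputable def sAlg (θ : E ≃ₐ[k] E) : RE E v ≃ₐ[v.adicCompletion k] RE E v :=
  AlgEquiv.ofRingEquiv (f := sEquiv v θ) fun x => sHom_str θ x

theorem sAlg_apply (θ : E ≃ₐ[k] E) (x : RE E v) : sAlg v θ x = sHom v θ x := rfl

open LT.Loc

/-- **The family is Galois.** -/
theorem gal3_RE {σ : E ≃ₐ[k] E} (h : Gal3 σ) : Gal3 (sAlg v σ) where
  cube x := by
    have hc : σ * σ * σ = 1 := AlgEquiv.ext fun b => h.cube b
    rw [sAlg_apply, sAlg_apply, sAlg_apply, sHom_comp, sHom_comp, hc, sHom_one]
  inj := strE_injective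
  fixed x hx := by
    have hT : Continuous fun x : RE E v => x + sHom v σ x + sHom v σ (sHom v σ x) :=
      (continuous_id.add (continuous_sHom σ)).add ((continuous_sHom σ).comp (continuous_sHom σ))
    have h1 : x + sHom v σ x + sHom v σ (sHom v σ x) ∈ Set.range (strE E v) := by
      have h2 : x ∈ closure (Set.range (locHom E v)) := denseRange_locHom x
      have h3 := image_closure_subset_closure_image hT ⟨x, h2, rfl⟩
      refine closure_minimal ?_ isClosed_range_strE h3
      rintro _ ⟨_, ⟨a, rfl⟩, rfl⟩
      obtain ⟨c, hc⟩ := h.exists_tr a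
      refine ⟨algebraMap k _ c, ?_⟩
      rw [strE_coe, hc, map_add, map_add]
      simp only [sHom_loc]
    obtain ⟨c, hc⟩ := h1
    have hx' : sHom v σ x = x := hx
    rw [hx', hx'] at hc
    refine ⟨3⁻¹ * c, ?_⟩
    have h3 : (3 : RE E v) = strE E v 3 := (map_ofNat (strE E v) 3).symm
    have h4 : (3 : v.adicCompletion k) ≠ 0 := by
      have := natCast_adicCompletion_ne_zero (K := k) v (N := 3) (by norm_num)
      exact_mod_cast this
    have h5 : strE E v 3⁻¹ * 3 = 1 := by
      rw [h3, ← map_mul, inv_mul_cancel₀ h4, map_one]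
    rw [algebraMap_RE, map_mul, hc]
    linear_combination x * h5
  dual := by
    obtain ⟨n, x, y, h1, h2, h3⟩ := h.dual
    refine ⟨n, fun i => locHom E v (x i), fun i => locHom E v (y i), ?_, ?_, ?_⟩
    · simp only [← map_mul, ← map_sum, h1, map_one]
    · simp only [sAlg_apply, sHom_loc, ← map_mul, ← map_sum, h2, map_zero]
    · simp only [sAlg_apply, sHom_loc, ← map_mul, ← map_sum, h3, map_zero]

end Fermat.Agent.LT.Glob
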