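import Fermat.Agent.LT.Glob.Fin
import Fermat.Agent.LT.Loc.Split

set_option autoImplicit false

/-!
# The spherical Hecke operator attached to a uniformiser

`R` is a commutative ring, `O` a subring, `ϖ : Rˣ` an element of `O` such that `O / ϖ O` is a
finite field; `HS O ϖ` is the double coset of `diag(ϖ, 1)` modulo `PGL₂(O)`.
-/

namespace Fermat.Agent.LT.Glob

open Matrix Fermat.Agent.LT.Loc
open scoped MatrixGroups

universe u

/-! ### Bi-invariant functions supported on symmetric double cosets -/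

section Gelfand

variable {G : Type u} [Group G] {K : Subgroup G}

/-- Gelfand's trick -/
theorem conv_comm_of_inv {F F' : BiInv K} (h : ∀ g, F.f g⁻¹ = F.f g) (h' : ∀ g, F'.f g⁻¹ = F'.f g)
    (hc : ∀ g, (F.conv F').f g⁻¹ = (F.conv F').f g) (g : G) :
    (F.conv F').f g = (F'.conv F).f g := by
  rw [← hc, BiInv.conv_f, BiInv.conv_f]
  rw [← finsum_comp_equiv (MulAction.toPerm (g⁻¹) : Equiv.Perm (G ⧸ K))]
  refine finsum_congr fun a => ?_
  induction a using QuotientGroup.induction_on with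
  | H a =>
  change F.convAux F' g⁻¹ ((g⁻¹ * a : G) : G ⧸ K) = _
  rw [BiInv.convAux_mk, BiInv.convAux_mk, mul_comm, ← h' ((g⁻¹ * a)⁻¹ * g⁻¹), ← h (g⁻¹ * a)]
  congr 2
  · group
  · group

theorem conv_apply_ne_zero {F F' : BiInv K} {g : G} (h : (F.conv F').f g ≠ 0) :
    ∃ a : G, F.f a ≠ 0 ∧ F'.f (a⁻¹ * g) ≠ 0 := by
  by_contra hcon
  push Not at hcon
  apply h
  rw [BiInv.conv_f]
  refine finsum_eq_zero_of_forall_eq_zero fun a => ?_
  induction a using QuotientGroup.induction_on with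
  | H a =>
  rw [BiInv.convAux_mk]
  by_cases ha : F.f a = 0
  · rw [ha, zero_mul]
  · rw [hcon a ha, mul_zero]

end Gelfand

variable {R : Type u} [CommRing R]

section Diag

/-- diagonal double cosets -/
def IsDiag (O : Subring R) (g : PGL(2, R)) : Prop :=
  ∃ a d : Rˣ, ∃ k ∈ PO O, ∃ k' ∈ PO O, g = k * ProjGenLinGroup.mk (tri a d 0) * k'

/-- the Weyl element -/
def wR : GL (Fin 2) R where
  val := !![0, 1; 1, 0]
  inv := !![0, 1; 1, 0]
  val_inv := by ext i j; fin_cases i <;> fin_cases j <;> simp [Matrix.mul_apply, Fin.sum_univ_two]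
  inv_val := by ext i j; fin_cases i <;> fin_cases j <;> simp [Matrix.mul_apply, Fin.sum_univ_two]

theorem wR_coe : ((wR : GL (Fin 2) R) : Matrix (Fin 2) (Fin 2) R) = !![0, 1; 1, 0] := rfl

theorem wR_inv : (wR : GL (Fin 2) R)⁻¹ = wR := Units.ext rfl

theorem wR_mem (O : Subring R) : wR ∈ GLO O := by
  refine ⟨fun i j => ?_, fun i j => ?_⟩
  · rw [wR_coe]
    fin_cases i <;> fin_cases j <;> simp [O.zero_mem, O.one_mem]
  · rw [wR_inv, wR_coe]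
    fin_cases i <;> fin_cases j <;> simp [O.zero_mem, O.one_mem]

theorem wR_tri (a d : Rˣ) : wR * tri a d 0 * wR = tri d a 0 := by
  apply Units.ext
  rw [Units.val_mul, Units.val_mul, wR_coe, tri_coe, tri_coe]
  ext i j
  fin_cases i <;> fin_cases j <;> simp [Matrix.mul_apply, Fin.sum_univ_two]

theorem tri_inv (a d : Rˣ) (s : R) : (tri a d s)⁻¹ =
    tri a⁻¹ d⁻¹ (-(((a⁻¹ : Rˣ) : R) * s * ((d⁻¹ : Rˣ) : R))) := Units.ext rfl

theorem sc_mul_tri (z a d : Rˣ) (s : R) : sc z * tri a d s = tri (z * a) (z * d) (z * s) := by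
  apply Units.ext
  rw [Units.val_mul, sc_coe, tri_coe, tri_coe]
  ext i j
  fin_cases i <;> fin_cases j <;> simp

theorem mk_sc_mul (z : Rˣ) (g : GL (Fin 2) R) :
    ProjGenLinGroup.mk (sc z * g) = ProjGenLinGroup.mk g := by
  rw [map_mul, sc, ProjGenLinGroup.mk_scalar, one_mul]

theorem mk_tri_inv (a d : Rˣ) : (ProjGenLinGroup.mk (tri a d 0))⁻¹ =
    ProjGenLinGroup.mk (tri d a (0 : R)) := by
  rw [← map_inv, tri_inv, ← mk_sc_mul (a * d), sc_mul_tri]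
  congr 1
  congr 1
  · rw [mul_comm a d, mul_inv_cancel_right]
  · rw [mul_inv_cancel_right]
  · simp

theorem IsDiag.inv_eq {O : Subring R} (F : BiInv (PO O)) {g : PGL(2, R)} (hg : IsDiag O g) :
    F.f g⁻¹ = F.f g := by
  obtain ⟨a, d, k, hk, k', hk', rfl⟩ := hg
  have hw : ProjGenLinGroup.mk (wR : GL (Fin 2) R) ∈ PO O := mk_mem_PO (wR_mem O)
  have h1 : (k * ProjGenLinGroup.mk (tri a d 0) * k')⁻¹ =
      (k'⁻¹ * ProjGenLinGroup.mk wR) * ProjGenLinGroup.mk (tri a d 0) *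
        (ProjGenLinGroup.mk wR * k⁻¹) := by
    rw [_root_.mul_inv_rev, _root_.mul_inv_rev, mk_tri_inv, ← wR_tri, map_mul, map_mul]
    simp only [mul_assoc]
  rw [h1, F.inv _ (mul_mem (inv_mem hk') hw) _ (mul_mem hw (inv_mem hk)), F.inv _ hk _ hk']

theorem inv_of_isDiag {O : Subring R} (F : BiInv (PO O))
    (h : ∀ g, F.f g ≠ 0 → IsDiag O g) (g : PGL(2, R)) : F.f g⁻¹ = F.f g := by
  by_cases hg : F.f g = 0
  · by_cases hg' : F.f g⁻¹ = 0
    · rw [hg, hg']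
    · have := (h _ hg').inv_eq F
      rw [inv_inv] at this
      rw [this]
  · exact (h g hg).inv_eq F

/-- commutativity -/
theorem conv_comm_of_isDiag {O : Subring R} {F F' : BiInv (PO O)}
    (h : ∀ g, F.f g ≠ 0 → IsDiag O g) (h' : ∀ g, F'.f g ≠ 0 → IsDiag O g)
    (hc : ∀ g g', F.f g ≠ 0 → F'.f g' ≠ 0 → IsDiag O (g * g')) (g : PGL(2, R)) :
    (F.conv F').f g = (F'.conv F).f g := by
  refine conv_comm_of_inv (inv_of_isDiag F h) (inv_of_isDiag F' h')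
    (inv_of_isDiag (F.conv F') ?_) g
  intro g hg
  obtain ⟨a, ha, ha'⟩ := conv_apply_ne_zero hg
  have := hc _ _ ha ha'
  rwa [mul_inv_cancel_left] at this

end Diag

/-! ### The Hecke operator -/

/-- `ϖ ∈ O`, and `B` is a set of representatives of the finite field `O / ϖ O` -/
structure Unif (O : Subring R) (ϖ : Rˣ) (B : Finset R) : Prop where
  mem : (ϖ : R) ∈ O
  not_mem : ((ϖ⁻¹ : Rˣ) : R) ∉ O
  sub : ∀ b ∈ B, b ∈ O
  cover : ∀ x ∈ O, ∃ b ∈ B, ((ϖ⁻¹ : Rˣ) : R) * (x - b) ∈ O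
  inj : ∀ b ∈ B, ∀ b' ∈ B, ((ϖ⁻¹ : Rˣ) : R) * (b - b') ∈ O → b = b'
  field : ∀ x ∈ O, ((ϖ⁻¹ : Rˣ) : R) * x ∈ O ∨ ∃ y ∈ O, ((ϖ⁻¹ : Rˣ) : R) * (x * y - 1) ∈ O

/-- the double coset of `diag(ϖ, 1)` -/
def HS (O : Subring R) (ϖ : Rˣ) : Set PGL(2, R) :=
  {g | ∃ k ∈ PO O, ∃ k' ∈ PO O, g = k * ProjGenLinGroup.mk (tri ϖ 1 0) * k'}

theorem HS.isDiag {O : Subring R} {ϖ : Rˣ} {g : PGL(2, R)} (h : g ∈ HS O ϖ) : IsDiag O g := by
  obtain ⟨k, hk, k', hk', rfl⟩ := h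
  exact ⟨ϖ, 1, k, hk, k', hk', rfl⟩

theorem HS.mul_left {O : Subring R} {ϖ : Rˣ} {g k : PGL(2, R)} (hk : k ∈ PO O)
    (h : g ∈ HS O ϖ) : k * g ∈ HS O ϖ := by
  obtain ⟨k₁, hk₁, k₂, hk₂, rfl⟩ := h
  exact ⟨k * k₁, mul_mem hk hk₁, k₂, hk₂, by simp only [mul_assoc]⟩

theorem HS.mul_right {O : Subring R} {ϖ : Rˣ} {g k : PGL(2, R)} (hk : k ∈ PO O)
    (h : g ∈ HS O ϖ) : g * k ∈ HS O ϖ := by
  obtain ⟨k₁, hk₁, k₂, hk₂, rfl⟩ := h
  exact ⟨k₁, hk₁, k₂ * k, mul_mem hk₂ hk, by simp only [mul_assoc]⟩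

theorem HS.mul_left_iff {O : Subring R} {ϖ : Rˣ} {g k : PGL(2, R)} (hk : k ∈ PO O) :
    k * g ∈ HS O ϖ ↔ g ∈ HS O ϖ := by
  refine ⟨fun h => ?_, HS.mul_left hk⟩
  have := HS.mul_left (inv_mem hk) h
  rwa [inv_mul_cancel_left] at this

theorem HS.mul_right_iff {O : Subring R} {ϖ : Rˣ} {g k : PGL(2, R)} (hk : k ∈ PO O) :
    g * k ∈ HS O ϖ ↔ g ∈ HS O ϖ := by
  refine ⟨fun h => ?_, HS.mul_right hk⟩
  have := HS.mul_right (inv_mem hk) h
  rwa [mul_inv_cancel_right] at this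

theorem HS.inv {O : Subring R} {ϖ : Rˣ} {g : PGL(2, R)} (h : g ∈ HS O ϖ) : g⁻¹ ∈ HS O ϖ := by
  obtain ⟨k, hk, k', hk', rfl⟩ := h
  have hw : ProjGenLinGroup.mk (wR : GL (Fin 2) R) ∈ PO O := mk_mem_PO (wR_mem O)
  refine ⟨k'⁻¹ * ProjGenLinGroup.mk wR, mul_mem (inv_mem hk') hw,
    ProjGenLinGroup.mk wR * k⁻¹, mul_mem hw (inv_mem hk), ?_⟩
  rw [_root_.mul_inv_rev, _root_.mul_inv_rev, mk_tri_inv, ← wR_tri, map_mul, map_mul]
  simp only [mul_assoc]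

theorem HS.inv_iff {O : Subring R} {ϖ : Rˣ} {g : PGL(2, R)} : g⁻¹ ∈ HS O ϖ ↔ g ∈ HS O ϖ :=
  ⟨fun h => by simpa using HS.inv h, HS.inv⟩

open Classical in
/-- the indicator of the double coset of `diag(ϖ, 1)` -/
noncomputable def TT (O : Subring R) (ϖ : Rˣ) : BiInv (PO O) where
  f g := if g ∈ HS O ϖ then 1 else 0
  inv k hk k' hk' g := by rw [HS.mul_right_iff hk', HS.mul_left_iff hk]

open Classical in
theorem TT_f (O : Subring R) (ϖ : Rˣ) (g : PGL(2, R)) :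
    (TT O ϖ).f g = if g ∈ HS O ϖ then 1 else 0 := rfl

theorem TT_f_ne_zero {O : Subring R} {ϖ : Rˣ} {g : PGL(2, R)} :
    (TT O ϖ).f g ≠ 0 ↔ g ∈ HS O ϖ := by
  rw [TT_f]; simp

theorem TT_inv (O : Subring R) (ϖ : Rˣ) (g : PGL(2, R)) : (TT O ϖ).f g⁻¹ = (TT O ϖ).f g := by
  rw [TT_f, TT_f, HS.inv_iff]

section Reps

variable {O : Subring R} {ϖ : Rˣ} {B : Finset R}

theorem det_tri (a d : Rˣ) (s : R) : GeneralLinearGroup.det (tri a d s) = a * d := by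
  apply Units.ext
  show (tri a d s : Matrix (Fin 2) (Fin 2) R).det = _
  rw [tri_coe, Matrix.det_fin_two]
  simp

theorem Unif.rep (h : Unif O ϖ B) {k : GL (Fin 2) R} (hk : k ∈ GLO O) :
    (∃ b ∈ B, (tri ϖ 1 b)⁻¹ * k * tri ϖ 1 0 ∈ GLO O) ∨
      (tri 1 ϖ 0)⁻¹ * k * tri ϖ 1 0 ∈ GLO O := by
  have hu : ((ϖ⁻¹ : Rˣ) : R) * (ϖ : R) = 1 := Units.inv_mul ϖ
  rw [mem_GLO_iff] at hk
  rcases h.field _ (hk.1 1 1) with h1 | ⟨y, hy, h1⟩
  · right
    rw [mem_GLO_iff]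
    constructor
    · intro i j
      have e : ((tri 1 ϖ 0)⁻¹ * k * tri ϖ 1 0 : GL (Fin 2) R) i j =
          !![k 0 0 * ϖ, k 0 1; k 1 0, ((ϖ⁻¹ : Rˣ) : R) * k 1 1] i j := by
        rw [Units.val_mul, Units.val_mul, tri_inv_coe, tri_coe]
        rw [Matrix.eta_fin_two (k : Matrix (Fin 2) (Fin 2) R)]
        fin_cases i <;> fin_cases j <;> simp
        linear_combination (k 1 0) * hu
      rw [e]
      fin_cases i <;> fin_cases j
      · exact O.mul_mem (hk.1 0 0) h.mem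
      · exact hk.1 0 1
      · exact hk.1 1 0
      · exact h1
    · rw [map_mul, map_mul, map_inv, det_tri, det_tri]
      have e : ((1 * ϖ)⁻¹ * GeneralLinearGroup.det k * (ϖ * 1)) = GeneralLinearGroup.det k := by
        rw [one_mul, mul_one, mul_comm, mul_inv_cancel_left]
      rw [e]
      exact hk.2
  · left
    obtain ⟨b, hb, hb'⟩ := h.cover _ (O.mul_mem hy (hk.1 0 1))
    refine ⟨b, hb, ?_⟩
    rw [mem_GLO_iff]
    constructor
    · intro i j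
      have e : ((tri ϖ 1 b)⁻¹ * k * tri ϖ 1 0 : GL (Fin 2) R) i j =
          !![k 0 0 - b * k 1 0, ((ϖ⁻¹ : Rˣ) : R) * (k 0 1 - b * k 1 1); k 1 0 * ϖ, k 1 1] i j := by
        rw [Units.val_mul, Units.val_mul, tri_inv_coe, tri_coe]
        rw [Matrix.eta_fin_two (k : Matrix (Fin 2) (Fin 2) R)]
        fin_cases i <;> fin_cases j <;> simp
        · linear_combination (k 0 0 - b * k 1 0) * hu
        · ring
      rw [e]
      fin_cases i <;> fin_cases j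
      · exact O.sub_mem (hk.1 0 0) (O.mul_mem (h.sub b hb) (hk.1 1 0))
      · have h2 : ((ϖ⁻¹ : Rˣ) : R) * (k 0 1 - b * k 1 1) =
            -(k 0 1 * (((ϖ⁻¹ : Rˣ) : R) * (k 1 1 * y - 1))) +
              k 1 1 * (((ϖ⁻¹ : Rˣ) : R) * (y * k 0 1 - b)) := by ring
        show ((ϖ⁻¹ : Rˣ) : R) * (k 0 1 - b * k 1 1) ∈ O
        rw [h2]
        exact O.add_mem (O.neg_mem (O.mul_mem (hk.1 0 1) h1)) (O.mul_mem (hk.1 1 1) hb')
      · exact O.mul_mem (hk.1 1 0) h.mem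
      · exact hk.1 1 1
    · rw [map_mul, map_mul, map_inv, det_tri, det_tri]
      have e : ((ϖ * 1)⁻¹ * GeneralLinearGroup.det k * (ϖ * 1)) = GeneralLinearGroup.det k := by
        rw [mul_comm, mul_inv_cancel_left]
      rw [e]
      exact hk.2

/-- the representatives -/
def rp (ϖ : Rˣ) (B : Finset R) : Option B → GL (Fin 2) R
  | none => tri 1 ϖ 0
  | some b => tri ϖ 1 b

theorem rp_mem_HS (h : Unif O ϖ B) (o : Option B) : ProjGenLinGroup.mk (rp ϖ B o) ∈ HS O ϖ := by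
  cases o with
  | none =>
    refine ⟨ProjGenLinGroup.mk wR, mk_mem_PO (wR_mem O), ProjGenLinGroup.mk wR,
      mk_mem_PO (wR_mem O), ?_⟩
    rw [← map_mul, ← map_mul, wR_tri]; rfl
  | some b =>
    refine ⟨ProjGenLinGroup.mk (tri 1 1 b), mk_mem_PO (tri_mem (one_mem _) (one_mem _)
      (h.sub _ b.2)), 1, one_mem _, ?_⟩
    rw [← map_mul, mul_one, tri_mul]
    congr 1
    simp [rp]

theorem Unif.mem_HS_iff (h : Unif O ϖ B) {g : PGL(2, R)} :
    g ∈ HS O ϖ ↔ ∃ o : Option B, (ProjGenLinGroup.mk (rp ϖ B o))⁻¹ * g ∈ PO O := by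
  constructor
  · rintro ⟨_, ⟨k, hk, rfl⟩, k', hk', rfl⟩
    rcases h.rep hk with ⟨b, hb, h1⟩ | h1
    · refine ⟨some ⟨b, hb⟩, ?_⟩
      rw [mul_assoc, ← mul_assoc, ← mul_assoc]
      refine mul_mem ?_ hk'
      rw [← map_inv, ← map_mul, ← map_mul]
      exact mk_mem_PO h1
    · refine ⟨none, ?_⟩
      rw [mul_assoc, ← mul_assoc, ← mul_assoc]
      refine mul_mem ?_ hk'
      rw [← map_inv, ← map_mul, ← map_mul]
      exact mk_mem_PO h1
  · rintro ⟨o, ho⟩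
    have := HS.mul_right ho (rp_mem_HS h o)
    rwa [mul_inv_cancel_left] at this

theorem Unif.rp_inj (h : Unif O ϖ B) {o o' : Option B}
    (ho : (ProjGenLinGroup.mk (rp ϖ B o))⁻¹ * ProjGenLinGroup.mk (rp ϖ B o') ∈ PO O) :
    o = o' := by
  have hu : ((ϖ⁻¹ : Rˣ) : R) * (ϖ : R) = 1 := Units.inv_mul ϖ
  -- the mixed case
  have mixed : ∀ b : B, ¬ (ProjGenLinGroup.mk (rp ϖ B (some b)))⁻¹ *
      ProjGenLinGroup.mk (rp ϖ B none) ∈ PO O := by
    intro b hb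
    rw [← map_inv, ← map_mul, mk_mem_PO_iff] at hb
    obtain ⟨z, hz⟩ := hb
    rw [rp, rp, tri_inv, tri_mul, sc_mul_tri] at hz
    have h1 := hz.1 0 0
    have h2 := hz.2 1 1
    rw [tri_coe] at h1
    rw [tri_inv_coe] at h2
    simp only [Matrix.of_apply, Matrix.cons_val', Matrix.cons_val_zero,
      Matrix.cons_val_one, Matrix.cons_val_fin_one] at h1 h2
    apply h.not_mem
    have h3 := O.mul_mem h.mem (O.mul_mem h1 h2)
    have e : (ϖ : R) * (((z * (ϖ⁻¹ * 1) : Rˣ) : R) * (((z * (1⁻¹ * ϖ))⁻¹ : Rˣ) : R)) =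
        ((ϖ⁻¹ : Rˣ) : R) := by
      rw [← Units.val_mul, ← Units.val_mul]
      congr 1
      simp only [mul_one, inv_one, one_mul, _root_.mul_inv_rev]
      rw [mul_comm z ϖ⁻¹, mul_comm ϖ⁻¹ z⁻¹, mul_assoc ϖ⁻¹ z, ← mul_assoc z, mul_inv_cancel,
        one_mul, ← mul_assoc, mul_inv_cancel, one_mul]
    rwa [e] at h3
  cases o with
  | none =>
    cases o' with
    | none => rfl
    | some b =>
      exfalso
      apply mixed b
      have := inv_mem ho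
      rwa [_root_.mul_inv_rev, inv_inv] at this
  | some b =>
    cases o' with
    | none => exact absurd ho (mixed b)
    | some b' =>
      rw [← map_inv, ← map_mul, mk_mem_PO_iff] at ho
      obtain ⟨z, hz⟩ := ho
      rw [rp, rp, tri_inv, tri_mul, sc_mul_tri] at hz
      have h1 := hz.1 0 1
      have h2 := hz.2 1 1
      rw [tri_coe] at h1
      rw [tri_inv_coe] at h2
      simp only [Matrix.of_apply, Matrix.cons_val', Matrix.cons_val_zero,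
        Matrix.cons_val_one, Matrix.cons_val_fin_one] at h1 h2
      have h3 := O.mul_mem h2 h1
      congr 1
      apply Subtype.ext
      symm
      apply h.inj _ b'.2 _ b.2
      convert h3 using 1
      simp only [mul_one, inv_one, Units.val_one]
      have hz' : ((z⁻¹ : Rˣ) : R) * (z : R) = 1 := Units.inv_mul z
      linear_combination (-(((ϖ⁻¹ : Rˣ) : R) * ((b' : R) - b))) * hz'

/-- the neighbours of a vertex -/
def nb (O : Subring R) (ϖ : Rˣ) (B : Finset R) (g : PGL(2, R)) (o : Option B) :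
    PGL(2, R) ⧸ PO O := ((g * ProjGenLinGroup.mk (rp ϖ B o) : PGL(2, R)) : PGL(2, R) ⧸ PO O)

theorem Unif.nb_injective (h : Unif O ϖ B) (g : PGL(2, R)) : Function.Injective (nb O ϖ B g) := by
  intro o o' ho
  apply h.rp_inj
  have := QuotientGroup.eq.1 ho
  rwa [_root_.mul_inv_rev, mul_assoc, inv_mul_cancel_left] at this

theorem Unif.range_nb (h : Unif O ϖ B) (g : PGL(2, R)) : Set.range (nb O ϖ B g) =
    {y | ∃ a : PGL(2, R), (a : PGL(2, R) ⧸ PO O) = y ∧ g⁻¹ * a ∈ HS O ϖ} := by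
  ext y
  constructor
  · rintro ⟨o, rfl⟩
    refine ⟨_, rfl, ?_⟩
    rw [inv_mul_cancel_left]
    exact rp_mem_HS h o
  · rintro ⟨a, rfl, ha⟩
    obtain ⟨o, ho⟩ := h.mem_HS_iff.1 ha
    refine ⟨o, QuotientGroup.eq.2 ?_⟩
    rwa [_root_.mul_inv_rev, mul_assoc]

/-- the Hecke operator as a sum over the neighbours -/
theorem Unif.finsum_TT (h : Unif O ϖ B) {M : Type*} [AddCommMonoid M] (g : PGL(2, R))
    (Φ : PGL(2, R) ⧸ PO O → M) :
    ∑ᶠ y ∈ {y | ∃ a : PGL(2, R), (a : PGL(2, R) ⧸ PO O) = y ∧ g⁻¹ * a ∈ HS O ϖ}, Φ y =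
      ∑ o : Option B, Φ (nb O ϖ B g o) := by
  rw [← h.range_nb g, finsum_mem_range (h.nb_injective g), finsum_eq_sum_of_fintype]

theorem Unif.fin_TT (h : Unif O ϖ B) : (TT O ϖ).Fin := by
  refine (Set.finite_range (nb O ϖ B 1)).subset ?_
  rintro y ⟨a, rfl, ha⟩
  rw [h.range_nb]
  refine ⟨a, rfl, ?_⟩
  rw [inv_one, one_mul]
  exact TT_f_ne_zero.1 ha

theorem Unif.mul_isDiag (h : Unif O ϖ B) {ϖ' : Rˣ} (h' : (ϖ' : R) ∈ O) {g g' : PGL(2, R)}
    (hg' : g' ∈ HS O ϖ') (hg : g ∈ HS O ϖ) : IsDiag O (g' * g) := by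
  obtain ⟨k, hk, k', hk', rfl⟩ := hg'
  obtain ⟨o, ho⟩ := h.mem_HS_iff.1 (HS.mul_left hk' hg)
  obtain ⟨κ, hκ⟩ : ∃ κ, κ = (ProjGenLinGroup.mk (rp ϖ B o))⁻¹ * (k' * g) := ⟨_, rfl⟩
  rw [← hκ] at ho
  have e : k * ProjGenLinGroup.mk (tri ϖ' 1 0) * k' * g =
      k * (ProjGenLinGroup.mk (tri ϖ' 1 0 * rp ϖ B o)) * κ := by
    rw [hκ, map_mul]; group
  rw [e]
  cases o with
  | none =>
    refine ⟨ϖ', ϖ, k, hk, κ, ho, ?_⟩
    rw [rp, tri_mul]
    simp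
  | some b =>
    refine ⟨ϖ' * ϖ, 1, k * ProjGenLinGroup.mk (tri 1 1 ((ϖ' : R) * (b : R))),
      mul_mem hk (mk_mem_PO
      (tri_mem (one_mem _) (one_mem _) (O.mul_mem h' (h.sub _ b.2)))), κ, ho, ?_⟩
    have e2 : tri ϖ' 1 0 * rp ϖ B (some b) =
        tri 1 1 ((ϖ' : R) * (b : R)) * tri (ϖ' * ϖ) 1 0 := by
      rw [rp, tri_mul, tri_mul]
      simp
    rw [e2, map_mul]
    simp only [mul_assoc]

/-- **Hecke operators at the same place commute.** -/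
theorem TT_comm (h : Unif O ϖ B) {ϖ' : Rˣ} {B' : Finset R} (h' : Unif O ϖ' B') (g : PGL(2, R)) :
    ((TT O ϖ).conv (TT O ϖ')).f g = ((TT O ϖ').conv (TT O ϖ)).f g :=
  conv_comm_of_isDiag (fun _ hg => HS.isDiag (TT_f_ne_zero.1 hg))
    (fun _ hg => HS.isDiag (TT_f_ne_zero.1 hg))
    (fun _ _ hg hg' => h'.mul_isDiag h.mem (TT_f_ne_zero.1 hg) (TT_f_ne_zero.1 hg')) g

end Reps

end Fermat.Agent.LT.Glob
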