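import Fermat.Agent.LT.Glob.Cond
import Fermat.Agent.LT.Glob.HeckeLoc

set_option autoImplicit false
set_option linter.unusedSectionVars false
set_option linter.unusedVariables false

/-!
# Prime elements, residue systems, Hecke data for `locK` and `locE`
-/

namespace Fermat.Agent.LT.Glob

open Matrix Filter IsDedekindDomain IsDedekindDomain.HeightOneSpectrum WithZero NumberField
open scoped MatrixGroups Topology
open LT.Fou (HData GoodPlace RadAt)

section Place

variable {F : Type*} [Field F] [NumberField F] (w : HeightOneSpectrum (𝓞 F))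

theorem exists_unifUnit : ∃ ϖ : (w.adicCompletion F)ˣ,
    Valued.v (ϖ : w.adicCompletion F) = exp (-1 : ℤ) := by
  obtain ⟨c, hc0, hc⟩ := LT.Fin.exists_valuation_eq (K := F) w (-1)
  have h1 : algebraMap F (w.adicCompletion F) c ≠ 0 := by simpa using hc0
  exact ⟨Units.mk0 _ h1, by rw [Units.val_mk0, valued_algebraMap, hc]⟩

/-- a prime element -/
noncomputable def unif : (w.adicCompletion F)ˣ := (exists_unifUnit w).choose

theorem valued_unif : Valued.v (unif w : w.adicCompletion F) = exp (-1 : ℤ) :=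
  (exists_unifUnit w).choose_spec

theorem valued_unif_inv : Valued.v (((unif w)⁻¹ : (w.adicCompletion F)ˣ) : w.adicCompletion F) =
    exp (1 : ℤ) := by
  rw [Units.val_inv_eq_inv_val, map_inv₀, valued_unif, ← WithZero.exp_neg, neg_neg]

theorem valued_unif_zpow (n : ℤ) :
    Valued.v (((unif w) ^ n : (w.adicCompletion F)ˣ) : w.adicCompletion F) = exp (-n) := by
  rw [Units.val_zpow_eq_zpow_val, map_zpow₀, valued_unif, ← WithZero.exp_zsmul]
  simp

theorem unif_inv_mul_mem {x : w.adicCompletion F} :
    (((unif w)⁻¹ : (w.adicCompletion F)ˣ) : w.adicCompletion F) * x ∈ Oc w ↔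
      Valued.v x < 1 := by
  rw [mem_Oc, map_mul, valued_unif_inv]
  by_cases hx : Valued.v x = 0
  · rw [hx]; simp
  · rw [← exp_log hx, ← exp_add, ← exp_zero, exp_le_exp, exp_lt_exp]
    omega

open Classical in
/-- representatives of the residue field -/
noncomputable def reps : Finset (w.adicCompletion F) := by
  have := Fintype.ofFinite (IsLocalRing.ResidueField (w.adicCompletionIntegers F))
  exact Finset.univ.image fun y : IsLocalRing.ResidueField (w.adicCompletionIntegers F) =>
    ((IsLocalRing.residue_surjective y).choose : w.adicCompletion F)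

theorem mem_reps {b : w.adicCompletion F} : b ∈ reps w ↔
    ∃ y : IsLocalRing.ResidueField (w.adicCompletionIntegers F),
      ((IsLocalRing.residue_surjective y).choose : w.adicCompletion F) = b := by
  classical
  unfold reps
  simp

theorem reps_mem {b : w.adicCompletion F} (h : b ∈ reps w) : b ∈ Oc w := by
  obtain ⟨y, rfl⟩ := (mem_reps w).1 h
  exact (IsLocalRing.residue_surjective y).choose.2

theorem reps_cover {x : w.adicCompletion F} (h : x ∈ Oc w) : ∃ b ∈ reps w,
    Valued.v (x - b) < 1 := by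
  obtain ⟨c, hc⟩ : ∃ c : w.adicCompletionIntegers F, c = ⟨x, h⟩ := ⟨_, rfl⟩
  have hx : (c : w.adicCompletion F) = x := by rw [hc]
  have h1 := (IsLocalRing.residue_surjective (IsLocalRing.residue _ c)).choose_spec
  refine ⟨_, (mem_reps w).2 ⟨IsLocalRing.residue _ c, rfl⟩, ?_⟩
  revert h1
  generalize (IsLocalRing.residue_surjective (IsLocalRing.residue _ c)).choose = d
  intro h1
  have h2 : c - d ∈ IsLocalRing.maximalIdeal (w.adicCompletionIntegers F) := by
    rw [← IsLocalRing.residue_eq_zero_iff, map_sub, h1, sub_self]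
  have h3 := (mem_maximalIdeal_iff (K := F) w).1 h2
  rw [AddSubgroupClass.coe_sub, hx] at h3
  exact h3

theorem reps_inj {b b' : w.adicCompletion F} (h : b ∈ reps w) (h' : b' ∈ reps w)
    (hb : Valued.v (b - b') < 1) : b = b' := by
  obtain ⟨y, rfl⟩ := (mem_reps w).1 h
  obtain ⟨y', rfl⟩ := (mem_reps w).1 h'
  have e1 := (IsLocalRing.residue_surjective y).choose_spec
  have e2 := (IsLocalRing.residue_surjective y').choose_spec
  have h1 : (IsLocalRing.residue_surjective y).choose -
      (IsLocalRing.residue_surjective y').choose ∈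
      IsLocalRing.maximalIdeal (w.adicCompletionIntegers F) := by
    rw [mem_maximalIdeal_iff, AddSubgroupClass.coe_sub]
    exact hb
  rw [← IsLocalRing.residue_eq_zero_iff, map_sub, e1, e2, sub_eq_zero] at h1
  rw [h1]

theorem natCard_residueField : Nat.card (IsLocalRing.ResidueField (w.adicCompletionIntegers F)) =
    Ideal.absNorm w.asIdeal := by
  have h1 : ∀ r ∈ w.asIdeal, ((IsLocalRing.residue (w.adicCompletionIntegers F)).comp
      (algebraMap (𝓞 F) (w.adicCompletionIntegers F))) r = 0 := by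
    intro r hr
    rw [RingHom.comp_apply, IsLocalRing.residue_eq_zero_iff, mem_maximalIdeal_iff]
    change Valued.v (algebraMap F (w.adicCompletion F) (algebraMap (𝓞 F) F r)) < 1
    rw [valued_algebraMap]
    exact (w.valuation_lt_one_iff_mem r).2 hr
  have h2 : Function.Bijective (Ideal.Quotient.lift w.asIdeal _ h1) := by
    constructor
    · rw [injective_iff_map_eq_zero]
      intro a ha
      obtain ⟨r, rfl⟩ := Ideal.Quotient.mk_surjective a
      rw [Ideal.Quotient.lift_mk, RingHom.comp_apply, IsLocalRing.residue_eq_zero_iff,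
        mem_maximalIdeal_iff] at ha
      change Valued.v (algebraMap F (w.adicCompletion F) (algebraMap (𝓞 F) F r)) < 1 at ha
      rw [valued_algebraMap] at ha
      exact Ideal.Quotient.eq_zero_iff_mem.2 ((w.valuation_lt_one_iff_mem r).1 ha)
    · exact Ideal.Quotient.lift_surjective_of_surjective _ h1 (residue_surjective w)
  rw [← Nat.card_congr (Equiv.ofBijective _ h2)]
  rfl

theorem card_reps : (reps w).card = Ideal.absNorm w.asIdeal := by
  classical
  rw [← natCard_residueField]
  have := Fintype.ofFinite (IsLocalRing.ResidueField (w.adicCompletionIntegers F))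
  rw [Nat.card_eq_fintype_card, ← Finset.card_univ]
  unfold reps
  rw [Finset.card_image_of_injective]
  · congr 1
    congr 1
    exact Subsingleton.elim _ _
  · intro y y' h
    have h1 : (IsLocalRing.residue_surjective y).choose =
      (IsLocalRing.residue_surjective y').choose := Subtype.ext h
    rw [← (IsLocalRing.residue_surjective y).choose_spec, h1,
      (IsLocalRing.residue_surjective y').choose_spec]

theorem reps_nonempty : (reps w).Nonempty :=
  let ⟨b, hb, _⟩ := reps_cover w (zero_mem (Oc w))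
  ⟨b, hb⟩

/-- **helper19's structure, for a completion** -/
theorem unifOc_reps : Unif (Oc w) (unif w) (reps w) where
  mem := by
    rw [mem_Oc, valued_unif, ← exp_zero, exp_le_exp]
    norm_num
  not_mem := by
    rw [mem_Oc, valued_unif_inv, ← exp_zero, exp_le_exp]
    norm_num
  sub := fun b hb => reps_mem w hb
  cover := fun x hx => by
    obtain ⟨b, hb, hb'⟩ := reps_cover w hx
    exact ⟨b, hb, (unif_inv_mul_mem w).2 hb'⟩
  inj := fun b hb b' hb' h => reps_inj w hb hb' ((unif_inv_mul_mem w).1 h)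
  field := fun x hx => by
    by_cases h : Valued.v x < 1
    · exact Or.inl ((unif_inv_mul_mem w).2 h)
    · right
      have h1 : Valued.v x = 1 := le_antisymm hx (not_lt.1 h)
      have h0 : x ≠ 0 := by
        rintro rfl
        rw [map_zero] at h1
        exact zero_ne_one h1
      refine ⟨x⁻¹, ?_, ?_⟩
      · rw [mem_Oc, map_inv₀, h1, inv_one]
      · rw [mul_inv_cancel₀ h0, sub_self, mul_zero]
        exact zero_mem _

end Place

/-! ### The product -/

section Prod

variable {k : Type*} [Field k] [NumberField k] {E : Type*} [Field E] [NumberField E]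
  [Algebra k E] {v : HeightOneSpectrum (𝓞 k)}

open Classical in
/-- the prime element `(1, …, ϖ, …, 1)` -/
noncomputable def unifE (w : Fib E v) : (RE E v)ˣ :=
  MulEquiv.piUnits.symm (Function.update 1 w (unif w.1))

theorem unifE_same (w : Fib E v) : (unifE w : RE E v) w = unif w.1 := by
  classical
  change ((Function.update (1 : ∀ w : Fib E v, (w.1.adicCompletion E)ˣ) w (unif w.1) w :
    (w.1.adicCompletion E)ˣ) : w.1.adicCompletion E) = _
  rw [Function.update_self]

theorem unifE_ne {w w' : Fib E v} (h : w' ≠ w) : (unifE w : RE E v) w' = 1 := by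
  classical
  change ((Function.update (1 : ∀ w : Fib E v, (w.1.adicCompletion E)ˣ) w (unif w.1) w' :
    (w'.1.adicCompletion E)ˣ) : w'.1.adicCompletion E) = _
  rw [Function.update_of_ne h]
  rfl

theorem unifE_inv_same (w : Fib E v) : (((unifE w)⁻¹ : (RE E v)ˣ) : RE E v) w =
    (((unif w.1)⁻¹ : (w.1.adicCompletion E)ˣ) : w.1.adicCompletion E) := by
  have h := congrFun (Units.mul_inv (unifE w)) w
  rw [Pi.mul_apply, unifE_same] at h
  rw [Units.val_inv_eq_inv_val (unif w.1)]
  exact (inv_eq_of_mul_eq_one_right h).symm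

theorem unifE_inv_ne {w w' : Fib E v} (hw : w' ≠ w) :
    (((unifE w)⁻¹ : (RE E v)ˣ) : RE E v) w' = 1 := by
  have h := congrFun (Units.mul_inv (unifE w)) w'
  rw [Pi.mul_apply, unifE_ne hw, one_mul] at h
  exact h

theorem unifE_inv_mul_mem {w : Fib E v} {x : RE E v} :
    (((unifE w)⁻¹ : (RE E v)ˣ) : RE E v) * x ∈ OE E v ↔
      Valued.v (x w) < 1 ∧ ∀ w' ≠ w, x w' ∈ Oc w'.1 := by
  rw [mem_OE]
  constructor
  · intro h
    refine ⟨?_, fun w' hw' => ?_⟩
    · have := h w
      rw [Pi.mul_apply, unifE_inv_same] at this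
      exact (unif_inv_mul_mem w.1).1 this
    · have := h w'
      rwa [Pi.mul_apply, unifE_inv_ne hw', one_mul] at this
  · rintro ⟨h1, h2⟩ w'
    by_cases hw : w' = w
    · subst hw
      rw [Pi.mul_apply, unifE_inv_same]
      exact (unif_inv_mul_mem _).2 h1
    · rw [Pi.mul_apply, unifE_inv_ne hw, one_mul]
      exact h2 w' hw

open Classical in
/-- representatives -/
noncomputable def repsE (w : Fib E v) : Finset (RE E v) :=
  (reps w.1).image fun b => (Pi.single w b : RE E v)

theorem mem_repsE {w : Fib E v} {x : RE E v} : x ∈ repsE w ↔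
    x w ∈ reps w.1 ∧ ∀ w' ≠ w, x w' = 0 := by
  classical
  unfold repsE
  rw [Finset.mem_image]
  constructor
  · rintro ⟨b, hb, rfl⟩
    exact ⟨by rwa [Pi.single_eq_same], fun w' hw' => by rw [Pi.single_eq_of_ne hw']⟩
  · rintro ⟨h1, h2⟩
    refine ⟨x w, h1, funext fun w' => ?_⟩
    by_cases hw : w' = w
    · subst hw; rw [Pi.single_eq_same]
    · rw [Pi.single_eq_of_ne hw, h2 w' hw]

theorem card_repsE (w : Fib E v) : (repsE w).card = Ideal.absNorm w.1.asIdeal := by
  classical
  unfold repsE
  rw [Finset.card_image_of_injective _ (Pi.single_injective w), card_reps]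

/-- **helper19's structure, for the product** -/
theorem unif_OE (w : Fib E v) : Unif (OE E v) (unifE w) (repsE w) where
  mem := by
    intro w'
    by_cases hw : w' = w
    · subst hw
      rw [unifE_same]
      exact (unifOc_reps w'.1).mem
    · rw [unifE_ne hw]
      exact one_mem _
  not_mem := by
    intro h
    have := h w
    rw [unifE_inv_same] at this
    exact (unifOc_reps w.1).not_mem this
  sub := fun b hb w' => by
    obtain ⟨h1, h2⟩ := mem_repsE.1 hb
    by_cases hw : w' = w
    · subst hw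
      exact reps_mem _ h1
    · rw [h2 w' hw]
      exact zero_mem _
  cover := fun x hx => by
    classical
    obtain ⟨b, hb, hb'⟩ := reps_cover w.1 (hx w)
    refine ⟨Pi.single w b, mem_repsE.2 ⟨by rwa [Pi.single_eq_same], fun w' hw' => by
      rw [Pi.single_eq_of_ne hw']⟩, unifE_inv_mul_mem.2 ⟨?_, fun w' hw' => ?_⟩⟩
    · rwa [Pi.sub_apply, Pi.single_eq_same]
    · rw [Pi.sub_apply, Pi.single_eq_of_ne hw', sub_zero]
      exact hx w'
  inj := fun b hb b' hb' h => by
    obtain ⟨h1, h2⟩ := mem_repsE.1 hb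
    obtain ⟨h3, h4⟩ := mem_repsE.1 hb'
    funext w'
    by_cases hw : w' = w
    · subst hw
      exact reps_inj _ h1 h3 (unifE_inv_mul_mem.1 h).1
    · rw [h2 w' hw, h4 w' hw]
  field := fun x hx => by
    classical
    by_cases h : Valued.v (x w) < 1
    · exact Or.inl (unifE_inv_mul_mem.2 ⟨h, fun w' _ => hx w'⟩)
    · right
      have h1 : Valued.v (x w) = 1 := le_antisymm (hx w) (not_lt.1 h)
      have h0 : x w ≠ 0 := by
        intro h0
        rw [h0, map_zero] at h1
        exact zero_ne_one h1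
      refine ⟨Pi.single w (x w)⁻¹, fun w' => ?_, unifE_inv_mul_mem.2 ⟨?_, fun w' hw' => ?_⟩⟩
      · by_cases hw : w' = w
        · subst hw
          rw [Pi.single_eq_same, mem_Oc, map_inv₀, h1, inv_one]
        · rw [Pi.single_eq_of_ne hw]
          exact zero_mem _
      · rw [Pi.sub_apply, Pi.mul_apply, Pi.single_eq_same, mul_inv_cancel₀ h0, Pi.one_apply,
          sub_self, map_zero]
        exact zero_lt_one
      · rw [Pi.sub_apply, Pi.mul_apply, Pi.single_eq_of_ne hw', mul_zero, zero_sub, Pi.one_apply]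
        exact neg_mem (one_mem _)

end Prod

/-! ### The Hecke data of helper20 -/

section HData

variable {F : Type*} [Field F] [NumberField F]

theorem mem_OU_Oc {v : HeightOneSpectrum (𝓞 F)} {y : (v.adicCompletion F)ˣ} :
    y ∈ OU (Oc v) ↔ Valued.v (y : v.adicCompletion F) = 1 := by
  rw [mem_OU, mem_Oc, mem_Oc, Units.val_inv_eq_inv_val, map_inv₀]
  have h0 : Valued.v (y : v.adicCompletion F) ≠ 0 := (Valuation.ne_zero_iff _).2 y.ne_zero
  constructor
  · rintro ⟨h1, h2⟩
    exact le_antisymm h1 ((inv_le_one₀ (zero_lt_iff.2 h0)).1 h2)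
  · intro h
    rw [h, inv_one]
    exact ⟨le_rfl, le_rfl⟩

/-- the Hecke data of `locK` -/
noncomputable def HK (v : HeightOneSpectrum (𝓞 F)) : HData (locK F) v where
  ϖ := unif v
  mem := (unifOc_reps v).mem
  S := reps v
  S_mem := fun s hs => reps_mem v hs

/-- the exponent of a unit -/
noncomputable def ordU {v : HeightOneSpectrum (𝓞 F)} (x : (v.adicCompletion F)ˣ) : ℤ :=
  -log (Valued.v (x : v.adicCompletion F))

theorem valued_eq_ordU {v : HeightOneSpectrum (𝓞 F)} (x : (v.adicCompletion F)ˣ) :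
    Valued.v (x : v.adicCompletion F) = exp (-ordU x) := by
  rw [ordU, neg_neg, exp_log ((Valuation.ne_zero_iff _).2 x.ne_zero)]

theorem mul_unif_inv_mem {v : HeightOneSpectrum (𝓞 F)} (x : (v.adicCompletion F)ˣ) :
    x * (unif v ^ ordU x)⁻¹ ∈ OU (Oc v) := by
  rw [mem_OU_Oc, Units.val_mul, map_mul, Units.val_inv_eq_inv_val, map_inv₀, valued_unif_zpow,
    valued_eq_ordU]
  exact mul_inv_cancel₀ exp_ne_zero

theorem unif_zpow_mem {v : HeightOneSpectrum (𝓞 F)} {n : ℤ}
    (h : ((unif v ^ n : (v.adicCompletion F)ˣ) : v.adicCompletion F) ∈ Oc v) : 0 ≤ n := by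
  rw [mem_Oc, valued_unif_zpow, ← exp_zero, exp_le_exp] at h
  omega

theorem goodPlace_K (v : HeightOneSpectrum (𝓞 F)) :
    GoodPlace (locK F) v (fun _ : Unit => HK v) where
  card := fun _ => reps_nonempty v
  gen := fun x => by
    refine ⟨fun _ => ordU (v := v) x, ?_⟩
    rw [Fintype.prod_unique]
    exact mul_unif_inv_mem (v := v) x
  pos := fun n hn i => by
    rw [Fintype.prod_unique] at hn
    exact unif_zpow_mem (v := v) hn

theorem exists_one_add_mul {v : HeightOneSpectrum (𝓞 F)} {y : v.adicCompletion F}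
    (h2 : Valued.v y < 1) : ∃ z ∈ Oc v, (1 + y) * z = 1 := by
  have h3 : Valued.v (1 + y) = 1 := Valuation.map_one_add_of_lt _ h2
  have h0 : 1 + y ≠ 0 := by
    intro h
    rw [h, map_zero] at h3
    exact zero_ne_one h3
  refine ⟨(1 + y)⁻¹, ?_, mul_inv_cancel₀ h0⟩
  rw [mem_Oc, map_inv₀, h3, inv_one]

theorem rad_K (v : HeightOneSpectrum (𝓞 F)) : RadAt (locK F) v where
  nontriv := (inferInstance : Nontrivial (v.adicCompletion F))
  unit := by
    refine ⟨Ideal.absNorm v.asIdeal, ?_, fun y hy => ?_⟩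
    · rw [Ne, Ideal.absNorm_eq_zero_iff]
      exact v.ne_bot
    · obtain ⟨z, hz, rfl⟩ := hy
      have h1 : Valued.v ((Ideal.absNorm v.asIdeal : ℕ) : v.adicCompletion F) < 1 := by
        rw [← map_natCast (algebraMap F (v.adicCompletion F)), valued_algebraMap,
          ← map_natCast (algebraMap (𝓞 F) F)]
        exact (v.valuation_lt_one_iff_mem _).2 (Ideal.absNorm_mem v.asIdeal)
      have h2 : ∀ z' : v.adicCompletion F, z' ∈ Oc v →
          Valued.v (((Ideal.absNorm v.asIdeal : ℕ) : v.adicCompletion F) * z') < 1 := by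
        intro z' hz'
        rw [map_mul]
        exact mul_lt_one_of_lt_of_le h1 hz'
      exact exists_one_add_mul (h2 z hz)

end HData

section HDataE

variable {k : Type*} [Field k] [NumberField k] {E : Type*} [Field E] [NumberField E]
  [Algebra k E]

/-- the Hecke data of `locE` -/
noncomputable def HE {v : HeightOneSpectrum (𝓞 k)} (w : Fib E v) : HData (locE k E) v where
  ϖ := unifE w
  mem := (unif_OE w).mem
  S := repsE w
  S_mem := fun s hs => (unif_OE w).sub s hs

theorem mem_OU_OE {v : HeightOneSpectrum (𝓞 k)} {y : (RE E v)ˣ} :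
    y ∈ OU (OE E v) ↔ ∀ w, Valued.v ((y : RE E v) w) = 1 := by
  have h1 : ∀ w : Fib E v, ((y⁻¹ : (RE E v)ˣ) : RE E v) w = ((y : RE E v) w)⁻¹ := by
    intro w
    have h := congrFun (Units.mul_inv y) w
    rw [Pi.mul_apply, Pi.one_apply] at h
    exact (inv_eq_of_mul_eq_one_right h).symm
  have h0 : ∀ w : Fib E v, Valued.v ((y : RE E v) w) ≠ 0 := by
    intro w
    rw [Valuation.ne_zero_iff]
    intro h
    have h := congrFun (Units.mul_inv y) w
    rw [Pi.mul_apply, Pi.one_apply, ‹(y : RE E v) w = 0›, zero_mul] at h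
    exact zero_ne_one h
  rw [mem_OU, mem_OE, mem_OE]
  constructor
  · rintro ⟨h2, h3⟩ w
    have h4 := h3 w
    rw [h1, mem_Oc, map_inv₀] at h4
    exact le_antisymm (h2 w) ((inv_le_one₀ (zero_lt_iff.2 (h0 w))).1 h4)
  · intro h
    refine ⟨fun w => (mem_Oc).2 (h w).le, fun w => ?_⟩
    rw [h1, mem_Oc, map_inv₀, h w, inv_one]

/-- evaluation at a place, on units -/
noncomputable def evW {v : HeightOneSpectrum (𝓞 k)} (w : Fib E v) :
    (RE E v)ˣ →* (w.1.adicCompletion E)ˣ :=
  Units.map (Pi.evalRingHom (fun w : Fib E v => w.1.adicCompletion E) w : RE E v →* _)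

theorem coe_evW {v : HeightOneSpectrum (𝓞 k)} (w : Fib E v) (x : (RE E v)ˣ) :
    ((evW w x : (w.1.adicCompletion E)ˣ) : w.1.adicCompletion E) = (x : RE E v) w := rfl

theorem evW_unifE_same {v : HeightOneSpectrum (𝓞 k)} (w : Fib E v) : evW w (unifE w) = unif w.1 :=
  Units.ext (unifE_same w)

theorem evW_unifE_ne {v : HeightOneSpectrum (𝓞 k)} {w w' : Fib E v} (h : w' ≠ w) :
    evW w' (unifE w) = 1 :=
  Units.ext (unifE_ne h)

theorem evW_prod {v : HeightOneSpectrum (𝓞 k)} [Fintype (Fib E v)] (n : Fib E v → ℤ)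
    (w : Fib E v) : evW w (∏ w', unifE w' ^ n w') = unif w.1 ^ n w := by
  classical
  rw [map_prod, Finset.prod_eq_single w]
  · rw [map_zpow, evW_unifE_same]
  · intro w' _ hw'
    rw [map_zpow, evW_unifE_ne hw'.symm, _root_.one_zpow]
  · intro h
    exact absurd (Finset.mem_univ w) h

theorem gen_E {v : HeightOneSpectrum (𝓞 k)} [Fintype (Fib E v)] (x : (RE E v)ˣ) :
    ∃ n : Fib E v → ℤ, x * (∏ w, unifE w ^ n w)⁻¹ ∈ OU (OE E v) := by
  refine ⟨fun w => ordU (evW w x), ?_⟩
  rw [mem_OU_OE]
  intro w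
  have h1 := mem_OU_Oc.1 (mul_unif_inv_mem (evW w x))
  have h2 : ((x * (∏ w, unifE w ^ ordU (evW w x))⁻¹ : (RE E v)ˣ) : RE E v) w =
      ((evW w x * (unif w.1 ^ ordU (evW w x))⁻¹ : (w.1.adicCompletion E)ˣ) :
        w.1.adicCompletion E) := by
    rw [← coe_evW, map_mul, map_inv, evW_prod (fun w => ordU (evW w x))]
  rw [h2]
  exact h1

theorem pos_E {v : HeightOneSpectrum (𝓞 k)} [Fintype (Fib E v)] {n : Fib E v → ℤ}
    (h : ((∏ w, unifE w ^ n w : (RE E v)ˣ) : RE E v) ∈ OE E v) (w : Fib E v) : 0 ≤ n w := by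
  have h1 := h w
  rw [← coe_evW, evW_prod] at h1
  exact unif_zpow_mem h1

theorem rad_E (v : HeightOneSpectrum (𝓞 k)) : RadAt (locE k E) v where
  nontriv := (inferInstance : Nontrivial (RE E v))
  unit := by
    refine ⟨Ideal.absNorm v.asIdeal, ?_, fun y hy => ?_⟩
    · rw [Ne, Ideal.absNorm_eq_zero_iff]
      exact v.ne_bot
    · obtain ⟨z, hz, rfl⟩ := hy
      have h2 : ∀ w : Fib E v, ∃ z' ∈ Oc w.1,
          (1 + ((Ideal.absNorm v.asIdeal : ℕ) : w.1.adicCompletion E) * z w) * z' = 1 := by
        intro w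
        apply exists_one_add_mul
        rw [map_mul]
        refine mul_lt_one_of_lt_of_le ?_ (hz w)
        have h3 : ((Ideal.absNorm v.asIdeal : ℕ) : w.1.adicCompletion E) =
          ext (above_fib w) ((Ideal.absNorm v.asIdeal : ℕ) : v.adicCompletion k) := by
          rw [map_natCast]
        rw [h3, valued_ext]
        refine pow_lt_one₀ zero_le ?_ (above_fib w).1
        rw [← map_natCast (algebraMap k (v.adicCompletion k)), valued_algebraMap,
          ← map_natCast (algebraMap (𝓞 k) k)]
        exact (v.valuation_lt_one_iff_mem _).2 (Ideal.absNorm_mem v.asIdeal)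
      choose z' hz' hz'' using h2
      exact ⟨z', hz', funext hz''⟩

noncomputable instance fintypeFib (v : HeightOneSpectrum (𝓞 k)) : Fintype (Fib E v) :=
  Fintype.ofFinite _

end HDataE

section GoodE

variable {k : Type*} [Field k] [NumberField k] {E : Type} [Field E] [NumberField E]
  [Algebra k E]

theorem goodPlace_E (v : HeightOneSpectrum (𝓞 k)) :
    GoodPlace (locE k E) v (fun w : Fib E v => HE w) where
  card := fun w => by
    obtain ⟨b, hb⟩ := reps_nonempty w.1
    classical
    exact ⟨Pi.single w b, mem_repsE.2 ⟨by rwa [Pi.single_eq_same], fun w' hw' => by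
      rw [Pi.single_eq_of_ne hw']⟩⟩
  gen := fun x => gen_E x
  pos := fun n hn w => pos_E hn w

end GoodE

end Fermat.Agent.LT.Glob
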