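import Fermat.Agent.LT.Glob.Idele
import Fermat.Agent.LT.Sp.Def

set_option autoImplicit false

/-!
# The axioms of `FinPart` for the restricted product `D`
-/

namespace Fermat.Agent.LT.Glob

open Matrix Filter NumberField
open scoped MatrixGroups nonZeroDivisors

universe w u i

section Tri

variable {R : Type*} [CommRing R]

/-- upper triangular matrices -/
def tri (a d : Rˣ) (s : R) : GL (Fin 2) R where
  val := !![(a : R), s; 0, (d : R)]
  inv := !![((a⁻¹ : Rˣ) : R), -(((a⁻¹ : Rˣ) : R) * s * ((d⁻¹ : Rˣ) : R)); 0, ((d⁻¹ : Rˣ) : R)]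
  val_inv := by
    ext i j
    fin_cases i <;> fin_cases j <;> simp [Matrix.mul_apply, Fin.sum_univ_two, ← mul_assoc]
  inv_val := by
    ext i j
    fin_cases i <;> fin_cases j <;> simp [Matrix.mul_apply, Fin.sum_univ_two, mul_assoc]

theorem tri_coe (a d : Rˣ) (s : R) : ((tri a d s : GL (Fin 2) R) : Matrix (Fin 2) (Fin 2) R) =
    !![(a : R), s; 0, (d : R)] := rfl

theorem tri_inv_coe (a d : Rˣ) (s : R) :
    (((tri a d s)⁻¹ : GL (Fin 2) R) : Matrix (Fin 2) (Fin 2) R) =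
    !![((a⁻¹ : Rˣ) : R), -(((a⁻¹ : Rˣ) : R) * s * ((d⁻¹ : Rˣ) : R)); 0, ((d⁻¹ : Rˣ) : R)] := rfl

theorem tri_mul (a d a' d' : Rˣ) (s s' : R) :
    tri a d s * tri a' d' s' = tri (a * a') (d * d') (a * s' + s * d') := by
  apply Units.ext
  rw [Units.val_mul, tri_coe, tri_coe, tri_coe]
  ext i j
  fin_cases i <;> fin_cases j <;> simp [Matrix.mul_apply, Fin.sum_univ_two]

theorem map_tri {R' : Type*} [CommRing R'] (f : R →+* R') (a d : Rˣ) (s : R) :
    GeneralLinearGroup.map f (tri a d s) = tri (Units.map (f : R →* R') a)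
      (Units.map (f : R →* R') d) (f s) := by
  apply Units.ext
  ext i j
  show f ((tri a d s : GL (Fin 2) R) i j) = _
  rw [tri_coe, tri_coe]
  fin_cases i <;> fin_cases j <;> simp

theorem tri_mem {O : Subring R} {a d : Rˣ} {s : R} (ha : a ∈ OU O) (hd : d ∈ OU O) (hs : s ∈ O) :
    tri a d s ∈ GLO O := by
  refine ⟨fun i j => ?_, fun i j => ?_⟩
  · rw [tri_coe]
    fin_cases i <;> fin_cases j <;> simp [ha.1, hd.1, hs, O.zero_mem]
  · rw [tri_inv_coe]
    have := O.mul_mem (O.mul_mem ha.2 hs) hd.2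
    fin_cases i <;> fin_cases j <;>
      simp only [Fin.zero_eta, Fin.mk_one, Fin.isValue, Matrix.of_apply, Matrix.cons_val',
        Matrix.cons_val_zero, Matrix.cons_val_one, Matrix.cons_val_fin_one]
    · exact ha.2
    · exact O.neg_mem this
    · exact O.zero_mem
    · exact hd.2

theorem exists_tri {g : GL (Fin 2) R} (h : g 1 0 = 0) : ∃ a d s, g = tri a d s := by
  have hd : g 0 0 * g 1 1 * ((GeneralLinearGroup.det g)⁻¹ : Rˣ).val = 1 := by
    have h1 : (g : Matrix (Fin 2) (Fin 2) R).det * ((GeneralLinearGroup.det g)⁻¹ : Rˣ).val = 1 :=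
      (GeneralLinearGroup.det g).mul_inv
    rw [Matrix.det_fin_two, h, mul_zero, sub_zero] at h1
    exact h1
  generalize ((GeneralLinearGroup.det g)⁻¹ : Rˣ).val = e at hd
  refine ⟨⟨g 0 0, g 1 1 * e, by rw [← mul_assoc, hd], by linear_combination hd⟩,
    ⟨g 1 1, g 0 0 * e, by linear_combination hd, by linear_combination hd⟩, g 0 1, ?_⟩
  apply Units.ext
  rw [tri_coe]
  ext i j
  fin_cases i <;> fin_cases j <;> simp [h]

theorem OU_of_sc_mul {O : Subring R} {g : GL (Fin 2) R} {z : Rˣ}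
    (hg : g ∈ GLO O) (h : sc z * g ∈ GLO O) : z ∈ OU O := by
  have h1 : sc z ∈ GLO O := by
    have := mul_mem h (inv_mem hg)
    rwa [mul_inv_cancel_right] at this
  constructor
  · have := h1.1 0 0
    rw [sc_coe] at this
    simpa using this
  · have := h1.2 0 0
    rw [← map_inv, sc_coe] at this
    simpa using this

end Tri

namespace LocFam

variable {F : Type u} [Field F] {ι : Type i} (L : LocFam.{w} F ι)

/-- Iwasawa decomposition -/
theorem iwasawa (v : ι) (g : GL (Fin 2) (L.R v)) :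
    ∃ a d s, ∃ k ∈ GLO (L.O v), g = tri a d s * k := by
  obtain ⟨h, hh, e⟩ := L.bezout v (g 1 0) (g 1 1)
  have h1 : (g * h : GL (Fin 2) (L.R v)) 1 0 = 0 := by
    rw [Units.val_mul, Matrix.mul_apply, Fin.sum_univ_two, e]
  obtain ⟨a, d, s, e⟩ := exists_tri h1
  exact ⟨a, d, s, h⁻¹, inv_mem hh, by rw [← e, mul_inv_cancel_right]⟩

variable [NumberField F]

variable (F) in
omit [NumberField F] in
theorem exists_int_near (v : ι) {x : L.R v} (hx : x ∈ L.O v) {N : ℕ} (hN : N ≠ 0) :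
    ∃ a : 𝓞 F, L.loc v (a : F) - x ∈ NO (L.O v) N := by
  classical
  obtain ⟨a, ha, ha'⟩ := L.dense {v} (fun w => if h : w = v then h ▸ x else 0) N hN
  have h1 := ha v (Finset.mem_singleton_self v)
  rw [dif_pos rfl] at h1
  refine ⟨⟨a, (L.isIntegral_iff a).mpr fun w => ?_⟩, h1⟩
  by_cases hw : w = v
  · subst hw
    have := (L.O w).add_mem (NO_le _ _ h1) hx
    rwa [sub_add_cancel] at this
  · exact ha' w (by simpa using hw)

variable {L}

/-- the local orbit of the maximal compact subgroup is finite -/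
theorem finite_orbit (U : L.Level) (v : ι) :
    {x : X U v | ∃ p ∈ PO (L.O v), x = p • X.base U v}.Finite := by
  classical
  obtain ⟨N, hN, hU⟩ := U.deep v
  have hfin : Finite (𝓞 F ⧸ Ideal.span {(N : 𝓞 F)}) := by
    refine Ideal.finiteQuotientOfFreeOfNeBot _ ?_
    rw [ne_eq, Ideal.span_singleton_eq_bot]
    exact_mod_cast hN
  choose a ha using fun x : L.O v => L.exists_int_near F v x.2 hN
  have key : ∀ x y : L.O v, Ideal.Quotient.mk (Ideal.span {(N : 𝓞 F)}) (a x) =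
      Ideal.Quotient.mk (Ideal.span {(N : 𝓞 F)}) (a y) →
      ((x : L.R v) - (y : L.R v)) ∈ NO (L.O v) N := by
    intro x y h
    rw [Ideal.Quotient.eq, Ideal.mem_span_singleton] at h
    obtain ⟨c, hc⟩ := h
    have h1 : L.loc v (a x : F) - L.loc v (a y : F) ∈ NO (L.O v) N := by
      refine ⟨L.loc v (c : F), (L.isIntegral_iff _).mp c.2 v, ?_⟩
      rw [← map_sub, ← map_sub, hc, map_mul, map_mul]
      simp
    have h2 := sub_mem (sub_mem h1 (ha x)) (neg_mem (ha y))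
    convert h2 using 1
    ring
  let Φ : GLO (L.O v) → (Fin 2 → Fin 2 → 𝓞 F ⧸ Ideal.span {(N : 𝓞 F)}) := fun h i j =>
    Ideal.Quotient.mk _ (a ⟨h.1 i j, h.2.1 i j⟩)
  have hΦ : ∀ h h' : GLO (L.O v), Φ h = Φ h' →
      (ProjGenLinGroup.mk h.1 : L.G v) • X.base U v = (ProjGenLinGroup.mk h'.1 : L.G v) • X.base U v := by
    intro h h' e
    rw [← inv_smul_eq_iff, ← mul_smul, ← map_inv, ← map_mul]
    apply smul_base
    apply hU
    apply mk_mem_PK
    refine ⟨mul_mem (inv_mem h'.2) h.2, fun i j => ?_⟩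
    have e1 : ((h'.1⁻¹ * h.1 : GL (Fin 2) (L.R v)) : Matrix (Fin 2) (Fin 2) (L.R v)) - 1 =
        ((h'.1⁻¹ : GL (Fin 2) (L.R v)) : Matrix (Fin 2) (Fin 2) (L.R v)) *
          ((h.1 : Matrix (Fin 2) (Fin 2) (L.R v)) - (h'.1 : Matrix (Fin 2) (Fin 2) (L.R v))) := by
      rw [mul_sub, ← Units.val_mul, ← Units.val_mul, inv_mul_cancel, Units.val_one]
    rw [← Matrix.sub_apply, e1, Matrix.mul_apply]
    exact sum_mem fun k _ => mul_mem_NO (h'.2.2 i k) (key _ _ (congrFun (congrFun e k) j))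
  refine Set.Finite.subset (Set.finite_range (fun φ : Fin 2 → Fin 2 → 𝓞 F ⧸
    Ideal.span {(N : 𝓞 F)} => if h : ∃ h : GLO (L.O v), Φ h = φ then
      (ProjGenLinGroup.mk h.choose.1 : L.G v) • X.base U v else X.base U v)) ?_
  rintro x ⟨p, ⟨h, hh, rfl⟩, rfl⟩
  refine ⟨Φ ⟨h, hh⟩, ?_⟩
  have hex : ∃ h' : GLO (L.O v), Φ h' = Φ ⟨h, hh⟩ := ⟨⟨h, hh⟩, rfl⟩
  show (if h : ∃ h' : GLO (L.O v), Φ h' = Φ ⟨_, hh⟩ then _ else _) = _
  rw [dif_pos hex]
  exact hΦ _ _ hex.choose_spec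

/-- for a fixed element `t` of the restricted product the `PO`-translates are finite in number -/
theorem finite_translates (U : L.Level) (t : ∀ v, L.G v) (ht : {v | t v ≠ 1}.Finite) :
    {x : D U | ∀ v, ∃ p ∈ PO (L.O v), x v = t v • p • X.base U v}.Finite := by
  classical
  obtain ⟨S₀, hS₀⟩ := exists_finset_compl U.eventually_eq
  set S : Finset ι := S₀ ∪ ht.toFinset with hS
  -- restriction to S
  have hout : ∀ x ∈ {x : D U | ∀ v, ∃ p ∈ PO (L.O v), x v = t v • p • X.base U v}, ∀ v ∉ S,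
      x v = X.base U v := by
    intro x hx v hv
    obtain ⟨p, hp, e⟩ := hx v
    rw [hS, Finset.mem_union, not_or] at hv
    have h1 : t v = 1 := by
      by_contra h'
      exact hv.2 ((Set.Finite.mem_toFinset _).mpr h')
    rw [e, h1, one_smul]
    exact smul_base (by rw [hS₀ v hv.1]; exact hp)
  have hfin : (Set.univ.pi fun v : S => {x : X U v.1 | ∃ p ∈ PO (L.O v.1),
      x = t v.1 • p • X.base U v.1}).Finite := by
    refine Set.Finite.pi fun v => ?_
    refine Set.Finite.subset ((finite_orbit U v.1).image (fun x => t v.1 • x)) ?_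
    rintro x ⟨p, hp, rfl⟩
    exact ⟨_, ⟨p, hp, rfl⟩, rfl⟩
  refine Set.Finite.of_finite_image (f := fun (x : D U) (v : S) => x v.1)
    (hfin.subset ?_) ?_
  · rintro _ ⟨x, hx, rfl⟩ v -
    exact hx v.1
  · intro x hx y hy e
    apply D.ext
    intro v
    by_cases hv : v ∈ S
    · exact congrFun e ⟨v, hv⟩
    · rw [hout x hx v hv, hout y hy v hv]

/-- **(D1) finitely many orbits.** -/
theorem exists_reps (U : L.Level) : ∃ D0 : Finset (D U), ∀ d : D U, ∃ g : GL (Fin 2) F,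
    g • d ∈ D0 := by
  classical
  obtain ⟨C, hC, hC'⟩ := L.idele_finite F
  have hT : ∀ p : (∀ v, (L.R v)ˣ) × (∀ v, (L.R v)ˣ), p ∈ C ×ˢ C →
      {x : D U | ∀ v, ∃ q ∈ PO (L.O v), x v =
        (ProjGenLinGroup.mk (tri (p.1 v) (p.2 v) 0) : L.G v) • q • X.base U v}.Finite := by
    intro p hp
    rw [Finset.mem_product] at hp
    apply finite_translates
    refine ((hC _ hp.1).union (hC _ hp.2)).subset ?_
    intro v hv
    by_contra h'
    rw [Set.mem_union, not_or] at h'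
    apply hv
    have h1 : p.1 v = 1 := by by_contra h''; exact h'.1 h''
    have h2 : p.2 v = 1 := by by_contra h''; exact h'.2 h''
    rw [h1, h2]
    have : tri (1 : (L.R v)ˣ) 1 0 = 1 := by
      apply Units.ext; rw [tri_coe]; ext i j
      fin_cases i <;> fin_cases j <;> simp
    rw [this, map_one]
  refine ⟨(C ×ˢ C).attach.biUnion fun p => (hT p.1 p.2).toFinset, fun d => ?_⟩
  obtain ⟨ga, rfl, hga⟩ := D.exists_eq_smul_base d
  -- lifts and Iwasawa decompositions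
  have hlift : ∀ v, ∃ (c d' : (L.R v)ˣ) (s : L.R v), ∃ k ∈ GLO (L.O v),
      ga.1 v = ProjGenLinGroup.mk (tri c d' s * k) ∧ (ga.1 v = 1 → c = 1 ∧ d' = 1 ∧ s = 0) := by
    intro v
    by_cases h1 : ga.1 v = 1
    · refine ⟨1, 1, 0, 1, one_mem _, ?_, fun _ => ⟨rfl, rfl, rfl⟩⟩
      have : tri (1 : (L.R v)ˣ) 1 0 = 1 := by
        apply Units.ext; rw [tri_coe]; ext i j
        fin_cases i <;> fin_cases j <;> simp
      rw [this, one_mul, map_one, h1]
    · obtain ⟨g, hg⟩ := ProjGenLinGroup.mk_surjective (ga.1 v)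
      obtain ⟨a, d', s, k, hk, e⟩ := L.iwasawa v g
      exact ⟨a, d', s, k, hk, by rw [← hg, e], fun h => absurd h h1⟩
  choose c d' s k hk hgk hone using hlift
  have hev : ∀ᶠ v in cofinite, ga.1 v = 1 := by
    filter_upwards [(ga • D.base U).2] with v hv using hga v hv
  obtain ⟨a, c0, hc0, ha⟩ := hC' c (by
    filter_upwards [hev] with v hv
    rw [(hone v hv).1]; exact one_mem _)
  obtain ⟨b, d0, hd0, hb⟩ := hC' d' (by
    filter_upwards [hev] with v hv
    rw [(hone v hv).2.1]; exact one_mem _)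
  obtain ⟨S₁, hS₁⟩ := exists_finset_compl hev
  set S : Finset ι := S₁ ∪ ((hC _ hc0).toFinset ∪ (hC _ hd0).toFinset) with hS
  obtain ⟨N, hN, hN'⟩ := L.finite_denom S (fun v => ((d0 v * (c0 v)⁻¹ : (L.R v)ˣ) : L.R v))
  obtain ⟨t, ht, ht'⟩ := L.dense S
    (fun v => L.loc v a * s v * (((L.un v b * d' v)⁻¹ : (L.R v)ˣ) : L.R v)) N hN
  refine ⟨tri a b (-(t * b)), ?_⟩
  rw [Finset.mem_biUnion]
  refine ⟨⟨(c0, d0), Finset.mk_mem_product hc0 hd0⟩, Finset.mem_attach _ _, ?_⟩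
  rw [Set.Finite.mem_toFinset]
  intro v
  set u : (L.R v)ˣ := L.un v a * c v * (c0 v)⁻¹ with hu
  set u' : (L.R v)ˣ := L.un v b * d' v * (d0 v)⁻¹ with hu'
  set r : L.R v := (((c0 v)⁻¹ : (L.R v)ˣ) : L.R v) * (L.loc v a * s v -
    L.loc v t * (L.loc v b * d' v)) with hr
  have hrO : r ∈ L.O v := by
    -- r = (y - t) * (b d' / c0)
    have e1 : r = -(L.loc v t - L.loc v a * s v * (((L.un v b * d' v)⁻¹ : (L.R v)ˣ) : L.R v)) *
        ((d0 v * (c0 v)⁻¹ : (L.R v)ˣ) : L.R v) * (u' : L.R v) := by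
      have e2 : ((d0 v * (c0 v)⁻¹ : (L.R v)ˣ) : L.R v) * (u' : L.R v) =
          (((c0 v)⁻¹ : (L.R v)ˣ) : L.R v) * (L.loc v b * d' v) := by
        rw [← Units.val_mul, hu']
        have : d0 v * (c0 v)⁻¹ * (L.un v b * d' v * (d0 v)⁻¹) = (c0 v)⁻¹ * (L.un v b * d' v) := by
          rw [mul_comm (d0 v), mul_assoc, mul_comm (d0 v), inv_mul_cancel_right]
        rw [this]; push_cast; rfl
      rw [mul_assoc, e2, hr]
      have e3 : (((L.un v b * d' v)⁻¹ : (L.R v)ˣ) : L.R v) * (L.loc v b * d' v) = 1 := by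
        have : (L.loc v b * d' v : L.R v) = ((L.un v b * d' v : (L.R v)ˣ) : L.R v) := by
          push_cast; rfl
        rw [this, Units.inv_mul]
      linear_combination (-(L.loc v a * s v) * (((c0 v)⁻¹ : (L.R v)ˣ) : L.R v)) * e3
    by_cases hv : v ∈ S
    · obtain ⟨y, hy, e⟩ := ht v hv
      rw [e1, e]
      have e4 : -((N : L.R v) * y) * ((d0 v * (c0 v)⁻¹ : (L.R v)ˣ) : L.R v) * (u' : L.R v) =
        (N * ((d0 v * (c0 v)⁻¹ : (L.R v)ˣ) : L.R v)) * (-(y * u')) := by ring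
      rw [e4]
      exact (L.O v).mul_mem (hN' v hv) ((L.O v).neg_mem ((L.O v).mul_mem hy (hb v).1))
    · have hv0 := hv
      rw [hS, Finset.mem_union, Finset.mem_union, not_or, not_or] at hv
      have h1 := hone v (hS₁ v hv.1)
      have h2 : c0 v = 1 := by
        by_contra h'; exact hv.2.1 ((Set.Finite.mem_toFinset _).mpr h')
      have h3 : d0 v = 1 := by
        by_contra h'; exact hv.2.2 ((Set.Finite.mem_toFinset _).mpr h')
      rw [e1, h1.2.2, h2, h3]
      simp only [mul_zero, zero_mul, sub_zero, mul_one, inv_one, Units.val_one]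
      exact (L.O v).mul_mem ((L.O v).neg_mem (ht' v hv0)) (hb v).1
  refine ⟨ProjGenLinGroup.mk (tri u u' r * k v), mk_mem_PO (mul_mem (tri_mem (ha v) (hb v) hrO)
    (hk v)), ?_⟩
  rw [smul_apply, GA_smul_apply, hgk, emb_eq, map_tri, ← mul_smul, ← mul_smul, ← map_mul,
    ← map_mul, ← mul_assoc, ← mul_assoc, tri_mul, tri_mul]
  have h1 : Units.map (L.loc v : F →* L.R v) a * c v = c0 v * u := by
    rw [hu, mul_comm (c0 v), inv_mul_cancel_right]; rfl
  have h2 : Units.map (L.loc v : F →* L.R v) b * d' v = d0 v * u' := by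
    rw [hu', mul_comm (d0 v), inv_mul_cancel_right]; rfl
  have h3 : ((Units.map (L.loc v : F →* L.R v) a : (L.R v)ˣ) : L.R v) * s v +
      L.loc v (-(t * b)) * d' v = (c0 v : L.R v) * r + 0 * u' := by
    have : (c0 v : L.R v) * (((c0 v)⁻¹ : (L.R v)ˣ) : L.R v) = 1 := Units.mul_inv _
    rw [hr, map_neg, map_mul]
    show L.loc v a * s v + _ = _
    linear_combination (-(L.loc v a * s v - L.loc v t * (L.loc v b * d' v))) * this
  rw [h1, h2, h3]
  rfl


omit [NumberField F] in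
theorem map_slO_mem (v : ι) (g : SpecialLinearGroup (Fin 2) (𝓞 F)) :
    GeneralLinearGroup.map (L.loc v) (slO F g) ∈ GLO (L.O v) := by
  have key : ∀ g : SpecialLinearGroup (Fin 2) (𝓞 F), ∀ i j,
      (GeneralLinearGroup.map (L.loc v) (slO F g)) i j ∈ L.O v := by
    intro g i j
    show L.loc v ((g i j : 𝓞 F) : F) ∈ L.O v
    exact (L.isIntegral_iff _).mp (g i j).2 v
  refine ⟨key g, fun i j => ?_⟩
  rw [← map_inv, ← map_inv]
  exact key g⁻¹ i j

omit [NumberField F] in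
/-- denominators of matrices, uniformly over a finite set of places -/
theorem finite_denom_mat (S : Finset ι) (h : ∀ v, Matrix (Fin 2) (Fin 2) (L.R v)) :
    ∃ N : ℕ, N ≠ 0 ∧ ∀ v ∈ S, ∀ i j, (N : L.R v) * h v i j ∈ L.O v := by
  classical
  choose M hM hM' using fun p : Fin 2 × Fin 2 => L.finite_denom S (fun v => h v p.1 p.2)
  refine ⟨∏ p, M p, Finset.prod_ne_zero_iff.mpr fun p _ => hM p, fun v hv i j => ?_⟩
  rw [← Finset.mul_prod_erase Finset.univ M (Finset.mem_univ (i, j))]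
  push_cast
  rw [mul_comm (M (i, j) : L.R v), mul_assoc]
  refine (L.O v).mul_mem ?_ (hM' (i, j) v hv)
  rw [← Nat.cast_prod]
  exact natCast_mem _ _

omit [NumberField F] in
/-- **(D2) congruence subgroups in the stabilisers.** -/
theorem exists_level (U : L.Level) (d : D U) : ∃ N : ℕ, N ≠ 0 ∧
    ∀ g : SpecialLinearGroup (Fin 2) (𝓞 F),
      (∀ i j, (N : 𝓞 F) ∣ g i j - (1 : Matrix (Fin 2) (Fin 2) (𝓞 F)) i j) → slO F g • d = d := by
  classical
  obtain ⟨ga, rfl, hga⟩ := D.exists_eq_smul_base d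
  have hev : ∀ᶠ v in cofinite, ga.1 v = 1 ∧ U.U v = PO (L.O v) := by
    filter_upwards [(ga • D.base U).2, U.eventually_eq] with v hv h2 using ⟨hga v hv, h2⟩
  obtain ⟨S, hS⟩ := exists_finset_compl hev
  choose h hh using fun v => ProjGenLinGroup.mk_surjective (ga.1 v)
  choose N hN hNU using U.deep
  obtain ⟨M₁, hM₁, hM₁'⟩ := finite_denom_mat (L := L) S (fun v => ((h v : GL (Fin 2) (L.R v)) :
    Matrix (Fin 2) (Fin 2) (L.R v)))
  obtain ⟨M₂, hM₂, hM₂'⟩ := finite_denom_mat (L := L) S (fun v => (((h v)⁻¹ : GL (Fin 2) (L.R v)) :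
    Matrix (Fin 2) (Fin 2) (L.R v)))
  refine ⟨(∏ v ∈ S, N v) * (M₁ * M₂), mul_ne_zero (Finset.prod_ne_zero_iff.mpr fun v _ => hN v)
    (mul_ne_zero hM₁ hM₂), fun g hg => ?_⟩
  apply D.ext
  intro v
  rw [smul_apply, GA_smul_apply, emb_eq]
  by_cases hv : v ∈ S
  · -- conjugate
    have hdvd : ∀ g : SpecialLinearGroup (Fin 2) (𝓞 F),
        (∀ i j, (((∏ v ∈ S, N v) * (M₁ * M₂) : ℕ) : 𝓞 F) ∣ g i j - (1 : Matrix (Fin 2) (Fin 2) (𝓞 F)) i j) →
        ∀ i j, (((h v)⁻¹ * GeneralLinearGroup.map (L.loc v) (slO F g) * h v :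
          GL (Fin 2) (L.R v)) : Matrix (Fin 2) (Fin 2) (L.R v)) i j -
          (1 : Matrix (Fin 2) (Fin 2) (L.R v)) i j ∈ NO (L.O v) (N v) := by
      intro g hg i j
      have e1 : (((h v)⁻¹ * GeneralLinearGroup.map (L.loc v) (slO F g) * h v :
          GL (Fin 2) (L.R v)) : Matrix (Fin 2) (Fin 2) (L.R v)) - 1 =
          (((h v)⁻¹ : GL (Fin 2) (L.R v)) : Matrix (Fin 2) (Fin 2) (L.R v)) *
          (((GeneralLinearGroup.map (L.loc v) (slO F g) : GL (Fin 2) (L.R v)) :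
            Matrix (Fin 2) (Fin 2) (L.R v)) - 1) * (h v : Matrix (Fin 2) (Fin 2) (L.R v)) := by
        rw [mul_sub, sub_mul, mul_one, ← Units.val_mul, ← Units.val_mul, ← Units.val_mul,
          inv_mul_cancel, Units.val_one]
      rw [← Matrix.sub_apply, e1, Matrix.mul_apply]
      refine sum_mem fun k _ => ?_
      rw [Matrix.mul_apply, Finset.sum_mul]
      refine sum_mem fun l _ => ?_
      obtain ⟨c, hc⟩ := hg l k
      have e2 : ((GeneralLinearGroup.map (L.loc v) (slO F g) : GL (Fin 2) (L.R v)) :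
            Matrix (Fin 2) (Fin 2) (L.R v)) l k - (1 : Matrix (Fin 2) (Fin 2) (L.R v)) l k =
          (((∏ v ∈ S, N v) * (M₁ * M₂) : ℕ) : L.R v) * L.loc v (c : F) := by
        have h1 : ((GeneralLinearGroup.map (L.loc v) (slO F g) : GL (Fin 2) (L.R v)) :
            Matrix (Fin 2) (Fin 2) (L.R v)) l k = L.loc v ((g l k : 𝓞 F) : F) := rfl
        have h2 : (1 : Matrix (Fin 2) (Fin 2) (L.R v)) l k =
            L.loc v (((1 : Matrix (Fin 2) (Fin 2) (𝓞 F)) l k : 𝓞 F) : F) := by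
          rw [Matrix.one_apply, Matrix.one_apply]; split_ifs <;> simp
        rw [h1, h2, ← map_sub, ← map_sub, hc, map_mul, map_mul]
        simp
      rw [Matrix.sub_apply, e2, ← Finset.mul_prod_erase S N hv]
      refine ⟨((M₂ : L.R v) * ((h v)⁻¹ : GL (Fin 2) (L.R v)) i l) *
        ((M₁ : L.R v) * (h v : GL (Fin 2) (L.R v)) k j) *
        (((∏ x ∈ S.erase v, N x : ℕ) : L.R v) * L.loc v (c : F)), ?_, ?_⟩
      · exact (L.O v).mul_mem ((L.O v).mul_mem (hM₂' v hv i l) (hM₁' v hv k j))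
          ((L.O v).mul_mem (natCast_mem _ _) ((L.isIntegral_iff _).mp c.2 v))
      · push_cast
        ring
    have hmem : (h v)⁻¹ * GeneralLinearGroup.map (L.loc v) (slO F g) * h v ∈ KN (L.O v) (N v) := by
      have hO : ∀ {x : L.R v} {i j : Fin 2}, x - (1 : Matrix (Fin 2) (Fin 2) (L.R v)) i j ∈
          NO (L.O v) (N v) → x ∈ L.O v := by
        intro x i j hx
        have h1 := NO_le _ _ hx
        have h2 : (1 : Matrix (Fin 2) (Fin 2) (L.R v)) i j ∈ L.O v := by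
          rw [Matrix.one_apply]; split_ifs; exacts [(L.O v).one_mem, (L.O v).zero_mem]
        have := (L.O v).add_mem h1 h2
        rwa [sub_add_cancel] at this
      refine ⟨⟨fun i j => hO (hdvd g hg i j), fun i j => ?_⟩, hdvd g hg⟩
      have e3 : ((h v)⁻¹ * GeneralLinearGroup.map (L.loc v) (slO F g) * h v)⁻¹ =
          (h v)⁻¹ * GeneralLinearGroup.map (L.loc v) (slO F g⁻¹) * h v := by
        rw [map_inv, map_inv]; group
      rw [e3]
      refine hO (hdvd g⁻¹ (fun i j => ?_) i j)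
      have h0 := hg 0 0
      have h1 := hg 0 1
      have h2 := hg 1 0
      have h3 := hg 1 1
      have e5 : ∀ i j, ((g⁻¹ : SpecialLinearGroup (Fin 2) (𝓞 F)) :
          Matrix (Fin 2) (Fin 2) (𝓞 F)) i j = (!![g 1 1, -g 0 1; -g 1 0, g 0 0]) i j := by
        intro i j
        show Matrix.adjugate (g : Matrix (Fin 2) (Fin 2) (𝓞 F)) i j = _
        rw [Matrix.adjugate_fin_two]
      rw [e5]
      simp only [Matrix.one_apply_eq, ne_eq, Fin.isValue, zero_ne_one, not_false_eq_true,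
        Matrix.one_apply_ne, one_ne_zero, sub_zero] at h0 h1 h2 h3
      fin_cases i <;> fin_cases j <;>
        simp only [Fin.zero_eta, Fin.mk_one, Fin.isValue, Matrix.of_apply, Matrix.cons_val',
        Matrix.cons_val_zero, Matrix.cons_val_one, Matrix.cons_val_fin_one, Matrix.one_apply_eq,
        ne_eq, zero_ne_one, not_false_eq_true, Matrix.one_apply_ne, one_ne_zero, sub_zero]
      · exact h3
      · exact (dvd_neg).mpr h1
      · exact (dvd_neg).mpr h2
      · exact h0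
    rw [← hh v, ← mul_smul, ← map_mul]
    have e4 : GeneralLinearGroup.map (L.loc v) (slO F g) * h v =
        h v * ((h v)⁻¹ * GeneralLinearGroup.map (L.loc v) (slO F g) * h v) := by group
    rw [e4, map_mul, mul_smul]
    congr 1
    exact smul_base (hNU v (mk_mem_PK hmem))
  · obtain ⟨h1, h2⟩ := hS v hv
    rw [h1, one_smul]
    exact smul_base (by rw [h2]; exact mk_mem_PO (map_slO_mem v g))

theorem one_le_abs_norm {x : F} (hx : x ≠ 0) (hi : IsIntegral ℤ x) : 1 ≤ |Algebra.norm ℚ x| := by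
  obtain ⟨y, rfl⟩ : ∃ y : 𝓞 F, (y : F) = x := ⟨⟨x, hi⟩, rfl⟩
  have h2 : Algebra.norm ℤ y ≠ 0 := by
    rw [Algebra.norm_ne_zero_iff]
    rintro rfl
    exact hx (by simp)
  rw [← Algebra.coe_norm_int, ← Int.cast_abs]
  exact_mod_cast Int.one_le_abs h2

/-- **(D3) bounded denominators in the stabilisers.** -/
theorem exists_bdd (U : L.Level) (d : D U) : ∃ N : ℕ, ∀ g : GL (Fin 2) F, g • d = d →
    Sp.BddDen N g := by
  classical
  obtain ⟨ga, rfl, hga⟩ := D.exists_eq_smul_base d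
  obtain ⟨C, hC, hC'⟩ := L.idele_finite F
  have hev : ∀ᶠ v in cofinite, ga.1 v = 1 := by
    filter_upwards [(ga • D.base U).2] with v hv using hga v hv
  obtain ⟨S₁, hS₁⟩ := exists_finset_compl hev
  -- lifts, trivial outside S₁
  have hlift : ∀ v, ∃ h : GL (Fin 2) (L.R v), ProjGenLinGroup.mk h = ga.1 v ∧
      (ga.1 v = 1 → h = 1) := by
    intro v
    by_cases h1 : ga.1 v = 1
    · exact ⟨1, by rw [h1, map_one], fun _ => rfl⟩
    · obtain ⟨h, hh⟩ := ProjGenLinGroup.mk_surjective (ga.1 v)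
      exact ⟨h, hh, fun h' => absurd h' h1⟩
  choose h hh hone using hlift
  -- uniform denominators
  have hden : ∀ c : C, ∃ N : ℕ, N ≠ 0 ∧ ∀ v, ((N : L.R v) * ((c.1 v : (L.R v)ˣ) : L.R v) ∈ L.O v ∧
      (N : L.R v) * (((c.1 v)⁻¹ : (L.R v)ˣ) : L.R v) ∈ L.O v) ∧
      (∀ i j, (N : L.R v) * (h v) i j ∈ L.O v) ∧ ∀ i j, (N : L.R v) * ((h v)⁻¹ : GL (Fin 2) (L.R v)) i j ∈ L.O v := by
    intro c
    set S : Finset ι := S₁ ∪ (hC c.1 c.2).toFinset with hS
    obtain ⟨N₁, hN₁, h1⟩ := L.finite_denom S (fun v => ((c.1 v : (L.R v)ˣ) : L.R v))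
    obtain ⟨N₂, hN₂, h2⟩ := L.finite_denom S (fun v => (((c.1 v)⁻¹ : (L.R v)ˣ) : L.R v))
    obtain ⟨N₃, hN₃, h3⟩ := finite_denom_mat (L := L) S (fun v => ((h v : GL (Fin 2) (L.R v)) :
      Matrix (Fin 2) (Fin 2) (L.R v)))
    obtain ⟨N₄, hN₄, h4⟩ := finite_denom_mat (L := L) S
      (fun v => (((h v)⁻¹ : GL (Fin 2) (L.R v)) : Matrix (Fin 2) (Fin 2) (L.R v)))
    have hmul : ∀ v (x : L.R v) (a b : ℕ), (a : L.R v) * x ∈ L.O v →
        ((a * b : ℕ) : L.R v) * x ∈ L.O v := by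
      intro v x a b hx
      push_cast
      rw [mul_comm (a : L.R v), mul_assoc]
      exact (L.O v).mul_mem (natCast_mem _ _) hx
    have hmul1 : ∀ v (x : L.R v) (a : ℕ), x ∈ L.O v → (a : L.R v) * x ∈ L.O v :=
      fun v x a hx => (L.O v).mul_mem (natCast_mem _ _) hx
    refine ⟨N₁ * N₂ * N₃ * N₄, mul_ne_zero (mul_ne_zero (mul_ne_zero hN₁ hN₂) hN₃) hN₄,
      fun v => ?_⟩
    by_cases hv : v ∈ S
    · refine ⟨⟨?_, ?_⟩, fun i j => ?_, fun i j => ?_⟩
      · rw [mul_assoc, mul_assoc]; exact hmul _ _ _ _ (h1 v hv)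
      · rw [mul_comm N₁, mul_assoc, mul_assoc]; exact hmul _ _ _ _ (h2 v hv)
      · rw [mul_comm (N₁ * N₂), mul_assoc]; exact hmul _ _ _ _ (h3 v hv i j)
      · rw [mul_comm (N₁ * N₂ * N₃)]; exact hmul _ _ _ _ (h4 v hv i j)
    · rw [hS, Finset.mem_union, not_or] at hv
      have e1 : h v = 1 := hone v (hS₁ v hv.1)
      have e2 : c.1 v = 1 := by
        by_contra h'; exact hv.2 ((Set.Finite.mem_toFinset _).mpr h')
      rw [e1, e2]
      refine ⟨⟨?_, ?_⟩, fun i j => ?_, fun i j => ?_⟩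
      · exact hmul1 _ _ _ (by simp [(L.O v).one_mem])
      · exact hmul1 _ _ _ (by simp [(L.O v).one_mem])
      · exact hmul1 _ _ _ (by
          rw [Units.val_one, Matrix.one_apply]; split_ifs; exacts [(L.O v).one_mem, (L.O v).zero_mem])
      · exact hmul1 _ _ _ (by
          rw [inv_one, Units.val_one, Matrix.one_apply]
          split_ifs; exacts [(L.O v).one_mem, (L.O v).zero_mem])
  choose M hM hM' using hden
  set P : ℕ := ∏ c, M c with hP
  have hP0 : P ≠ 0 := Finset.prod_ne_zero_iff.mpr fun c _ => hM c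
  have hP1 : 1 ≤ P := Nat.one_le_iff_ne_zero.mpr hP0
  set n : ℕ := Module.finrank ℚ F with hn
  refine ⟨(P * P * P) * (P * P) ^ n, fun g hg => ?_⟩
  -- local information
  have hloc : ∀ v, ∃ z : (L.R v)ˣ,
      sc z * ((h v)⁻¹ * GeneralLinearGroup.map (L.loc v) g * h v) ∈ GLO (L.O v) := by
    intro v
    have h1 : (g • ga • D.base U) v = (ga • D.base U) v := by rw [hg]
    rw [smul_apply, GA_smul_apply, ← hh v, emb_eq, ← mul_smul, ← map_mul] at h1
    change _ = (ProjGenLinGroup.mk (h v) : L.G v) • X.base U v at h1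
    rw [← inv_smul_eq_iff, ← mul_smul, ← map_inv, ← map_mul] at h1
    have h2 := smul_base_iff.mp h1
    have h3 := U.le v h2
    rw [← mul_assoc] at h3
    exact mk_mem_PO_iff.mp h3
  choose z hz using hloc
  have hzev : ∀ᶠ v in cofinite, z v ∈ OU (L.O v) := by
    filter_upwards [hev, L.eventually_map_mem g] with v h1 h2
    have h3 := hz v
    rw [hone v h1, inv_one, one_mul, mul_one] at h3
    exact OU_of_sc_mul h2 h3
  obtain ⟨a, c, hc, hac⟩ := hC' z hzev
  have hMP : M ⟨c, hc⟩ ∣ P := Finset.dvd_prod_of_mem _ (Finset.mem_univ _)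
  obtain ⟨Q, hQ⟩ := hMP
  have hup : ∀ v (x : L.R v), (M ⟨c, hc⟩ : L.R v) * x ∈ L.O v → (P : L.R v) * x ∈ L.O v := by
    intro v x hx
    rw [hQ]
    push_cast
    rw [mul_comm (M ⟨c, hc⟩ : L.R v), mul_assoc]
    exact (L.O v).mul_mem (natCast_mem _ _) hx
  -- the key identity: a⁻¹ g = c⁻¹ h k h⁻¹
  have hkey : ∀ v, ∃ k ∈ GLO (L.O v), GeneralLinearGroup.map (L.loc v) g =
      sc (L.un v a * (c v)⁻¹) * (h v * k * (h v)⁻¹) := by
    intro v
    refine ⟨sc (L.un v a * z v * (c v)⁻¹)⁻¹ *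
      (sc (z v) * ((h v)⁻¹ * GeneralLinearGroup.map (L.loc v) g * h v)), ?_, ?_⟩
    · refine mul_mem ?_ (hz v)
      have := inv_mem (hac v)
      refine ⟨fun i j => ?_, fun i j => ?_⟩
      · rw [sc_coe, Matrix.smul_apply, smul_eq_mul, Matrix.one_apply]
        refine (L.O v).mul_mem this.1 ?_
        split_ifs; exacts [(L.O v).one_mem, (L.O v).zero_mem]
      · rw [← map_inv, sc_coe, Matrix.smul_apply, smul_eq_mul, Matrix.one_apply]
        refine (L.O v).mul_mem this.2 ?_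
        split_ifs; exacts [(L.O v).one_mem, (L.O v).zero_mem]
    · have e1 : h v * (sc (L.un v a * z v * (c v)⁻¹)⁻¹ * (sc (z v) * ((h v)⁻¹ *
          GeneralLinearGroup.map (L.loc v) g * h v))) * (h v)⁻¹ =
          sc ((L.un v a * z v * (c v)⁻¹)⁻¹ * z v) * GeneralLinearGroup.map (L.loc v) g := by
        rw [← mul_assoc (sc _) (sc _), ← map_mul, ← mul_assoc, ← sc_comm]
        group
      rw [e1, ← mul_assoc, ← map_mul]
      have e2 : L.un v a * (c v)⁻¹ * ((L.un v a * z v * (c v)⁻¹)⁻¹ * z v) = 1 := by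
        simp only [_root_.mul_inv_rev, inv_inv]
        have : L.un v a * (c v)⁻¹ * (c v * ((z v)⁻¹ * (L.un v a)⁻¹) * z v) =
          ((L.un v a) * (L.un v a)⁻¹) * ((c v)⁻¹ * c v) * ((z v)⁻¹ * z v) := by
          rw [mul_comm ((z v)⁻¹) ((L.un v a)⁻¹)]
          simp only [mul_assoc, mul_left_comm]
        rw [this]; simp
      rw [e2, map_one, one_mul]
  set b : F := ((a⁻¹ : Fˣ) : F) with hb
  have hb0 : b ≠ 0 := (a⁻¹).ne_zero
  have hloca : ∀ v, L.loc v b * ((L.un v a : (L.R v)ˣ) : L.R v) = 1 := by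
    intro v
    rw [un_coe, ← map_mul, hb, Units.inv_mul, map_one]
  have hcP : ∀ v, (P : L.R v) * ((c v : (L.R v)ˣ) : L.R v) ∈ L.O v :=
    fun v => hup v _ (hM' ⟨c, hc⟩ v).1.1
  have hcP' : ∀ v, (P : L.R v) * (((c v)⁻¹ : (L.R v)ˣ) : L.R v) ∈ L.O v :=
    fun v => hup v _ (hM' ⟨c, hc⟩ v).1.2
  have hhP : ∀ v i j, (P : L.R v) * (h v) i j ∈ L.O v :=
    fun v i j => hup v _ ((hM' ⟨c, hc⟩ v).2.1 i j)
  have hhP' : ∀ v i j, (P : L.R v) * ((h v)⁻¹ : GL (Fin 2) (L.R v)) i j ∈ L.O v :=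
    fun v i j => hup v _ ((hM' ⟨c, hc⟩ v).2.2 i j)
  have hnatint : ∀ (m : ℕ) (x : F), IsIntegral ℤ x → IsIntegral ℤ ((m : F) * x) := by
    intro m x hx
    exact IsIntegral.mul (by exact_mod_cast (isIntegral_algebraMap (R := ℤ) (A := F) (x := (m : ℤ)))) hx
  have hent : ∀ i j, IsIntegral ℤ (((P * P * P : ℕ) : F) * (b * g i j)) := by
    intro i j
    rw [L.isIntegral_iff]
    intro v
    obtain ⟨k, hk, e⟩ := hkey v
    have e1 : L.loc v (g i j) = ((L.un v a * (c v)⁻¹ : (L.R v)ˣ) : L.R v) *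
        (h v * k * (h v)⁻¹ : GL (Fin 2) (L.R v)) i j := by
      rw [← sc_mul_apply, ← e]; rfl
    rw [map_mul, map_mul, e1]
    have e2 : (h v * k * (h v)⁻¹ : GL (Fin 2) (L.R v)) i j =
        ∑ l, (∑ m, (h v) i m * k m l) * ((h v)⁻¹ : GL (Fin 2) (L.R v)) l j := by
      rw [Units.val_mul, Units.val_mul, Matrix.mul_apply]
      simp_rw [Matrix.mul_apply]
    rw [e2]
    have e3 : L.loc v (((P * P * P : ℕ) : F)) * (L.loc v b * (((L.un v a * (c v)⁻¹ : (L.R v)ˣ) :
        L.R v) * ∑ l, (∑ m, (h v) i m * k m l) * ((h v)⁻¹ : GL (Fin 2) (L.R v)) l j)) =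
        ((P : L.R v) * (((c v)⁻¹ : (L.R v)ˣ) : L.R v)) *
        ∑ l, (∑ m, ((P : L.R v) * (h v) i m) * k m l) *
          ((P : L.R v) * ((h v)⁻¹ : GL (Fin 2) (L.R v)) l j) := by
      have hl := hloca v
      generalize ((h v)⁻¹ : GL (Fin 2) (L.R v)) = hi
      simp only [Fin.sum_univ_two]
      push_cast
      rw [map_mul, map_mul, map_natCast]
      linear_combination ((P : L.R v) * P * P * (((c v)⁻¹ : (L.R v)ˣ) : L.R v) *
        (((h v) i 0 * k 0 0 + (h v) i 1 * k 1 0) * hi 0 j +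
        ((h v) i 0 * k 0 1 + (h v) i 1 * k 1 1) * hi 1 j)) * hl
    rw [e3]
    exact (L.O v).mul_mem (hcP' v) ((L.O v).sum_mem fun l _ => (L.O v).mul_mem
      ((L.O v).sum_mem fun m _ => (L.O v).mul_mem (hhP v i m) (hk.1 m l)) (hhP' v l j))
  set δ : F := b ^ 2 * (g : Matrix (Fin 2) (Fin 2) F).det with hδ
  have hdet0 : (g : Matrix (Fin 2) (Fin 2) F).det ≠ 0 := (GeneralLinearGroup.det g).ne_zero
  have hδ0 : δ ≠ 0 := mul_ne_zero (pow_ne_zero 2 hb0) hdet0
  have hdet : ∀ v, ∃ e : (L.R v)ˣ, e ∈ OU (L.O v) ∧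
      L.loc v δ = ((((c v)⁻¹ * (c v)⁻¹ * e : (L.R v)ˣ)) : L.R v) := by
    intro v
    obtain ⟨k, hk, e⟩ := hkey v
    refine ⟨GeneralLinearGroup.det k, ⟨?_, ?_⟩, ?_⟩
    · show (k : Matrix (Fin 2) (Fin 2) (L.R v)).det ∈ L.O v
      rw [Matrix.det_fin_two]
      exact (L.O v).sub_mem ((L.O v).mul_mem (hk.1 _ _) (hk.1 _ _))
        ((L.O v).mul_mem (hk.1 _ _) (hk.1 _ _))
    · exact (mem_GLO_iff.mp hk).2
    · have e1 : GeneralLinearGroup.det (GeneralLinearGroup.map (L.loc v) g) =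
          (L.un v a * (c v)⁻¹) * (L.un v a * (c v)⁻¹) * GeneralLinearGroup.det k := by
        have e5 : GeneralLinearGroup.det (sc (L.un v a * (c v)⁻¹)) =
            (L.un v a * (c v)⁻¹) * (L.un v a * (c v)⁻¹) := by
          apply Units.ext
          show ((sc (L.un v a * (c v)⁻¹) : GL (Fin 2) (L.R v)) :
            Matrix (Fin 2) (Fin 2) (L.R v)).det = _
          rw [sc_coe, Matrix.det_smul, Matrix.det_one, mul_one, Fintype.card_fin, pow_two]
          exact (Units.val_mul _ _).symm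
        rw [e, GeneralLinearGroup.det.map_mul, e5, GeneralLinearGroup.det.map_mul,
          GeneralLinearGroup.det.map_mul, map_inv]
        congr 1
        rw [mul_comm (GeneralLinearGroup.det (h v)), mul_inv_cancel_right]
      have e2 : L.loc v (g : Matrix (Fin 2) (Fin 2) F).det =
          ((GeneralLinearGroup.det (GeneralLinearGroup.map (L.loc v) g) : (L.R v)ˣ) : L.R v) := by
        show _ = ((GeneralLinearGroup.map (L.loc v) g : GL (Fin 2) (L.R v)) :
          Matrix (Fin 2) (Fin 2) (L.R v)).det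
        rw [Matrix.det_fin_two, Matrix.det_fin_two, map_sub, map_mul, map_mul]
        rfl
      rw [hδ, map_mul, map_pow, e2, e1]
      push_cast
      have := hloca v
      linear_combination ((((c v)⁻¹ : (L.R v)ˣ) : L.R v) ^ 2 *
        ((GeneralLinearGroup.det k : (L.R v)ˣ) : L.R v)) *
        (L.loc v b * ((L.un v a : (L.R v)ˣ) : L.R v) + 1) * this
  have hint1 : IsIntegral ℤ (((P * P : ℕ) : F) * δ) := by
    rw [L.isIntegral_iff]
    intro v
    obtain ⟨e, he, h1⟩ := hdet v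
    rw [map_mul, h1]
    have : L.loc v ((P * P : ℕ) : F) * ((((c v)⁻¹ * (c v)⁻¹ * e : (L.R v)ˣ)) : L.R v) =
        ((P : L.R v) * (((c v)⁻¹ : (L.R v)ˣ) : L.R v)) *
        ((P : L.R v) * (((c v)⁻¹ : (L.R v)ˣ) : L.R v)) * e := by
      rw [map_natCast]; push_cast; ring
    rw [this]
    exact (L.O v).mul_mem ((L.O v).mul_mem (hcP' v) (hcP' v)) he.1
  have hint2 : IsIntegral ℤ (((P * P : ℕ) : F) * δ⁻¹) := by
    rw [L.isIntegral_iff]
    intro v
    obtain ⟨e, he, h1⟩ := hdet v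
    have h2 : L.loc v δ⁻¹ = (((c v * c v * e⁻¹ : (L.R v)ˣ)) : L.R v) := by
      have h3 : L.loc v δ * L.loc v δ⁻¹ = 1 := by rw [← map_mul, mul_inv_cancel₀ hδ0, map_one]
      rw [h1] at h3
      have h4 : (((c v * c v * e⁻¹ : (L.R v)ˣ)) : L.R v) *
          ((((c v)⁻¹ * (c v)⁻¹ * e : (L.R v)ˣ)) : L.R v) = 1 := by
        rw [← Units.val_mul]
        have : c v * c v * e⁻¹ * ((c v)⁻¹ * (c v)⁻¹ * e) = 1 := by
          have h5 : c v * c v * e⁻¹ * ((c v)⁻¹ * (c v)⁻¹ * e) =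
            (c v * (c v)⁻¹) * (c v * (c v)⁻¹) * (e⁻¹ * e) := by
            simp only [mul_assoc, mul_left_comm]
          rw [h5]; simp
        rw [this, Units.val_one]
      calc L.loc v δ⁻¹ = 1 * L.loc v δ⁻¹ := (one_mul _).symm
        _ = _ := by rw [← h4, mul_assoc, h3, mul_one]
    rw [map_mul, h2]
    have : L.loc v ((P * P : ℕ) : F) * (((c v * c v * e⁻¹ : (L.R v)ˣ)) : L.R v) =
        ((P : L.R v) * ((c v : (L.R v)ˣ) : L.R v)) *
        ((P : L.R v) * ((c v : (L.R v)ˣ) : L.R v)) * ((e⁻¹ : (L.R v)ˣ) : L.R v) := by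
      rw [map_natCast]; push_cast; ring
    rw [this]
    exact (L.O v).mul_mem ((L.O v).mul_mem (hcP v) (hcP v)) he.2
  have hPF : ((P * P : ℕ) : F) ≠ 0 := by exact_mod_cast mul_ne_zero hP0 hP0
  have hnorm : ∀ x : F, Algebra.norm ℚ (((P * P : ℕ) : F) * x) =
      ((P * P : ℕ) : ℚ) ^ n * Algebra.norm ℚ x := by
    intro x
    rw [map_mul]
    congr 1
    have : ((P * P : ℕ) : F) = algebraMap ℚ F ((P * P : ℕ) : ℚ) := by simp
    rw [this, Algebra.norm_algebraMap]
  have hn1 := one_le_abs_norm (mul_ne_zero hPF hδ0) hint1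
  have hn2 := one_le_abs_norm (mul_ne_zero hPF (inv_ne_zero hδ0)) hint2
  rw [hnorm, abs_mul, abs_of_nonneg (by positivity)] at hn1 hn2
  have hni : Algebra.norm ℚ δ⁻¹ = (Algebra.norm ℚ δ)⁻¹ := by
    apply eq_inv_of_mul_eq_one_left
    rw [← map_mul, inv_mul_cancel₀ hδ0, map_one]
  rw [hni, abs_inv] at hn2
  have hpos : 0 < |Algebra.norm ℚ δ| := abs_pos.mpr (by rw [ne_eq, Algebra.norm_eq_zero_iff]; exact hδ0)
  have hbig : ((P * P : ℕ) : ℚ) ^ n ≤ (((P * P * P) * (P * P) ^ n : ℕ) : ℚ) := by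
    have : (P * P) ^ n ≤ (P * P * P) * (P * P) ^ n :=
      Nat.le_mul_of_pos_left _ (Nat.pos_of_ne_zero (by positivity))
    exact_mod_cast this
  refine ⟨b, hb0, fun i j => ?_, ?_, ?_⟩
  · have := hnatint ((P * P) ^ n) _ (hent i j)
    convert this using 1
    push_cast
    ring
  · refine le_trans ?_ hbig
    have := mul_le_mul_of_nonneg_right hn2 hpos.le
    rw [one_mul, mul_assoc, inv_mul_cancel₀ hpos.ne', mul_one] at this
    exact this
  · exact hn1.trans (mul_le_mul_of_nonneg_right hbig hpos.le)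

instance instFinPart (U : L.Level) : Sp.FinPart F (D U) where
  scalar_smul := scalar_smul_D
  exists_reps := exists_reps U
  exists_level := exists_level U
  exists_bdd := exists_bdd U

end LocFam

end Fermat.Agent.LT.Glob
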