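import Fermat.Agent.LT.Glob.Def
import Fermat.Agent.LT.Sp.Theta

set_option autoImplicit false

/-!
# The twist of `∏ H³ × D` defined by an automorphism of order three
-/

namespace Fermat.Agent.LT.Glob

open Matrix Filter
open scoped MatrixGroups

namespace LocFam.Auto

universe w u i

variable {F : Type u} [Field F] {ι : Type i} {L : LocFam.{w} F ι} {U : L.Level}

/-- `A³ = 1` -/
def IsCubic (A : Auto L) : Prop :=
  (∀ a, A.θ (A.θ (A.θ a)) = a) ∧ ∀ v x, A.s v (A.s v (A.s v x)) = x

variable {A : Auto L}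

theorem IsCubic.g_g_g (hA : A.IsCubic) (v : ι) (γ : L.G v) : A.g v (A.g v (A.g v γ)) = γ := by
  induction γ using ProjGenLinGroup.induction_on with
  | mk γ =>
    rw [g, ProjGenLinGroup.map_mk, ProjGenLinGroup.map_mk, ProjGenLinGroup.map_mk]
    congr 1
    ext i j
    exact hA.2 v _

theorem IsCubic.xmap (hA : A.IsCubic) (h : A.Pres U) (v : ι) (x : X U v) :
    Auto.xmap h v (Auto.xmap h v (Auto.xmap h v x)) = x := by
  induction x using QuotientGroup.induction_on with
  | H x => rw [xmap_mk, xmap_mk, xmap_mk, hA.g_g_g]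

theorem IsCubic.dmap (hA : A.IsCubic) (h : A.Pres U) (x : D U) :
    Auto.dmap h (Auto.dmap h (Auto.dmap h x)) = x :=
  D.ext fun v => hA.xmap h v (x v)

/-- the permutation of `D` -/
def dequiv (hA : A.IsCubic) (h : A.Pres U) : D U ≃ D U where
  toFun := Auto.dmap h
  invFun x := Auto.dmap h (Auto.dmap h x)
  left_inv := hA.dmap h
  right_inv := hA.dmap h

/-- the twist -/
def twist (hA : A.IsCubic) (h : A.Pres U) : Sp.Twist F (D U) where
  θ := A.θ
  dm := dequiv hA h
  dm_smul := Auto.dmap_smul h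

@[simp] theorem twist_θ (hA : A.IsCubic) (h : A.Pres U) : (twist hA h).θ = A.θ := rfl

@[simp] theorem twist_dm (hA : A.IsCubic) (h : A.Pres U) (x : D U) :
    (twist hA h).dm x = Auto.dmap h x := rfl

theorem isCubic_twist (hA : A.IsCubic) (h : A.Pres U) : (twist hA h).IsCubic :=
  ⟨hA.1, hA.dmap h⟩

end LocFam.Auto

end Fermat.Agent.LT.Glob
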