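import Fermat.Agent.LT.Glob.Hk
import Fermat.Agent.LT.Glob.Fin
import Fermat.Agent.LT.Glob.Twist
import Fermat.Agent.LT.Sp.DKer
import Fermat.Agent.LT.Loc.Prod

set_option autoImplicit false

/-!
# Factorizable kernels on the restricted product `D`
-/

namespace Fermat.Agent.LT.Glob

open Matrix Filter NumberField
open scoped MatrixGroups
open Fermat.Agent.LT.Loc

namespace LocFam

universe w u i

variable {F : Type u} [Field F] {ι : Type i} {L : LocFam.{w} F ι} {U : L.Level}

/-! ### sums over `D` of products -/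

/-- extension of a finite family by the base points -/
noncomputable def D.ofFin (S : Finset ι) (z : ∀ v : S, X U v) : D U :=
  open Classical in
  ⟨fun v => if h : v ∈ S then z ⟨v, h⟩ else X.base U v, by
    refine Filter.eventually_cofinite.mpr (S.finite_toSet.subset fun v hv => ?_)
    by_contra h
    exact hv (dif_neg h)⟩

theorem D.ofFin_mem (S : Finset ι) (z : ∀ v : S, X U v) (v : S) : D.ofFin S z v = z v :=
  dif_pos v.2

theorem D.ofFin_not_mem (S : Finset ι) (z : ∀ v : S, X U v) {v : ι} (h : v ∉ S) :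
    D.ofFin S z v = X.base U v := dif_neg h

theorem D.ofFin_injective (S : Finset ι) : Function.Injective (D.ofFin (U := U) S) := by
  intro z z' h
  funext v
  rw [← D.ofFin_mem S z v, h, D.ofFin_mem]

theorem D.ofFin_restrict (S : Finset ι) (y : D U) (h : ∀ v ∉ S, y v = X.base U v) :
    D.ofFin S (fun v => y v) = y := by
  apply D.ext
  intro v
  by_cases hv : v ∈ S
  · exact D.ofFin_mem S _ ⟨v, hv⟩
  · rw [D.ofFin_not_mem S _ hv, h v hv]

/-- `D` is a restricted product -/
theorem D.isRProd : IsRProd (fun (x : D U) (v : ι) => x v) (X.base U) where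
  inj _ _ h := D.ext fun v => congrFun h v
  ev x := x.2
  surj x hx := ⟨⟨x, hx⟩, rfl⟩

theorem finite_mulSupport_of_kone (a : ∀ v, X U v → ℂ)
    (h1 : ∀ᶠ v in cofinite, a v = kone _ (X.base U v)) (y : D U) :
    (Function.mulSupport fun v => a v (y v)).Finite := by
  have : ∀ᶠ v in cofinite, a v (y v) = 1 := by
    filter_upwards [h1, y.2] with v h1 h2
    rw [h1, h2, kone_self]
  exact this

/-- **Fubini for products.** -/
theorem finsum_finprod (a : ∀ v, X U v → ℂ) (ha : ∀ v, {y | a v y ≠ 0}.Finite)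
    (h1 : ∀ᶠ v in cofinite, a v = kone _ (X.base U v)) :
    {y : D U | ∏ᶠ v, a v (y v) ≠ 0}.Finite ∧
      ∑ᶠ y : D U, ∏ᶠ v, a v (y v) = ∏ᶠ v, ∑ᶠ y, a v y := by
  classical
  obtain ⟨S, hS⟩ := exists_finset_compl h1
  have hbase : ∀ y : D U, ∏ᶠ v, a v (y v) ≠ 0 → ∀ v ∉ S, y v = X.base U v := by
    intro y hy v hv
    by_contra hne
    apply hy
    refine finprod_eq_zero _ v ?_ (finite_mulSupport_of_kone a h1 y)
    rw [hS v hv, kone_ne (Ne.symm hne)]
  have hne : ∀ y : D U, ∏ᶠ v, a v (y v) ≠ 0 → ∀ v, a v (y v) ≠ 0 := by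
    intro y hy v h0
    exact hy (finprod_eq_zero _ v h0 (finite_mulSupport_of_kone a h1 y))
  let t : ∀ v : S, Finset (X U v) := fun v => (ha v).toFinset
  let T : Finset (D U) := (Fintype.piFinset t).map ⟨D.ofFin S, D.ofFin_injective S⟩
  have hT : ∀ y : D U, ∏ᶠ v, a v (y v) ≠ 0 → y ∈ T := by
    intro y hy
    rw [Finset.mem_map]
    refine ⟨fun v => y v, ?_, D.ofFin_restrict S y (hbase y hy)⟩
    rw [Fintype.mem_piFinset]
    intro v
    rw [Set.Finite.mem_toFinset]
    exact hne y hy v
  have hprod : ∀ z : ∀ v : S, X U v, ∏ᶠ v, a v (D.ofFin S z v) = ∏ v : S, a v (z v) := by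
    intro z
    rw [finprod_eq_prod_of_mulSupport_subset (s := S), ← Finset.prod_coe_sort S]
    · exact Finset.prod_congr rfl fun v _ => by rw [D.ofFin_mem]
    · intro v hv
      by_contra h
      rw [Finset.mem_coe] at h
      apply hv
      change a v (D.ofFin S z v) = 1
      rw [hS v h, D.ofFin_not_mem S z h, kone_self]
  refine ⟨T.finite_toSet.subset hT, ?_⟩
  rw [finsum_eq_sum_of_support_subset _ (s := T) hT, Finset.sum_map,
    finprod_eq_prod_of_mulSupport_subset (s := S), ← Finset.prod_coe_sort S]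
  · have e1 : ∀ v : S, ∑ᶠ y, a v y = ∑ y ∈ t v, a v y := fun v =>
      finsum_eq_sum_of_support_subset _ fun y hy => by
        rw [Finset.mem_coe, Set.Finite.mem_toFinset]
        exact hy
    rw [Finset.prod_congr rfl fun v _ => e1 v, Finset.prod_univ_sum]
    exact Finset.sum_congr rfl fun z _ => hprod z
  · intro v hv
    by_contra h
    rw [Finset.mem_coe] at h
    apply hv
    change ∑ᶠ y, a v y = 1
    rw [hS v h, finsum_eq_single _ (X.base U v) fun y hy => kone_ne (Ne.symm hy), kone_self]

/-! ### factorizable functions -/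

variable (U) in
/-- **Factorizable elements of the global Hecke algebra**: local Hecke functions, almost all of
them the unit. -/
structure GFun where
  /-- the local functions -/
  h : ∀ v, Hk (U.U v)
  ev : ∀ᶠ v in cofinite, h v = 1

instance : CoeFun (GFun U) fun _ => ∀ v, Hk (U.U v) := ⟨GFun.h⟩

namespace GFun

theorem ext_h {φ ψ : GFun U} (h : φ.h = ψ.h) : φ = ψ := by
  cases φ; cases ψ; cases h; rfl

@[ext] theorem ext {φ ψ : GFun U} (h : ∀ v, φ v = ψ v) : φ = ψ := ext_h (funext h)

noncomputable instance : One (GFun U) := ⟨⟨fun _ => 1, Eventually.of_forall fun _ => rfl⟩⟩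

noncomputable instance : Mul (GFun U) := ⟨fun φ ψ => ⟨fun v => φ v * ψ v, by
  filter_upwards [φ.ev, ψ.ev] with v h1 h2
  rw [h1, h2, one_mul]⟩⟩

noncomputable instance : Monoid (GFun U) where
  mul_assoc a b c := ext_h (mul_assoc a.h b.h c.h)
  one_mul a := ext_h (one_mul a.h)
  mul_one a := ext_h (mul_one a.h)

theorem eventually_one (φ : GFun U) : ∀ᶠ v in cofinite, φ v = 1 := φ.ev

theorem mul_apply (φ ψ : GFun U) (v : ι) : (φ * ψ) v = φ v * ψ v := rfl

theorem one_apply (v : ι) : (1 : GFun U) v = 1 := rfl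

/-- the local functions -/
def f (φ : GFun U) (v : ι) : BiInv (U.U v) := (φ v).toBiInv

theorem fin (φ : GFun U) (v : ι) : (φ.f v).Fin := (φ v).fin

theorem f_mul (φ ψ : GFun U) (v : ι) : (φ * ψ).f v = (φ.f v).conv (ψ.f v) :=
  Hk.toBiInv_mul _ _

theorem f_one (v : ι) : (1 : GFun U).f v = BiInv.unit _ := Hk.toBiInv_one

theorem unit (φ : GFun U) : ∀ᶠ v in cofinite, φ.f v = BiInv.unit _ := by
  filter_upwards [φ.eventually_one] with v hv
  rw [f, hv, Hk.toBiInv_one]

theorem ext_f {φ ψ : GFun U} (h : ∀ v, φ.f v = ψ.f v) : φ = ψ :=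
  ext fun v => Hk.toBiInv_injective (h v)

/-- constructor from bi-invariant functions -/
def ofBi (f : ∀ v, BiInv (U.U v)) (fin : ∀ v, (f v).Fin)
    (unit : ∀ᶠ v in cofinite, f v = BiInv.unit _) : GFun U :=
  ⟨fun v => Hk.ofBi (f v) (fin v), by
    filter_upwards [unit] with v hv
    apply Hk.toBiInv_injective
    rw [Hk.toBiInv_one]
    exact hv⟩

@[simp] theorem ofBi_f (f : ∀ v, BiInv (U.U v)) (fin : ∀ v, (f v).Fin)
    (unit : ∀ᶠ v in cofinite, f v = BiInv.unit _) (v : ι) : (ofBi f fin unit).f v = f v := rfl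

/-- the global kernel -/
noncomputable def ker (φ : GFun U) : D U → D U → ℂ := fun x y => ∏ᶠ v, (φ v).ker (x v) (y v)

theorem ker_apply (φ : GFun U) (x y : D U) : φ.ker x y = ∏ᶠ v, (φ v).ker (x v) (y v) := rfl

theorem eventually_kone (φ : GFun U) (x : D U) :
    ∀ᶠ v in cofinite, (φ v).ker (x v) = kone _ (X.base U v) := by
  filter_upwards [φ.eventually_one, x.2] with v h1 h2
  rw [h1, h2, Hk.ker_one]

theorem finite_mulSupport (φ : GFun U) (x y : D U) :
    (Function.mulSupport fun v => (φ v).ker (x v) (y v)).Finite :=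
  finite_mulSupport_of_kone (fun v => (φ v).ker (x v)) (φ.eventually_kone x) y

theorem ker_ne_zero {φ : GFun U} {x y : D U} (h : φ.ker x y ≠ 0) (v : ι) :
    (φ v).ker (x v) (y v) ≠ 0 := fun h0 =>
  h (finprod_eq_zero _ v h0 (φ.finite_mulSupport x y))

theorem ker_eq_zero (φ : GFun U) {x y : D U} {v : ι} (h : (φ v).ker (x v) (y v) = 0) :
    φ.ker x y = 0 := finprod_eq_zero _ v h (φ.finite_mulSupport x y)

theorem ker_ne_zero_iff {φ : GFun U} {x y : D U} :
    φ.ker x y ≠ 0 ↔ ∀ v, (φ v).ker (x v) (y v) ≠ 0 := by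
  classical
  refine ⟨ker_ne_zero, fun h => ?_⟩
  rw [ker_apply, finprod_eq_prod _ (φ.finite_mulSupport x y)]
  exact Finset.prod_ne_zero_iff.mpr fun v _ => h v

theorem rowF (φ : GFun U) : RowF φ.ker := fun x =>
  (finsum_finprod (fun v => (φ v).ker (x v)) (fun v => (φ v).rowF (x v)) (φ.eventually_kone x)).1

theorem ker_one : (1 : GFun U).ker = kone _ := by
  funext x y
  by_cases h : x = y
  · rw [h, kone_self, ker_apply]
    exact finprod_eq_one_of_forall_eq_one fun v => by rw [one_apply, Hk.ker_one, kone_self]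
  · rw [kone_ne h]
    have : ∃ v, x v ≠ y v := by
      by_contra hcon
      push Not at hcon
      exact h (D.ext hcon)
    obtain ⟨v, hv⟩ := this
    exact ker_eq_zero _ (v := v) (by rw [one_apply, Hk.ker_one, kone_ne hv])

theorem ker_mul (φ ψ : GFun U) : (φ * ψ).ker = kcomp φ.ker ψ.ker := by
  funext x z
  have h := (finsum_finprod (fun v y => (φ v).ker (x v) y * (ψ v).ker y (z v)) (fun v =>
    ((φ v).rowF (x v)).subset fun y hy => left_ne_zero_of_mul hy) (by
      filter_upwards [φ.eventually_kone x, ψ.eventually_one, z.2] with v h1 h2 h3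
      funext y
      rw [h1, h2, h3, Hk.ker_one]
      by_cases hy : X.base U v = y
      · rw [← hy, kone_self, mul_one]
      · rw [kone_ne hy, zero_mul])).2
  rw [kcomp, ker_apply]
  refine Eq.trans ?_ (h.symm.trans ?_)
  · exact finprod_congr fun v => by rw [mul_apply, Hk.ker_mul, kcomp]
  · exact finsum_congr fun y => by
      rw [finprod_mul_distrib (φ.finite_mulSupport x y) (ψ.finite_mulSupport y z)]
      rfl

theorem ker_mul_apply (φ ψ : GFun U) (x z : D U) :
    (φ * ψ).ker x z = ∑ᶠ y, φ.ker x y * ψ.ker y z := by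
  rw [ker_mul, kcomp]

theorem norm_ker (φ : GFun U) (x y : D U) : ‖φ.ker x y‖ = ∏ᶠ v, ‖(φ v).ker (x v) (y v)‖ := by
  rw [ker_apply]
  exact MonoidHom.map_finprod (normHom : ℂ →*₀ ℝ).toMonoidHom (φ.finite_mulSupport x y)

/-- invariance -/
theorem ker_smul_GA (φ : GFun U) (g : L.GA) (x y : D U) : φ.ker (g • x) (g • y) = φ.ker x y :=
  finprod_congr fun v => by rw [GA_smul_apply, GA_smul_apply, Hk.ker_smul]

theorem ker_smul (φ : GFun U) (g : GL (Fin 2) F) (x y : D U) : φ.ker (g • x) (g • y) = φ.ker x y :=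
  φ.ker_smul_GA (L.diag g) x y

theorem commute_of (φ ψ : GFun U) (h : ∀ v, Commute (φ v) (ψ v)) : Commute φ ψ :=
  ext fun v => h v

theorem ker_comm {φ ψ : GFun U} (h : Commute φ ψ) : kcomp φ.ker ψ.ker = kcomp ψ.ker φ.ker := by
  rw [← ker_mul, h.eq, ker_mul]

/-! ### changing one place -/

section Update

open Classical in
/-- change the function at one place -/
noncomputable def update (φ : GFun U) (v : ι) (G : Hk (U.U v)) : GFun U :=
  ⟨Function.update φ.h v G, by
    filter_upwards [φ.ev, (Set.finite_singleton v).compl_mem_cofinite] with v' h1 h2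
    rw [Function.update_of_ne h2]
    exact h1⟩

@[simp] theorem update_self (φ : GFun U) (v : ι) (G : Hk (U.U v)) : φ.update v G v = G := by
  classical exact Function.update_self v G φ.h

theorem update_of_ne (φ : GFun U) {v v' : ι} (h : v' ≠ v) (G : Hk (U.U v)) :
    φ.update v G v' = φ v' := by classical exact Function.update_of_ne h _ _

@[simp] theorem update_eq_self (φ : GFun U) (v : ι) : φ.update v (φ v) = φ := by
  classical exact ext_h (Function.update_eq_self _ _)

theorem update_update (φ : GFun U) (v : ι) (G G' : Hk (U.U v)) :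
    (φ.update v G).update v G' = φ.update v G' := by
  classical exact ext_h (Function.update_idem _ _ _)

theorem update_comm (φ : GFun U) {v v' : ι} (h : v ≠ v') (G : Hk (U.U v)) (G' : Hk (U.U v')) :
    (φ.update v G).update v' G' = (φ.update v' G').update v G := by
  classical exact ext_h (Function.update_comm h _ _ _)

theorem update_mul_update (φ ψ : GFun U) (v : ι) (G G' : Hk (U.U v)) :
    φ.update v G * ψ.update v G' = (φ * ψ).update v (G * G') := by
  ext v' : 1
  by_cases h : v' = v
  · subst h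
    rw [mul_apply, update_self, update_self, update_self]
  · rw [mul_apply, update_of_ne _ h, update_of_ne _ h, update_of_ne _ h, mul_apply]

/-- the kernel of an updated function -/
theorem ker_update (φ : GFun U) (v : ι) (G : Hk (U.U v)) (x y : D U) :
    (φ.update v G).ker x y = G.ker (x v) (y v) * ∏ᶠ (v') (_ : v' ≠ v), (φ v').ker (x v') (y v') := by
  rw [ker_apply, ← mul_finprod_cond_ne v ((φ.update v G).finite_mulSupport x y), update_self]
  congr 1
  exact finprod_congr fun v' => finprod_congr fun h => by rw [update_of_ne φ h]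

theorem ker_update_add (φ : GFun U) (v : ι) (G G' : Hk (U.U v)) :
    (φ.update v (G + G')).ker = (φ.update v G).ker + (φ.update v G').ker := by
  funext x y
  rw [Pi.add_apply, Pi.add_apply, ker_update, ker_update, ker_update, Hk.ker_add, Pi.add_apply,
    Pi.add_apply, add_mul]

theorem ker_update_smul (φ : GFun U) (v : ι) (c : ℂ) (G : Hk (U.U v)) :
    (φ.update v (c • G)).ker = c • (φ.update v G).ker := by
  funext x y
  rw [Pi.smul_apply, Pi.smul_apply, ker_update, ker_update, Hk.ker_csmul, Pi.smul_apply,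
    Pi.smul_apply, smul_eq_mul, smul_eq_mul, mul_assoc]

theorem ker_update_zero (φ : GFun U) (v : ι) : (φ.update v 0).ker = 0 := by
  funext x y
  rw [ker_update, Hk.ker_zero, Pi.zero_apply, Pi.zero_apply, zero_mul]
  rfl

theorem ker_update_sum (φ : GFun U) (v : ι) {α : Type*} (s : Finset α) (G : α → Hk (U.U v)) :
    (φ.update v (∑ a ∈ s, G a)).ker = ∑ a ∈ s, (φ.update v (G a)).ker := by
  classical
  induction s using Finset.induction_on with
  | empty => rw [Finset.sum_empty, Finset.sum_empty, ker_update_zero]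
  | insert a s ha ih => rw [Finset.sum_insert ha, Finset.sum_insert ha, ker_update_add, ih]

/-- the function at one place, the unit elsewhere -/
noncomputable def single (v : ι) (G : Hk (U.U v)) : GFun U := (1 : GFun U).update v G

@[simp] theorem single_self (v : ι) (G : Hk (U.U v)) : single v G v = G := update_self _ _ _

theorem single_of_ne {v v' : ι} (h : v' ≠ v) (G : Hk (U.U v)) : single v G v' = 1 :=
  update_of_ne _ h _

theorem single_mul (v : ι) (G : Hk (U.U v)) (φ : GFun U) :
    single v G * φ = φ.update v (G * φ v) := by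
  conv_lhs => rw [← update_eq_self φ v, single, update_mul_update, one_mul]

theorem mul_single (v : ι) (G : Hk (U.U v)) (φ : GFun U) :
    φ * single v G = φ.update v (φ v * G) := by
  conv_lhs => rw [← update_eq_self φ v, single, update_mul_update, mul_one]

theorem single_mul_update (v : ι) (G G' : Hk (U.U v)) (φ : GFun U) :
    single v G * φ.update v G' = φ.update v (G * G') := by
  rw [single, update_mul_update, one_mul]

@[simp] theorem single_one (v : ι) : single v (1 : Hk (U.U v)) = 1 := by
  rw [single]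
  exact update_eq_self (1 : GFun U) v

theorem single_mul_single (v : ι) (G G' : Hk (U.U v)) :
    single v G * single v G' = single v (G * G') := by
  rw [single_mul, single_self, single, update_update, single]

theorem commute_single {v : ι} {G : Hk (U.U v)} {φ : GFun U} (h : Commute G (φ v)) :
    Commute (single v G) φ := by
  rw [Commute, SemiconjBy, single_mul, mul_single, h.eq]

theorem commute_single_single {v v' : ι} (h : v ≠ v') (G : Hk (U.U v)) (G' : Hk (U.U v')) :
    Commute (single v G) (single v' G') :=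
  commute_single (by rw [single_of_ne h]; exact Commute.one_right _)

/-- the homomorphism -/
noncomputable def singleHom (v : ι) : Hk (U.U v) →* GFun U where
  toFun := single v
  map_one' := single_one v
  map_mul' G G' := (single_mul_single v G G').symm

/-- replace one coordinate -/
noncomputable def _root_.Fermat.Agent.LT.Glob.LocFam.D.update (x : D U) (v : ι) (z : X U v) :
    D U := by
  classical exact
  ⟨Function.update x.1 v z, by
    filter_upwards [x.2, (Set.finite_singleton v).compl_mem_cofinite] with v' h1 h2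
    rw [Function.update_of_ne h2]
    exact h1⟩

theorem _root_.Fermat.Agent.LT.Glob.LocFam.D.update_self (x : D U) (v : ι) (z : X U v) :
    x.update v z v = z := by classical exact Function.update_self v z x.1

theorem _root_.Fermat.Agent.LT.Glob.LocFam.D.update_of_ne (x : D U) {v v' : ι} (h : v' ≠ v)
    (z : X U v) : x.update v z v' = x v' := by classical exact Function.update_of_ne h _ _

theorem _root_.Fermat.Agent.LT.Glob.LocFam.D.update_injective (x : D U) (v : ι) :
    Function.Injective (x.update v) := fun z z' h => by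
  rw [← D.update_self x v z, h, D.update_self]

theorem ker_single_of_eq {v : ι} {x y : D U} (h : ∀ v' ≠ v, x v' = y v') (G : Hk (U.U v)) :
    (single v G).ker x y = G.ker (x v) (y v) := by
  rw [single, ker_update]
  have : ∏ᶠ (v') (_ : v' ≠ v), ((1 : GFun U) v').ker (x v') (y v') = 1 := by
    refine finprod_eq_one_of_forall_eq_one fun v' => ?_
    by_cases hv' : v' = v
    · have : IsEmpty (v' ≠ v) := ⟨fun h => h hv'⟩
      rw [finprod_of_isEmpty]
    · rw [one_apply, Hk.ker_one, h v' hv', kone_self, finprod_one]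
  rw [this, mul_one]

theorem eq_update_of_ker_single {v : ι} {x y : D U} {G : Hk (U.U v)}
    (h : (single v G).ker x y ≠ 0) : y = x.update v (y v) := by
  apply D.ext
  intro v'
  by_cases hv : v' = v
  · subst hv
    rw [D.update_self]
  · rw [D.update_of_ne _ hv]
    have h1 := ker_ne_zero h v'
    rw [single_of_ne hv, Hk.ker_one] at h1
    by_contra hne
    exact h1 (kone_ne (Ne.symm hne))

theorem ker_single_update (v : ι) (x : D U) (z : X U v) (G : Hk (U.U v)) :
    (single v G).ker x (x.update v z) = G.ker (x v) z := by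
  rw [ker_single_of_eq (fun v' h => (D.update_of_ne x h z).symm), D.update_self]

/-- the action of a single local function -/
theorem kact_single {E : Type*} [AddCommGroup E] [Module ℂ E] (v : ι) (G : Hk (U.U v)) (u : D U → E)
    (x : D U) : kact (single v G).ker u x = ∑ᶠ z : X U v, G.ker (x v) z • u (x.update v z) := by
  classical
  rw [kact_eq_sum x u (s := ((G.rowF (x v)).toFinset.map ⟨_, D.update_injective x v⟩))]
  · rw [Finset.sum_map]
    refine (Eq.symm ?_)
    rw [finsum_eq_sum_of_support_subset (s := (G.rowF (x v)).toFinset)]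
    · refine Finset.sum_congr rfl fun z _ => ?_
      rw [Function.Embedding.coeFn_mk, ker_single_update]
    · intro z hz
      rw [Finset.mem_coe, Set.Finite.mem_toFinset]
      intro h0
      apply hz
      change G.ker (x v) z • _ = _
      rw [h0, zero_smul]
  · intro y hy
    rw [Finset.mem_map]
    refine ⟨y v, ?_, (eq_update_of_ker_single hy).symm⟩
    rw [Set.Finite.mem_toFinset]
    have := ker_ne_zero hy v
    rwa [single_self] at this

end Update

/-! ### twists -/

/-- the kernel at `(x, γ x)` -/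
theorem ker_smul_right (φ : GFun U) (γ : GL (Fin 2) F) (x : D U) :
    φ.ker x (γ • x) = ∏ᶠ v, (φ.f v).tw (MonoidHom.id _) (fun _ h => h) (L.emb v γ) (x v) := by
  rw [ker_apply]
  refine finprod_congr fun v => ?_
  rw [smul_apply]
  generalize x v = y
  induction y using QuotientGroup.induction_on with
  | H y => exact (Hk.tw_eq (φ v) (MonoidHom.id _) (fun _ h => h) (L.emb v γ) y).symm

/-- the twisted kernel -/
theorem ker_twist (φ : GFun U) {A : Auto L} (h : A.Pres U) (γ : GL (Fin 2) F) (x : D U) :
    φ.ker x (γ • Auto.dmap h x) = ∏ᶠ v, (φ.f v).tw (A.g v) (h v) (L.emb v γ) (x v) := by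
  rw [ker_apply]
  refine finprod_congr fun v => ?_
  rw [smul_apply, Auto.dmap_apply]
  generalize x v = y
  induction y using QuotientGroup.induction_on with
  | H y => exact (Hk.tw_eq (φ v) (A.g v) (h v) (L.emb v γ) y).symm

end GFun

/-! ### finiteness of orbits, adjoints, `DKer` -/

section NF

variable [NumberField F]

/-- the action of `U_v` on `X_v` has finite orbits -/
theorem finOrb (U : L.Level) (v : ι) : FinOrb (U.U v) := by
  classical
  intro x
  obtain ⟨h, rfl⟩ := ProjGenLinGroup.mk_surjective x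
  obtain ⟨N, hN, hNU⟩ := U.deep v
  -- denominators of `h` and `h⁻¹`
  have hden : ∀ g : GL (Fin 2) (L.R v), ∃ M : ℕ, M ≠ 0 ∧ ∀ i j, (M : L.R v) * g i j ∈ L.O v := by
    intro g
    obtain ⟨M, hM, h⟩ := finite_denom_mat (L := L) {v} (fun w => if e : w = v then
      e ▸ (g : Matrix (Fin 2) (Fin 2) (L.R v)) else 1)
    refine ⟨M, hM, fun i j => ?_⟩
    have := h v (Finset.mem_singleton_self v) i j
    rwa [dif_pos rfl] at this
  obtain ⟨M₁, hM₁, hM₁'⟩ := hden h
  obtain ⟨M₂, hM₂, hM₂'⟩ := hden h⁻¹
  -- conjugation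
  have hconj : ∀ g ∈ PK (L.O v) (N * (M₁ * M₂)), g • ((ProjGenLinGroup.mk h : L.G v) : X U v) =
      ((ProjGenLinGroup.mk h : L.G v) : X U v) := by
    rintro _ ⟨g, hg, rfl⟩
    have key : ∀ g ∈ KN (L.O v) (N * (M₁ * M₂)), ∀ i j,
        ((h⁻¹ * g * h : GL (Fin 2) (L.R v)) : Matrix (Fin 2) (Fin 2) (L.R v)) i j -
          (1 : Matrix (Fin 2) (Fin 2) (L.R v)) i j ∈ NO (L.O v) N := by
      intro g hg i j
      have e1 : ((h⁻¹ * g * h : GL (Fin 2) (L.R v)) : Matrix (Fin 2) (Fin 2) (L.R v)) - 1 =
          ((h⁻¹ : GL (Fin 2) (L.R v)) : Matrix (Fin 2) (Fin 2) (L.R v)) *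
          ((g : Matrix (Fin 2) (Fin 2) (L.R v)) - 1) * (h : Matrix (Fin 2) (Fin 2) (L.R v)) := by
        rw [mul_sub, sub_mul, mul_one, ← Units.val_mul, ← Units.val_mul, ← Units.val_mul,
          inv_mul_cancel, Units.val_one]
      rw [← Matrix.sub_apply, e1, Matrix.mul_apply]
      refine sum_mem fun k _ => ?_
      rw [Matrix.mul_apply, Finset.sum_mul]
      refine sum_mem fun l _ => ?_
      obtain ⟨c, hc, hc'⟩ := hg.2 l k
      rw [Matrix.sub_apply, hc']
      refine ⟨((M₂ : L.R v) * (h⁻¹ : GL (Fin 2) (L.R v)) i l) * ((M₁ : L.R v) * h k j) * c,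
        (L.O v).mul_mem ((L.O v).mul_mem (hM₂' i l) (hM₁' k j)) hc, ?_⟩
      push_cast
      ring
    have hO : ∀ {x : L.R v} {i j : Fin 2}, x - (1 : Matrix (Fin 2) (Fin 2) (L.R v)) i j ∈
        NO (L.O v) N → x ∈ L.O v := by
      intro x i j hx
      have h2 : (1 : Matrix (Fin 2) (Fin 2) (L.R v)) i j ∈ L.O v := by
        rw [Matrix.one_apply]; split_ifs; exacts [(L.O v).one_mem, (L.O v).zero_mem]
      have := (L.O v).add_mem (NO_le _ _ hx) h2
      rwa [sub_add_cancel] at this
    have hmem : h⁻¹ * g * h ∈ KN (L.O v) N := by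
      refine ⟨⟨fun i j => hO (key g hg i j), fun i j => ?_⟩, key g hg⟩
      have e3 : (h⁻¹ * g * h)⁻¹ = h⁻¹ * g⁻¹ * h := by group
      rw [e3]
      exact hO (key g⁻¹ (inv_mem hg) i j)
    change ((ProjGenLinGroup.mk g * ProjGenLinGroup.mk h : L.G v) : X U v) = _
    rw [QuotientGroup.eq]
    have e4 : (ProjGenLinGroup.mk g * ProjGenLinGroup.mk h : L.G v)⁻¹ * ProjGenLinGroup.mk h =
        ProjGenLinGroup.mk (h⁻¹ * g * h)⁻¹ := by
      rw [map_inv, map_mul, map_mul, map_inv]
      group
    rw [e4]
    exact hNU (mk_mem_PK (inv_mem hmem))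
  -- the auxiliary level
  let U' : L.Level :=
    { U := fun w => if w = v then PK (L.O w) (N * (M₁ * M₂)) else U.U w
      le := fun w => by
        split_ifs
        · exact PK_le_PO _ _
        · exact U.le w
      eventually_eq := by
        filter_upwards [U.eventually_eq, (Set.finite_singleton v).compl_mem_cofinite] with w h1 h2
        rw [if_neg (fun e : w = v => h2 e)]
        exact h1
      deep := fun w => by
        split_ifs
        · exact ⟨_, mul_ne_zero hN (mul_ne_zero hM₁ hM₂), le_rfl⟩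
        · exact U.deep w }
  have hU' : ∀ g ∈ U'.U v, g ∈ PK (L.O v) (N * (M₁ * M₂)) := by
    intro g hg
    have : U'.U v = PK (L.O v) (N * (M₁ * M₂)) := if_pos rfl
    rwa [this] at hg
  have hfin := finite_orbit U' v
  let Ψ : X U' v → X U v := fun y => Quotient.liftOn' y
    (fun g => g • ((ProjGenLinGroup.mk h : L.G v) : X U v)) (by
      intro a b hab
      rw [QuotientGroup.leftRel_apply] at hab
      have h1 := hconj _ (hU' _ hab)
      change a • _ = b • _
      rw [← h1, ← mul_smul]
      congr 1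
      · group
      · exact h1.symm)
  refine (hfin.image Ψ).subset ?_
  rintro _ ⟨k, hk, rfl⟩
  refine ⟨((k * 1 : L.G v) : X U' v), ⟨k, U.le v hk, rfl⟩, ?_⟩
  change (k * 1) • _ = _
  rw [mul_one]

namespace GFun

/-- the adjoint -/
noncomputable def adj (φ : GFun U) : GFun U :=
  ⟨fun v => (φ v).adj (finOrb U v), by
    filter_upwards [φ.ev] with v hv
    rw [hv]
    apply Hk.ext
    funext x y
    rw [Hk.ker_adj, Hk.ker_one]
    by_cases h : x = y
    · rw [h, kone_self, map_one]
    · rw [kone_ne h, kone_ne (Ne.symm h), map_zero]⟩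

theorem adj_apply (φ : GFun U) (v : ι) : φ.adj v = (φ v).adj (finOrb U v) := rfl

theorem adj_f (φ : GFun U) (v : ι) (g : L.G v) : (φ.adj.f v).f g = starRingEnd ℂ ((φ.f v).f g⁻¹) :=
  Hk.adj_f (finOrb U v) _ _

theorem ker_adj (φ : GFun U) (x y : D U) : φ.adj.ker x y = starRingEnd ℂ (φ.ker y x) := by
  rw [ker_apply, ker_apply]
  refine Eq.trans ?_ (MonoidHom.map_finprod (starRingEnd ℂ : ℂ →* ℂ)
    (φ.finite_mulSupport y x)).symm
  exact finprod_congr fun v => Hk.ker_adj (finOrb U v) _ _ _

theorem adj_mul (φ ψ : GFun U) : (φ * ψ).adj = ψ.adj * φ.adj :=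
  ext fun v => Hk.adj_mul (finOrb U v) _ _

theorem adj_adj (φ : GFun U) : φ.adj.adj = φ := ext fun v => Hk.adj_adj (finOrb U v) _

theorem adj_one : (1 : GFun U).adj = 1 := ext fun v => Hk.adj_one (finOrb U v)

theorem adj_update (φ : GFun U) (v : ι) (G : Hk (U.U v)) :
    (φ.update v G).adj = φ.adj.update v (G.adj (finOrb U v)) := by
  ext v' : 1
  by_cases h : v' = v
  · subst h
    rw [adj_apply, update_self, update_self]
  · rw [adj_apply, update_of_ne _ h, update_of_ne _ h, adj_apply]

theorem adj_single (v : ι) (G : Hk (U.U v)) :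
    (single v G).adj = single v (G.adj (finOrb U v)) := by
  rw [single, adj_update, adj_one, single]

/-- the kernel in the sense of `Sp` -/
noncomputable def toDKer (φ : GFun U) : Sp.DKer F (D U) where
  κ := φ.ker
  smul := φ.ker_smul
  finite := φ.rowF

@[simp] theorem toDKer_κ (φ : GFun U) : φ.toDKer.κ = φ.ker := rfl

theorem toDKer_mul (φ ψ : GFun U) : (φ * ψ).toDKer = φ.toDKer.comp ψ.toDKer :=
  Sp.DKer.ext' fun x y => φ.ker_mul_apply ψ x y

theorem toDKer_one : (1 : GFun U).toDKer = Sp.DKer.one F (D U) := by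
  classical
  apply Sp.DKer.ext'
  intro x y
  rw [toDKer_κ, ker_one]
  by_cases h : x = y
  · rw [h, kone_self]
    exact (if_pos rfl).symm
  · rw [kone_ne h]
    exact (if_neg h).symm

theorem toDKer_adj [IsTotallyComplex F] (φ : GFun U) : φ.adj.toDKer = φ.toDKer.adj :=
  Sp.DKer.ext' fun x y => φ.ker_adj x y

theorem toDKer_comm {φ ψ : GFun U} (h : Commute φ ψ) :
    φ.toDKer.comp ψ.toDKer = ψ.toDKer.comp φ.toDKer := by
  rw [← toDKer_mul, h.eq, toDKer_mul]

end GFun

end NF

end LocFam

end Fermat.Agent.LT.Glob
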