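import Fermat.Agent.LT.Glob.KillInst
import Fermat.Agent.LT.Glob.Ker

set_option autoImplicit false

/-!
# The Hecke operator at a good place as a factorizable kernel
-/

namespace Fermat.Agent.LT.Glob

open Matrix Filter NumberField Fermat.Agent.LT.Loc
open scoped MatrixGroups

universe w u i

namespace LocFam

variable {F : Type u} [Field F] {ι : Type i} {L : LocFam.{w} F ι} {U : L.Level}
  {v : ι} {ϖ : (L.R v)ˣ} {B : Finset (L.R v)}

open Classical in
/-- the indicator of the double coset of `diag(ϖ, 1)`, at level `U` -/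
noncomputable def TTb (ϖ : (L.R v)ˣ) (hU : U.U v = PO (L.O v)) : BiInv (U.U v) where
  f g := if g ∈ HS (L.O v) ϖ then 1 else 0
  inv k hk k' hk' g := by
    rw [hU] at hk hk'
    rw [HS.mul_right_iff hk', HS.mul_left_iff hk]

open Classical in
theorem TTb_f (ϖ : (L.R v)ˣ) (hU : U.U v = PO (L.O v)) (g : L.G v) :
    (TTb ϖ hU).f g = if g ∈ HS (L.O v) ϖ then 1 else 0 := rfl

/-- the local Hecke operator -/
noncomputable def TTh (h : Unif (L.O v) ϖ B) (hU : U.U v = PO (L.O v)) : Hk (U.U v) :=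
  Hk.ofBi (TTb ϖ hU) (by
    refine (Set.finite_range (fun o : Option B =>
      ((ProjGenLinGroup.mk (rp ϖ B o) : L.G v) : L.G v ⧸ U.U v))).subset ?_
    rintro y ⟨a, rfl, ha⟩
    rw [TTb_f] at ha
    have ha' : a ∈ HS (L.O v) ϖ := by
      by_contra hcon
      exact ha (if_neg hcon)
    obtain ⟨o, ho⟩ := h.mem_HS_iff.1 ha'
    exact ⟨o, QuotientGroup.eq.2 (by rw [hU]; exact ho)⟩)

open Classical in
theorem TTh_f (h : Unif (L.O v) ϖ B) (hU : U.U v = PO (L.O v)) (g : L.G v) :
    (TTh h hU).f g = if g ∈ HS (L.O v) ϖ then 1 else 0 := rfl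

theorem TTh_symm (h : Unif (L.O v) ϖ B) (hU : U.U v = PO (L.O v)) : (TTh h hU).Symm := by
  rw [Hk.symm_iff]
  intro g
  rw [TTh_f, TTh_f, HS.inv_iff]

theorem TTh_commute (h : Unif (L.O v) ϖ B) {ϖ' : (L.R v)ˣ} {B' : Finset (L.R v)}
    (h' : Unif (L.O v) ϖ' B') (hU : U.U v = PO (L.O v)) : Commute (TTh h hU) (TTh h' hU) := by
  refine Hk.commute_of_symm (TTh_symm h hU) (TTh_symm h' hU) ?_
  rw [Hk.symm_iff]
  -- everything is supported on diagonal double cosets
  have key : ∀ g, (TTh h hU * TTh h' hU).f g ≠ 0 → IsDiag (L.O v) g := by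
    intro g hg
    have h1 : ((TTh h hU).toBiInv.conv (TTh h' hU).toBiInv).f g ≠ 0 := by
      rw [← Hk.toBiInv_mul]; exact hg
    obtain ⟨a, ha, ha'⟩ := conv_apply_ne_zero h1
    have ha1 : a ∈ HS (L.O v) ϖ := by
      by_contra hcon
      exact ha (if_neg hcon)
    have ha2 : a⁻¹ * g ∈ HS (L.O v) ϖ' := by
      by_contra hcon
      exact ha' (if_neg hcon)
    have := h'.mul_isDiag h.mem ha1 ha2
    rwa [mul_inv_cancel_left] at this
  -- the function as a function on `PO`-double cosets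
  let F₀ : BiInv (PO (L.O v)) :=
    { f := (TTh h hU * TTh h' hU).f
      inv := fun k hk k' hk' g => (TTh h hU * TTh h' hU).inv k (by rw [hU]; exact hk) k'
        (by rw [hU]; exact hk') g }
  exact inv_of_isDiag F₀ key

variable [NumberField F]

theorem Tker_eq (h : Unif (L.O v) ϖ B) (hU : U.U v = PO (L.O v)) :
    Tker h hU = (GFun.single v (TTh h hU)).toDKer := by
  classical
  apply Sp.DKer.ext'
  intro d d'
  rw [Tker_κ, GFun.toDKer_κ]
  by_cases hd : ∀ w, w ≠ v → d w = d' w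
  · rw [GFun.ker_single_of_eq hd]
    obtain ⟨g, hg⟩ := QuotientGroup.mk_surjective (d v)
    obtain ⟨g', hg'⟩ := QuotientGroup.mk_surjective (d' v)
    rw [← hg, ← hg', Hk.ker_mk, TTh_f]
    refine if_congr ?_ rfl rfl
    constructor
    · rintro ⟨-, a, b, ha, hb, hab⟩
      have h1 : g⁻¹ * a ∈ PO (L.O v) := by
        have := QuotientGroup.eq.1 (hg.trans ha.symm)
        rwa [hU] at this
      have h2 : b⁻¹ * g' ∈ PO (L.O v) := by
        have := QuotientGroup.eq.1 (hb.trans hg'.symm)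
        rwa [hU] at this
      have := HS.mul_right h2 (HS.mul_left h1 hab)
      have e : g⁻¹ * a * (a⁻¹ * b) * (b⁻¹ * g') = g⁻¹ * g' := by group
      rwa [e] at this
    · intro hab
      exact ⟨hd, g, g', hg, hg', hab⟩
  · rw [if_neg fun hcon => hd hcon.1]
    by_contra hne
    apply hd
    intro w hw
    have h1 := GFun.eq_update_of_ker_single (Ne.symm hne)
    rw [h1, D.update_of_ne _ hw]

end LocFam

end Fermat.Agent.LT.Glob
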