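import Fermat.Agent.LT.Glob.ActE

set_option autoImplicit false
set_option linter.unusedSectionVars false
set_option linter.unusedVariables false

/-!
# The rings of integers of the completions of a number field

They are complete discrete valuation rings with finite residue field.
-/

namespace Fermat.Agent.LT.Glob

open Matrix Filter IsDedekindDomain IsDedekindDomain.HeightOneSpectrum WithZero NumberField
open scoped MatrixGroups Topology

section Dede

variable {R : Type*} [CommRing R] [IsDedekindDomain R] {K : Type*} [Field K] [Algebra R K]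
  [IsFractionRing R K] (v : HeightOneSpectrum R)

theorem mem_maximalIdeal_iff {x : v.adicCompletionIntegers K} :
    x ∈ IsLocalRing.maximalIdeal (v.adicCompletionIntegers K) ↔
      Valued.v (x : v.adicCompletion K) < 1 := by
  rw [IsLocalRing.mem_maximalIdeal, mem_nonunits_iff,
    adicCompletionIntegers.isUnit_iff_valued_eq_one]
  exact ⟨fun h => lt_of_le_of_ne x.2 h, fun h => h.ne⟩

theorem mem_maximalIdeal_pow_iff {x : v.adicCompletionIntegers K} {n : ℕ} :
    x ∈ IsLocalRing.maximalIdeal (v.adicCompletionIntegers K) ^ n ↔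
      Valued.v (x : v.adicCompletion K) ≤ exp (-(n : ℤ)) := by
  obtain ⟨c, hc0, hc⟩ := LT.Fin.exists_valuation_eq (K := K) v (-1)
  have hc' : Valued.v (algebraMap K (v.adicCompletion K) c) = exp (-1 : ℤ) := by
    rw [valued_algebraMap, hc]
  have hcO : algebraMap K (v.adicCompletion K) c ∈ v.adicCompletionIntegers K := by
    rw [mem_adicCompletionIntegers, hc', ← exp_zero, exp_le_exp]
    norm_num
  have hm : IsLocalRing.maximalIdeal (v.adicCompletionIntegers K) =
      Ideal.span {⟨algebraMap K (v.adicCompletion K) c, hcO⟩} := by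
    ext y
    rw [mem_maximalIdeal_iff, Ideal.mem_span_singleton']
    constructor
    · intro hy
      have hc1 : algebraMap K (v.adicCompletion K) c ≠ 0 := by simpa using hc0
      refine ⟨⟨(y : v.adicCompletion K) / algebraMap K (v.adicCompletion K) c, ?_⟩,
        Subtype.ext ?_⟩
      · rw [mem_adicCompletionIntegers, map_div₀, hc']
        rw [div_le_one₀ (by simp)]
        by_cases hy0 : Valued.v (y : v.adicCompletion K) = 0
        · rw [hy0]; exact zero_le
        · rw [← exp_log hy0, ← exp_zero, exp_lt_exp] at hy
          rw [← exp_log hy0, exp_le_exp]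
          omega
      · change (y : v.adicCompletion K) / algebraMap K (v.adicCompletion K) c *
          algebraMap K (v.adicCompletion K) c = y
        field_simp
    · rintro ⟨a, rfl⟩
      change Valued.v ((a : v.adicCompletion K) * algebraMap K (v.adicCompletion K) c) < 1
      rw [map_mul, hc']
      have h1 : Valued.v (a : v.adicCompletion K) ≤ 1 := a.2
      calc Valued.v (a : v.adicCompletion K) * exp (-1 : ℤ) ≤ 1 * exp (-1 : ℤ) := by gcongr
        _ < 1 := by
          rw [one_mul, ← exp_zero, exp_lt_exp]
          norm_num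
  have hcn : Valued.v (algebraMap K (v.adicCompletion K) c ^ n) = exp (-(n : ℤ)) := by
    rw [map_pow, hc', ← WithZero.exp_nsmul]
    simp
  rw [hm, Ideal.span_singleton_pow, Ideal.mem_span_singleton']
  constructor
  · rintro ⟨a, rfl⟩
    change Valued.v ((a : v.adicCompletion K) * algebraMap K (v.adicCompletion K) c ^ n) ≤ _
    rw [map_mul, hcn]
    exact mul_le_of_le_one_left' a.2
  · intro hx
    have hc1 : algebraMap K (v.adicCompletion K) c ≠ 0 := by simpa using hc0
    refine ⟨⟨(x : v.adicCompletion K) / algebraMap K (v.adicCompletion K) c ^ n, ?_⟩,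
      Subtype.ext ?_⟩
    · rw [mem_adicCompletionIntegers, map_div₀, hcn]
      exact (div_le_one₀ (by simp)).2 hx
    · change (x : v.adicCompletion K) / algebraMap K (v.adicCompletion K) c ^ n *
        algebraMap K (v.adicCompletion K) c ^ n = x
      field_simp

theorem isClosed_ball_exp (n : ℤ) (x : v.adicCompletion K) :
    IsClosed {y : v.adicCompletion K | Valued.v (y - x) ≤ exp n} := by
  have h1 : IsOpen {y : v.adicCompletion K | Valued.v y ≤ exp n} := LT.Fin.isOpen_ball_exp v n
  let S : AddSubgroup (v.adicCompletion K) :=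
    { carrier := {y | Valued.v y ≤ exp n}
      add_mem' := fun {a b} ha hb => by
        change Valued.v (a + b) ≤ exp n
        exact (Valuation.map_add _ a b).trans (max_le ha hb)
      zero_mem' := by simp
      neg_mem' := fun {a} ha => by
        change Valued.v (-a) ≤ exp n
        rw [Valuation.map_neg]; exact ha }
  have h2 : IsClosed (S : Set (v.adicCompletion K)) := AddSubgroup.isClosed_of_isOpen S h1
  exact h2.preimage (continuous_id.sub continuous_const)

theorem cauchySeq_of_valued {u : ℕ → v.adicCompletion K}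
    (h : ∀ n m, n ≤ m → Valued.v (u n - u m) ≤ exp (-(n : ℤ))) : CauchySeq u := by
  rw [cauchySeq_iff_tendsto, uniformity_eq_comap_nhds_zero, tendsto_comap_iff]
  intro U hU
  obtain ⟨n, hn⟩ := exists_ball_subset hU
  rw [mem_map]
  filter_upwards [(eventually_ge_atTop (n, n))] with p hp
  apply hn
  change Valued.v (u p.2 - u p.1) ≤ exp (-(n : ℤ))
  have h1 := h n p.2 hp.2
  have h2 := h n p.1 hp.1
  have h3 : u p.2 - u p.1 = (u n - u p.1) - (u n - u p.2) := by ring
  rw [h3]
  exact (Valuation.map_sub _ _ _).trans (max_le h2 h1)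

theorem exists_limit {u : ℕ → v.adicCompletion K}
    (h : ∀ n m, n ≤ m → Valued.v (u n - u m) ≤ exp (-(n : ℤ))) :
    ∃ L, ∀ n, Valued.v (u n - L) ≤ exp (-(n : ℤ)) := by
  obtain ⟨L, hL⟩ := cauchySeq_tendsto_of_complete (cauchySeq_of_valued v h)
  refine ⟨L, fun n => ?_⟩
  rw [Valuation.map_sub_swap]
  refine (isClosed_ball_exp v (-(n : ℤ)) (u n)).mem_of_tendsto hL ?_
  filter_upwards [eventually_ge_atTop n] with m hm
  change Valued.v (u m - u n) ≤ _
  rw [Valuation.map_sub_swap]
  exact h n m hm

theorem eq_zero_of_forall {x : v.adicCompletion K} (h : ∀ n : ℕ, Valued.v x ≤ exp (-(n : ℤ))) :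
    x = 0 := by
  by_contra hx1
  obtain ⟨n, hn⟩ := exists_exp_le ((Valuation.ne_zero_iff Valued.v).2 hx1)
  have := hn.trans (h (n + 1))
  rw [exp_le_exp] at this
  push_cast at this
  omega

theorem isHausdorff_integers : IsHausdorff
    (IsLocalRing.maximalIdeal (v.adicCompletionIntegers K)) (v.adicCompletionIntegers K) := by
  refine ⟨fun x hx => Subtype.ext (eq_zero_of_forall v fun n => ?_)⟩
  have h1 := hx n
  rw [SModEq.zero, smul_eq_mul, Ideal.mul_top] at h1
  exact (mem_maximalIdeal_pow_iff v).1 h1

theorem isPrecomplete_integers : IsPrecomplete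
    (IsLocalRing.maximalIdeal (v.adicCompletionIntegers K)) (v.adicCompletionIntegers K) := by
  refine ⟨fun f hf => ?_⟩
  have hf' : ∀ n m, n ≤ m →
      Valued.v ((f n : v.adicCompletion K) - (f m : v.adicCompletion K)) ≤ exp (-(n : ℤ)) := by
    intro n m hmn
    have h1 := hf hmn
    rw [SModEq.sub_mem, smul_eq_mul, Ideal.mul_top] at h1
    have h2 := (mem_maximalIdeal_pow_iff v).1 h1
    rwa [AddSubgroupClass.coe_sub] at h2
  obtain ⟨L, hL⟩ := exists_limit v hf'
  have hLO : L ∈ v.adicCompletionIntegers K := by
    have h0 := hL 0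
    rw [Nat.cast_zero, neg_zero, exp_zero] at h0
    have h1 : L = (f 0 : v.adicCompletion K) - ((f 0 : v.adicCompletion K) - L) := by ring
    rw [h1]
    exact sub_mem (f 0).2 h0
  refine ⟨⟨L, hLO⟩, fun n => ?_⟩
  rw [SModEq.sub_mem, smul_eq_mul, Ideal.mul_top, mem_maximalIdeal_pow_iff]
  exact hL n

instance isAdicComplete_integers : IsAdicComplete
    (IsLocalRing.maximalIdeal (v.adicCompletionIntegers K)) (v.adicCompletionIntegers K) :=
  { isHausdorff_integers v, isPrecomplete_integers v with }

/-- approximation of integers of the completion by elements of `R` -/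
theorem exists_approx_int (x : v.adicCompletionIntegers K) (n : ℕ) :
    ∃ r : R, Valued.v ((x : v.adicCompletion K) - algebraMap K (v.adicCompletion K)
      (algebraMap R K r)) ≤ exp (-(n : ℤ)) := by
  classical
  obtain ⟨a, ha, ha'⟩ := LT.Fin.exists_approx {v}
    (Function.update 0 v (x : v.adicCompletion K)) n
  have h1 := ha v (Finset.mem_singleton_self v)
  rw [Function.update_self] at h1
  have h2 : ∀ v' : HeightOneSpectrum R, v'.valuation K a ≤ 1 := by
    intro v'
    by_cases hv : v' = v
    · subst hv
      rw [← valued_algebraMap]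
      have h3 : algebraMap K (v'.adicCompletion K) a =
        (algebraMap K (v'.adicCompletion K) a - x) + x := by ring
      rw [h3]
      refine (Valuation.map_add _ _ _).trans (max_le (h1.trans ?_) x.2)
      rw [← exp_zero, exp_le_exp]
      omega
    · exact ha' v' (by simpa using hv)
  obtain ⟨r, rfl⟩ := HeightOneSpectrum.mem_integers_of_valuation_le_one K a h2
  refine ⟨r, ?_⟩
  rwa [Valuation.map_sub_swap]

theorem residue_surjective : Function.Surjective
    ((IsLocalRing.residue (v.adicCompletionIntegers K)).comp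
      (algebraMap R (v.adicCompletionIntegers K))) := by
  intro y
  obtain ⟨x, rfl⟩ := IsLocalRing.residue_surjective y
  obtain ⟨r, hr⟩ := exists_approx_int v x 1
  refine ⟨r, ?_⟩
  rw [RingHom.comp_apply, ← sub_eq_zero, ← map_sub, IsLocalRing.residue_eq_zero_iff,
    mem_maximalIdeal_iff]
  refine lt_of_le_of_lt (b := exp (-((1 : ℕ) : ℤ))) ?_ ?_
  · rw [AddSubgroupClass.coe_sub, Valuation.map_sub_swap]
    exact hr
  · rw [← exp_zero, exp_lt_exp]
    norm_num

instance finite_residueField_integers [Finite (R ⧸ v.asIdeal)] :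
    Finite (IsLocalRing.ResidueField (v.adicCompletionIntegers K)) := by
  have h1 : ∀ r ∈ v.asIdeal, ((IsLocalRing.residue (v.adicCompletionIntegers K)).comp
      (algebraMap R (v.adicCompletionIntegers K))) r = 0 := by
    intro r hr
    rw [RingHom.comp_apply, IsLocalRing.residue_eq_zero_iff, mem_maximalIdeal_iff]
    change Valued.v (algebraMap K (v.adicCompletion K) (algebraMap R K r)) < 1
    rw [valued_algebraMap]
    exact (v.valuation_lt_one_iff_mem r).2 hr
  refine Finite.of_surjective (Ideal.Quotient.lift v.asIdeal _ h1) ?_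
  exact Ideal.Quotient.lift_surjective_of_surjective _ h1 (residue_surjective v)

instance finite_residueField_numberField {F : Type*} [Field F] [NumberField F]
    (v : HeightOneSpectrum (𝓞 F)) :
    Finite (IsLocalRing.ResidueField (v.adicCompletionIntegers F)) := by
  have : Finite (𝓞 F ⧸ v.asIdeal) := v.asIdeal.finiteQuotientOfFreeOfNeBot v.ne_bot
  infer_instance

end Dede

end Fermat.Agent.LT.Glob
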