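import Fermat.Agent.LT.Glob.KillInst
import Fermat.Agent.LT.Glob.OInt

set_option autoImplicit false

/-!
# Uniformisers of the completions of a number field
-/

namespace Fermat.Agent.LT.Glob

open Matrix Filter IsDedekindDomain IsDedekindDomain.HeightOneSpectrum WithZero NumberField
open scoped MatrixGroups

section Dede

variable {R : Type*} [CommRing R] [IsDedekindDomain R] {K : Type*} [Field K] [Algebra R K]
  [IsFractionRing R K] (v : HeightOneSpectrum R)

variable (K) in
open Classical in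
/-- representatives of the residue field -/
noncomputable def resB [Finite (R ⧸ v.asIdeal)] : Finset (v.adicCompletion K) :=
  (Set.finite_range (fun r : R ⧸ v.asIdeal =>
    algebraMap K (v.adicCompletion K) (algebraMap R K r.out))).toFinset

theorem mem_resB [Finite (R ⧸ v.asIdeal)] {x : v.adicCompletion K} : x ∈ resB K v ↔
    ∃ r : R ⧸ v.asIdeal, algebraMap K (v.adicCompletion K) (algebraMap R K r.out) = x := by
  rw [resB, Set.Finite.mem_toFinset]; rfl

theorem valued_coe_le (r : R) :
    Valued.v (algebraMap K (v.adicCompletion K) (algebraMap R K r)) ≤ 1 := by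
  rw [valued_algebraMap]
  exact v.valuation_le_one r

theorem valued_coe_lt_iff (r : R) :
    Valued.v (algebraMap K (v.adicCompletion K) (algebraMap R K r)) ≤ exp (-1 : ℤ) ↔
      r ∈ v.asIdeal := by
  rw [valued_algebraMap, valuation_of_algebraMap]
  have := v.intValuation_le_pow_iff_mem r 1
  rw [pow_one] at this
  exact this

theorem resB_inj [Finite (R ⧸ v.asIdeal)] {r r' : R ⧸ v.asIdeal}
    (h : Valued.v (algebraMap K (v.adicCompletion K) (algebraMap R K r.out) -
      algebraMap K (v.adicCompletion K) (algebraMap R K r'.out)) ≤ exp (-1 : ℤ)) : r = r' := by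
  rw [← map_sub, ← map_sub, valued_coe_lt_iff] at h
  rw [← Ideal.Quotient.mk_out r, ← Ideal.Quotient.mk_out r', Ideal.Quotient.eq]
  exact h

theorem card_resB [Finite (R ⧸ v.asIdeal)] : (resB K v).card = Nat.card (R ⧸ v.asIdeal) := by
  classical
  have h1 : Function.Injective (fun r : R ⧸ v.asIdeal =>
      algebraMap K (v.adicCompletion K) (algebraMap R K r.out)) := by
    intro r r' h
    apply resB_inj (K := K) v
    have h' : algebraMap K (v.adicCompletion K) (algebraMap R K r.out) =
      algebraMap K (v.adicCompletion K) (algebraMap R K r'.out) := h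
    rw [h', sub_self, map_zero]
    exact zero_le
  rw [resB, ← Set.ncard_eq_toFinset_card _ (Set.finite_range _), ← Set.image_univ, Set.ncard_image_of_injective _ h1,
    Set.ncard_univ]

theorem mul_inv_mem_iff {ϖ : (v.adicCompletion K)ˣ}
    (hϖ : Valued.v (ϖ : v.adicCompletion K) = exp (-1 : ℤ)) {x : v.adicCompletion K} :
    ((ϖ⁻¹ : (v.adicCompletion K)ˣ) : v.adicCompletion K) * x ∈ Oc v ↔
      Valued.v x ≤ exp (-1 : ℤ) := by
  rw [mem_Oc, map_mul, Units.val_inv_eq_inv_val, map_inv₀, hϖ, inv_mul_le_iff₀ (by simp), mul_one]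

theorem le_exp_of_lt_one {x : ℤᵐ⁰} (h : x < 1) : x ≤ exp (-1 : ℤ) := by
  by_cases hx : x = 0
  · rw [hx]; exact zero_le
  · rw [← exp_log hx, exp_le_exp]
    rw [← exp_log hx, ← exp_zero, exp_lt_exp] at h
    omega

/-- uniformisers of the completions -/
theorem unif_Oc_of [Finite (R ⧸ v.asIdeal)] {ϖ : (v.adicCompletion K)ˣ}
    (hϖ : Valued.v (ϖ : v.adicCompletion K) = exp (-1 : ℤ)) : Unif (Oc v) ϖ (resB K v) where
  mem := by
    rw [mem_Oc, hϖ, ← exp_zero, exp_le_exp]; norm_num
  not_mem := by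
    rw [mem_Oc, Units.val_inv_eq_inv_val, map_inv₀, hϖ, not_le, ← WithZero.exp_neg, ← exp_zero, exp_lt_exp]
    norm_num
  sub b hb := by
    obtain ⟨r, rfl⟩ := (mem_resB v).1 hb
    exact valued_coe_le v _
  cover x hx := by
    obtain ⟨r, hr⟩ := exists_approx_int v (⟨x, hx⟩ : v.adicCompletionIntegers K) 1
    refine ⟨_, (mem_resB v).2 ⟨Ideal.Quotient.mk _ r, rfl⟩, ?_⟩
    rw [mul_inv_mem_iff v hϖ]
    have h1 : Valued.v (algebraMap K (v.adicCompletion K) (algebraMap R K r) -
        algebraMap K (v.adicCompletion K) (algebraMap R K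
          (Quotient.out (Ideal.Quotient.mk v.asIdeal r)))) ≤ exp (-1 : ℤ) := by
      rw [← map_sub, ← map_sub, valued_coe_lt_iff, ← Ideal.Quotient.eq, Ideal.Quotient.mk_out]
    have h2 : x - algebraMap K (v.adicCompletion K) (algebraMap R K
          (Quotient.out (Ideal.Quotient.mk v.asIdeal r))) =
        (x - algebraMap K (v.adicCompletion K) (algebraMap R K r)) +
        (algebraMap K (v.adicCompletion K) (algebraMap R K r) -
        algebraMap K (v.adicCompletion K) (algebraMap R K
          (Quotient.out (Ideal.Quotient.mk v.asIdeal r)))) := by ring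
    rw [h2]
    exact (Valuation.map_add _ _ _).trans (max_le hr h1)
  inj b hb b' hb' h := by
    obtain ⟨r, rfl⟩ := (mem_resB v).1 hb
    obtain ⟨r', rfl⟩ := (mem_resB v).1 hb'
    rw [mul_inv_mem_iff v hϖ] at h
    rw [resB_inj v h]
  field x hx := by
    rw [mem_Oc] at hx
    rcases hx.lt_or_eq with h | h
    · left
      rw [mul_inv_mem_iff v hϖ]
      exact le_exp_of_lt_one h
    · right
      have hx0 : x ≠ 0 := by
        rintro rfl
        rw [map_zero] at h
        exact zero_ne_one h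
      refine ⟨x⁻¹, ?_, ?_⟩
      · rw [mem_Oc, map_inv₀, h, inv_one]
      · rw [mul_inv_cancel₀ hx0, sub_self, mul_zero]
        exact zero_mem _

end Dede

section Pi

variable {J : Type*} [DecidableEq J] {A : J → Type*} [∀ j, CommRing (A j)]

/-- the unit of a product concentrated in one coordinate -/
def piU (j : J) (u : (A j)ˣ) : (∀ j, A j)ˣ := MulEquiv.piUnits.symm (Pi.mulSingle j u)

theorem piU_apply (j : J) (u : (A j)ˣ) (i : J) :
    ((piU j u : (∀ j, A j)ˣ) : ∀ j, A j) i = ((Pi.mulSingle j u : ∀ j, (A j)ˣ) i : A i) := rfl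

theorem piU_inv_apply (j : J) (u : (A j)ˣ) (i : J) :
    (((piU j u)⁻¹ : (∀ j, A j)ˣ) : ∀ j, A j) i =
      (((Pi.mulSingle j u : ∀ j, (A j)ˣ) i)⁻¹ : (A i)ˣ) := rfl

theorem piU_inv_same (j : J) (u : (A j)ˣ) :
    (((piU j u)⁻¹ : (∀ j, A j)ˣ) : ∀ j, A j) j = ((u⁻¹ : (A j)ˣ) : A j) := by
  rw [piU_inv_apply, Pi.mulSingle_eq_same]

theorem piU_inv_ne {i j : J} (h : i ≠ j) (u : (A j)ˣ) :
    (((piU j u)⁻¹ : (∀ j, A j)ˣ) : ∀ j, A j) i = 1 := by
  rw [piU_inv_apply, Pi.mulSingle_eq_of_ne h, inv_one, Units.val_one]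

/-- uniformisers of a product -/
theorem Unif.pi {O : Subring (∀ j, A j)} {O' : ∀ j, Subring (A j)}
    (hO : ∀ x, x ∈ O ↔ ∀ j, x j ∈ O' j) {j : J} {ϖ : (A j)ˣ} {B : Finset (A j)}
    (h : Unif (O' j) ϖ B) :
    Unif O (piU j ϖ) (B.map ⟨Pi.single j, Pi.single_injective j⟩) where
  mem := by
    rw [hO]
    intro i
    rw [piU_apply]
    by_cases hi : i = j
    · subst hi
      rw [Pi.mulSingle_eq_same]
      exact h.mem
    · rw [Pi.mulSingle_eq_of_ne hi]
      exact one_mem _
  not_mem hcon := by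
    have := (hO _).1 hcon j
    rw [piU_inv_same] at this
    exact h.not_mem this
  sub b₀ hb₀ := by
    obtain ⟨b, hb, rfl⟩ := Finset.mem_map.1 hb₀
    rw [hO]
    intro i
    show (Pi.single j b : ∀ j, A j) i ∈ O' i
    by_cases hi : i = j
    · subst hi
      rw [Pi.single_eq_same]
      exact h.sub b hb
    · rw [Pi.single_eq_of_ne hi]
      exact zero_mem _
  cover x hx := by
    rw [hO] at hx
    obtain ⟨b, hb, hb'⟩ := h.cover _ (hx j)
    refine ⟨_, Finset.mem_map.2 ⟨b, hb, rfl⟩, ?_⟩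
    rw [hO]
    intro i
    show (((piU j ϖ)⁻¹ : (∀ j, A j)ˣ) : ∀ j, A j) i * (x i - (Pi.single j b : ∀ j, A j) i) ∈ O' i
    by_cases hi : i = j
    · subst hi
      rw [piU_inv_same, Pi.single_eq_same]
      exact hb'
    · rw [piU_inv_ne hi, Pi.single_eq_of_ne hi, sub_zero, one_mul]
      exact hx i
  inj b₀ hb₀ b₀' hb₀' hbb := by
    obtain ⟨b, hb, rfl⟩ := Finset.mem_map.1 hb₀
    obtain ⟨b', hb', rfl⟩ := Finset.mem_map.1 hb₀'
    have := (hO _).1 hbb j
    have h1 : ((ϖ⁻¹ : (A j)ˣ) : A j) * (b - b') ∈ O' j := by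
      change (((piU j ϖ)⁻¹ : (∀ j, A j)ˣ) : ∀ j, A j) j *
        ((Pi.single j b : ∀ j, A j) j - (Pi.single j b' : ∀ j, A j) j) ∈ O' j at this
      rwa [piU_inv_same, Pi.single_eq_same, Pi.single_eq_same] at this
    rw [h.inj b hb b' hb' h1]
  field x hx := by
    rw [hO] at hx
    rcases h.field _ (hx j) with h1 | ⟨y, hy, h1⟩
    · left
      rw [hO]
      intro i
      show (((piU j ϖ)⁻¹ : (∀ j, A j)ˣ) : ∀ j, A j) i * x i ∈ O' i
      by_cases hi : i = j
      · subst hi
        rw [piU_inv_same]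
        exact h1
      · rw [piU_inv_ne hi, one_mul]
        exact hx i
    · right
      refine ⟨Pi.single j y, ?_, ?_⟩
      · rw [hO]
        intro i
        by_cases hi : i = j
        · subst hi
          rw [Pi.single_eq_same]
          exact hy
        · rw [Pi.single_eq_of_ne hi]
          exact zero_mem _
      · rw [hO]
        intro i
        show (((piU j ϖ)⁻¹ : (∀ j, A j)ˣ) : ∀ j, A j) i *
          (x i * (Pi.single j y : ∀ j, A j) i - 1) ∈ O' i
        by_cases hi : i = j
        · subst hi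
          rw [piU_inv_same, Pi.single_eq_same]
          exact h1
        · rw [piU_inv_ne hi, Pi.single_eq_of_ne hi]
          simp

end Pi

/-! ### Killing data for a principal prime -/

namespace LocFam

universe w u i

variable {F : Type u} [Field F] {ι : Type i} {L : LocFam.{w} F ι} (U : L.Level)

/-- the level is bounded below by a principal congruence subgroup, uniformly -/
theorem exists_uniform_level : ∃ N : ℕ, N ≠ 0 ∧ ∀ v, PK (L.O v) N ≤ U.U v := by
  classical
  obtain ⟨S, hS⟩ := exists_finset_compl U.eventually_eq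
  choose N hN hU using U.deep
  refine ⟨∏ v ∈ S, N v, Finset.prod_ne_zero_iff.mpr fun v _ => hN v, fun v => ?_⟩
  by_cases hv : v ∈ S
  · exact (PK_mono (Finset.dvd_prod_of_mem N hv)).trans (hU v)
  · rw [hS v hv]
    exact PK_le_PO _ _

end LocFam

section KillK

variable {F : Type*} [Field F] [NumberField F]

instance finite_quot (v : HeightOneSpectrum (𝓞 F)) : Finite (𝓞 F ⧸ v.asIdeal) :=
  v.asIdeal.finiteQuotientOfFreeOfNeBot v.ne_bot

theorem valued_of_span {v : HeightOneSpectrum (𝓞 F)} {π : 𝓞 F}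
    (hπ : v.asIdeal = Ideal.span {π}) :
    Valued.v (algebraMap F (v.adicCompletion F) (π : F)) = exp (-1 : ℤ) := by
  have h1 : π ∈ v.asIdeal := by rw [hπ]; exact Ideal.mem_span_singleton_self π
  have h2 : Valued.v (algebraMap F (v.adicCompletion F) (π : F)) ≤ exp (-1 : ℤ) :=
    (valued_coe_lt_iff v π).2 h1
  refine le_antisymm h2 ?_
  obtain ⟨c, hc⟩ := v.intValuation_exists_uniformizer
  have h3 : c ∈ v.asIdeal := by
    rw [← valued_coe_lt_iff (K := F), valued_algebraMap, valuation_of_algebraMap, hc]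
  rw [hπ, Ideal.mem_span_singleton] at h3
  obtain ⟨d, rfl⟩ := h3
  have h4 : Valued.v (algebraMap F (v.adicCompletion F) ((π * d : 𝓞 F) : F)) = exp (-1 : ℤ) := by
    have := valued_algebraMap v (((π * d : 𝓞 F) : F))
    rw [this]
    show v.valuation F (algebraMap (𝓞 F) F (π * d)) = _
    rw [valuation_of_algebraMap, hc]
  have h5 : ((π * d : 𝓞 F) : F) = (π : F) * (d : F) := map_mul (algebraMap (𝓞 F) F) π d
  rw [h5, map_mul, map_mul] at h4
  rw [← h4]
  exact mul_le_of_le_one_right' (valued_coe_le v d)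

theorem valued_of_span_ne {v v' : HeightOneSpectrum (𝓞 F)} (h : v' ≠ v) {π : 𝓞 F}
    (hπ : v.asIdeal = Ideal.span {π}) :
    Valued.v (algebraMap F (v'.adicCompletion F) (π : F)) = 1 := by
  refine le_antisymm (valued_coe_le v' π) ?_
  by_contra hcon
  have h1 := (valued_coe_lt_iff (K := F) v' π).1 (le_exp_of_lt_one (not_le.1 hcon))
  apply h
  apply HeightOneSpectrum.ext
  refine (v.isMaximal.eq_of_le v'.isPrime.ne_top ?_).symm
  rw [hπ, Ideal.span_singleton_le_iff_mem]
  exact h1

end KillK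

end Fermat.Agent.LT.Glob
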