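import Fermat.Agent.LT.Loc.SplitRing
import Fermat.Agent.LT.Glob.UnifInst
import Fermat.Agent.LT.Glob.TkerG

set_option autoImplicit false

/-!
# Hecke operators at the split places
-/

namespace Fermat.Agent.LT.Glob

open Matrix Fermat.Agent.LT.Loc
open scoped MatrixGroups

universe u w i

/-- transport of uniformisers -/
theorem Unif.ringEquiv {R R' : Type*} [CommRing R] [CommRing R'] (e : R ≃+* R') {O : Subring R}
    {O' : Subring R'} (hO : ∀ x, x ∈ O ↔ e x ∈ O') {ϖ' : R'ˣ} {B' : Finset R'}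
    (h : Unif O' ϖ' B') :
    Unif O (Units.mapEquiv (e.symm : R' ≃* R) ϖ') (B'.map e.symm.toEquiv.toEmbedding) := by
  have h1 : e ((Units.mapEquiv (e.symm : R' ≃* R) ϖ' : Rˣ) : R) = ϖ' := e.apply_symm_apply _
  have h2 : e (((Units.mapEquiv (e.symm : R' ≃* R) ϖ')⁻¹ : Rˣ) : R) = ((ϖ'⁻¹ : R'ˣ) : R') :=
    e.apply_symm_apply _
  have hB : ∀ b ∈ B'.map e.symm.toEquiv.toEmbedding, ∃ b' ∈ B', e b = b' := by
    intro b hb
    obtain ⟨b', hb', rfl⟩ := Finset.mem_map.1 hb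
    exact ⟨b', hb', e.apply_symm_apply _⟩
  refine ⟨?_, ?_, ?_, ?_, ?_, ?_⟩
  · rw [hO, h1]
    exact h.mem
  · rw [hO, h2]
    exact h.not_mem
  · intro b hb
    obtain ⟨b', hb', e1⟩ := hB b hb
    rw [hO, e1]
    exact h.sub b' hb'
  · intro x hx
    obtain ⟨b, hb, hb'⟩ := h.cover _ ((hO x).1 hx)
    refine ⟨e.symm b, Finset.mem_map.2 ⟨b, hb, rfl⟩, ?_⟩
    rw [hO, map_mul, map_sub, h2, e.apply_symm_apply]
    exact hb'
  · intro b hb b' hb' hbb
    obtain ⟨c, hc, e1⟩ := hB b hb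
    obtain ⟨c', hc', e2⟩ := hB b' hb'
    rw [hO, map_mul, map_sub, h2, e1, e2] at hbb
    exact e.injective (by rw [e1, e2, h.inj c hc c' hc' hbb])
  · intro x hx
    rcases h.field _ ((hO x).1 hx) with h3 | ⟨y, hy, h3⟩
    · left
      rw [hO, map_mul, h2]
      exact h3
    · right
      refine ⟨e.symm y, ?_, ?_⟩
      · rw [hO, e.apply_symm_apply]
        exact hy
      · rw [hO, map_mul, map_sub, map_mul, h2, e.apply_symm_apply, map_one]
        exact h3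

section Split

variable {R R₀ : Type u} [CommRing R] [CommRing R₀] {s : R ≃+* R} {i : R₀ →+* R} {π : R →+* R₀}

/-- the three projections -/
def pj (s : R ≃+* R) (π : R →+* R₀) : Fin 3 → (R →+* R₀)
  | 0 => π
  | 1 => π.comp (s : R →+* R)
  | 2 => (π.comp (s : R →+* R)).comp (s : R →+* R)

theorem pj_zero (s : R ≃+* R) (π : R →+* R₀) : pj s π 0 = π := rfl
theorem pj_one (s : R ≃+* R) (π : R →+* R₀) : pj s π 1 = π.comp (s : R →+* R) := rfl
theorem pj_two (s : R ≃+* R) (π : R →+* R₀) :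
    pj s π 2 = (π.comp (s : R →+* R)).comp (s : R →+* R) := rfl

theorem forall_fin3 {P : Fin 3 → Prop} : (∀ j, P j) ↔ P 0 ∧ P 1 ∧ P 2 := by
  rw [Fin.forall_fin_succ, Fin.forall_fin_two]; rfl

theorem isProdO_iff {O : Subring R} {O₀ : Subring R₀} (hO : IsProdO s π O O₀) (x : R) :
    x ∈ O ↔ ∀ j, pj s π j x ∈ O₀ := by
  rw [hO, forall_fin3]
  rfl

theorem pgl_map_pj (g : PGL(2, R)) :
    ProjGenLinGroup.map (pj s π 0) g = ProjGenLinGroup.map π g ∧
    ProjGenLinGroup.map (pj s π 1) g =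
      ProjGenLinGroup.map π (ProjGenLinGroup.map (s : R →+* R) g) ∧
    ProjGenLinGroup.map (pj s π 2) g = ProjGenLinGroup.map π
      (ProjGenLinGroup.map (s : R →+* R) (ProjGenLinGroup.map (s : R →+* R) g)) := by
  obtain ⟨g, rfl⟩ := ProjGenLinGroup.mk_surjective g
  exact ⟨rfl, rfl, rfl⟩

end Split

end Fermat.Agent.LT.Glob

namespace Fermat.Agent.LT.Loc.SplitRing

open Matrix Fermat.Agent.LT.Glob
open scoped MatrixGroups

universe u

variable {R R₀ : Type u} [CommRing R] [CommRing R₀] {s : R ≃+* R} {i : R₀ →+* R} {π : R →+* R₀}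
  (S : SplitRing s i π)
include S

theorem pj_inj {x y : R} (h : ∀ j, pj s π j x = pj s π j y) : x = y :=
  S.inj x y (h 0) (h 1) (h 2)

theorem pj_surj (a : Fin 3 → R₀) : ∃ x, ∀ j, pj s π j x = a j := by
  obtain ⟨x, h0, h1, h2⟩ := S.surj (a 0) (a 1) (a 2)
  exact ⟨x, forall_fin3.2 ⟨h0, h1, h2⟩⟩

/-- the ring is a product -/
noncomputable def equiv : R ≃+* (Fin 3 → R₀) :=
  RingEquiv.ofBijective (RingHom.pi (pj s π))
    ⟨fun _ _ h => S.pj_inj fun j => congrFun h j, fun a => by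
      obtain ⟨x, hx⟩ := S.pj_surj a
      exact ⟨x, funext hx⟩⟩

theorem equiv_apply (x : R) (j : Fin 3) : S.equiv x j = pj s π j x := rfl

/-- the unit with coordinate `ϖ` at `j` and `1` elsewhere -/
noncomputable def un3 (j : Fin 3) (ϖ : R₀ˣ) : Rˣ :=
  Units.mapEquiv (S.equiv.symm : (Fin 3 → R₀) ≃* R) (piU j ϖ)

theorem pj_un3 (j l : Fin 3) (ϖ : R₀ˣ) :
    Units.map (pj s π l : R →* R₀) (S.un3 j ϖ) = (Pi.mulSingle j ϖ : Fin 3 → R₀ˣ) l := by
  apply Units.ext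
  show pj s π l ((S.un3 j ϖ : Rˣ) : R) = _
  rw [← S.equiv_apply]
  show S.equiv (S.equiv.symm _) l = _
  rw [RingEquiv.apply_symm_apply]
  rfl

theorem pj_i (l : Fin 3) (a : R₀) : pj s π l (i a) = a := by
  fin_cases l
  · exact S.ret a
  · show π (s (i a)) = a
    rw [S.fix, S.ret]
  · show π (s (s (i a))) = a
    rw [S.fix, S.fix, S.ret]

theorem prod_un3 (ϖ : R₀ˣ) : ∏ j, S.un3 j ϖ = Units.map (i : R₀ →* R) ϖ := by
  apply Units.ext
  apply S.pj_inj
  intro l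
  have h1 : pj s π l ((∏ j, S.un3 j ϖ : Rˣ) : R) =
      ((Units.map (pj s π l : R →* R₀) (∏ j, S.un3 j ϖ) : R₀ˣ) : R₀) := rfl
  rw [h1, map_prod]
  simp only [S.pj_un3]
  have h2 : pj s π l ((Units.map (i : R₀ →* R) ϖ : Rˣ) : R) = ϖ := S.pj_i l _
  rw [h2]
  congr 1
  rw [Finset.prod_eq_single l]
  · rw [Pi.mulSingle_eq_same]
  · intro j _ hj
    rw [Pi.mulSingle_eq_of_ne (Ne.symm hj)]
  · intro h
    exact absurd (Finset.mem_univ l) h

/-- the representatives -/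
noncomputable def B3 (j : Fin 3) (B : Finset R₀) : Finset R :=
  (B.map ⟨Pi.single j, Pi.single_injective j⟩).map S.equiv.symm.toEquiv.toEmbedding

theorem card_B3 (j : Fin 3) (B : Finset R₀) : (S.B3 j B).card = B.card := by
  rw [B3, Finset.card_map, Finset.card_map]

variable {O : Subring R} {O₀ : Subring R₀} (hO : IsProdO s π O O₀)
include hO

theorem unif_un3 {ϖ : R₀ˣ} {B : Finset R₀} (h : Unif O₀ ϖ B) (j : Fin 3) :
    Unif O (S.un3 j ϖ) (S.B3 j B) :=
  Unif.ringEquiv S.equiv (O' := {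
      carrier := {x | ∀ l, x l ∈ O₀}
      mul_mem' := fun ha hb l => mul_mem (ha l) (hb l)
      add_mem' := fun ha hb l => add_mem (ha l) (hb l)
      one_mem' := fun _ => one_mem _
      zero_mem' := fun _ => zero_mem _
      neg_mem' := fun ha l => neg_mem (ha l) })
    (fun x => isProdO_iff hO x) (Unif.pi (O' := fun _ => O₀) (fun _ => Iff.rfl) h)

/-- the double coset -/
theorem mem_HS_un3 (j : Fin 3) (ϖ : R₀ˣ) (g : PGL(2, R)) : g ∈ HS O (S.un3 j ϖ) ↔
    ∀ l, (l = j → ProjGenLinGroup.map (pj s π l) g ∈ HS O₀ ϖ) ∧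
      (l ≠ j → ProjGenLinGroup.map (pj s π l) g ∈ PO O₀) := by
  have hPO : ∀ k : PGL(2, R), k ∈ PO O ↔ ∀ l, ProjGenLinGroup.map (pj s π l) k ∈ PO O₀ := by
    intro k
    rw [S.isProd3_PO hO k, forall_fin3, (pgl_map_pj k).1, (pgl_map_pj k).2.1, (pgl_map_pj k).2.2]
  have htri : ∀ l, ProjGenLinGroup.map (pj s π l) (ProjGenLinGroup.mk (tri (S.un3 j ϖ) 1 0)) =
      ProjGenLinGroup.mk (tri ((Pi.mulSingle j ϖ : Fin 3 → R₀ˣ) l) 1 0) := by
    intro l
    rw [ProjGenLinGroup.map_mk, ← S.pj_un3 j l ϖ]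
    congr 1
    apply Units.ext
    show ((tri (S.un3 j ϖ) 1 0 : GL (Fin 2) R) : Matrix (Fin 2) (Fin 2) R).map (pj s π l) = _
    rw [tri_coe, tri_coe]
    ext a b
    fin_cases a <;> fin_cases b <;> simp
  constructor
  · rintro ⟨k, hk, k', hk', rfl⟩ l
    rw [hPO] at hk hk'
    rw [map_mul, map_mul, htri]
    constructor
    · rintro rfl
      rw [Pi.mulSingle_eq_same]
      exact ⟨_, hk l, _, hk' l, rfl⟩
    · intro hl
      rw [Pi.mulSingle_eq_of_ne hl, LocFam.tri_one_zero, map_one, mul_one]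
      exact mul_mem (hk l) (hk' l)
  · intro h
    have h1 : ∀ l, ∃ k ∈ PO O₀, ∃ k' ∈ PO O₀, ProjGenLinGroup.map (pj s π l) g =
        k * ProjGenLinGroup.mk (tri ((Pi.mulSingle j ϖ : Fin 3 → R₀ˣ) l) 1 0) * k' := by
      intro l
      by_cases hl : l = j
      · obtain ⟨k, hk, k', hk', e⟩ := (h l).1 hl
        refine ⟨k, hk, k', hk', ?_⟩
        rw [e, hl, Pi.mulSingle_eq_same]
      · refine ⟨_, (h l).2 hl, 1, one_mem _, ?_⟩
        rw [Pi.mulSingle_eq_of_ne hl, LocFam.tri_one_zero, map_one, mul_one, mul_one]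
    choose k hk k' hk' e using h1
    obtain ⟨κ, h2, h3, h4⟩ := S.pgl_split3.surj (k 0) (k 1) (k 2)
    obtain ⟨κ', h2', h3', h4'⟩ := S.pgl_split3.surj (k' 0) (k' 1) (k' 2)
    have h5 : ∀ l, ProjGenLinGroup.map (pj s π l) κ = k l := by
      rw [forall_fin3, (pgl_map_pj κ).1, (pgl_map_pj κ).2.1, (pgl_map_pj κ).2.2]
      exact ⟨h2, h3, h4⟩
    have h5' : ∀ l, ProjGenLinGroup.map (pj s π l) κ' = k' l := by
      rw [forall_fin3, (pgl_map_pj κ').1, (pgl_map_pj κ').2.1, (pgl_map_pj κ').2.2]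
      exact ⟨h2', h3', h4'⟩
    have h6 : ∀ l, ProjGenLinGroup.map (pj s π l) g = ProjGenLinGroup.map (pj s π l)
        (κ * ProjGenLinGroup.mk (tri (S.un3 j ϖ) 1 0) * κ') := by
      intro l
      rw [map_mul, map_mul, htri, h5, h5', e]
    have h7 := fun x => pgl_map_pj (s := s) (π := π) x
    refine ⟨κ, (hPO κ).2 fun l => by rw [h5]; exact hk l, κ', (hPO κ').2 fun l => by
      rw [h5']; exact hk' l, S.pgl_split3.inj _ _ ?_ ?_ ?_⟩
    · rw [← (h7 _).1, ← (h7 _).1]; exact h6 0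
    · rw [← (h7 _).2.1, ← (h7 _).2.1]; exact h6 1
    · rw [← (h7 _).2.2, ← (h7 _).2.2]; exact h6 2

end Fermat.Agent.LT.Loc.SplitRing


namespace Fermat.Agent.LT.Glob

open Matrix Fermat.Agent.LT.Loc
open scoped MatrixGroups

universe w u i

namespace LocFam

section

variable {F : Type u} {F' : Type u} [Field F] [Field F'] {ι : Type i} {L : LocFam.{w} F ι}
  {L' : LocFam.{w} F' ι} {U : L.Level} {U' : L'.Level} {v : ι}

open Classical in
/-- the local symbol: the Hecke operator at one coordinate -/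
noncomputable def TTsel (j : Fin 3) (ϖ : (L.R v)ˣ) (hU : U.U v = PO (L.O v)) (l : Fin 3) :
    BiInv (U.U v) := if l = j then TTb ϖ hU else BiInv.unit (U.U v)

theorem TTsel_same (j : Fin 3) (ϖ : (L.R v)ˣ) (hU : U.U v = PO (L.O v)) :
    TTsel j ϖ hU j = TTb ϖ hU := if_pos rfl

theorem TTsel_ne {j l : Fin 3} (h : l ≠ j) (ϖ : (L.R v)ˣ) (hU : U.U v = PO (L.O v)) :
    TTsel j ϖ hU l = BiInv.unit (U.U v) := if_neg h

open Classical in
theorem TTsel_f (j l : Fin 3) (ϖ : (L.R v)ˣ) (hU : U.U v = PO (L.O v)) (g : L.G v) :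
    (TTsel j ϖ hU l).f g = if (l = j → g ∈ HS (L.O v) ϖ) ∧ (l ≠ j → g ∈ PO (L.O v))
      then 1 else 0 := by
  by_cases h : l = j
  · subst h
    rw [TTsel_same, TTb_f]
    refine if_congr ?_ rfl rfl
    simp
  · rw [TTsel_ne h, BiInv.unit_f]
    refine if_congr ?_ rfl rfl
    rw [hU]
    simp [h]

/-- **the Hecke operator in one coordinate of a split place is a tensor** -/
theorem TTb_un3 {s : L'.R v ≃+* L'.R v} {i : L.R v →+* L'.R v} {π : L'.R v →+* L.R v}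
    (S : SplitRing s i π) (hO : IsProdO s π (L'.O v) (L.O v)) (hU : U.U v = PO (L.O v))
    (hU' : U'.U v = PO (L'.O v))
    (hP : IsProd3 (ProjGenLinGroup.map (n := Fin 2) (s : L'.R v →+* L'.R v))
      (ProjGenLinGroup.map (n := Fin 2) π) (U'.U v) (U.U v)) (j : Fin 3) (ϖ : (L.R v)ˣ) :
    TTb (U := U') (S.un3 j ϖ) hU' = tens3 hP (TTsel j ϖ hU 0) (TTsel j ϖ hU 1)
      (TTsel j ϖ hU 2) := by
  classical
  apply BiInv.ext'
  intro g
  have h7 := pgl_map_pj (s := s) (π := π) g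
  rw [TTb_f, tens3_f, TTsel_f, TTsel_f, TTsel_f, ← h7.1, ← h7.2.1, ← h7.2.2]
  have h1 := (S.mem_HS_un3 hO j ϖ g).trans forall_fin3
  by_cases hg : g ∈ HS (L'.O v) (S.un3 j ϖ)
  · obtain ⟨h2, h3, h4⟩ := h1.1 hg
    rw [if_pos hg, if_pos h2, if_pos h3, if_pos h4, one_mul, one_mul]
  · rw [if_neg hg]
    by_contra hcon
    apply hg
    rw [h1]
    refine ⟨?_, ?_, ?_⟩
    · by_contra h2
      exact hcon (by rw [if_neg h2, zero_mul, zero_mul])
    · by_contra h2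
      exact hcon (by rw [if_neg h2, mul_zero, zero_mul])
    · by_contra h2
      exact hcon (by rw [if_neg h2, mul_zero])

end

end LocFam

end Fermat.Agent.LT.Glob
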