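import Fermat.Agent.LT.Glob.OExt

set_option autoImplicit false
set_option linter.unusedSectionVars false
set_option linter.unusedVariables false

/-!
# Split places: `RE E v = k_v × k_v × k_v` with the cyclic shift
-/

namespace Fermat.Agent.LT.Glob

open Matrix Filter IsDedekindDomain IsDedekindDomain.HeightOneSpectrum WithZero NumberField
open scoped MatrixGroups Topology

universe u

variable {k : Type u} [Field k] [NumberField k] {E : Type u} [Field E] [NumberField E]
  [Algebra k E] {v : HeightOneSpectrum (𝓞 k)}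

open LT.Loc

/-- an idempotent whose conjugates are an orthogonal decomposition of `1` -/
structure IsSplitIdem (σ : E ≃ₐ[k] E) (e : RE E v) : Prop where
  idem : e * e = e
  orth : e * sHom v σ e = 0
  sum : e + sHom v σ e + sHom v σ (sHom v σ e) = 1

/-- **Either `RE E v` is a field or it is split.** -/
theorem field_or_split {σ : E ≃ₐ[k] E} (h : Gal3 σ) (v : HeightOneSpectrum (𝓞 k)) :
    IsField (RE E v) ∨ ∃ e : RE E v, IsSplitIdem σ e :=
  (gal3_RE (v := v) h).dichotomy.imp id fun ⟨e, h1, h2, h3⟩ => ⟨e, h1, h2, h3⟩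

namespace IsSplitIdem

variable {σ : E ≃ₐ[k] E} {e : RE E v} (he : IsSplitIdem σ e)
include he

/-- the projection to `k_v` -/
noncomputable def pr (h : Gal3 σ) : RE E v →ₐ[v.adicCompletion k] v.adicCompletion k :=
  (gal3_RE (v := v) h).proj he.idem he.orth he.sum

theorem str_pr (h : Gal3 σ) (x : RE E v) : strE E v (he.pr h x) =
    e * x + sHom v σ (e * x) + sHom v σ (sHom v σ (e * x)) := by
  rw [map_mul, map_mul]
  exact (gal3_RE (v := v) h).algebraMap_proj he.idem he.orth he.sum x

/-- **helper28's structure** -/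
theorem splitRing (h : Gal3 σ) :
    SplitRing (sEquiv v σ) (strE E v) (he.pr h : RE E v →+* v.adicCompletion k) where
  cube x := (gal3_RE (v := v) h).cube x
  fix a := sHom_str σ a
  ret a := by
    change he.pr h (algebraMap (v.adicCompletion k) (RE E v) a) = a
    rw [AlgHom.commutes]
    rfl
  inj x y h0 h1 h2 := by
    refine ((gal3_RE (v := v) h).proj_bijective he.idem he.orth he.sum).injective ?_
    exact Prod.ext h0 (Prod.ext h1 h2)
  surj a b c := by
    obtain ⟨x, hx⟩ := ((gal3_RE (v := v) h).proj_bijective he.idem he.orth he.sum).surjective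
      (a, b, c)
    exact ⟨x, congrArg Prod.fst hx, congrArg (fun z => z.2.1) hx, congrArg (fun z => z.2.2) hx⟩

theorem mem_OE : e ∈ OE E v := by
  apply mem_OE_of_isIntegral (k := k)
  refine ⟨Polynomial.X ^ 2 - Polynomial.X, by monicity!, ?_⟩
  simp [pow_two, he.idem]

theorem pr_mem (h : Gal3 σ) {x : RE E v} (hx : x ∈ OE E v) : he.pr h x ∈ Oc v := by
  rw [← strE_mem (E := E), he.str_pr]
  have h1 := mul_mem he.mem_OE hx
  exact add_mem (add_mem h1 (sHom_mem σ h1)) (sHom_mem σ (sHom_mem σ h1))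

theorem eq_sum (h : Gal3 σ) (x : RE E v) : x = e * strE E v (he.pr h x) +
    sHom v σ (sHom v σ e) * strE E v (he.pr h (sHom v σ x)) +
      sHom v σ e * strE E v (he.pr h (sHom v σ (sHom v σ x))) := by
  have hc : ∀ y, sHom v σ (sHom v σ (sHom v σ y)) = y := (gal3_RE (v := v) h).cube
  have h1 := he.orth
  have h2 : sHom v σ e * sHom v σ (sHom v σ e) = 0 := by
    rw [← map_mul, h1, map_zero]
  have h3 : sHom v σ (sHom v σ e) * e = 0 := by
    have : sHom v σ (sHom v σ e * sHom v σ (sHom v σ e)) = 0 := by rw [h2, map_zero]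
    rwa [map_mul, hc] at this
  have h0 := he.idem
  have h4 : sHom v σ e * sHom v σ e = sHom v σ e := by rw [← map_mul, h0]
  have h5 : sHom v σ (sHom v σ e) * sHom v σ (sHom v σ e) = sHom v σ (sHom v σ e) := by
    rw [← map_mul, h4]
  have ht := he.sum
  rw [he.str_pr, he.str_pr, he.str_pr]
  simp only [map_mul, hc]
  linear_combination (-x) * ht - x * h0 - x * h4 - x * h5 - (sHom v σ x + sHom v σ (sHom v σ x)) * h1
        - (sHom v σ x + sHom v σ (sHom v σ x)) * h2 - (sHom v σ x + sHom v σ (sHom v σ x)) * h3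

/-- the order is the product of the orders -/
theorem isProdO (h : Gal3 σ) :
    IsProdO (sEquiv v σ) (he.pr h : RE E v →+* v.adicCompletion k) (OE E v) (Oc v) := by
  intro x
  refine ⟨fun hx => ⟨he.pr_mem h hx, he.pr_mem h (sHom_mem σ hx),
    he.pr_mem h (sHom_mem σ (sHom_mem σ hx))⟩, fun ⟨h0, h1, h2⟩ => ?_⟩
  rw [he.eq_sum h x]
  have h0' : he.pr h x ∈ Oc v := h0
  have h1' : he.pr h (sHom v σ x) ∈ Oc v := h1
  have h2' : he.pr h (sHom v σ (sHom v σ x)) ∈ Oc v := h2
  have hes := he.mem_OE
  exact add_mem (add_mem (mul_mem hes (strE_mem.2 h0'))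
    (mul_mem (sHom_mem σ (sHom_mem σ hes)) (strE_mem.2 h1')))
    (mul_mem (sHom_mem σ hes) (strE_mem.2 h2'))

end IsSplitIdem

end Fermat.Agent.LT.Glob
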