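import Fermat.Agent.LT.Glob.Good
import Fermat.Agent.LT.Glob.SplitE
import Fermat.Agent.LT.Glob.KillSplit
import Fermat.Agent.LT.Glob.TkerG

set_option autoImplicit false
set_option linter.unusedSectionVars false
set_option linter.unusedVariables false

/-!
# Places above a split place and the three coordinates
-/

namespace Fermat.Agent.LT.Glob

open Matrix Filter IsDedekindDomain IsDedekindDomain.HeightOneSpectrum WithZero NumberField
open scoped MatrixGroups Topology

section HS

variable {R : Type*} [CommRing R]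

/-- the double coset depends only on the class of the prime element modulo units -/
theorem HS_subset {O : Subring R} {ϖ ϖ' : Rˣ} (h : ϖ * ϖ'⁻¹ ∈ OU O) : HS O ϖ ⊆ HS O ϖ' := by
  rintro g ⟨k₁, hk, k₂, hk', rfl⟩
  refine ⟨k₁ * ProjGenLinGroup.mk (tri (ϖ * ϖ'⁻¹) 1 0), mul_mem hk (mk_mem_PO
    (tri_mem h (one_mem _) O.zero_mem)), k₂, hk', ?_⟩
  have e1 : tri ϖ 1 0 = tri (ϖ * ϖ'⁻¹) 1 0 * tri ϖ' 1 0 := by
    rw [tri_mul]
    congr 1 <;> simp
  rw [e1, map_mul]
  simp only [mul_assoc]

theorem HS_congr {O : Subring R} {ϖ ϖ' : Rˣ} (h : ϖ * ϖ'⁻¹ ∈ OU O) : HS O ϖ = HS O ϖ' := by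
  refine Set.Subset.antisymm (HS_subset h) (HS_subset ?_)
  have := inv_mem h
  rwa [_root_.mul_inv_rev, inv_inv] at this

end HS

section TT

universe w u i

variable {F : Type u} [Field F] {ι : Type i} {L : LocFam.{w} F ι} {U : L.Level} {v : ι}

theorem LocFam.TTb_congr {ϖ ϖ' : (L.R v)ˣ} (h : ϖ * ϖ'⁻¹ ∈ OU (L.O v))
    (hU : U.U v = PO (L.O v)) (g : L.G v) :
    (LocFam.TTb ϖ hU).f g = (LocFam.TTb ϖ' hU).f g := by
  classical
  rw [LocFam.TTb_f, LocFam.TTb_f, HS_congr h]

end TT

universe u

variable {k : Type u} [Field k] [NumberField k] {E : Type u} [Field E] [NumberField E]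
  [Algebra k E] {v : HeightOneSpectrum (𝓞 k)}

open LT.Loc

namespace IsSplitIdem

variable {σ : E ≃ₐ[k] E} {e : RE E v} (he : IsSplitIdem σ e)
include he

/-- the coordinates -/
noncomputable abbrev cj (h : Gal3 σ) (j : Fin 3) : RE E v →+* v.adicCompletion k :=
  pj (sEquiv v σ) (he.pr h : RE E v →+* v.adicCompletion k) j

theorem exists_place (h : Gal3 σ) (j : Fin 3) : ∃ w : Fib E v, ∀ x : RE E v,
    (∀ l, he.cj h l x = if l = j then 1 else 0) → x w = 1 ∧ ∀ w' ≠ w, x w' = 0 := by
  classical
  have S := he.splitRing h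
  obtain ⟨ε, hε⟩ := S.pj_surj (fun l => if l = j then 1 else 0)
  have hid : ε * ε = ε := S.pj_inj fun l => by
    rw [map_mul, hε]
    split_ifs <;> simp
  have hid' : ∀ w, ε w = 0 ∨ ε w = 1 := by
    intro w
    have h1 := congrFun hid w
    rw [Pi.mul_apply] at h1
    by_cases h0 : ε w = 0
    · exact Or.inl h0
    · right
      exact mul_left_cancel₀ h0 (by rw [h1, mul_one])
  have hne : ∃ w, ε w ≠ 0 := by
    by_contra hcon
    push Not at hcon
    have h0 : ε = 0 := funext hcon
    have h1 := hε j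
    rw [h0, map_zero, if_pos rfl] at h1
    exact zero_ne_one h1
  obtain ⟨w, hw⟩ := hne
  have hw1 : ε w = 1 := (hid' w).resolve_left hw
  refine ⟨w, fun x hx => ?_⟩
  have hxε : x = ε := S.pj_inj fun l => by rw [hx l, hε l]
  -- compare with the minimal idempotent
  set f : RE E v := Pi.single w 1 with hf
  have hfε : f * ε = f := by
    funext w'
    rw [Pi.mul_apply]
    by_cases hw' : w' = w
    · subst hw'
      rw [hw1, mul_one]
    · rw [hf, Pi.single_eq_of_ne hw', zero_mul]
  have hff : f * f = f := by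
    funext w'
    rw [Pi.mul_apply]
    by_cases hw' : w' = w
    · subst hw'
      rw [hf, Pi.single_eq_same, mul_one]
    · rw [hf, Pi.single_eq_of_ne hw', zero_mul]
  have hfl : ∀ l, l ≠ j → he.cj h l f = 0 := by
    intro l hl
    rw [← hfε, map_mul, hε, if_neg hl, mul_zero]
  have hfj : he.cj h j f = 1 := by
    have h1 : he.cj h j f * he.cj h j f = he.cj h j f := by rw [← map_mul, hff]
    have h0 : he.cj h j f ≠ 0 := by
      intro h0
      have : f = 0 := S.pj_inj fun l => by
        rw [map_zero]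
        by_cases hl : l = j
        · rw [hl]; exact h0
        · exact hfl l hl
      have h2 := congrFun this w
      rw [hf, Pi.single_eq_same] at h2
      exact one_ne_zero h2
    exact mul_left_cancel₀ h0 (by rw [h1, mul_one])
  have hfε' : f = ε := S.pj_inj fun l => by
    rw [hε]
    by_cases hl : l = j
    · rw [hl, if_pos rfl]; exact hfj
    · rw [if_neg hl]; exact hfl l hl
  rw [hxε, ← hfε']
  exact ⟨by rw [hf, Pi.single_eq_same], fun w' hw' => by rw [hf, Pi.single_eq_of_ne hw']⟩

/-- the place of the coordinate `j` -/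
noncomputable def plc (h : Gal3 σ) (j : Fin 3) : Fib E v := (he.exists_place h j).choose

theorem plc_spec (h : Gal3 σ) (j : Fin 3) (x : RE E v)
    (hx : ∀ l, he.cj h l x = if l = j then 1 else 0) :
    x (he.plc h j) = 1 ∧ ∀ w' ≠ he.plc h j, x w' = 0 :=
  (he.exists_place h j).choose_spec x hx

/-- the component of `x` at the place `plc j` is the coordinate `j` -/
theorem apply_plc (h : Gal3 σ) (j : Fin 3) (x : RE E v) :
    x (he.plc h j) = ext (above_fib (he.plc h j)) (he.cj h j x) := by
  have S := he.splitRing h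
  obtain ⟨ε, hε⟩ := S.pj_surj (fun l => if l = j then 1 else 0)
  have h1 : x * ε = strE E v (he.cj h j x) * ε := S.pj_inj fun l => by
    rw [map_mul, map_mul, S.pj_i, hε]
    by_cases hl : l = j
    · subst hl; rfl
    · rw [if_neg hl, mul_zero, mul_zero]
  have h2 := congrFun h1 (he.plc h j)
  rw [Pi.mul_apply, Pi.mul_apply, (he.plc_spec h j ε hε).1, mul_one, mul_one] at h2
  exact h2

theorem plc_injective (h : Gal3 σ) : Function.Injective (he.plc h) := by
  intro j l hjl
  have S := he.splitRing h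
  obtain ⟨ε, hε⟩ := S.pj_surj (fun i => if i = j then 1 else 0)
  have h1 := (he.plc_spec h j ε hε).1
  rw [hjl, he.apply_plc h l ε] at h1
  have h2 : he.cj h l ε = 1 := by
    apply (ext (above_fib (he.plc h l))).injective
    rw [h1, map_one]
  rw [hε] at h2
  by_contra hne
  rw [if_neg (Ne.symm hne)] at h2
  exact zero_ne_one h2

theorem plc_surjective (h : Gal3 σ) : Function.Surjective (he.plc h) := by
  classical
  intro w
  have S := he.splitRing h
  set f : RE E v := Pi.single w 1 with hf
  have hne : ∃ l, he.cj h l f ≠ 0 := by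
    by_contra hcon
    push Not at hcon
    have : f = 0 := S.pj_inj fun l => by rw [map_zero]; exact hcon l
    have h2 := congrFun this w
    rw [hf, Pi.single_eq_same] at h2
    exact one_ne_zero h2
  obtain ⟨l, hl⟩ := hne
  refine ⟨l, ?_⟩
  by_contra hne
  have h1 := he.apply_plc h l f
  rw [hf, Pi.single_eq_of_ne hne] at h1
  exact hl ((map_eq_zero (ext (above_fib (he.plc h l)))).1 h1.symm)

/-- **the places above a split place** -/
noncomputable def fib (h : Gal3 σ) : Fin 3 ≃ Fib E v :=
  Equiv.ofBijective (he.plc h) ⟨he.plc_injective h, he.plc_surjective h⟩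

theorem fib_apply (h : Gal3 σ) (j : Fin 3) : he.fib h j = he.plc h j := rfl

theorem ext_surjective (h : Gal3 σ) (j : Fin 3) :
    Function.Surjective (ext (above_fib (he.plc h j))) := by
  classical
  intro y
  refine ⟨he.cj h j (Pi.single (he.plc h j) y), ?_⟩
  rw [← he.apply_plc h j (Pi.single (he.plc h j) y), Pi.single_eq_same]

theorem ram_plc (h : Gal3 σ) (j : Fin 3) :
    v.asIdeal.ramificationIdx' (he.plc h j).1.asIdeal = 1 := by
  obtain ⟨z, hz⟩ := he.ext_surjective h j (unif (he.plc h j).1)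
  have h1 := valued_ext (above_fib (he.plc h j)) z
  rw [hz, valued_unif] at h1
  have hz0 : Valued.v z ≠ 0 := by
    intro h0
    rw [h0, zero_pow (above_fib (he.plc h j)).1] at h1
    exact exp_ne_zero h1
  rw [← exp_log hz0, ← WithZero.exp_nsmul, exp_inj, nsmul_eq_mul] at h1
  have h2 : (v.asIdeal.ramificationIdx' (he.plc h j).1.asIdeal : ℤ) ∣ 1 :=
    ⟨-log (Valued.v z), by rw [mul_neg, ← h1]; norm_num⟩
  have h3 := Int.eq_one_of_dvd_one (by positivity) h2
  exact_mod_cast h3

theorem valued_apply_plc (h : Gal3 σ) (j : Fin 3) (x : RE E v) :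
    Valued.v (x (he.plc h j)) = Valued.v (he.cj h j x) := by
  rw [he.apply_plc h j x, valued_ext, he.ram_plc, pow_one]

/-- **helper19's prime elements `un3 j ϖ` and the prime elements `unifE w`** -/
theorem un3_mem (h : Gal3 σ) (j : Fin 3) {ϖ : (v.adicCompletion k)ˣ}
    (hϖ : Valued.v (ϖ : v.adicCompletion k) = exp (-1 : ℤ)) :
    (he.splitRing h).un3 j ϖ * (unifE (he.plc h j))⁻¹ ∈ OU (OE E v) := by
  have S := he.splitRing h
  rw [mem_OU_OE]
  intro w
  obtain ⟨l, rfl⟩ := he.plc_surjective h w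
  rw [Units.val_mul, Pi.mul_apply, map_mul, he.valued_apply_plc]
  have h1 : he.cj h l (((he.splitRing h).un3 j ϖ : (RE E v)ˣ) : RE E v) =
      ((Pi.mulSingle j ϖ : Fin 3 → (v.adicCompletion k)ˣ) l : v.adicCompletion k) :=
    congrArg Units.val ((he.splitRing h).pj_un3 j l ϖ)
  rw [h1]
  by_cases hl : l = j
  · subst hl
    rw [Pi.mulSingle_eq_same, hϖ, unifE_inv_same, valued_unif_inv, ← exp_add]
    simp
  · rw [Pi.mulSingle_eq_of_ne hl, unifE_inv_ne (fun hp => hl (he.plc_injective h hp)),
      Units.val_one, map_one, map_one, mul_one]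

theorem HS_un3 (h : Gal3 σ) (j : Fin 3) {ϖ : (v.adicCompletion k)ˣ}
    (hϖ : Valued.v (ϖ : v.adicCompletion k) = exp (-1 : ℤ)) :
    HS (OE E v) ((he.splitRing h).un3 j ϖ) = HS (OE E v) (unifE (he.plc h j)) :=
  HS_congr (he.un3_mem h j hϖ)

theorem TTb_un3_apply (h : Gal3 σ) (j : Fin 3) {ϖ : (v.adicCompletion k)ˣ}
    (hϖ : Valued.v (ϖ : v.adicCompletion k) = exp (-1 : ℤ)) {U : (locE k E).Level}
    (hU : U.U v = PO ((locE k E).O v)) (g : (locE k E).G v) :
    (LocFam.TTb (L := locE k E) ((he.splitRing h).un3 j ϖ) hU).f g =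
      (LocFam.TTb (L := locE k E) (unifE (he.plc h j)) hU).f g :=
  LocFam.TTb_congr (L := locE k E) (he.un3_mem h j hϖ) hU g

/-- the norms -/
theorem absNorm_plc (h : Gal3 σ) (j : Fin 3) :
    Ideal.absNorm (he.plc h j).1.asIdeal = Ideal.absNorm v.asIdeal := by
  rw [← natCard_residueField, ← natCard_residueField]
  let f : v.adicCompletionIntegers k →+* (he.plc h j).1.adicCompletionIntegers E :=
    (ext (above_fib (he.plc h j))).restrict (v.adicCompletionIntegers k)
      ((he.plc h j).1.adicCompletionIntegers E) fun x hx =>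
        (ext_mem_Oc (above_fib (he.plc h j))).2 hx
  have hf : Function.Bijective f := by
    constructor
    · intro x y hxy
      exact Subtype.ext ((ext (above_fib (he.plc h j))).injective (congrArg Subtype.val hxy))
    · intro y
      obtain ⟨x, hx⟩ := he.ext_surjective h j y
      refine ⟨⟨x, ?_⟩, Subtype.ext hx⟩
      have h1 : ext (above_fib (he.plc h j)) x ∈ Oc (he.plc h j).1 := by
        rw [hx]; exact y.2
      exact (ext_mem_Oc (above_fib (he.plc h j))).1 h1
  exact (Nat.card_congr (IsLocalRing.ResidueField.mapEquiv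
    (RingEquiv.ofBijective f hf)).toEquiv).symm

/-- the action on the coordinates -/
theorem cj_s (h : Gal3 σ) (l : Fin 3) (x : RE E v) :
    he.cj h l (sHom v σ x) = he.cj h (l + 1) x := by
  fin_cases l
  · rfl
  · rfl
  · change he.pr h (sHom v σ (sHom v σ (sHom v σ x))) = he.pr h x
    have hc : sHom v σ (sHom v σ (sHom v σ x)) = x := (gal3_RE (v := v) h).cube x
    rw [hc]

end IsSplitIdem

end Fermat.Agent.LT.Glob
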