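import Fermat.Agent.LT.Glob.KillSplit
import Fermat.Agent.LT.Glob.SplitE

set_option autoImplicit false
set_option linter.unusedSectionVars false

/-!
# Killing data for `k` and `E` at a principal prime which splits in `E`
-/

namespace Fermat.Agent.LT.Glob

open Matrix Filter IsDedekindDomain IsDedekindDomain.HeightOneSpectrum WithZero NumberField
open Fermat.Agent.LT.Loc
open scoped MatrixGroups

universe w u i

namespace LocFam

section KillAt

variable {F : Type u} [Field F] [NumberField F] {ι : Type i} [DecidableEq ι]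
  {L : LocFam.{w} F ι} {U : L.Level}
  {N : ℕ} {v₀ : ι} {x : Fˣ}

omit [NumberField F] in
theorem rel_at (hN : ∀ v, PK (L.O v) N ≤ U.U v)
    (hx1 : ∃ y : F, IsIntegral ℤ y ∧ (x : F) - 1 = N * y)
    (hxu : ∀ v, v ≠ v₀ → L.un v x ∈ OU (L.O v)) {J : Type*} [Fintype J] (ϖ : J → (L.R v₀)ˣ)
    (k : J → ℕ) (hprod : ∏ j, ϖ j ^ k j = L.un v₀ x) (v : ι) :
    ∃ c ∈ OU (L.O v), ∃ N : ℕ, PK (L.O v) N ≤ U.U v ∧
      (c : L.R v) - 1 ∈ NO (L.O v) N ∧
      L.un v x = (∏ j, (Pi.mulSingle v₀ (ϖ j ^ k j) : ∀ v, (L.R v)ˣ) v) * c := by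
  by_cases hv : v = v₀
  · subst hv
    refine ⟨1, one_mem _, N, hN v, ?_, ?_⟩
    · rw [Units.val_one, sub_self]
      exact zero_mem _
    · rw [mul_one, ← hprod]
      refine Finset.prod_congr rfl fun j _ => ?_
      rw [Pi.mulSingle_eq_same]
  · refine ⟨L.un v x, hxu v hv, N, hN v, ?_, ?_⟩
    · obtain ⟨y, hy, e⟩ := hx1
      refine ⟨L.loc v y, (L.isIntegral_iff y).1 hy v, ?_⟩
      rw [un_coe, ← map_one (L.loc v), ← map_sub, e, map_mul, map_natCast]
    · rw [Finset.prod_eq_one, one_mul]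
      intro j _
      rw [Pi.mulSingle_eq_of_ne hv]

/-- killing data at one place -/
noncomputable def killAt (hN : ∀ v, PK (L.O v) N ≤ U.U v) (hU : U.U v₀ = PO (L.O v₀))
    {J : Type*} [Fintype J] (ϖ : J → (L.R v₀)ˣ) (B : J → Finset (L.R v₀))
    (h : ∀ j, Unif (L.O v₀) (ϖ j) (B j)) (x : Fˣ)
    (hx1 : ∃ y : F, IsIntegral ℤ y ∧ (x : F) - 1 = N * y)
    (hxu : ∀ v, v ≠ v₀ → L.un v x ∈ OU (L.O v)) (hprod : ∏ j, ϖ j = L.un v₀ x)
    (hnorm : |Algebra.norm ℚ (x : F)| = ∏ j, ((B j).card : ℚ)) :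
    Kill.KillRel F (D U) L.IdH (QU U) J :=
  killRel (fun _ => v₀) ϖ B h (fun _ => hU) (fun _ => 1) x
    (rel_at hN hx1 hxu ϖ (fun _ => 1) (by simpa using hprod)) (by simpa using hnorm)

section

variable (hN : ∀ v, PK (L.O v) N ≤ U.U v) (hU : U.U v₀ = PO (L.O v₀))
    {J : Type*} [Fintype J] (ϖ : J → (L.R v₀)ˣ) (B : J → Finset (L.R v₀))
    (h : ∀ j, Unif (L.O v₀) (ϖ j) (B j)) (x : Fˣ)
    (hx1 : ∃ y : F, IsIntegral ℤ y ∧ (x : F) - 1 = N * y)
    (hxu : ∀ v, v ≠ v₀ → L.un v x ∈ OU (L.O v)) (hprod : ∏ j, ϖ j = L.un v₀ x)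
    (hnorm : |Algebra.norm ℚ (x : F)| = ∏ j, ((B j).card : ℚ))

theorem killAt_T (j : J) : (killAt hN hU ϖ B h x hx1 hxu hprod hnorm).T j = Tker (h j) hU := rfl

theorem killAt_T' (j : J) : (killAt hN hU ϖ B h x hx1 hxu hprod hnorm).T j =
    (GFun.single v₀ (TTh (h j) hU)).toDKer := Tker_eq (h j) hU

theorem killAt_q (j : J) : (killAt hN hU ϖ B h x hx1 hxu hprod hnorm).q j = (B j).card := rfl

theorem killAt_k (j : J) : (killAt hN hU ϖ B h x hx1 hxu hprod hnorm).k j = 1 := rfl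

theorem killAt_x : (killAt hN hU ϖ B h x hx1 hxu hprod hnorm).x = x := rfl

theorem killAt_t (j : J) : (killAt hN hU ϖ B h x hx1 hxu hprod hnorm).t j = singleH v₀ (ϖ j) :=
  rfl

end

end KillAt

end LocFam

/-- the `k`-side function of the symbol `TTsel` -/
theorem LocFam.conv_TTsel {F : Type u} [Field F] {ι : Type i} {L : LocFam.{w} F ι} {U : L.Level}
    {v : ι} (j : Fin 3) (ϖ : (L.R v)ˣ) (hU : U.U v = PO (L.O v)) :
    (LocFam.TTsel j ϖ hU 0).conv ((LocFam.TTsel j ϖ hU 1).conv (LocFam.TTsel j ϖ hU 2)) =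
      LocFam.TTb ϖ hU := by
  have h01 : (0 : Fin 3) ≠ 1 := by decide
  have h02 : (0 : Fin 3) ≠ 2 := by decide
  have h12 : (1 : Fin 3) ≠ 2 := by decide
  fin_cases j
  · show (LocFam.TTsel 0 ϖ hU 0).conv ((LocFam.TTsel 0 ϖ hU 1).conv (LocFam.TTsel 0 ϖ hU 2)) = _
    rw [LocFam.TTsel_same, LocFam.TTsel_ne h01.symm, LocFam.TTsel_ne h02.symm, BiInv.unit_conv,
      BiInv.conv_unit]
  · show (LocFam.TTsel 1 ϖ hU 0).conv ((LocFam.TTsel 1 ϖ hU 1).conv (LocFam.TTsel 1 ϖ hU 2)) = _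
    rw [LocFam.TTsel_same, LocFam.TTsel_ne h01, LocFam.TTsel_ne h12.symm, BiInv.unit_conv,
      BiInv.conv_unit]
  · show (LocFam.TTsel 2 ϖ hU 0).conv ((LocFam.TTsel 2 ϖ hU 1).conv (LocFam.TTsel 2 ϖ hU 2)) = _
    rw [LocFam.TTsel_same, LocFam.TTsel_ne h02, LocFam.TTsel_ne h12, BiInv.unit_conv,
      BiInv.unit_conv]

/-! ### A principal prime -/

section Prime

variable {F : Type u} [Field F] [NumberField F] {v₀ : HeightOneSpectrum (𝓞 F)} {π : 𝓞 F}

theorem ne_zero_of_span (hπ : v₀.asIdeal = Ideal.span {π}) : π ≠ 0 := by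
  rintro rfl
  apply v₀.ne_bot
  rw [hπ, Ideal.span_singleton_eq_bot]

/-- the generator as a unit of the field -/
noncomputable def piF (hπ : v₀.asIdeal = Ideal.span {π}) : Fˣ :=
  Units.mk0 (π : F) (by
    rw [Ne, NumberField.RingOfIntegers.coe_eq_zero_iff]
    exact ne_zero_of_span hπ)

@[simp] theorem piF_coe (hπ : v₀.asIdeal = Ideal.span {π}) : (piF hπ : F) = (π : F) := rfl

theorem abs_norm_pi (hπ : v₀.asIdeal = Ideal.span {π}) :
    |Algebra.norm ℚ (π : F)| = Nat.card (𝓞 F ⧸ v₀.asIdeal) := by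
  have h1 : Nat.card (𝓞 F ⧸ v₀.asIdeal) = (Algebra.norm ℤ π).natAbs := by
    rw [← Submodule.cardQuot_apply, ← Ideal.absNorm_apply, hπ, Ideal.absNorm_span_singleton]
  rw [h1, ← Algebra.coe_norm_int, Nat.cast_natAbs, Int.cast_abs]

/-- the uniformiser -/
noncomputable def piV (hπ : v₀.asIdeal = Ideal.span {π}) : (v₀.adicCompletion F)ˣ :=
  (locK F).un v₀ (piF hπ)

theorem piV_coe (hπ : v₀.asIdeal = Ideal.span {π}) :
    (piV hπ : v₀.adicCompletion F) = algebraMap F (v₀.adicCompletion F) (π : F) := rfl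

theorem unif_piV (hπ : v₀.asIdeal = Ideal.span {π}) : Unif (Oc v₀) (piV hπ) (resB F v₀) :=
  unif_Oc_of v₀ (by rw [piV_coe]; exact valued_of_span hπ)

theorem un_mem_OU (hπ : v₀.asIdeal = Ideal.span {π}) {v : HeightOneSpectrum (𝓞 F)}
    (hv : v ≠ v₀) : (locK F).un v (piF hπ) ∈ OU (Oc v) := by
  have h1 := valued_of_span_ne hv hπ
  have h2 : Valued.v (algebraMap F (v.adicCompletion F) ((piF hπ)⁻¹ : Fˣ)) = 1 := by
    rw [Units.val_inv_eq_inv_val, map_inv₀, map_inv₀, piF_coe, h1, inv_one]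
  exact ⟨h1.le, h2.le⟩

end Prime

section KE

variable {k : Type u} [Field k] [NumberField k] {v₀ : HeightOneSpectrum (𝓞 k)} {π : 𝓞 k}
  (hπ : v₀.asIdeal = Ideal.span {π}) {N : ℕ} (hπN : (N : 𝓞 k) ∣ π - 1)

open Classical in
/-- **Killing data for `k`.** -/
noncomputable def killK {U : (locK k).Level} (hN : ∀ v, PK (Oc v) N ≤ U.U v)
    (hU : U.U v₀ = PO (Oc v₀)) :
    Kill.KillRel k (LocFam.D U) (locK k).IdH (LocFam.QU U) (Fin 3) :=
  LocFam.killAt (L := locK k) (x := piF hπ ^ 3) hN hU (fun _ => piV hπ) (fun _ => resB k v₀)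
    (fun _ => unif_piV hπ)
    (by
      obtain ⟨y, hy⟩ := hπN
      refine ⟨((y * (π ^ 2 + π + 1) : 𝓞 k) : k), RingOfIntegers.isIntegral_coe _, ?_⟩
      have h1 : π ^ 3 - 1 = (N : 𝓞 k) * (y * (π ^ 2 + π + 1)) := by
        rw [← mul_assoc, ← hy]; ring
      have h2 := congrArg (algebraMap (𝓞 k) k) h1
      rw [map_sub, map_pow, map_one, map_mul, map_natCast] at h2
      exact h2)
    (fun v hv => by
      rw [map_pow]
      exact pow_mem (un_mem_OU hπ hv) 3)
    (by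
      have h1 : ∏ _j : Fin 3, piV hπ = piV hπ ^ 3 := by
        rw [Finset.prod_const, Finset.card_univ, Fintype.card_fin]
      exact h1.trans (map_pow ((locK k).un v₀) (piF hπ) 3).symm)
    (by
      have h1 : ∏ _j : Fin 3, ((resB k v₀).card : ℚ) =
          |Algebra.norm ℚ ((piF hπ ^ 3 : kˣ) : k)| := by
        rw [Finset.prod_const, Finset.card_univ, Fintype.card_fin, card_resB, ← abs_norm_pi hπ,
          Units.val_pow_eq_pow_val, map_pow, abs_pow]
        rfl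
      exact h1.symm)

theorem killK_T {U : (locK k).Level} (hN : ∀ v, PK (Oc v) N ≤ U.U v)
    (hU : U.U v₀ = PO (Oc v₀)) (j : Fin 3) : (killK hπ hπN hN hU).T j =
      (LocFam.GFun.single v₀ (LocFam.TTh (L := locK k) (unif_piV hπ) hU)).toDKer :=
  LocFam.Tker_eq _ _

theorem killK_q {U : (locK k).Level} (hN : ∀ v, PK (Oc v) N ≤ U.U v)
    (hU : U.U v₀ = PO (Oc v₀)) (j : Fin 3) :
    (killK hπ hπN hN hU).q j = Nat.card (𝓞 k ⧸ v₀.asIdeal) := card_resB v₀

variable {E : Type u} [Field E] [NumberField E] [Algebra k E] {σ : E ≃ₐ[k] E} (hσ : Gal3 σ)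
  (hE : Module.finrank k E = 3) {e : RE E v₀} (he : IsSplitIdem σ e)

/-- the generator as a unit of `E` -/
noncomputable def piE (E : Type u) [Field E] [Algebra k E] (hπ : v₀.asIdeal = Ideal.span {π}) :
    Eˣ := Units.map (algebraMap k E : k →* E) (piF hπ)

theorem un_piE (v : HeightOneSpectrum (𝓞 k)) : (locE k E).un v (piE E hπ) =
    Units.map (strE E v : v.adicCompletion k →* RE E v) ((locK k).un v (piF hπ)) := by
  apply Units.ext
  exact (strE_coe (v := v) _).symm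

open Classical in
/-- **Killing data for `E`** at a prime of `k` split in `E`. -/
noncomputable def killE {U : (locE k E).Level} (hN : ∀ v, PK (OE E v) N ≤ U.U v)
    (hU : U.U v₀ = PO (OE E v₀)) :
    Kill.KillRel E (LocFam.D U) (locE k E).IdH (LocFam.QU U) (Fin 3) :=
  LocFam.killAt (L := locE k E) (x := piE E hπ) hN hU
    (fun j => (he.splitRing hσ).un3 j (piV hπ))
    (fun j => (he.splitRing hσ).B3 j (resB k v₀))
    (fun j => (he.splitRing hσ).unif_un3 (he.isProdO hσ) (unif_piV hπ) j)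
    (by
      obtain ⟨y, hy⟩ := hπN
      refine ⟨algebraMap k E (y : k), ?_, ?_⟩
      · exact (RingOfIntegers.isIntegral_coe y).algebraMap
      · have h2 := congrArg (algebraMap k E) (congrArg (algebraMap (𝓞 k) k) hy)
        rw [map_sub, map_sub, map_one, map_one, map_mul, map_mul, map_natCast, map_natCast] at h2
        exact h2)
    (fun v hv => by
      rw [un_piE]
      obtain ⟨h1, h2⟩ := un_mem_OU hπ hv
      exact ⟨strE_mem.2 h1, strE_mem.2 h2⟩)
    (by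
      rw [SplitRing.prod_un3, un_piE]
      rfl)
    (by
      simp only [SplitRing.card_B3]
      rw [Finset.prod_const, Finset.card_univ, Fintype.card_fin, card_resB, ← abs_norm_pi hπ]
      show |Algebra.norm ℚ (algebraMap k E (π : k))| = _
      rw [← Algebra.norm_norm (S := k), Algebra.norm_algebraMap, hE, map_pow, abs_pow])

theorem killE_T {U : (locE k E).Level} (hN : ∀ v, PK (OE E v) N ≤ U.U v)
    (hU : U.U v₀ = PO (OE E v₀)) (j : Fin 3) : (killE hπ hπN hσ hE he hN hU).T j =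
      (LocFam.GFun.single v₀ (LocFam.TTh (L := locE k E)
        ((he.splitRing hσ).unif_un3 (he.isProdO hσ) (unif_piV hπ) j) hU)).toDKer :=
  LocFam.Tker_eq _ _

theorem killE_q {U : (locE k E).Level} (hN : ∀ v, PK (OE E v) N ≤ U.U v)
    (hU : U.U v₀ = PO (OE E v₀)) (j : Fin 3) :
    (killE hπ hπN hσ hE he hN hU).q j = Nat.card (𝓞 k ⧸ v₀.asIdeal) :=
  ((he.splitRing hσ).card_B3 j _).trans (card_resB v₀)

end KE

end Fermat.Agent.LT.Glob
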