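import Fermat.Agent.LT.Glob.Good
import Fermat.Agent.LT.Cls.Hk2

set_option autoImplicit false
set_option linter.unusedSectionVars false
set_option linter.unusedVariables false

/-!
# The Hecke data of `locK` are complete
-/

namespace Fermat.Agent.LT.Glob

open Matrix Filter IsDedekindDomain IsDedekindDomain.HeightOneSpectrum WithZero NumberField
open scoped MatrixGroups Topology

variable {F : Type*} [Field F] [NumberField F]

theorem exists_eq_unif_mul {v : HeightOneSpectrum (𝓞 F)} {x : v.adicCompletion F}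
    (hx : Valued.v x < 1) : ∃ y ∈ Oc v, x = (unif v : v.adicCompletion F) * y := by
  refine ⟨_, (unif_inv_mul_mem v).2 hx, ?_⟩
  rw [← mul_assoc, Units.mul_inv, one_mul]

theorem not_isUnit_iff {v : HeightOneSpectrum (𝓞 F)} {x : v.adicCompletion F} (hx : x ∈ Oc v)
    (h : ¬ ∃ y ∈ Oc v, x * y = 1) : Valued.v x < 1 := by
  by_contra hcon
  have h1 : Valued.v x = 1 := le_antisymm hx (not_lt.1 hcon)
  have h0 : x ≠ 0 := by
    rintro rfl
    rw [map_zero] at h1
    exact zero_ne_one h1
  refine h ⟨x⁻¹, ?_, mul_inv_cancel₀ h0⟩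
  rw [mem_Oc, map_inv₀, h1, inv_one]

theorem valued_lt_of_eq {v : HeightOneSpectrum (𝓞 F)} {x y : v.adicCompletion F} (hy : y ∈ Oc v)
    (h : x = (unif v : v.adicCompletion F) * y) : Valued.v x < 1 := by
  rw [h, map_mul, valued_unif]
  calc exp (-1 : ℤ) * Valued.v y ≤ exp (-1 : ℤ) * 1 := by
        gcongr
        exact hy
    _ < 1 := by
        rw [mul_one, ← exp_zero, exp_lt_exp]
        norm_num

theorem full_HK (v : HeightOneSpectrum (𝓞 F)) : LT.Cls.Full (HK v) where
  nonunit := fun h => by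
    have h1 := mem_OU_Oc.1 h
    change Valued.v (unif v : v.adicCompletion F) = 1 at h1
    rw [valued_unif, ← exp_zero, exp_inj] at h1
    norm_num at h1
  gen := fun x hx h => exists_eq_unif_mul (v := v) (not_isUnit_iff (v := v) hx h)
  inj := fun s hs t ht ⟨y, hy, h⟩ => reps_inj v hs ht (valued_lt_of_eq (v := v) hy h)
  surj := fun x hx => by
    obtain ⟨b, hb, hb'⟩ := reps_cover (x := x) v hx
    exact ⟨b, hb, exists_eq_unif_mul (v := v) hb'⟩

end Fermat.Agent.LT.Glob
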