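import Fermat.Agent.LT.Glob.SplitE

set_option autoImplicit false

/-!
# Splitting of a place from the number of places above it
-/

namespace Fermat.Agent.LT.Glob

open IsDedekindDomain NumberField Fermat.Agent.LT.Loc

universe u

variable {k : Type u} [Field k] [NumberField k] {E : Type u} [Field E] [NumberField E]
  [Algebra k E] {v : HeightOneSpectrum (𝓞 k)}

theorem not_isField_RE_of_card (h : 1 < Nat.card (Fib E v)) : ¬ IsField (RE E v) := by
  classical
  intro hF
  have hne : Nontrivial (Fib E v) := Finite.one_lt_card_iff_nontrivial.1 h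
  obtain ⟨w, w', hw⟩ := exists_pair_ne (Fib E v)
  obtain ⟨b, hb⟩ := hF.mul_inv_cancel (a := Pi.single w 1) (by
    intro h0
    have := congrFun h0 w
    rw [Pi.single_eq_same] at this
    exact one_ne_zero this)
  have := congrFun hb w'
  rw [Pi.mul_apply, Pi.single_eq_of_ne (Ne.symm hw), zero_mul] at this
  exact zero_ne_one this

/-- **split places from the number of places above** -/
theorem exists_isSplitIdem_of_card {σ : E ≃ₐ[k] E} (hσ : Gal3 σ)
    (h : 1 < Nat.card (Fib E v)) : ∃ e : RE E v, IsSplitIdem σ e :=
  (field_or_split hσ v).resolve_left (not_isField_RE_of_card h)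

/-- the same, for the type used in `NT.SplitFrob` -/
theorem exists_isSplitIdem_of_card' {σ : E ≃ₐ[k] E} (hσ : Gal3 σ)
    (h : Nat.card {w : HeightOneSpectrum (𝓞 E) // w.asIdeal.LiesOver v.asIdeal} = 3) :
    ∃ e : RE E v, IsSplitIdem σ e :=
  exists_isSplitIdem_of_card hσ (by
    have h' : Nat.card (Fib E v) = 3 := h
    rw [h']; norm_num)

end Fermat.Agent.LT.Glob
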