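import Fermat.Agent.LT.Glob.Def
import Fermat.Agent.LT.Fin.Approx

set_option autoImplicit false

/-!
# The family of completions of a number field
-/

namespace Fermat.Agent.LT.Glob

open Matrix Filter IsDedekindDomain IsDedekindDomain.HeightOneSpectrum WithZero NumberField
open scoped MatrixGroups

section Valued

variable {R : Type*} [CommRing R] [IsDedekindDomain R] {K : Type*} [Field K] [Algebra R K]
  [IsFractionRing R K]

/-- the ring of integers of the completion, as a subring -/
noncomputable def Oc (v : HeightOneSpectrum R) : Subring (v.adicCompletion K) :=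
  (v.adicCompletionIntegers K).toSubring

theorem mem_Oc {v : HeightOneSpectrum R} {x : v.adicCompletion K} : x ∈ Oc v ↔ Valued.v x ≤ 1 :=
  Iff.rfl

theorem mem_NO_Oc {v : HeightOneSpectrum R} {N : ℕ} (hN : (N : v.adicCompletion K) ≠ 0)
    {x : v.adicCompletion K} :
    x ∈ NO (Oc v) N ↔ Valued.v x ≤ Valued.v (N : v.adicCompletion K) := by
  have h0 : Valued.v (N : v.adicCompletion K) ≠ 0 := (Valuation.ne_zero_iff _).2 hN
  constructor
  · rintro ⟨y, hy, rfl⟩
    rw [map_mul]
    exact mul_le_of_le_one_right' (mem_Oc.1 hy)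
  · intro h
    refine ⟨x / N, ?_, by field_simp⟩
    rw [mem_Oc, map_div₀]
    exact (div_le_one₀ (zero_lt_iff.2 h0)).2 h

/-- `O_v` is a Bezout ring -/
theorem bezout_Oc (v : HeightOneSpectrum R) (c d : v.adicCompletion K) :
    ∃ h ∈ GLO (Oc v), c * h 0 0 + d * h 1 0 = 0 := by
  by_cases hcd : Valued.v c ≤ Valued.v d
  · by_cases hd : d = 0
    · subst hd
      have hc : c = 0 := by
        rw [map_zero, le_zero_iff, map_eq_zero] at hcd
        exact hcd
      exact ⟨1, one_mem _, by rw [hc]; ring⟩
    · have h0 : Valued.v d ≠ 0 := (Valuation.ne_zero_iff _).2 hd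
      have hx : c / d ∈ Oc v := by
        rw [mem_Oc, map_div₀]
        exact (div_le_one₀ (zero_lt_iff.2 h0)).2 hcd
      refine ⟨GeneralLinearGroup.mkOfDetNeZero !![1, 0; -(c / d), 1] (by simp), ?_, ?_⟩
      · rw [mem_GLO_iff]
        refine ⟨fun i j => ?_, ?_⟩
        · change !![1, 0; -(c / d), 1] i j ∈ _
          fin_cases i <;> fin_cases j
          · exact one_mem _
          · exact zero_mem _
          · exact neg_mem hx
          · exact one_mem _
        · have : GeneralLinearGroup.det (GeneralLinearGroup.mkOfDetNeZero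
              !![1, 0; -(c / d), 1] (by simp)) = 1 := by
            apply Units.ext
            change Matrix.det !![1, 0; -(c / d), 1] = 1
            simp
          rw [this, inv_one]
          exact one_mem _
      · change c * !![1, 0; -(c / d), 1] 0 0 + d * !![1, 0; -(c / d), 1] 1 0 = 0
        simp
        field_simp
        ring
  · have hc : c ≠ 0 := by
      rintro rfl
      exact hcd (by rw [map_zero]; exact zero_le)
    have h0 : Valued.v c ≠ 0 := (Valuation.ne_zero_iff _).2 hc
    have hx : d / c ∈ Oc v := by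
      rw [mem_Oc, map_div₀]
      exact (div_le_one₀ (zero_lt_iff.2 h0)).2 (not_le.1 hcd).le
    refine ⟨GeneralLinearGroup.mkOfDetNeZero !![-(d / c), 1; 1, 0] (by simp), ?_, ?_⟩
    · rw [mem_GLO_iff]
      refine ⟨fun i j => ?_, ?_⟩
      · change !![-(d / c), 1; 1, 0] i j ∈ _
        fin_cases i <;> fin_cases j
        · exact neg_mem hx
        · exact one_mem _
        · exact one_mem _
        · exact zero_mem _
      · have : GeneralLinearGroup.det (GeneralLinearGroup.mkOfDetNeZero
            !![-(d / c), 1; 1, 0] (by simp)) = -1 := by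
          apply Units.ext
          change Matrix.det !![-(d / c), 1; 1, 0] = -1
          simp
        rw [this, inv_neg, inv_one]
        exact neg_mem (one_mem _)
    · change c * !![-(d / c), 1; 1, 0] 0 0 + d * !![-(d / c), 1; 1, 0] 1 0 = 0
      simp
      field_simp
      ring

theorem exists_exp_le {x : ℤᵐ⁰} (hx : x ≠ 0) : ∃ n : ℕ, exp (-(n : ℤ)) ≤ x := by
  refine ⟨(-log x).toNat, ?_⟩
  rw [← exp_log hx, exp_le_exp, log_exp]
  have := Int.self_le_toNat (-log x)
  omega

theorem natCast_adicCompletion_ne_zero [CharZero K] (v : HeightOneSpectrum R) {N : ℕ}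
    (hN : N ≠ 0) : (N : v.adicCompletion K) ≠ 0 := by
  rw [← map_natCast (algebraMap K (v.adicCompletion K)), Ne, map_eq_zero]
  exact Nat.cast_ne_zero.2 hN

theorem valued_algebraMap (v : HeightOneSpectrum R) (x : K) :
    Valued.v (algebraMap K (v.adicCompletion K) x) = v.valuation K x :=
  LT.Fin.valued_coe_K v x

end Valued

variable (F : Type*) [Field F] [NumberField F]

variable {F} in
theorem exists_natCast_mul_mem (v : HeightOneSpectrum (𝓞 F)) (x : v.adicCompletion F) :
    ∃ N : ℕ, N ≠ 0 ∧ (N : v.adicCompletion F) * x ∈ Oc v := by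
  by_cases hx : x = 0
  · exact ⟨1, one_ne_zero, by rw [hx, mul_zero]; exact zero_mem _⟩
  have hx0 : Valued.v x ≠ 0 := (Valuation.ne_zero_iff _).2 hx
  set q := Ideal.absNorm v.asIdeal with hq
  have hq0 : q ≠ 0 := by
    rw [hq, Ne, Ideal.absNorm_eq_zero_iff]
    exact v.ne_bot
  have hqv : Valued.v (q : v.adicCompletion F) ≤ exp (-1 : ℤ) := by
    rw [← map_natCast (algebraMap F (v.adicCompletion F)), valued_algebraMap,
      ← map_natCast (algebraMap (𝓞 F) F), valuation_of_algebraMap]
    have h1 := (v.intValuation_le_pow_iff_mem (q : 𝓞 F) 1).2 (by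
      rw [pow_one]; exact Ideal.absNorm_mem v.asIdeal)
    simpa using h1
  refine ⟨q ^ (log (Valued.v x)).toNat, pow_ne_zero _ hq0, ?_⟩
  rw [mem_Oc, Nat.cast_pow, map_mul, map_pow]
  calc Valued.v (q : v.adicCompletion F) ^ (log (Valued.v x)).toNat * Valued.v x
      ≤ exp (-1 : ℤ) ^ (log (Valued.v x)).toNat * exp (log (Valued.v x)) := by
        rw [exp_log hx0]
        gcongr
    _ = exp ((log (Valued.v x)).toNat • (-1 : ℤ) + log (Valued.v x)) := by
        rw [exp_add, WithZero.exp_nsmul]
    _ ≤ 1 := by
        rw [← exp_zero, exp_le_exp]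
        have := Int.self_le_toNat (log (Valued.v x))
        simp only [smul_neg, nsmul_eq_mul, mul_one]
        omega

/-- **The completions of a number field.** -/
noncomputable def locK : LocFam F (HeightOneSpectrum (𝓞 F)) where
  R v := v.adicCompletion F
  O v := Oc v
  loc v := algebraMap F (v.adicCompletion F)
  eventually_mem a := by
    refine (HeightOneSpectrum.Support.finite (𝓞 F) a).subset fun v hv => ?_
    have h1 : ¬ Valued.v (algebraMap F (v.adicCompletion F) a) ≤ 1 := hv
    rw [valued_algebraMap, not_le] at h1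
    exact h1
  dense S x N hN := by
    classical
    have h1 : ∀ v : HeightOneSpectrum (𝓞 F), ∃ n : ℕ,
        exp (-(n : ℤ)) ≤ Valued.v (N : v.adicCompletion F) := fun v =>
      exists_exp_le ((Valuation.ne_zero_iff _).2 (natCast_adicCompletion_ne_zero v hN))
    choose n hn using h1
    obtain ⟨a, ha, ha'⟩ := LT.Fin.exists_approx S x (S.sup n)
    refine ⟨a, fun v hv => ?_, fun v hv => ?_⟩
    · refine (mem_NO_Oc (natCast_adicCompletion_ne_zero v hN)).2 ((ha v hv).trans
        (le_trans ?_ (hn v)))
      rw [exp_le_exp]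
      have := Finset.le_sup (f := n) hv
      omega
    · rw [mem_Oc, valued_algebraMap]
      exact ha' v hv
  isIntegral_iff a := by
    have h1 : IsIntegral ℤ a ↔ ∃ r : 𝓞 F, algebraMap (𝓞 F) F r = a :=
      ⟨fun h => ⟨⟨a, h⟩, rfl⟩, fun ⟨r, hr⟩ => hr ▸ r.2⟩
    rw [h1]
    refine ⟨?_, fun h => ?_⟩
    · rintro ⟨r, rfl⟩ v
      rw [mem_Oc, valued_algebraMap]
      exact v.valuation_le_one r
    · refine HeightOneSpectrum.mem_integers_of_valuation_le_one F a fun v => ?_
      have := h v
      rwa [mem_Oc, valued_algebraMap] at this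
  denom v x := exists_natCast_mul_mem v x
  bezout v := bezout_Oc v

end Fermat.Agent.LT.Glob
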