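import Fermat.Agent.LT.Glob.Loc

set_option autoImplicit false

/-!
# Families of local rings of a number field, level structures, and the discrete set `D`

`L : LocFam F ι` : for every `v : ι` a commutative ring `L.R v` (a local field, or a finite étale
algebra over a local field), its ring of integers `L.O v` and the embedding `L.loc v : F →+* L.R v`.
A level `U : L.Level` is a family of subgroups `U.U v ≤ PGL₂(O_v)`, equal to `PGL₂(O_v)` for almost
all `v`, containing a principal congruence subgroup for all `v`.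
`L.D U = ∏' PGL₂(R_v) / U_v`, with the action of the restricted product `L.GA` and of `GL₂(F)`.
-/

namespace Fermat.Agent.LT.Glob

open Matrix Filter
open scoped MatrixGroups

universe w u i

/-- **A family of local rings of `F`.** -/
structure LocFam (F : Type u) [Field F] (ι : Type i) where
  /-- the local rings -/
  R : ι → Type w
  [ring : ∀ v, CommRing (R v)]
  /-- the rings of integers -/
  O : ∀ v, Subring (R v)
  /-- the embeddings -/
  loc : ∀ v, F →+* R v
  /-- elements of `F` are almost everywhere integral -/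
  eventually_mem : ∀ a : F, ∀ᶠ v in cofinite, loc v a ∈ O v
  /-- strong approximation for the additive group -/
  dense : ∀ (S : Finset ι) (x : ∀ v, R v) (N : ℕ), N ≠ 0 →
    ∃ a : F, (∀ v ∈ S, loc v a - x v ∈ NO (O v) N) ∧ ∀ v ∉ S, loc v a ∈ O v
  /-- integral elements -/
  isIntegral_iff : ∀ a : F, IsIntegral ℤ a ↔ ∀ v, loc v a ∈ O v
  /-- denominators -/
  denom : ∀ v (x : R v), ∃ N : ℕ, N ≠ 0 ∧ (N : R v) * x ∈ O v
  /-- `O v` is a Bezout ring -/
  bezout : ∀ v (c d : R v), ∃ h ∈ GLO (O v), c * h 0 0 + d * h 1 0 = 0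

attribute [instance] LocFam.ring

namespace LocFam

variable {F : Type u} [Field F] {ι : Type i} (L : LocFam.{w} F ι)

/-- the local group -/
abbrev G (v : ι) : Type w := PGL(2, L.R v)

/-- the embedding of `GL₂(F)` in the local group -/
def emb (v : ι) : GL (Fin 2) F →* L.G v :=
  (ProjGenLinGroup.map (L.loc v)).comp ProjGenLinGroup.mk

theorem emb_eq (v : ι) (g : GL (Fin 2) F) :
    L.emb v g = ProjGenLinGroup.mk (GeneralLinearGroup.map (L.loc v) g) := rfl

/-- the restricted product of the local groups -/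
def GA : Subgroup (∀ v, L.G v) where
  carrier := {g | ∀ᶠ v in cofinite, g v ∈ PO (L.O v)}
  one_mem' := by
    show ∀ᶠ v in cofinite, (1 : ∀ v, L.G v) v ∈ PO (L.O v)
    exact Eventually.of_forall fun v => one_mem _
  mul_mem' := fun {a b} ha hb => by
    show ∀ᶠ v in cofinite, (a * b) v ∈ PO (L.O v)
    filter_upwards [ha, hb] with v h1 h2 using mul_mem h1 h2
  inv_mem' := fun {a} ha => by
    show ∀ᶠ v in cofinite, a⁻¹ v ∈ PO (L.O v)
    filter_upwards [ha] with v h1 using inv_mem h1

theorem mem_GA {g : ∀ v, L.G v} : g ∈ L.GA ↔ ∀ᶠ v in cofinite, g v ∈ PO (L.O v) := Iff.rfl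

theorem eventually_map_mem (g : GL (Fin 2) F) :
    ∀ᶠ v in cofinite, GeneralLinearGroup.map (L.loc v) g ∈ GLO (L.O v) := by
  have h : ∀ i j, ∀ᶠ v in cofinite, L.loc v (g i j) ∈ L.O v ∧ L.loc v (g⁻¹ i j) ∈ L.O v :=
    fun i j => (L.eventually_mem _).and (L.eventually_mem _)
  filter_upwards [eventually_all.mpr fun i => eventually_all.mpr (h i)] with v hv
  exact ⟨fun i j => (hv i j).1, fun i j => by rw [← map_inv]; exact (hv i j).2⟩

theorem eventually_emb_mem (g : GL (Fin 2) F) : ∀ᶠ v in cofinite, L.emb v g ∈ PO (L.O v) := by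
  filter_upwards [L.eventually_map_mem g] with v hv using ⟨_, hv, rfl⟩

/-- the diagonal embedding -/
def diag : GL (Fin 2) F →* L.GA where
  toFun g := ⟨fun v => L.emb v g, L.eventually_emb_mem g⟩
  map_one' := by apply Subtype.ext; funext v; exact map_one _
  map_mul' g h := by apply Subtype.ext; funext v; exact map_mul _ _ _

@[simp] theorem diag_apply (g : GL (Fin 2) F) (v : ι) : (L.diag g : ∀ v, L.G v) v = L.emb v g := rfl

/-- **Level structures.** -/
structure Level where
  U : ∀ v, Subgroup (L.G v)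
  le : ∀ v, U v ≤ PO (L.O v)
  eventually_eq : ∀ᶠ v in cofinite, U v = PO (L.O v)
  deep : ∀ v, ∃ N : ℕ, N ≠ 0 ∧ PK (L.O v) N ≤ U v

variable {L} (U : L.Level)

/-- the local homogeneous space -/
abbrev X (v : ι) : Type w := L.G v ⧸ U.U v

/-- the base point -/
def X.base (v : ι) : X U v := ((1 : L.G v) : L.G v ⧸ U.U v)

/-- **The restricted product of the `PGL₂(R_v)/U_v`.** -/
def D : Type (max i w) := {x : ∀ v, X U v // ∀ᶠ v in cofinite, x v = X.base U v}

instance : CoeFun (D U) fun _ => ∀ v, X U v := ⟨Subtype.val⟩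

variable {U}

@[ext] theorem D.ext {x y : D U} (h : ∀ v, x v = y v) : x = y := Subtype.ext (funext h)

theorem smul_base {v : ι} {g : L.G v} (hg : g ∈ U.U v) : g • X.base U v = X.base U v := by
  show ((g * 1 : L.G v) : L.G v ⧸ U.U v) = ((1 : L.G v) : L.G v ⧸ U.U v)
  rw [QuotientGroup.eq, mul_one, mul_one]
  exact inv_mem hg

theorem smul_base_iff {v : ι} {g : L.G v} : g • X.base U v = X.base U v ↔ g ∈ U.U v := by
  refine ⟨fun h => ?_, smul_base⟩
  have h1 : ((g * 1 : L.G v) : L.G v ⧸ U.U v) = ((1 : L.G v) : L.G v ⧸ U.U v) := h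
  rw [QuotientGroup.eq, mul_one, mul_one] at h1
  exact (inv_mem_iff (H := U.U v)).mp h1

instance : MulAction L.GA (D U) where
  smul g x := ⟨fun v => g.1 v • x v, by
    filter_upwards [g.2, x.2, U.eventually_eq] with v h1 h2 h3
    rw [h2]
    exact smul_base (by rw [h3]; exact h1)⟩
  one_smul x := by
    apply D.ext; intro v
    exact one_smul _ _
  mul_smul g h x := by
    apply D.ext; intro v
    exact mul_smul _ _ _

theorem GA_smul_apply (g : L.GA) (x : D U) (v : ι) : (g • x) v = g.1 v • x v := rfl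

instance : MulAction (GL (Fin 2) F) (D U) := MulAction.compHom _ L.diag

theorem smul_eq_diag (g : GL (Fin 2) F) (x : D U) : g • x = L.diag g • x := rfl

theorem smul_apply (g : GL (Fin 2) F) (x : D U) (v : ι) : (g • x) v = L.emb v g • x v := rfl

/-- scalars act trivially -/
theorem scalar_smul_D (z : Fˣ) (x : D U) : GeneralLinearGroup.scalar (Fin 2) z • x = x := by
  apply D.ext; intro v
  rw [smul_apply, emb, MonoidHom.comp_apply, ProjGenLinGroup.mk_scalar, map_one, one_smul]

variable (U) in
/-- the base point -/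
def D.base : D U := ⟨fun v => X.base U v, Eventually.of_forall fun _ => rfl⟩

theorem D.exists_eq_smul_base (x : D U) : ∃ g : L.GA, g • D.base U = x ∧
    ∀ v, x v = X.base U v → g.1 v = 1 := by
  classical
  have h : ∀ v, ∃ g : L.G v, (g : L.G v ⧸ U.U v) = x v := fun v => QuotientGroup.mk_surjective _
  choose g hg using h
  refine ⟨⟨fun v => if x v = X.base U v then 1 else g v, ?_⟩, ?_, ?_⟩
  · filter_upwards [x.2] with v hv
    rw [if_pos hv]; exact one_mem _
  · apply D.ext; intro v
    rw [GA_smul_apply]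
    show (if x v = X.base U v then 1 else g v) • X.base U v = x v
    split_ifs with hv
    · rw [one_smul, hv]
    · rw [← hg v]
      show ((g v * 1 : L.G v) : L.G v ⧸ U.U v) = _
      rw [mul_one]
  · intro v hv
    exact if_pos hv

/-! ### Automorphisms -/

variable (L) in
/-- an automorphism of `F` extended to the local rings -/
structure Auto where
  θ : F ≃+* F
  s : ∀ v, L.R v ≃+* L.R v
  s_loc : ∀ v a, s v (L.loc v a) = L.loc v (θ a)
  mem_O_iff : ∀ v x, s v x ∈ L.O v ↔ x ∈ L.O v

namespace Auto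

variable (A : Auto L)

/-- the action on the local group -/
def g (v : ι) : L.G v →* L.G v := ProjGenLinGroup.map (A.s v : L.R v →+* L.R v)

theorem g_emb (v : ι) (γ : GL (Fin 2) F) : A.g v (L.emb v γ) =
    L.emb v (GeneralLinearGroup.map (A.θ : F →+* F) γ) := by
  rw [emb_eq, emb_eq, g, ProjGenLinGroup.map_mk]
  congr 1
  ext i j
  exact A.s_loc v (γ i j)

theorem map_mem_GLO {v : ι} {γ : GL (Fin 2) (L.R v)} (h : γ ∈ GLO (L.O v)) :
    GeneralLinearGroup.map (A.s v : L.R v →+* L.R v) γ ∈ GLO (L.O v) :=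
  ⟨fun i j => (A.mem_O_iff v _).mpr (h.1 i j), fun i j => by
    rw [← map_inv]; exact (A.mem_O_iff v _).mpr (h.2 i j)⟩

theorem map_mem_PO {v : ι} {γ : L.G v} (h : γ ∈ PO (L.O v)) : A.g v γ ∈ PO (L.O v) := by
  obtain ⟨h, hh, rfl⟩ := h
  exact ⟨_, A.map_mem_GLO hh, rfl⟩

/-- the automorphism preserves the level -/
def Pres (U : L.Level) : Prop := ∀ v, ∀ γ ∈ U.U v, A.g v γ ∈ U.U v

variable {A}

/-- the action on the local homogeneous spaces -/
def xmap (h : A.Pres U) (v : ι) : X U v → X U v := fun x =>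
  Quotient.liftOn' x (fun x => ((A.g v x : L.G v) : L.G v ⧸ U.U v)) (by
    intro a b hab
    rw [QuotientGroup.leftRel_apply] at hab
    rw [QuotientGroup.eq, ← map_inv, ← map_mul]
    exact h v _ hab)

theorem xmap_mk (h : A.Pres U) (v : ι) (x : L.G v) :
    xmap h v (x : L.G v ⧸ U.U v) = ((A.g v x : L.G v) : L.G v ⧸ U.U v) := rfl

theorem xmap_base (h : A.Pres U) (v : ι) : xmap h v (X.base U v) = X.base U v := by
  show ((A.g v 1 : L.G v) : L.G v ⧸ U.U v) = _
  rw [map_one]; rfl

theorem xmap_smul (h : A.Pres U) (v : ι) (g : L.G v) (x : X U v) :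
    xmap h v (g • x) = A.g v g • xmap h v x := by
  induction x using QuotientGroup.induction_on with
  | H x =>
    show ((A.g v (g * x) : L.G v) : L.G v ⧸ U.U v) = _
    rw [map_mul]; rfl

/-- the action on `D` -/
def dmap (h : A.Pres U) (x : D U) : D U := ⟨fun v => xmap h v (x v), by
  filter_upwards [x.2] with v hv
  rw [hv, xmap_base]⟩

theorem dmap_apply (h : A.Pres U) (x : D U) (v : ι) : dmap h x v = xmap h v (x v) := rfl

theorem dmap_smul (h : A.Pres U) (γ : GL (Fin 2) F) (x : D U) :
    dmap h (γ • x) = GeneralLinearGroup.map (A.θ : F →+* F) γ • dmap h x := by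
  apply D.ext; intro v
  rw [dmap_apply, smul_apply, xmap_smul, g_emb]; rfl

end Auto

end LocFam

end Fermat.Agent.LT.Glob
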