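import Fermat.Agent.LT.Glob.OInt
import Fermat.Agent.LT.Loc.GalDich
import Fermat.Agent.LT.Loc.SplitRing

set_option autoImplicit false
set_option linter.unusedSectionVars false
set_option linter.unusedVariables false

/-!
# The order `OE E v` over `Oc v`

* `gal3_OE`: for almost all `v` the extension `Oc v → OE E v` is Galois;
* `mem_OE_iff_isIntegral`: `OE E v` is the integral closure of `Oc v`;
* `split_or_field`: either `RE E v` is a field or it is split.
-/

namespace Fermat.Agent.LT.Glob

open Matrix Filter IsDedekindDomain IsDedekindDomain.HeightOneSpectrum WithZero NumberField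
open scoped MatrixGroups Topology

section Oc

variable {R : Type*} [CommRing R] [IsDedekindDomain R] {K : Type*} [Field K] [Algebra R K]
  [IsFractionRing R K] (v : HeightOneSpectrum R)

instance isDVR_Oc : IsDiscreteValuationRing (Oc (K := K) v) :=
  inferInstanceAs (IsDiscreteValuationRing (v.adicCompletionIntegers K))

instance isFractionRing_Oc : IsFractionRing (Oc (K := K) v) (v.adicCompletion K) :=
  inferInstanceAs (IsFractionRing (v.adicCompletionIntegers K) (v.adicCompletion K))

instance isIntegrallyClosed_Oc : IsIntegrallyClosed (Oc (K := K) v) :=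
  inferInstanceAs (IsIntegrallyClosed (v.adicCompletionIntegers K))

instance isAdicComplete_Oc : IsAdicComplete
    (IsLocalRing.maximalIdeal (Oc (K := K) v)) (Oc (K := K) v) :=
  isAdicComplete_integers (K := K) v

theorem mem_Oc_of_isIntegral {x : v.adicCompletion K} (h : IsIntegral (Oc (K := K) v) x) :
    x ∈ Oc v := by
  obtain ⟨y, rfl⟩ := IsIntegrallyClosed.isIntegral_iff.1 h
  exact y.2

theorem mem_maximalIdeal_Oc {x : Oc (K := K) v} :
    x ∈ IsLocalRing.maximalIdeal (Oc (K := K) v) ↔ Valued.v (x : v.adicCompletion K) < 1 :=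
  mem_maximalIdeal_iff (K := K) v

end Oc

instance finite_residueField_Oc {F : Type*} [Field F] [NumberField F]
    (v : HeightOneSpectrum (𝓞 F)) :
    Finite (IsLocalRing.ResidueField (Oc (K := F) v)) :=
  finite_residueField_numberField v

variable {k : Type*} [Field k] [NumberField k] {E : Type*} [Field E] [NumberField E]
  [Algebra k E] {v : HeightOneSpectrum (𝓞 k)}

open LT.Loc

/-! ### Integral closure -/

theorem mem_OE_of_isIntegral {x : RE E v} (h : IsIntegral (Oc (K := k) v) x) : x ∈ OE E v := by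
  intro w
  obtain ⟨p, hp, hpx⟩ := h
  apply mem_Oc_of_isIntegral
  let f : Oc (K := k) v →+* Oc (K := E) w.1 :=
    (ext (above_fib w)).restrict (Oc v) (Oc w.1) fun x hx => (ext_mem_Oc (above_fib w)).2 hx
  refine ⟨p.map f, hp.map f, ?_⟩
  rw [Polynomial.eval₂_map]
  have h1 := congrArg (Pi.evalRingHom (fun w : Fib E v => w.1.adicCompletion E) w) hpx
  rw [Polynomial.hom_eval₂, map_zero] at h1
  exact h1

theorem isIntegral_of_mem_OE {σ : E ≃ₐ[k] E} (h : Gal3 σ) {x : RE E v} (hx : x ∈ OE E v) :
    IsIntegral (Oc (K := k) v) x := by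
  have hg := gal3_RE (v := v) h
  have hs : ∀ y ∈ OE E v, sHom v σ y ∈ OE E v := fun y hy => sHom_mem σ hy
  have hfix : ∀ y ∈ OE E v, sHom v σ y = y → ∃ a : Oc (K := k) v, strE E v a = y := by
    intro y hy hy'
    obtain ⟨a, ha⟩ := hg.fixed y hy'
    refine ⟨⟨a, ?_⟩, ha⟩
    rw [← strE_mem (E := E), ← algebraMap_RE, ha]
    exact hy
  have hc : sHom v σ (sHom v σ (sHom v σ x)) = x := hg.cube x
  obtain ⟨a, ha⟩ := hfix (x + sHom v σ x + sHom v σ (sHom v σ x))
    (add_mem (add_mem hx (hs _ hx)) (hs _ (hs _ hx))) (by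
      rw [map_add, map_add, hc]; ring)
  obtain ⟨b, hb⟩ := hfix (x * sHom v σ x + sHom v σ x * sHom v σ (sHom v σ x) +
      sHom v σ (sHom v σ x) * x)
    (add_mem (add_mem (mul_mem hx (hs _ hx)) (mul_mem (hs _ hx) (hs _ (hs _ hx))))
      (mul_mem (hs _ (hs _ hx)) hx)) (by
      rw [map_add, map_add, map_mul, map_mul, map_mul, hc]; ring)
  obtain ⟨c, hc'⟩ := hfix (x * sHom v σ x * sHom v σ (sHom v σ x))
    (mul_mem (mul_mem hx (hs _ hx)) (hs _ (hs _ hx))) (by
      rw [map_mul, map_mul, hc]; ring)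
  refine ⟨Polynomial.X ^ 3 - Polynomial.C a * Polynomial.X ^ 2 + Polynomial.C b * Polynomial.X -
    Polynomial.C c, by monicity!, ?_⟩
  have e : ∀ y : Oc (K := k) v, algebraMap (Oc (K := k) v) (RE E v) y = strE E v y :=
    fun y => rfl
  simp only [Polynomial.eval₂_sub, Polynomial.eval₂_add, Polynomial.eval₂_mul,
    Polynomial.eval₂_pow, Polynomial.eval₂_X, Polynomial.eval₂_C, e, ha, hb, hc']
  ring

/-- **`OE E v` is the integral closure of `Oc v`.** -/
theorem mem_OE_iff_isIntegral {σ : E ≃ₐ[k] E} (h : Gal3 σ) {x : RE E v} :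
    x ∈ OE E v ↔ IsIntegral (Oc (K := k) v) x :=
  ⟨isIntegral_of_mem_OE h, mem_OE_of_isIntegral⟩

/-! ### The algebra structure on the orders -/

noncomputable instance algOE : Algebra (Oc (K := k) v) (OE E v) :=
  ((strE E v).restrict (Oc v) (OE E v) fun _ hx => strE_mem.2 hx).toAlgebra

theorem coe_algebraMap_OE (x : Oc (K := k) v) :
    ((algebraMap (Oc (K := k) v) (OE E v) x : OE E v) : RE E v) = strE E v x := rfl

variable (v) in
/-- the action on the order, as a ring isomorphism -/
noncomputable def sOring (θ : E ≃ₐ[k] E) : OE E v ≃+* OE E v where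
  toFun x := ⟨sHom v θ x, sHom_mem θ x.2⟩
  invFun x := ⟨sHom v θ⁻¹ x, sHom_mem θ⁻¹ x.2⟩
  left_inv x := Subtype.ext (by
    change sHom v θ⁻¹ (sHom v θ x) = x
    rw [sHom_comp, inv_mul_cancel, sHom_one])
  right_inv x := Subtype.ext (by
    change sHom v θ (sHom v θ⁻¹ x) = x
    rw [sHom_comp, mul_inv_cancel, sHom_one])
  map_mul' x y := Subtype.ext (map_mul (sHom v θ) _ _)
  map_add' x y := Subtype.ext (map_add (sHom v θ) _ _)

variable (v) in
/-- the action on the order -/
noncomputable def sO (θ : E ≃ₐ[k] E) : OE E v ≃ₐ[Oc (K := k) v] OE E v :=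
  AlgEquiv.ofRingEquiv (f := sOring v θ) fun x => Subtype.ext (sHom_str θ (x : v.adicCompletion k))

theorem coe_sO (θ : E ≃ₐ[k] E) (x : OE E v) : ((sO v θ x : OE E v) : RE E v) = sHom v θ x := rfl

/-- **For almost all `v` the extension of the orders is Galois.** -/
theorem gal3_OE {σ : E ≃ₐ[k] E} (h : Gal3 σ) :
    ∀ᶠ v : HeightOneSpectrum (𝓞 k) in cofinite, Gal3 (sO (E := E) v σ) := by
  obtain ⟨n, x, y, h1, h2, h3⟩ := h.dual
  have hx : ∀ᶠ v : HeightOneSpectrum (𝓞 k) in cofinite, ∀ i, locHom E v (x i) ∈ OE E v :=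
    eventually_all.2 fun i => (locE k E).eventually_mem (x i)
  have hy : ∀ᶠ v : HeightOneSpectrum (𝓞 k) in cofinite, ∀ i, locHom E v (y i) ∈ OE E v :=
    eventually_all.2 fun i => (locE k E).eventually_mem (y i)
  filter_upwards [hx, hy] with v hx hy
  have hg := gal3_RE (v := v) h
  refine ⟨fun b => Subtype.ext (hg.cube b), ?_, ?_, n, fun i => ⟨_, hx i⟩, fun i => ⟨_, hy i⟩,
    ?_, ?_, ?_⟩
  · intro a b hab
    exact Subtype.ext (strE_injective (congrArg Subtype.val hab))
  · intro b hb
    obtain ⟨a, ha⟩ := hg.fixed b (congrArg Subtype.val hb)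
    refine ⟨⟨a, ?_⟩, Subtype.ext ha⟩
    rw [← strE_mem (E := E), ← algebraMap_RE, ha]
    exact b.2
  · apply Subtype.ext
    simp only [AddSubmonoidClass.coe_finsetSum, MulMemClass.coe_mul, OneMemClass.coe_one,
      ← map_mul, ← map_sum, h1, map_one]
  · apply Subtype.ext
    simp only [AddSubmonoidClass.coe_finsetSum, MulMemClass.coe_mul, coe_sO, sHom_loc,
      ← map_mul, ← map_sum, h2, map_zero, ZeroMemClass.coe_zero]
  · apply Subtype.ext
    simp only [AddSubmonoidClass.coe_finsetSum, MulMemClass.coe_mul, coe_sO, sHom_loc,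
      ← map_mul, ← map_sum, h3, map_zero, ZeroMemClass.coe_zero]

/-! ### Nonsplit places -/

theorem subsingleton_fib (h : IsField (RE E v)) : Subsingleton (Fib E v) := by
  classical
  refine ⟨fun w w' => ?_⟩
  by_contra hne
  have h1 : (Pi.single w 1 : RE E v) * Pi.single w' 1 = 0 := by
    funext u
    rw [Pi.mul_apply, Pi.zero_apply]
    by_cases hu : u = w
    · subst hu
      rw [Pi.single_eq_of_ne hne, mul_zero]
    · rw [Pi.single_eq_of_ne hu, zero_mul]
  have h0 : ∀ u : Fib E v, (Pi.single u 1 : RE E v) ≠ 0 := by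
    intro u hu
    have := congrFun hu u
    rw [Pi.single_eq_same] at this
    exact one_ne_zero this
  obtain ⟨b, hb⟩ := h.mul_inv_cancel (h0 w)
  apply h0 w'
  calc (Pi.single w' 1 : RE E v) = (Pi.single w 1 * b) * Pi.single w' 1 := by rw [hb, one_mul]
    _ = b * (Pi.single w 1 * Pi.single w' 1) := by ring
    _ = 0 := by rw [h1, mul_zero]

theorem isField_RE [Subsingleton (Fib E v)] : IsField (RE E v) := by
  refine ⟨⟨0, 1, zero_ne_one⟩, mul_comm, fun {a} ha => ?_⟩
  refine ⟨fun w => (a w)⁻¹, funext fun w => ?_⟩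
  refine mul_inv_cancel₀ fun h => ha (funext fun w' => ?_)
  rw [Subsingleton.elim w' w, h]
  rfl

/-- if `RE E v` is a field, the order is a local ring -/
theorem isLocalRing_OE (h : IsField (RE E v)) : IsLocalRing (OE E v) := by
  have hs := subsingleton_fib h
  obtain ⟨w⟩ := (inferInstance : Nonempty (Fib E v))
  have : Unique (Fib E v) := uniqueOfSubsingleton w
  let f : OE E v →+* Oc (K := E) w.1 :=
    (Pi.evalRingHom (fun w : Fib E v => w.1.adicCompletion E) w).restrict (OE E v) (Oc w.1)
      fun x hx => hx w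
  have hf : Function.Bijective f := by
    constructor
    · intro x y hxy
      refine Subtype.ext (funext fun w' => ?_)
      have := congrArg Subtype.val hxy
      obtain rfl := Subsingleton.elim w' w
      exact this
    · intro y
      refine ⟨⟨fun w' => (Subsingleton.elim w w') ▸ (y : w.1.adicCompletion E), ?_⟩, ?_⟩
      · intro w'
        obtain rfl := Subsingleton.elim w w'
        exact y.2
      · rfl
  exact (RingEquiv.ofBijective f hf).symm.isLocalRing

theorem exists_sHom_ne {σ : E ≃ₐ[k] E} (h : σ ≠ 1) : ∃ x : RE E v, sHom v σ x ≠ x := by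
  by_contra hcon
  push Not at hcon
  apply h
  ext a
  have h1 := hcon (locHom E v a)
  rw [sHom_loc] at h1
  exact (locHom E v).injective h1

end Fermat.Agent.LT.Glob
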