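import Fermat.Agent.LT.Fou.Mult
import Fermat.Agent.LT.Glob.OExt

set_option autoImplicit false
set_option linter.unusedSectionVars false
set_option linter.unusedVariables false

/-!
# The conductor of the local additive characters
-/

namespace Fermat.Agent.LT.Glob

open NumberField Filter LT.Fou

universe w u i

section Different

variable (F : Type u) [Field F] [NumberField F]

/-- the codifferent has bounded denominators -/
theorem exists_codifferent : ∃ N : ℕ, N ≠ 0 ∧ ∀ c : F,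
    (∀ y : 𝓞 F, ∃ m : ℤ, Algebra.trace ℚ F (c * y) = m) → IsIntegral ℤ ((N : F) * c) := by
  set I : FractionalIdeal (nonZeroDivisors (𝓞 F)) F := FractionalIdeal.dual ℤ ℚ 1 with hI
  obtain ⟨b, hb, hb'⟩ := I.prop
  have hb0 : b ≠ 0 := nonZeroDivisors.ne_zero hb
  refine ⟨Ideal.absNorm (Ideal.span {b}), ?_, fun c hc => ?_⟩
  · rw [Ne, Ideal.absNorm_eq_zero_iff, Ideal.span_singleton_eq_bot]
    exact hb0
  have h1 : c ∈ I := by
    rw [hI, FractionalIdeal.mem_dual (one_ne_zero : (1 : FractionalIdeal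
      (nonZeroDivisors (𝓞 F)) F) ≠ 0)]
    intro a ha
    obtain ⟨y, rfl⟩ := (FractionalIdeal.mem_one_iff _).1 ha
    obtain ⟨m, hm⟩ := hc y
    exact ⟨m, by rw [Algebra.traceForm_apply, hm]; rfl⟩
  obtain ⟨z, hz⟩ := hb' c h1
  obtain ⟨r, hr⟩ : b ∣ ((Ideal.absNorm (Ideal.span {b}) : ℕ) : 𝓞 F) := by
    rw [← Ideal.mem_span_singleton]
    exact Ideal.absNorm_mem _
  have h2 : ((Ideal.absNorm (Ideal.span {b}) : ℕ) : F) * c = algebraMap (𝓞 F) F (r * z) := by
    rw [← map_natCast (algebraMap (𝓞 F) F), hr, map_mul, map_mul, hz, Algebra.smul_def]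
    ring
  rw [h2]
  exact (r * z).2

end Different

variable {F : Type u} [Field F] [NumberField F] [IsTotallyComplex F] {ι : Type i}
  (L : LocFam.{w} F ι)

theorem trace_int_of_ev_eq_one {a : F} (h : ev (1 : F) (emb a) = 1) :
    ∃ m : ℤ, Algebra.trace ℚ F a = m := by
  unfold ev at h
  rw [← emb_mul, one_mul, trV_emb, Complex.exp_eq_one_iff] at h
  obtain ⟨n, hn⟩ := h
  refine ⟨n, ?_⟩
  have h1 : (((Algebra.trace ℚ F a : ℚ) : ℝ) : ℂ) = (n : ℂ) := by
    have h2 : (2 * Real.pi * Complex.I : ℂ) ≠ 0 := Complex.two_pi_I_ne_zero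
    apply mul_left_cancel₀ h2
    rw [hn]
    ring
  exact_mod_cast h1

/-- the local additive character has conductor `O v` at all places where the different and `a0`
are trivial -/
theorem condAt_of_unit {N : ℕ} (hN0 : N ≠ 0) (hN : ∀ c : F,
    (∀ y : 𝓞 F, ∃ m : ℤ, Algebra.trace ℚ F (c * y) = m) → IsIntegral ℤ ((N : F) * c))
    {v : ι} {a0 : F} (h0 : a0 ≠ 0) (hv : L.loc v ((N : F)⁻¹) ∈ L.O v) (h1 : L.loc v a0 ∈ L.O v)
    (h2 : L.loc v a0⁻¹ ∈ L.O v) : CondAt L a0 v := by
  intro x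
  constructor
  · intro h
    obtain ⟨c, hc, hc'⟩ := exists_lift L v (L.loc v a0 * x)
    have hN1 : IsIntegral ℤ ((N : F) * c) := by
      apply hN
      intro y
      have hy := (L.isIntegral_iff (y : F)).1 y.2
      have h3 : L.loc v (c * (y : F)) - L.loc v a0 * (x * L.loc v (y : F)) ∈ L.O v := by
        have : L.loc v (c * (y : F)) - L.loc v a0 * (x * L.loc v (y : F)) =
          (L.loc v c - L.loc v a0 * x) * L.loc v (y : F) := by
          rw [map_mul]; ring
        rw [this]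
        exact (L.O v).mul_mem hc (hy v)
      have h4 : ∀ v' ≠ v, L.loc v' (c * (y : F)) ∈ L.O v' := by
        intro v' hv'
        rw [map_mul]
        exact (L.O v').mul_mem (hc' v' hv') (hy v')
      have h5 := lchar_eq h3 h4
      rw [h _ (hy v)] at h5
      obtain ⟨m, hm⟩ := trace_int_of_ev_eq_one h5.symm
      refine ⟨-m, ?_⟩
      rw [map_neg] at hm
      push_cast
      linarith
    have h6 : L.loc v c ∈ L.O v := by
      have : L.loc v c = L.loc v ((N : F)⁻¹) * L.loc v ((N : F) * c) := by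
        rw [← map_mul]
        congr 1
        have : (N : F) ≠ 0 := Nat.cast_ne_zero.2 hN0
        field_simp
      rw [this]
      exact (L.O v).mul_mem hv ((L.isIntegral_iff _).1 hN1 v)
    have h7 : L.loc v a0 * x ∈ L.O v := by
      have := (L.O v).sub_mem h6 hc
      rwa [sub_sub_cancel] at this
    have h8 : x = L.loc v a0⁻¹ * (L.loc v a0 * x) := by
      rw [← mul_assoc, ← map_mul, inv_mul_cancel₀ h0, map_one, one_mul]
    rw [h8]
    exact (L.O v).mul_mem h2 h7
  · intro hx y hy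
    exact lchar_of_mem ((L.O v).mul_mem h1 ((L.O v).mul_mem hx hy))

/-- **for almost all `v` the conductor is `O v`** -/
theorem exists_condAt (L : LocFam.{w} F ι) : ∃ N : ℕ, N ≠ 0 ∧ ∀ (v : ι) (a0 : F), a0 ≠ 0 →
    L.loc v ((N : F)⁻¹) ∈ L.O v → L.loc v a0 ∈ L.O v → L.loc v a0⁻¹ ∈ L.O v →
    CondAt L a0 v := by
  obtain ⟨N, hN0, hN⟩ := exists_codifferent F
  exact ⟨N, hN0, fun v a0 h0 hv h1 h2 => condAt_of_unit L hN0 hN h0 hv h1 h2⟩

theorem eventually_condAt (L : LocFam.{w} F ι) {a0 : F} (h0 : a0 ≠ 0) :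
    ∀ᶠ v in cofinite, CondAt L a0 v := by
  obtain ⟨N, hN0, hN⟩ := exists_condAt L
  filter_upwards [L.eventually_mem ((N : F)⁻¹), L.eventually_mem a0, L.eventually_mem a0⁻¹]
    with v h1 h2 h3 using hN v a0 h0 h1 h2 h3

end Fermat.Agent.LT.Glob
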