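import Fermat.Agent.LT.Glob.Fin
import Fermat.Agent.LT.Sp.Cor

set_option autoImplicit false

/-!
# The discrete measurable structure on `D`
-/

namespace Fermat.Agent.LT.Glob.LocFam

universe w u i

variable {F : Type u} [Field F] {ι : Type i} {L : LocFam.{w} F ι} (U : L.Level)

instance instMeasD : MeasurableSpace (D U) := ⊤

instance instDiscD : DiscreteMeasurableSpace (D U) := ⟨fun _ => MeasurableSpace.measurableSet_top⟩

instance instCountD [NumberField F] : Countable (D U) := Sp.FinPart.countable F (D U)

end Fermat.Agent.LT.Glob.LocFam
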