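import Fermat.Agent.LT.Glob.HypG
import Fermat.Agent.LT.Sp.NearB

set_option autoImplicit false

/-!
# Elements contributing to a kernel which is strongly hyperbolic at an auxiliary place
-/

namespace Fermat.Agent.LT.Glob

open Matrix Filter
open scoped MatrixGroups

universe w u i

section SU

open V0

variable {R : Type w} [CommRing R] {O : Subring R} {ϖ : Rˣ} {B : Finset R}

theorem one_not_mem_SU {i : ℕ} : (1 : PGL(2, R)) ∉ SU O ϖ i := by
  rintro ⟨h, hh, e⟩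
  rw [← map_one (ProjGenLinGroup.mk (n := Fin 2) (R := R))] at e
  obtain ⟨u, hu⟩ := ProjGenLinGroup.mk_eq_mk_iff.mp e
  have e1 : (1 : GL (Fin 2) R) = sc u * h := by
    rw [sc_comm]; exact hu.symm
  have e00 : (1 : R) = (u : R) * h 0 0 := by
    rw [← sc_mul_apply, ← e1]; simp
  have e11 : (1 : R) = (u : R) * h 1 1 := by
    rw [← sc_mul_apply, ← e1]; simp
  have e2 : h 0 0 = h 1 1 := by
    have := e00.symm.trans e11
    exact u.isUnit.mul_left_cancel this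
  exact hh.h11' (e2 ▸ hh.h00)

/-- an element conjugate into `SU` has nonzero trace -/
theorem trace_ne_of_conj_SU (h : Unif O ϖ B) {m : ℕ} {γ : GL (Fin 2) R} {x : PGL(2, R)}
    (hx : x⁻¹ * ProjGenLinGroup.mk γ * x ∈ SU O ϖ m) :
    (γ : Matrix (Fin 2) (Fin 2) R).trace ≠ 0 := by
  obtain ⟨a, ha, e⟩ := hx
  induction x using ProjGenLinGroup.induction_on with
  | mk ξ =>
  rw [← map_inv, ← map_mul, ← map_mul] at e
  obtain ⟨u, hu⟩ := ProjGenLinGroup.mk_eq_mk_iff.mp e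
  have e1 : (ξ⁻¹ * γ * ξ : GL (Fin 2) R) = a * sc u := hu.symm
  intro h0
  have e3 := congrArg (fun M : GL (Fin 2) R => (M : Matrix (Fin 2) (Fin 2) R).trace) e1
  simp only [Units.val_mul] at e3
  rw [Matrix.trace_mul_comm, ← mul_assoc, ← Units.val_mul, mul_inv_cancel, Units.val_one, one_mul,
    h0, sc_coe, mul_smul_comm, mul_one, Matrix.trace_smul, smul_eq_mul] at e3
  have h1 : (a : Matrix (Fin 2) (Fin 2) R).trace = 0 := by
    have := u.isUnit.mul_left_cancel (e3.symm.trans (mul_zero _).symm)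
    exact this
  rw [Matrix.trace_fin_two] at h1
  apply (ha.trace h).2
  have : a 0 0 + a 1 1 = 0 := h1
  rw [this, mul_zero]
  exact O.zero_mem

/-- an element conjugate into `SU` is not a scalar -/
theorem mk_ne_one_of_conj_SU {m : ℕ} {γ : GL (Fin 2) R} {x : PGL(2, R)}
    (hx : x⁻¹ * ProjGenLinGroup.mk γ * x ∈ SU O ϖ m) : ProjGenLinGroup.mk γ ≠ 1 := by
  intro h
  rw [h, mul_one, inv_mul_cancel] at hx
  exact one_not_mem_SU hx

end SU

namespace LocFam

variable {F : Type u} [Field F] {ι : Type i} {L : LocFam.{w} F ι} {U : L.Level}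

/-- the relation is invariant -/
theorem relD_smul {S : ∀ v, Set (L.G v)} (g : GL (Fin 2) F) (d d' : D U) (h : relD S d d') :
    relD S (g • d) (g • d') := by
  intro v
  obtain ⟨x, x', hx, hx', hs⟩ := h v
  refine ⟨L.emb v g * x, L.emb v g * x', ?_, ?_, ?_⟩
  · rw [smul_apply, hx]; rfl
  · rw [smul_apply, hx']; rfl
  · rwa [show (L.emb v g * x)⁻¹ * (L.emb v g * x') = x⁻¹ * x' by group]

/-- the local component of a twisted relation -/
theorem relD_twist {S : ∀ v, Set (L.G v)} {v : ι} (hS : ∀ y ∈ S v, ∀ u ∈ U.U v, y * u ∈ S v)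
    {A : Auto L} (h : A.Pres U) {t : GL (Fin 2) F} {d : D U}
    (hd : relD S d (t • Auto.dmap h d)) :
    ∃ x : L.G v, d v = (x : L.G v ⧸ U.U v) ∧ x⁻¹ * L.emb v t * A.g v x ∈ S v := by
  obtain ⟨x, x', hx, hx', hs⟩ := hd v
  refine ⟨x, hx, ?_⟩
  have h1 : ((L.emb v t * A.g v x : L.G v) : L.G v ⧸ U.U v) = ((x' : L.G v) : L.G v ⧸ U.U v) := by
    rw [← hx', smul_apply, Auto.dmap_apply, hx, Auto.xmap_mk]
    rfl
  rw [QuotientGroup.eq] at h1
  have h2 := hS _ hs _ (inv_mem h1)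
  rwa [show x⁻¹ * x' * ((L.emb v t * A.g v x)⁻¹ * x')⁻¹ = x⁻¹ * L.emb v t * A.g v x by group] at h2

/-- the local component of a relation -/
theorem relD_untwist {S : ∀ v, Set (L.G v)} {v : ι} (hS : ∀ y ∈ S v, ∀ u ∈ U.U v, y * u ∈ S v)
    {γ : GL (Fin 2) F} {d : D U} (hd : relD S d (γ • d)) :
    ∃ x : L.G v, d v = (x : L.G v ⧸ U.U v) ∧ x⁻¹ * L.emb v γ * x ∈ S v := by
  obtain ⟨x, x', hx, hx', hs⟩ := hd v
  refine ⟨x, hx, ?_⟩
  have h1 : ((L.emb v γ * x : L.G v) : L.G v ⧸ U.U v) = ((x' : L.G v) : L.G v ⧸ U.U v) := by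
    rw [← hx', smul_apply, hx]
    rfl
  rw [QuotientGroup.eq] at h1
  have h2 := hS _ hs _ (inv_mem h1)
  rwa [show x⁻¹ * x' * ((L.emb v γ * x)⁻¹ * x')⁻¹ = x⁻¹ * L.emb v γ * x by group] at h2

open V0

/-- **(Hk)** the trace of a contributing element is nonzero -/
theorem trace_ne_of_relD {S : ∀ v, Set (L.G v)} {v : ι}
    (hS : ∀ y ∈ S v, ∀ u ∈ U.U v, y * u ∈ S v) {ϖ : (L.R v)ˣ} {B : Finset (L.R v)}
    (hu : Unif (L.O v) ϖ B) (hSU : ∀ y ∈ S v, ∃ i, y ∈ SU (L.O v) ϖ i)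
    {γ : GL (Fin 2) F} {d : D U} (hd : relD S d (γ • d)) :
    (γ : Matrix (Fin 2) (Fin 2) F).trace ≠ 0 := by
  obtain ⟨x, -, hx⟩ := relD_untwist hS hd
  obtain ⟨i, hi⟩ := hSU _ hx
  have h1 := trace_ne_of_conj_SU hu (γ := GeneralLinearGroup.map (L.loc v) γ) hi
  intro h0
  apply h1
  have : ((GeneralLinearGroup.map (L.loc v) γ : GL (Fin 2) (L.R v)) :
      Matrix (Fin 2) (Fin 2) (L.R v)).trace =
      L.loc v (γ : Matrix (Fin 2) (Fin 2) F).trace := by
    rw [Matrix.trace_fin_two, Matrix.trace_fin_two, map_add]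
    rfl
  rw [this, h0, map_zero]

/-- the norm of the local component -/
theorem relD_norm {S : ∀ v, Set (L.G v)} {v : ι} (hS : ∀ y ∈ S v, ∀ u ∈ U.U v, y * u ∈ S v)
    {A : Auto L} (h : A.Pres U) {K₀ : Type w} [CommRing K₀] {π : L.R v →+* K₀}
    (hcube : ∀ x, A.s v (A.s v (A.s v x)) = x) {S' : Set PGL(2, K₀)}
    (hSS : ∀ y ∈ S v, ProjGenLinGroup.map π y * ProjGenLinGroup.map π (A.g v y) *
      ProjGenLinGroup.map π (A.g v (A.g v y)) ∈ S')
    {t : GL (Fin 2) F} {d : D U} (hd : relD S d (t • Auto.dmap h d)) :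
    ∃ x : PGL(2, K₀), x⁻¹ * ProjGenLinGroup.mk (GeneralLinearGroup.map (π.comp (L.loc v))
      (t * GeneralLinearGroup.map (A.θ : F →+* F) t *
        GeneralLinearGroup.map (A.θ : F →+* F) (GeneralLinearGroup.map (A.θ : F →+* F) t))) * x ∈
          S' := by
  obtain ⟨x, -, hx⟩ := relD_twist hS h hd
  have hcube' : ∀ y : L.G v, A.g v (A.g v (A.g v y)) = y := by
    intro y
    induction y using ProjGenLinGroup.induction_on with
    | mk y =>
      rw [Auto.g, ProjGenLinGroup.map_mk, ProjGenLinGroup.map_mk, ProjGenLinGroup.map_mk]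
      congr 1
      ext i j
      exact hcube _
  have h1 := hSS _ hx
  set p : L.G v →* PGL(2, K₀) := ProjGenLinGroup.map π with hp
  refine ⟨p x, ?_⟩
  have e1 : p (x⁻¹ * L.emb v t * A.g v x) * p (A.g v (x⁻¹ * L.emb v t * A.g v x)) *
      p (A.g v (A.g v (x⁻¹ * L.emb v t * A.g v x))) =
      (p x)⁻¹ * (p (L.emb v t) * p (A.g v (L.emb v t)) * p (A.g v (A.g v (L.emb v t)))) * p x := by
    simp only [map_mul, map_inv, hcube']
    group
  rw [e1] at h1
  have e2 : ∀ s : GL (Fin 2) F, p (L.emb v s) =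
      ProjGenLinGroup.mk (GeneralLinearGroup.map (π.comp (L.loc v)) s) := by
    intro s
    rw [emb_eq, hp, ProjGenLinGroup.map_mk]
    rfl
  rw [A.g_emb, A.g_emb, e2, e2, e2, ← map_mul, ← map_mul, ← map_mul, ← map_mul] at h1
  exact h1

end LocFam

namespace LocFam

open V0

variable {k : Type*} [Field k] {E : Type u} [Field E] [Algebra k E] {ι : Type i}
  {L : LocFam.{w} E ι} {U : L.Level} {σ : E ≃ₐ[k] E}

/-- **(HE)** the norm of a contributing element is not scalar and has nonzero trace -/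
theorem nm_of_relD {S : ∀ v, Set (L.G v)} {v : ι} (hS : ∀ y ∈ S v, ∀ u ∈ U.U v, y * u ∈ S v)
    {A : Auto L} (hA : ∀ a, A.θ a = σ a) (h : A.Pres U) {K₀ : Type w} [CommRing K₀]
    {π : L.R v →+* K₀} (hcube : ∀ x, A.s v (A.s v (A.s v x)) = x)
    {O₀ : Subring K₀} {ϖ : K₀ˣ} {B : Finset K₀} (hu : Unif O₀ ϖ B)
    (hSS : ∀ y ∈ S v, ∃ i, ProjGenLinGroup.map π y * ProjGenLinGroup.map π (A.g v y) *
      ProjGenLinGroup.map π (A.g v (A.g v y)) ∈ SU O₀ ϖ i)
    {t : GL (Fin 2) E} {d : D U} (hd : relD S d (t • Auto.dmap h d)) :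
    Tw.NS (Tw.nm σ t : Matrix (Fin 2) (Fin 2) E) ∧
      (Tw.nm σ t : Matrix (Fin 2) (Fin 2) E).trace ≠ 0 := by
  obtain ⟨x, hx⟩ := relD_norm hS h hcube (S' := {g | ∃ i, g ∈ SU O₀ ϖ i}) hSS hd
  obtain ⟨i, hi⟩ := hx
  have hθ : GeneralLinearGroup.map (n := Fin 2) (A.θ : E →+* E) = Tw.sg σ := by
    ext g i j
    exact hA _
  rw [hθ] at hi
  change x⁻¹ * ProjGenLinGroup.mk (GeneralLinearGroup.map (π.comp (L.loc v)) (Tw.nm σ t)) * x ∈
    SU O₀ ϖ i at hi
  constructor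
  · intro a ha
    apply mk_ne_one_of_conj_SU hi
    have ha0 : a ≠ 0 := by
      rintro rfl
      rw [zero_smul] at ha
      exact (Tw.nm σ t).ne_zero ha
    have e : Tw.nm σ t = GeneralLinearGroup.scalar (Fin 2) (Units.mk0 a ha0) := by
      apply Units.ext
      rw [ha, GeneralLinearGroup.coe_scalar]
      exact Matrix.smul_one_eq_diagonal _
    rw [← ProjGenLinGroup.map_mk, e, ProjGenLinGroup.mk_scalar, map_one]
  · intro h0
    apply trace_ne_of_conj_SU hu hi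
    have : ((GeneralLinearGroup.map (π.comp (L.loc v)) (Tw.nm σ t) : GL (Fin 2) K₀) :
        Matrix (Fin 2) (Fin 2) K₀).trace =
        (π.comp (L.loc v)) (Tw.nm σ t : Matrix (Fin 2) (Fin 2) E).trace := by
      rw [Matrix.trace_fin_two, Matrix.trace_fin_two, map_add]
      rfl
    rw [this, h0, map_zero]

end LocFam

end Fermat.Agent.LT.Glob
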