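import Fermat.Agent.LT.Glob.InstK

set_option autoImplicit false

/-!
# Extension of homomorphisms of fields to completions
-/

namespace Fermat.Agent.LT.Glob

open Filter IsDedekindDomain IsDedekindDomain.HeightOneSpectrum WithZero
open scoped Topology

section Nhds

theorem exists_ball_subset {F : Type*} [Ring F] [Valued F ℤᵐ⁰] {U : Set F} (hU : U ∈ 𝓝 (0 : F)) :
    ∃ n : ℕ, {x : F | Valued.v x ≤ exp (-(n : ℤ))} ⊆ U := by
  obtain ⟨γ, hγ⟩ := Valued.mem_nhds_zero.1 hU
  have h0 : MonoidWithZeroHom.ValueGroup₀.embedding γ.1 ≠ (0 : ℤᵐ⁰) := by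
    rw [Ne, map_eq_zero]
    exact γ.ne_zero
  obtain ⟨n, hn⟩ := exists_exp_le h0
  refine ⟨n + 1, fun x hx => hγ ?_⟩
  change Valued.v.restrict x < γ
  rw [← MonoidWithZeroHom.ValueGroup₀.embedding_strictMono.lt_iff_lt]
  refine lt_of_lt_of_le ?_ hn
  change MonoidWithZeroHom.ValueGroup₀.embedding (Valued.v.restrict x) < _
  rw [Valuation.embedding_restrict]
  refine lt_of_le_of_lt hx ?_
  rw [exp_lt_exp]
  push_cast
  omega

theorem ball_mem_nhds {F : Type*} [Field F] [Valued F ℤᵐ⁰] {n : ℤ} {c : F}
    (hc : Valued.v c = exp n) : {x : F | Valued.v x ≤ exp n} ∈ 𝓝 (0 : F) := by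
  have hc0 : c ≠ 0 := by
    rintro rfl
    rw [map_zero] at hc
    exact exp_ne_zero hc.symm
  have h1 : {x : F | Valued.v x ≤ exp n} =
      (fun x => c⁻¹ * x) ⁻¹' (Valued.integer F : Set F) := by
    refine Set.ext fun x => ?_
    change Valued.v x ≤ exp n ↔ c⁻¹ * x ∈ Valued.integer F
    rw [Valued.integer, Valuation.mem_integer_iff, map_mul, map_inv₀, hc,
      inv_mul_le_iff₀ (by simp), mul_one]
  have h2 : IsOpen {x : F | Valued.v x ≤ exp n} := by
    rw [h1]
    exact (Valued.isOpen_integer F).preimage (continuous_const.mul continuous_id)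
  exact h2.mem_nhds (by simp)

end Nhds

section Ext

variable {R : Type*} [CommRing R] [IsDedekindDomain R] {K : Type*} [Field K] [Algebra R K]
  [IsFractionRing R K] {S : Type*} [CommRing S] [IsDedekindDomain S] {L : Type*} [Field L]
  [Algebra S L] [IsFractionRing S L]

/-- `w` lies above `v` along `φ` with ramification index `e` -/
def Above (φ : K →+* L) (v : HeightOneSpectrum R) (w : HeightOneSpectrum S) (e : ℕ) : Prop :=
  e ≠ 0 ∧ ∀ x, w.valuation L (φ x) = v.valuation K x ^ e

variable {φ : K →+* L} {v : HeightOneSpectrum R} {w : HeightOneSpectrum S} {e : ℕ}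

/-- the homomorphism from the uncompleted field -/
noncomputable def extPre (φ : K →+* L) (v : HeightOneSpectrum R) (w : HeightOneSpectrum S) :
    WithVal (v.valuation K) →+* w.adicCompletion L :=
  (algebraMap L (w.adicCompletion L)).comp (φ.comp (WithVal.equiv (v.valuation K)).toRingHom)

theorem continuous_extPre (h : Above φ v w e) : Continuous (extPre φ v w) := by
  refine continuous_of_continuousAt_zero (extPre φ v w) ?_
  intro U hU
  rw [map_zero] at hU
  obtain ⟨n, hn⟩ := exists_ball_subset hU
  obtain ⟨c, -, hc⟩ := LT.Fin.exists_valuation_eq (K := K) v (-(n : ℤ))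
  have hc' : Valued.v ((WithVal.equiv (v.valuation K)).symm c) = exp (-(n : ℤ)) := hc
  refine mem_map.2 (mem_of_superset (ball_mem_nhds hc') fun x hx => hn ?_)
  change Valued.v (algebraMap L (w.adicCompletion L) (φ (WithVal.equiv _ x))) ≤ _
  have hx' : v.valuation K (WithVal.equiv _ x) ≤ exp (-(n : ℤ)) := hx
  rw [valued_algebraMap, h.2]
  have h1 : v.valuation K (WithVal.equiv _ x) ≤ 1 := hx'.trans (by
    rw [← exp_zero, exp_le_exp]; omega)
  exact (pow_le_of_le_one zero_le h1 h.1).trans hx'

/-- **extension to the completions** -/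
noncomputable def ext (h : Above φ v w e) : v.adicCompletion K →+* w.adicCompletion L :=
  (UniformSpace.Completion.extensionHom (extPre φ v w) (continuous_extPre h)).comp
    (adicCompletion.equiv K v).toRingHom

theorem ext_coe (h : Above φ v w e) (x : K) :
    ext h (algebraMap K (v.adicCompletion K) x) = algebraMap L (w.adicCompletion L) (φ x) := by
  have h1 : (adicCompletion.equiv K v) (algebraMap K (v.adicCompletion K) x) =
      (((WithVal.equiv (v.valuation K)).symm x : WithVal (v.valuation K)) :
        (v.valuation K).Completion) := rfl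
  change UniformSpace.Completion.extensionHom (extPre φ v w) (continuous_extPre h)
    ((adicCompletion.equiv K v) (algebraMap K (v.adicCompletion K) x)) = _
  rw [h1, UniformSpace.Completion.extensionHom_coe]
  rfl

theorem continuous_ext (h : Above φ v w e) : Continuous (ext h) :=
  UniformSpace.Completion.continuous_extension.comp (adicCompletion.continuous_toCompletion K v)

theorem denseRange_algebraMap (v : HeightOneSpectrum R) :
    DenseRange (algebraMap K (v.adicCompletion K)) := by
  intro x
  rw [mem_closure_iff_nhds_zero]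
  intro U hU
  obtain ⟨n, hn⟩ := exists_ball_subset hU
  classical
  obtain ⟨a, ha, -⟩ := LT.Fin.exists_approx {v} (Function.update 0 v x) n
  have := ha v (Finset.mem_singleton_self v)
  rw [Function.update_self] at this
  exact ⟨_, ⟨a, rfl⟩, hn this⟩

theorem isOpen_valued_eq {F : Type*} [Field F] [Valued F ℤᵐ⁰] {x : F} (hx : x ≠ 0) :
    {y : F | Valued.v y = Valued.v x} ∈ 𝓝 x :=
  Valued.locally_const ((Valuation.ne_zero_iff _).2 hx)

theorem valued_ext (h : Above φ v w e) (x : v.adicCompletion K) :
    Valued.v (ext h x) = Valued.v x ^ e := by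
  by_cases hx : x = 0
  · rw [hx, map_zero, map_zero, map_zero, zero_pow h.1]
  have hy : ext h x ≠ 0 := by rwa [Ne, map_eq_zero]
  have h1 := isOpen_valued_eq hx
  have h2 := (continuous_ext h).continuousAt.preimage_mem_nhds (isOpen_valued_eq hy)
  obtain ⟨_, ⟨hz1, hz2⟩, ⟨a, rfl⟩⟩ :=
    mem_closure_iff_nhds.1 (denseRange_algebraMap (K := K) v x) _ (inter_mem h1 h2)
  change Valued.v (ext h (algebraMap K (v.adicCompletion K) a)) = Valued.v (ext h x) at hz2
  change Valued.v (algebraMap K (v.adicCompletion K) a) = Valued.v x at hz1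
  rw [← hz1, ← hz2, ext_coe, valued_algebraMap, valued_algebraMap, h.2]

theorem pow_le_one_iff_zm {x : ℤᵐ⁰} {e : ℕ} (he : e ≠ 0) : x ^ e ≤ 1 ↔ x ≤ 1 :=
  pow_le_one_iff_of_nonneg zero_le he

theorem ext_mem_Oc (h : Above φ v w e) {x : v.adicCompletion K} : ext h x ∈ Oc w ↔ x ∈ Oc v := by
  rw [mem_Oc, mem_Oc, valued_ext, pow_le_one_iff_zm h.1]

/-- a continuous map to a Hausdorff space is determined by its values on the field -/
theorem eq_of_continuous {Z : Type*} [TopologicalSpace Z] [T2Space Z]
    {f g : v.adicCompletion K → Z} (hf : Continuous f) (hg : Continuous g)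
    (h : ∀ a : K, f (algebraMap K (v.adicCompletion K) a) =
      g (algebraMap K (v.adicCompletion K) a)) : f = g :=
  (denseRange_algebraMap v).equalizer hf hg (funext h)

theorem isInducing_ext (h : Above φ v w e) : Topology.IsInducing (ext h) := by
  rw [IsTopologicalAddGroup.isInducing_iff_nhds_zero]
  refine le_antisymm ?_ ?_
  · rw [← Filter.map_le_iff_le_comap]
    have := (continuous_ext h).tendsto 0
    rwa [map_zero] at this
  · intro U hU
    obtain ⟨n, hn⟩ := exists_ball_subset hU
    obtain ⟨c, -, hc⟩ := LT.Fin.exists_valuation_eq (K := L) w (e * (-(n : ℤ)))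
    have hc' : Valued.v (algebraMap L (w.adicCompletion L) c) = exp (e * (-(n : ℤ))) := by
      rw [valued_algebraMap, hc]
    refine ⟨_, ball_mem_nhds hc', fun x hx => hn ?_⟩
    change Valued.v (ext h x) ≤ _ at hx
    change Valued.v x ≤ _
    rw [valued_ext] at hx
    by_contra hlt
    have h1 := pow_lt_pow_left₀ (not_le.1 hlt) zero_le h.1
    rw [← exp_nsmul, nsmul_eq_mul] at h1
    exact absurd hx (not_le.2 h1)

theorem isUniformInducing_ext (h : Above φ v w e) : IsUniformInducing (ext h) :=
  AddMonoidHom.isUniformInducing_of_isInducing (isInducing_ext h)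

theorem isClosed_range_ext (h : Above φ v w e) : IsClosed (Set.range (ext h)) :=
  (isUniformInducing_ext h).isComplete_range.isClosed

theorem Above.comp {T : Type*} [CommRing T] [IsDedekindDomain T] {M : Type*} [Field M]
    [Algebra T M] [IsFractionRing T M] {ψ : L →+* M} {u : HeightOneSpectrum T} {f : ℕ}
    (h : Above φ v w e) (h' : Above ψ w u f) : Above (ψ.comp φ) v u (e * f) :=
  ⟨mul_ne_zero h.1 h'.1, fun x => by
    rw [RingHom.comp_apply, h'.2, h.2, pow_mul]⟩

theorem Above.symm {θ : K ≃+* L} (h : Above (θ : K →+* L) v w 1) :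
    Above (θ.symm : L →+* K) w v 1 :=
  ⟨one_ne_zero, fun x => by
    have := h.2 (θ.symm x)
    rw [pow_one] at this
    rw [pow_one, RingHom.coe_coe, ← this]
    simp⟩

theorem mem_iff_valuation_lt_one (v : HeightOneSpectrum R) (r : R) :
    r ∈ v.asIdeal ↔ v.valuation K (algebraMap R K r) < 1 := (v.valuation_lt_one_iff_mem r).symm

theorem Above.unique {v' : HeightOneSpectrum R} {e' : ℕ} (h : Above φ v w e)
    (h' : Above φ v' w e') : v = v' := by
  apply HeightOneSpectrum.ext
  ext r
  rw [mem_iff_valuation_lt_one (K := K), mem_iff_valuation_lt_one (K := K),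
    ← pow_lt_one_iff_of_nonneg zero_le h.1, ← h.2, h'.2, pow_lt_one_iff_of_nonneg zero_le h'.1]

end Ext

section Act

variable {R : Type*} [CommRing R] [IsDedekindDomain R] {K : Type*} [Field K] [Algebra R K]
  [IsFractionRing R K]

theorem intValuation_equiv (f : R ≃+* R) (w : HeightOneSpectrum R) (r : R) :
    (equivOfRingEquiv f w).intValuation (f r) = w.intValuation r := by
  have key : ∀ n : ℕ, (equivOfRingEquiv f w).intValuation (f r) ≤ exp (-(n : ℤ)) ↔
      w.intValuation r ≤ exp (-(n : ℤ)) := by
    intro n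
    rw [intValuation_le_pow_iff_mem, intValuation_le_pow_iff_mem]
    change f r ∈ (Ideal.comap f.symm w.asIdeal) ^ n ↔ _
    rw [Ideal.comap_symm, ← Ideal.map_pow, ← Ideal.comap_symm, Ideal.mem_comap]
    simp
  by_cases hr : r = 0
  · simp [hr]
  have hfr : f r ≠ 0 := by simpa using hr
  rw [intValuation_if_neg _ hr, intValuation_if_neg _ hfr] at key ⊢
  refine le_antisymm ((key _).2 le_rfl) ?_
  have := (key ((Associates.mk (equivOfRingEquiv f w).asIdeal).count
      (Associates.mk (Ideal.span {f r})).factors)).1 le_rfl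
  exact this

/-- an automorphism of the fraction field preserving the ring -/
theorem above_equiv (f : R ≃+* R) (θ : K ≃+* K) (h : ∀ r, θ (algebraMap R K r) =
    algebraMap R K (f r)) (w : HeightOneSpectrum R) :
    Above (θ : K →+* K) w (equivOfRingEquiv f w) 1 := by
  refine ⟨one_ne_zero, fun x => ?_⟩
  obtain ⟨n, d, hd, rfl⟩ := IsFractionRing.div_surjective (A := R) x
  rw [RingHom.coe_coe, map_div₀ θ, h, h, map_div₀, map_div₀, valuation_of_algebraMap,
    valuation_of_algebraMap, valuation_of_algebraMap, valuation_of_algebraMap,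
    intValuation_equiv, intValuation_equiv, pow_one]

end Act

end Fermat.Agent.LT.Glob
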