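import Fermat.Agent.LT.Loc.ConvAlg

set_option autoImplicit false

/-!
# The Hecke algebra of a pair `(G, K)` as an algebra of invariant kernels on `G ⧸ K`
-/

namespace Fermat.Agent.LT.Glob

open Fermat.Agent.LT.Loc

/-! ### row finite kernels -/

section Kernels

variable {X : Type*}

/-- finite rows -/
def RowF (κ : X → X → ℂ) : Prop := ∀ x, {y | κ x y ≠ 0}.Finite

/-- composition of kernels -/
noncomputable def kcomp (κ κ' : X → X → ℂ) : X → X → ℂ := fun x z => ∑ᶠ y, κ x y * κ' y z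

variable {κ κ' κ'' : X → X → ℂ}

theorem kcomp_eq_sum (x z : X) {s : Finset X} (hs : ∀ y, κ x y ≠ 0 → y ∈ s) :
    kcomp κ κ' x z = ∑ y ∈ s, κ x y * κ' y z := by
  apply finsum_eq_sum_of_support_subset
  intro y hy
  exact hs y (left_ne_zero_of_mul hy)

theorem kcomp_eq (h : RowF κ) (x z : X) :
    kcomp κ κ' x z = ∑ y ∈ (h x).toFinset, κ x y * κ' y z :=
  kcomp_eq_sum x z fun y hy => (h x).mem_toFinset.mpr hy

theorem RowF.kcomp (h : RowF κ) (h' : RowF κ') : RowF (kcomp κ κ') := by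
  intro x
  refine Set.Finite.subset (Set.Finite.biUnion (h x) fun y _ => h' y) fun z hz => ?_
  rw [Set.mem_ofPred_eq, kcomp_eq h] at hz
  obtain ⟨y, hy, hyz⟩ := Finset.exists_ne_zero_of_sum_ne_zero hz
  exact Set.mem_biUnion (left_ne_zero_of_mul hyz) (right_ne_zero_of_mul hyz)

theorem kcomp_assoc (h : RowF κ) (h' : RowF κ') :
    kcomp (kcomp κ κ') κ'' = kcomp κ (kcomp κ' κ'') := by
  classical
  funext x z
  set Y := (h x).toFinset with hY
  set W := Y.biUnion fun y => (h' y).toFinset with hW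
  have hW' : ∀ w, kcomp κ κ' x w ≠ 0 → w ∈ W := by
    intro w hw
    rw [kcomp_eq h] at hw
    obtain ⟨y, hy, hyz⟩ := Finset.exists_ne_zero_of_sum_ne_zero hw
    rw [hW, Finset.mem_biUnion]
    exact ⟨y, hy, (h' y).mem_toFinset.mpr (right_ne_zero_of_mul hyz)⟩
  rw [kcomp_eq_sum x z hW', kcomp_eq h]
  have e1 : ∀ w ∈ W, kcomp κ κ' x w * κ'' w z = ∑ y ∈ Y, κ x y * κ' y w * κ'' w z := by
    intro w _
    rw [kcomp_eq h, Finset.sum_mul]
  rw [Finset.sum_congr rfl e1, Finset.sum_comm]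
  refine Finset.sum_congr rfl fun y hy => ?_
  have e2 : kcomp κ' κ'' y z = ∑ w ∈ W, κ' y w * κ'' w z := by
    apply kcomp_eq_sum
    intro w hw
    rw [hW, Finset.mem_biUnion]
    exact ⟨y, hy, (h' y).mem_toFinset.mpr hw⟩
  rw [e2, Finset.mul_sum]
  exact Finset.sum_congr rfl fun w _ => by ring

theorem RowF.add (h : RowF κ) (h' : RowF κ') : RowF (κ + κ') := fun x =>
  Set.Finite.subset ((h x).union (h' x)) fun y hy => by
    by_contra hcon
    simp only [Set.mem_union, Set.mem_ofPred_eq, not_or, not_not] at hcon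
    apply hy
    rw [Pi.add_apply, Pi.add_apply, hcon.1, hcon.2, add_zero]

theorem RowF.smul (c : ℂ) (h : RowF κ) : RowF (c • κ) := fun x =>
  Set.Finite.subset (h x) fun y hy => by
    intro h0
    apply hy
    rw [Pi.smul_apply, Pi.smul_apply, h0, smul_zero]

theorem RowF.zero : RowF (0 : X → X → ℂ) := fun x => by
  simp

/-- the unit kernel -/
noncomputable def kone (X : Type*) : X → X → ℂ := open Classical in fun x y => if x = y then 1 else 0

theorem kone_self (x : X) : kone X x x = 1 := by rw [kone, if_pos rfl]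

theorem kone_ne {x y : X} (h : x ≠ y) : kone X x y = 0 := by rw [kone, if_neg h]

theorem RowF.one : RowF (kone X) := fun x => by
  refine (Set.finite_singleton x).subset fun y hy => ?_
  rw [Set.mem_ofPred_eq, kone] at hy
  by_contra hne
  exact hy (if_neg fun e => hne e.symm)

theorem kcomp_add (h : RowF κ) : kcomp κ (κ' + κ'') = kcomp κ κ' + kcomp κ κ'' := by
  funext x z
  rw [Pi.add_apply, Pi.add_apply, kcomp_eq h, kcomp_eq h, kcomp_eq h, ← Finset.sum_add_distrib]
  exact Finset.sum_congr rfl fun y _ => by rw [Pi.add_apply, Pi.add_apply]; ring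

theorem add_kcomp (h : RowF κ) (h' : RowF κ') : kcomp (κ + κ') κ'' = kcomp κ κ'' + kcomp κ' κ'' := by
  classical
  funext x z
  set Y := (h x).toFinset ∪ (h' x).toFinset with hY
  have h1 : ∀ y, κ x y ≠ 0 → y ∈ Y := fun y hy =>
    Finset.mem_union_left _ ((h x).mem_toFinset.mpr hy)
  have h2 : ∀ y, κ' x y ≠ 0 → y ∈ Y := fun y hy =>
    Finset.mem_union_right _ ((h' x).mem_toFinset.mpr hy)
  have h3 : ∀ y, (κ + κ') x y ≠ 0 → y ∈ Y := by
    intro y hy
    by_contra hcon
    have h4 : κ x y = 0 := by_contra fun h => hcon (h1 y h)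
    have h5 : κ' x y = 0 := by_contra fun h => hcon (h2 y h)
    apply hy
    rw [Pi.add_apply, Pi.add_apply, h4, h5, add_zero]
  rw [Pi.add_apply, Pi.add_apply, kcomp_eq_sum x z h3, kcomp_eq_sum x z h1, kcomp_eq_sum x z h2,
    ← Finset.sum_add_distrib]
  exact Finset.sum_congr rfl fun y _ => by rw [Pi.add_apply, Pi.add_apply]; ring

theorem smul_kcomp (c : ℂ) (h : RowF κ) : kcomp (c • κ) κ' = c • kcomp κ κ' := by
  funext x z
  have h1 : ∀ y, (c • κ) x y ≠ 0 → y ∈ (h x).toFinset := by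
    intro y hy
    rw [Pi.smul_apply, Pi.smul_apply, smul_eq_mul] at hy
    exact (h x).mem_toFinset.mpr (right_ne_zero_of_mul hy)
  rw [Pi.smul_apply, Pi.smul_apply, kcomp_eq h, kcomp_eq_sum x z h1, smul_eq_mul, Finset.mul_sum]
  exact Finset.sum_congr rfl fun y _ => by
    rw [Pi.smul_apply, Pi.smul_apply, smul_eq_mul]; ring

theorem kcomp_smul (c : ℂ) (h : RowF κ) : kcomp κ (c • κ') = c • kcomp κ κ' := by
  funext x z
  rw [Pi.smul_apply, Pi.smul_apply, kcomp_eq h, kcomp_eq h, smul_eq_mul, Finset.mul_sum]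
  exact Finset.sum_congr rfl fun y _ => by
    rw [Pi.smul_apply, Pi.smul_apply, smul_eq_mul]; ring

theorem zero_kcomp : kcomp 0 κ = 0 := by
  funext x z
  rw [kcomp]
  simp

theorem kcomp_zero : kcomp κ 0 = 0 := by
  funext x z
  rw [kcomp]
  simp

theorem one_kcomp : kcomp (kone X) κ = κ := by
  classical
  funext x z
  rw [kcomp_eq_sum x z (s := {x}) fun y hy => ?_, Finset.sum_singleton, kone, if_pos rfl, one_mul]
  rw [Finset.mem_singleton]
  by_contra hne
  rw [kone, if_neg fun e => hne e.symm] at hy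
  exact hy rfl

theorem kcomp_one (h : RowF κ) : kcomp κ (kone X) = κ := by
  classical
  funext x z
  rw [kcomp_eq h]
  have h1 : ∀ y ∈ (h x).toFinset, κ x y * kone X y z = if y = z then κ x z else 0 := by
    intro y _
    rw [kone]
    split_ifs with e
    · rw [e, mul_one]
    · rw [mul_zero]
  rw [Finset.sum_congr rfl h1, Finset.sum_ite_eq']
  split_ifs with hz
  · rfl
  · by_contra hne
    exact hz ((h x).mem_toFinset.mpr fun h0 => hne h0.symm)

/-- the action of a kernel on functions -/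
noncomputable def kact {E : Type*} [AddCommGroup E] [Module ℂ E] (κ : X → X → ℂ) (u : X → E) :
    X → E := fun x => ∑ᶠ y, κ x y • u y

section act

variable {E : Type*} [AddCommGroup E] [Module ℂ E]

theorem kact_eq_sum (x : X) (u : X → E) {s : Finset X} (hs : ∀ y, κ x y ≠ 0 → y ∈ s) :
    kact κ u x = ∑ y ∈ s, κ x y • u y := by
  apply finsum_eq_sum_of_support_subset
  intro y hy
  apply hs y
  intro h
  apply hy
  change κ x y • u y = 0
  rw [h, zero_smul]

theorem kact_eq (h : RowF κ) (x : X) (u : X → E) :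
    kact κ u x = ∑ y ∈ (h x).toFinset, κ x y • u y :=
  kact_eq_sum x u fun y hy => (h x).mem_toFinset.mpr hy

theorem kact_kcomp (h : RowF κ) (h' : RowF κ') (u : X → E) :
    kact (kcomp κ κ') u = kact κ (kact κ' u) := by
  classical
  funext x
  set Y := (h x).toFinset with hY
  set W := Y.biUnion fun y => (h' y).toFinset with hW
  have hW' : ∀ w, kcomp κ κ' x w ≠ 0 → w ∈ W := by
    intro w hw
    rw [kcomp_eq h] at hw
    obtain ⟨y, hy, hyz⟩ := Finset.exists_ne_zero_of_sum_ne_zero hw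
    rw [hW, Finset.mem_biUnion]
    exact ⟨y, hy, (h' y).mem_toFinset.mpr (right_ne_zero_of_mul hyz)⟩
  rw [kact_eq_sum x u hW', kact_eq h]
  have e1 : ∀ w ∈ W, kcomp κ κ' x w • u w = ∑ y ∈ Y, κ x y • κ' y w • u w := by
    intro w _
    rw [kcomp_eq h, Finset.sum_smul]
    exact Finset.sum_congr rfl fun y _ => by rw [mul_smul]
  rw [Finset.sum_congr rfl e1, Finset.sum_comm]
  refine Finset.sum_congr rfl fun y hy => ?_
  have e2 : kact κ' u y = ∑ w ∈ W, κ' y w • u w := by
    apply kact_eq_sum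
    intro w hw
    rw [hW, Finset.mem_biUnion]
    exact ⟨y, hy, (h' y).mem_toFinset.mpr hw⟩
  rw [e2, Finset.smul_sum]

theorem kact_one (u : X → E) : kact (kone X) u = u := by
  classical
  funext x
  rw [kact_eq_sum x u (s := {x}) fun y hy => ?_, Finset.sum_singleton, kone, if_pos rfl, one_smul]
  rw [Finset.mem_singleton]
  by_contra hne
  rw [kone, if_neg fun e => hne e.symm] at hy
  exact hy rfl

end act

end Kernels

/-! ### invariant kernels on `G ⧸ K` -/

section Bi

variable {G : Type*} [Group G] {K : Subgroup G}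

/-- the kernel of a bi-invariant function -/
def bker (F : BiInv K) : G ⧸ K → G ⧸ K → ℂ := fun x y =>
  Quotient.liftOn₂' x y (fun x y => F.f (x⁻¹ * y)) (by
    intro a b c d hac hbd
    rw [QuotientGroup.leftRel_apply] at hac hbd
    have h1 := F.inv (a⁻¹ * c) hac ((b⁻¹ * d)⁻¹) (K.inv_mem hbd) (c⁻¹ * d)
    change F.f (a⁻¹ * b) = F.f (c⁻¹ * d)
    rw [← h1]
    congr 1
    group)

theorem bker_mk (F : BiInv K) (x y : G) : bker F (x : G ⧸ K) (y : G ⧸ K) = F.f (x⁻¹ * y) := rfl

theorem bker_one (F : BiInv K) (y : G) : bker F ((1 : G) : G ⧸ K) (y : G ⧸ K) = F.f y := by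
  rw [bker_mk, inv_one, one_mul]

theorem bker_smul (F : BiInv K) (g : G) (x y : G ⧸ K) : bker F (g • x) (g • y) = bker F x y := by
  induction x using QuotientGroup.induction_on with
  | H x =>
  induction y using QuotientGroup.induction_on with
  | H y =>
  change bker F ((g * x : G) : G ⧸ K) ((g * y : G) : G ⧸ K) = _
  rw [bker_mk, bker_mk]
  congr 1
  group

theorem biInv_ext {F F' : BiInv K} (h : bker F = bker F') : F = F' := by
  obtain ⟨f, hf⟩ := F
  obtain ⟨f', hf'⟩ := F'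
  have : f = f' := by
    funext g
    have h1 := congrFun (congrFun h ((1 : G) : G ⧸ K)) (g : G ⧸ K)
    rwa [bker_one, bker_one] at h1
  subst this
  rfl

/-- the bi-invariant function of an invariant kernel -/
def ofKer (κ : G ⧸ K → G ⧸ K → ℂ) (h : ∀ (g : G) (x y : G ⧸ K), κ (g • x) (g • y) = κ x y) :
    BiInv K where
  f g := κ ((1 : G) : G ⧸ K) (g : G ⧸ K)
  inv k hk k' hk' y := by
    have h1 : ((k * y * k' : G) : G ⧸ K) = k • (y : G ⧸ K) := by
      change _ = ((k * y : G) : G ⧸ K)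
      rw [QuotientGroup.eq]
      have : (k * y * k')⁻¹ * (k * y) = k'⁻¹ := by group
      rw [this]
      exact K.inv_mem hk'
    have h2 : ((1 : G) : G ⧸ K) = k • ((1 : G) : G ⧸ K) := by
      change _ = ((k * 1 : G) : G ⧸ K)
      rw [QuotientGroup.eq, mul_one, inv_one, one_mul]
      exact hk
    rw [h1]
    conv_lhs => rw [h2]
    exact h k _ _

theorem bker_ofKer (κ : G ⧸ K → G ⧸ K → ℂ)
    (h : ∀ (g : G) (x y : G ⧸ K), κ (g • x) (g • y) = κ x y) : bker (ofKer κ h) = κ := by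
  funext x y
  induction x using QuotientGroup.induction_on with
  | H x =>
  induction y using QuotientGroup.induction_on with
  | H y =>
  rw [bker_mk]
  change κ ((1 : G) : G ⧸ K) ((x⁻¹ * y : G) : G ⧸ K) = _
  have h1 := h x⁻¹ (x : G ⧸ K) (y : G ⧸ K)
  rw [← h1]
  change κ ((1 : G) : G ⧸ K) ((x⁻¹ * y : G) : G ⧸ K) =
    κ ((x⁻¹ * x : G) : G ⧸ K) ((x⁻¹ * y : G) : G ⧸ K)
  rw [inv_mul_cancel]

/-- **The Hecke algebra** of `(G, K)`: bi-invariant functions with finite support modulo `K`. -/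
structure Hk (K : Subgroup G) extends BiInv K where
  row : RowF (bker toBiInv)

namespace Hk

/-- the kernel -/
def ker (F : Hk K) : G ⧸ K → G ⧸ K → ℂ := bker F.toBiInv

theorem ker_mk (F : Hk K) (x y : G) : F.ker (x : G ⧸ K) (y : G ⧸ K) = F.f (x⁻¹ * y) := rfl

theorem ker_one_left (F : Hk K) (y : G) : F.ker ((1 : G) : G ⧸ K) (y : G ⧸ K) = F.f y :=
  bker_one _ y

theorem ker_smul (F : Hk K) (g : G) (x y : G ⧸ K) : F.ker (g • x) (g • y) = F.ker x y :=
  bker_smul _ g x y

theorem rowF (F : Hk K) : RowF F.ker := F.row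

@[ext] theorem ext {F F' : Hk K} (h : F.ker = F'.ker) : F = F' := by
  obtain ⟨B, hB⟩ := F
  obtain ⟨B', hB'⟩ := F'
  have : B = B' := biInv_ext h
  subst this
  rfl

theorem ext_f {F F' : Hk K} (h : ∀ g, F.f g = F'.f g) : F = F' := by
  apply Hk.ext
  funext x y
  induction x using QuotientGroup.induction_on with
  | H x =>
  induction y using QuotientGroup.induction_on with
  | H y =>
  rw [ker_mk, ker_mk, h]

/-- finite rows from the finiteness of one row -/
theorem rowF_of_base (F : BiInv K) (h : {y : G ⧸ K | bker F ((1 : G) : G ⧸ K) y ≠ 0}.Finite) :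
    RowF (bker F) := by
  intro x
  induction x using QuotientGroup.induction_on with
  | H x =>
  refine (h.image fun y => x • y).subset fun y hy => ⟨x⁻¹ • y, ?_, smul_inv_smul x y⟩
  rw [Set.mem_ofPred_eq]
  have h1 := bker_smul F x ((1 : G) : G ⧸ K) (x⁻¹ • y)
  rw [← h1, smul_inv_smul]
  have h2 : x • ((1 : G) : G ⧸ K) = (x : G ⧸ K) := by
    change ((x * 1 : G) : G ⧸ K) = _
    rw [mul_one]
  rw [h2]
  exact hy

/-- constructor -/
def ofBi (F : BiInv K) (h : {x : G ⧸ K | ∃ g : G, (g : G ⧸ K) = x ∧ F.f g ≠ 0}.Finite) : Hk K where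
  toBiInv := F
  row := rowF_of_base F (h.subset fun y hy => by
    induction y using QuotientGroup.induction_on with
    | H y =>
    rw [Set.mem_ofPred_eq, bker_one] at hy
    exact ⟨y, rfl, hy⟩)

theorem ofBi_f (F : BiInv K) (h : {x : G ⧸ K | ∃ g : G, (g : G ⧸ K) = x ∧ F.f g ≠ 0}.Finite) :
    (ofBi F h).f = F.f := rfl

/-- constructor from an invariant kernel -/
def ofK (κ : G ⧸ K → G ⧸ K → ℂ) (h : ∀ (g : G) (x y : G ⧸ K), κ (g • x) (g • y) = κ x y)
    (hr : RowF κ) : Hk K where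
  toBiInv := ofKer κ h
  row := by rw [bker_ofKer]; exact hr

@[simp] theorem ker_ofK (κ : G ⧸ K → G ⧸ K → ℂ)
    (h : ∀ (g : G) (x y : G ⧸ K), κ (g • x) (g • y) = κ x y) (hr : RowF κ) :
    (ofK κ h hr).ker = κ := bker_ofKer κ h

theorem fin (F : Hk K) : {x : G ⧸ K | ∃ g : G, (g : G ⧸ K) = x ∧ F.f g ≠ 0}.Finite := by
  refine (F.row ((1 : G) : G ⧸ K)).subset ?_
  rintro _ ⟨g, rfl, hg⟩
  rw [Set.mem_ofPred_eq, bker_one]
  exact hg

theorem kcomp_smul_inv (F F' : Hk K) (g : G) (x z : G ⧸ K) :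
    kcomp F.ker F'.ker (g • x) (g • z) = kcomp F.ker F'.ker x z := by
  rw [kcomp, kcomp]
  rw [← finsum_comp_equiv (MulAction.toPerm g) (f := fun y => F.ker (g • x) y * F'.ker y (g • z))]
  exact finsum_congr fun y => by
    rw [MulAction.toPerm_apply, ker_smul, ker_smul]

noncomputable instance : Mul (Hk K) :=
  ⟨fun F F' => ofK (kcomp F.ker F'.ker) (fun g x z => kcomp_smul_inv F F' g x z)
    (F.rowF.kcomp F'.rowF)⟩

theorem kone_smul (g : G) (x y : G ⧸ K) : kone (G ⧸ K) (g • x) (g • y) = kone (G ⧸ K) x y := by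
  by_cases h : x = y
  · rw [h, kone_self, kone_self]
  · rw [kone_ne h, kone_ne fun e => h (smul_left_cancel g e)]

noncomputable instance : One (Hk K) :=
  ⟨ofK (kone _) kone_smul RowF.one⟩

instance : Zero (Hk K) := ⟨ofK 0 (fun _ _ _ => rfl) RowF.zero⟩

instance : Add (Hk K) :=
  ⟨fun F F' => ofK (F.ker + F'.ker) (fun g x y => by
    rw [Pi.add_apply, Pi.add_apply, Pi.add_apply, Pi.add_apply, ker_smul, ker_smul])
    (F.rowF.add F'.rowF)⟩

instance : SMul ℂ (Hk K) :=
  ⟨fun c F => ofK (c • F.ker) (fun g x y => by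
    rw [Pi.smul_apply, Pi.smul_apply, Pi.smul_apply, Pi.smul_apply, ker_smul]) (F.rowF.smul c)⟩

instance : Neg (Hk K) := ⟨fun F => (-1 : ℂ) • F⟩

@[simp] theorem ker_mul (F F' : Hk K) : (F * F').ker = kcomp F.ker F'.ker := ker_ofK _ _ _
@[simp] theorem ker_one : (1 : Hk K).ker = kone _ := ker_ofK _ _ _
@[simp] theorem ker_zero : (0 : Hk K).ker = 0 := ker_ofK _ _ _
@[simp] theorem ker_add (F F' : Hk K) : (F + F').ker = F.ker + F'.ker := ker_ofK _ _ _
@[simp] theorem ker_csmul (c : ℂ) (F : Hk K) : (c • F).ker = c • F.ker := ker_ofK _ _ _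
@[simp] theorem ker_neg (F : Hk K) : (-F).ker = -F.ker := by
  change ((-1 : ℂ) • F).ker = _
  rw [ker_csmul]
  funext x y
  simp

noncomputable instance : Ring (Hk K) where
  add_assoc a b c := by ext x y; simp [add_assoc]
  zero_add a := by ext x y; simp
  add_zero a := by ext x y; simp
  add_comm a b := by ext x y; simp [add_comm]
  neg_add_cancel a := by ext x y; simp
  mul_assoc a b c := by
    apply Hk.ext
    rw [ker_mul, ker_mul, ker_mul, ker_mul, kcomp_assoc a.rowF b.rowF]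
  one_mul a := by
    apply Hk.ext
    rw [ker_mul, ker_one, one_kcomp]
  mul_one a := by
    apply Hk.ext
    rw [ker_mul, ker_one, kcomp_one a.rowF]
  zero_mul a := by
    apply Hk.ext
    rw [ker_mul, ker_zero, zero_kcomp]
  mul_zero a := by
    apply Hk.ext
    rw [ker_mul, ker_zero, kcomp_zero]
  left_distrib a b c := by
    apply Hk.ext
    rw [ker_mul, ker_add, ker_add, ker_mul, ker_mul, kcomp_add a.rowF]
  right_distrib a b c := by
    apply Hk.ext
    rw [ker_mul, ker_add, ker_add, ker_mul, ker_mul, add_kcomp a.rowF b.rowF]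
  nsmul := nsmulRec
  zsmul := zsmulRec

noncomputable instance : Module ℂ (Hk K) where
  one_smul a := by ext x y; simp
  mul_smul c d a := by ext x y; simp [mul_assoc]
  smul_zero c := by ext x y; simp
  smul_add c a b := by ext x y; simp [mul_add]
  add_smul c d a := by ext x y; simp [add_mul]
  zero_smul a := by ext x y; simp

noncomputable instance : Algebra ℂ (Hk K) := Algebra.ofModule
  (fun c a b => by
    apply Hk.ext
    rw [ker_mul, ker_csmul, ker_csmul, ker_mul, smul_kcomp c a.rowF])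
  (fun c a b => by
    apply Hk.ext
    rw [ker_mul, ker_csmul, ker_csmul, ker_mul, kcomp_smul c a.rowF])

theorem one_f (g : G) [Decidable (g ∈ K)] : (1 : Hk K).f g = if g ∈ K then 1 else 0 := by
  rw [← ker_one_left, ker_one, kone]
  have : ((1 : G) : G ⧸ K) = (g : G ⧸ K) ↔ g ∈ K := by
    rw [QuotientGroup.eq, inv_one, one_mul]
  simp only [this]

theorem zero_f (g : G) : (0 : Hk K).f g = 0 := by
  rw [← ker_one_left, ker_zero]; rfl
theorem add_f (F F' : Hk K) (g : G) : (F + F').f g = F.f g + F'.f g := by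
  rw [← ker_one_left, ker_add, Pi.add_apply, Pi.add_apply, ker_one_left, ker_one_left]
theorem csmul_f (c : ℂ) (F : Hk K) (g : G) : (c • F).f g = c * F.f g := by
  rw [← ker_one_left, ker_csmul, Pi.smul_apply, Pi.smul_apply, ker_one_left, smul_eq_mul]
theorem mul_f (F F' : Hk K) (g : G) :
    (F * F').f g = ∑ᶠ y : G ⧸ K, F.ker ((1 : G) : G ⧸ K) y * F'.ker y (g : G ⧸ K) := by
  rw [← ker_one_left, ker_mul]; rfl

theorem toBiInv_injective : Function.Injective (Hk.toBiInv : Hk K → BiInv K) := fun F F' h =>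
  ext_f fun g => by rw [h]

theorem fin' (F : Hk K) : F.toBiInv.Fin := F.fin

theorem toBiInv_one : (1 : Hk K).toBiInv = BiInv.unit K := by
  classical
  apply BiInv.ext'
  intro g
  rw [one_f, BiInv.unit_f]

theorem toBiInv_mul (F F' : Hk K) : (F * F').toBiInv = F.toBiInv.conv F'.toBiInv := by
  apply BiInv.ext'
  intro g
  rw [mul_f, BiInv.conv_f]
  refine finsum_congr fun a => ?_
  induction a using QuotientGroup.induction_on with
  | H a => rw [BiInv.convAux_mk, ker_one_left, ker_mk]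

theorem ofBi_mul (F F' : BiInv K) (h : F.Fin) (h' : F'.Fin) :
    ofBi F h * ofBi F' h' = ofBi (F.conv F') (h.conv h') := by
  apply toBiInv_injective
  rw [toBiInv_mul]
  rfl

theorem ofBi_unit : ofBi (BiInv.unit K) BiInv.unit_fin = 1 := by
  apply toBiInv_injective
  rw [toBiInv_one]
  rfl

theorem ofBi_toBiInv (F : Hk K) : ofBi F.toBiInv F.fin = F := toBiInv_injective rfl

theorem eq_one_iff (F : Hk K) : F = 1 ↔ (∀ g ∈ K, F.f g = 1) ∧ ∀ g ∉ K, F.f g = 0 := by
  classical
  constructor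
  · rintro rfl
    exact ⟨fun g hg => by rw [one_f, if_pos hg], fun g hg => by rw [one_f, if_neg hg]⟩
  · rintro ⟨h1, h2⟩
    apply ext_f
    intro g
    rw [one_f]
    split_ifs with hg
    · exact h1 g hg
    · exact h2 g hg

/-- the twisted function on `G ⧸ K` -/
theorem tw_eq (F : Hk K) (σ : G →* G) (hσ : ∀ k ∈ K, σ k ∈ K) (X y : G) :
    F.tw σ hσ X (y : G ⧸ K) = F.ker (y : G ⧸ K) ((X * σ y : G) : G ⧸ K) := by
  rw [BiInv.tw_mk, ker_mk]
  congr 1
  group

end Hk

/-- the condition which makes adjoints available: `K` has finite orbits on `G ⧸ K` -/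
def FinOrb (K : Subgroup G) : Prop := ∀ x : G, {y : G ⧸ K | ∃ k ∈ K, y = k • (x : G ⧸ K)}.Finite

/-- finite columns -/
theorem Hk.col (hK : FinOrb K) (F : Hk K) (y : G ⧸ K) : {x | F.ker x y ≠ 0}.Finite := by
  induction y using QuotientGroup.induction_on with
  | H y =>
  have h1 := F.fin
  -- representatives of the support
  have h2 : {x : G ⧸ K | ∃ g : G, F.f g ≠ 0 ∧ x = (g⁻¹ : G)}.Finite := by
    choose r hr using fun x : {x : G ⧸ K | ∃ g : G, (g : G ⧸ K) = x ∧ F.f g ≠ 0} => x.2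
    have := h1.to_subtype
    refine (Set.finite_iUnion (fun x : {x : G ⧸ K | ∃ g : G, (g : G ⧸ K) = x ∧
      F.f g ≠ 0} => hK (r x)⁻¹)).subset ?_
    · rintro _ ⟨g, hg, rfl⟩
      rw [Set.mem_iUnion]
      refine ⟨⟨(g : G ⧸ K), g, rfl, hg⟩, ?_⟩
      have h3 := (hr ⟨(g : G ⧸ K), g, rfl, hg⟩).1
      rw [QuotientGroup.eq] at h3
      set r0 := r ⟨(g : G ⧸ K), g, rfl, hg⟩
      -- `g = r0 k`, `g⁻¹ = k⁻¹ r0⁻¹`
      refine ⟨(r0⁻¹ * g)⁻¹, K.inv_mem h3, ?_⟩
      change _ = (((r0⁻¹ * g)⁻¹ * r0⁻¹ : G) : G ⧸ K)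
      congr 1
      group
  refine (h2.image fun x => y • x).subset fun x hx => ?_
  induction x using QuotientGroup.induction_on with
  | H x =>
  rw [Set.mem_ofPred_eq, Hk.ker_mk] at hx
  refine ⟨_, ⟨x⁻¹ * y, hx, rfl⟩, ?_⟩
  change ((y * (x⁻¹ * y)⁻¹ : G) : G ⧸ K) = _
  congr 1
  group

/-- the adjoint -/
noncomputable def Hk.adj (hK : FinOrb K) (F : Hk K) : Hk K :=
  Hk.ofK (fun x y => starRingEnd ℂ (F.ker y x)) (fun g x y => by rw [Hk.ker_smul]) (fun x =>
    (Hk.col hK F x).subset fun y hy => by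
      intro h
      apply hy
      change starRingEnd ℂ (F.ker y x) = 0
      rw [h, map_zero])

theorem Hk.ker_adj (hK : FinOrb K) (F : Hk K) (x y : G ⧸ K) :
    (F.adj hK).ker x y = starRingEnd ℂ (F.ker y x) := by
  exact congrFun (congrFun (Hk.ker_ofK _ _ _) x) y

theorem Hk.adj_f (hK : FinOrb K) (F : Hk K) (g : G) :
    (F.adj hK).f g = starRingEnd ℂ (F.f g⁻¹) := by
  rw [← Hk.ker_one_left, Hk.ker_adj, Hk.ker_mk, mul_one]

theorem Hk.adj_mul (hK : FinOrb K) (F F' : Hk K) : (F * F').adj hK = F'.adj hK * F.adj hK := by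
  apply Hk.ext
  funext x z
  rw [Hk.ker_adj, Hk.ker_mul, Hk.ker_mul, kcomp, kcomp]
  have hfin : (Function.support fun y => F.ker z y * F'.ker y x).Finite :=
    (F.rowF z).subset fun y hy => left_ne_zero_of_mul hy
  refine (AddMonoidHom.map_finsum (starRingEnd ℂ : ℂ →+ ℂ) hfin).trans ?_
  refine finsum_congr fun y => ?_
  rw [Hk.ker_adj, Hk.ker_adj]
  change starRingEnd ℂ (F.ker z y * F'.ker y x) = _
  rw [map_mul, mul_comm]

theorem Hk.adj_adj (hK : FinOrb K) (F : Hk K) : (F.adj hK).adj hK = F := by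
  apply Hk.ext
  funext x z
  rw [Hk.ker_adj, Hk.ker_adj, Complex.conj_conj]

theorem Hk.adj_one (hK : FinOrb K) : (1 : Hk K).adj hK = 1 := by
  apply Hk.ext
  funext x z
  rw [Hk.ker_adj, Hk.ker_one]
  by_cases h : x = z
  · rw [h, kone_self, map_one]
  · rw [kone_ne h, kone_ne (Ne.symm h), map_zero]

theorem Hk.adj_add (hK : FinOrb K) (F F' : Hk K) : (F + F').adj hK = F.adj hK + F'.adj hK := by
  apply Hk.ext
  funext x z
  rw [Hk.ker_adj, Hk.ker_add, Hk.ker_add, Pi.add_apply, Pi.add_apply, Pi.add_apply, Pi.add_apply,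
    Hk.ker_adj, Hk.ker_adj, map_add]

theorem Hk.adj_csmul (hK : FinOrb K) (c : ℂ) (F : Hk K) :
    (c • F).adj hK = starRingEnd ℂ c • F.adj hK := by
  apply Hk.ext
  funext x z
  rw [Hk.ker_adj, Hk.ker_csmul, Hk.ker_csmul, Pi.smul_apply, Pi.smul_apply, Pi.smul_apply,
    Pi.smul_apply, Hk.ker_adj, smul_eq_mul, smul_eq_mul, map_mul]

/-- a function which is equal to its adjoint -/
theorem Hk.adj_eq_self (hK : FinOrb K) {F : Hk K} (h : ∀ g, starRingEnd ℂ (F.f g⁻¹) = F.f g) :
    F.adj hK = F := Hk.ext_f fun g => by rw [Hk.adj_f, h]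

/-- symmetric functions -/
def Hk.Symm (F : Hk K) : Prop := ∀ x y, F.ker x y = F.ker y x

theorem Hk.symm_iff {F : Hk K} : F.Symm ↔ ∀ g, F.f g⁻¹ = F.f g := by
  constructor
  · intro h g
    have := h ((1 : G) : G ⧸ K) (g : G ⧸ K)
    rw [Hk.ker_one_left, Hk.ker_mk, mul_one] at this
    exact this.symm
  · intro h x y
    induction x using QuotientGroup.induction_on with
    | H x =>
    induction y using QuotientGroup.induction_on with
    | H y =>
    rw [Hk.ker_mk, Hk.ker_mk, ← h]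
    congr 1
    group

/-- **Gelfand's trick** -/
theorem Hk.commute_of_symm {F F' : Hk K} (h : F.Symm) (h' : F'.Symm) (hm : (F * F').Symm) :
    Commute F F' := by
  apply Hk.ext
  funext x z
  rw [hm x z, Hk.ker_mul, Hk.ker_mul, kcomp, kcomp]
  exact finsum_congr fun y => by rw [h z y, h' y x, mul_comm]

end Bi

end Fermat.Agent.LT.Glob
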