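import Fermat.Agent.LT.Glob.Twist
import Fermat.Agent.LT.Glob.Fin
import Fermat.Agent.LT.Sp.Supp

set_option autoImplicit false

/-!
# Hyperbolic support of product kernels on the restricted product `D`

Local norms with the product formula; displacement of the local heights; if the local component at
one place is strongly hyperbolic, the global kernel is hyperbolic on the Borel subgroup.
-/

namespace Fermat.Agent.LT.Glob

open Matrix Filter NumberField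
open scoped MatrixGroups

universe w u i

section Local

variable {R : Type*} [CommRing R]

/-- `y` and `y⁻¹` have denominator `N` -/
def Bd (O : Subring R) (N : ℕ) (y : GL (Fin 2) R) : Prop :=
  (∀ i j, (N : R) * y i j ∈ O) ∧ ∀ i j, (N : R) * y⁻¹ i j ∈ O

theorem bd_one_iff {O : Subring R} {y : GL (Fin 2) R} : Bd O 1 y ↔ y ∈ GLO O := by
  simp only [Bd, Nat.cast_one, one_mul]
  exact Iff.rfl

theorem Bd.mono {O : Subring R} {N M : ℕ} {y : GL (Fin 2) R} (h : Bd O N y) (hd : N ∣ M) :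
    Bd O M y := by
  obtain ⟨k, rfl⟩ := hd
  refine ⟨fun i j => ?_, fun i j => ?_⟩
  · rw [show ((N * k : ℕ) : R) * y i j = (k : R) * ((N : R) * y i j) by push_cast; ring]
    exact O.mul_mem (natCast_mem O k) (h.1 i j)
  · rw [show ((N * k : ℕ) : R) * y⁻¹ i j = (k : R) * ((N : R) * y⁻¹ i j) by push_cast; ring]
    exact O.mul_mem (natCast_mem O k) (h.2 i j)

theorem Bd.mul_left {O : Subring R} {N : ℕ} {y k : GL (Fin 2) R} (h : Bd O N y) (hk : k ∈ GLO O) :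
    Bd O N (k * y) := by
  refine ⟨fun i j => ?_, fun i j => ?_⟩
  · rw [Units.val_mul, Matrix.mul_apply, Finset.mul_sum]
    refine O.sum_mem fun l _ => ?_
    rw [mul_left_comm]
    exact O.mul_mem (hk.1 _ _) (h.1 _ _)
  · rw [_root_.mul_inv_rev, Units.val_mul, Matrix.mul_apply, Finset.mul_sum]
    refine O.sum_mem fun l _ => ?_
    rw [← mul_assoc]
    exact O.mul_mem (h.2 _ _) (hk.2 _ _)

theorem Bd.mul_right {O : Subring R} {N : ℕ} {y k : GL (Fin 2) R} (h : Bd O N y) (hk : k ∈ GLO O) :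
    Bd O N (y * k) := by
  refine ⟨fun i j => ?_, fun i j => ?_⟩
  · rw [Units.val_mul, Matrix.mul_apply, Finset.mul_sum]
    refine O.sum_mem fun l _ => ?_
    rw [← mul_assoc]
    exact O.mul_mem (h.1 _ _) (hk.1 _ _)
  · rw [_root_.mul_inv_rev, Units.val_mul, Matrix.mul_apply, Finset.mul_sum]
    refine O.sum_mem fun l _ => ?_
    rw [mul_left_comm]
    exact O.mul_mem (hk.2 _ _) (h.2 _ _)

/-- the diagonal ratio of an upper triangular matrix with bounded denominators -/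
theorem Bd.ratio {O : Subring R} {N : ℕ} {a d z : Rˣ} {s : R} (h : Bd O N (sc z * tri a d s)) :
    (N : R) ^ 2 * (((a * d⁻¹ : Rˣ) : Rˣ) : R) ∈ O ∧ (N : R) ^ 2 * (((d * a⁻¹ : Rˣ) : Rˣ) : R) ∈ O := by
  have e00 : (sc z * tri a d s : GL (Fin 2) R) 0 0 = (z : R) * a := by
    rw [sc_mul_apply, tri_coe]; simp
  have e11 : (sc z * tri a d s : GL (Fin 2) R) 1 1 = (z : R) * d := by
    rw [sc_mul_apply, tri_coe]; simp
  have hinv : (sc z * tri a d s : GL (Fin 2) R)⁻¹ = sc z⁻¹ * (tri a d s)⁻¹ := by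
    rw [_root_.mul_inv_rev, ← map_inv, sc_comm]
  have i00 : (sc z * tri a d s : GL (Fin 2) R)⁻¹ 0 0 = ((z⁻¹ : Rˣ) : R) * ((a⁻¹ : Rˣ) : R) := by
    rw [hinv, sc_mul_apply, tri_inv_coe]; simp
  have i11 : (sc z * tri a d s : GL (Fin 2) R)⁻¹ 1 1 = ((z⁻¹ : Rˣ) : R) * ((d⁻¹ : Rˣ) : R) := by
    rw [hinv, sc_mul_apply, tri_inv_coe]; simp
  have h00 := h.1 0 0
  have h11 := h.1 1 1
  have h00' := h.2 0 0
  have h11' := h.2 1 1
  rw [e00] at h00
  rw [e11] at h11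
  rw [i00] at h00'
  rw [i11] at h11'
  have hz : (z : R) * ((z⁻¹ : Rˣ) : R) = 1 := z.mul_inv
  constructor
  · have := O.mul_mem h00 h11'
    rw [show (N : R) * ((z : R) * a) * ((N : R) * (((z⁻¹ : Rˣ) : R) * ((d⁻¹ : Rˣ) : R))) =
      (N : R) ^ 2 * ((a : R) * ((d⁻¹ : Rˣ) : R)) * ((z : R) * ((z⁻¹ : Rˣ) : R)) by ring, hz,
      mul_one] at this
    rw [Units.val_mul]; exact this
  · have := O.mul_mem h11 h00'
    rw [show (N : R) * ((z : R) * d) * ((N : R) * (((z⁻¹ : Rˣ) : R) * ((a⁻¹ : Rˣ) : R))) =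
      (N : R) ^ 2 * ((d : R) * ((a⁻¹ : Rˣ) : R)) * ((z : R) * ((z⁻¹ : Rˣ) : R)) by ring, hz,
      mul_one] at this
    rw [Units.val_mul]; exact this

end Local

namespace LocFam

variable {F : Type u} [Field F] [NumberField F] {ι : Type i} (L : LocFam.{w} F ι)

/-- **local norms** with the product formula -/
structure LocNorm where
  nm : ∀ v, (L.R v)ˣ →* ℝ
  pos : ∀ v x, 0 < nm v x
  le_one : ∀ v (x : (L.R v)ˣ), (x : L.R v) ∈ L.O v → nm v x ≤ 1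
  prod : ∀ a : Fˣ, ((|Algebra.norm ℚ (a : F)| : ℚ) : ℝ) * ∏ᶠ v, nm v (L.un v a) = 1

variable {L}

/-- compatibility of the norms with an automorphism -/
def LocNorm.Inv (Nm : L.LocNorm) (A : Auto L) : Prop :=
  ∀ v (x : (L.R v)ˣ), Nm.nm v (Units.map ((A.s v : L.R v →+* L.R v) : L.R v →* L.R v) x) = Nm.nm v x

/-- the unit `N` -/
noncomputable def natU (v : ι) (N : ℕ) (hN : N ≠ 0) : (L.R v)ˣ := (L.natCast_isUnit v hN).unit

@[simp] theorem natU_coe (v : ι) (N : ℕ) (hN : N ≠ 0) : ((natU v N hN : (L.R v)ˣ) : L.R v) = N := rfl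

theorem LocNorm.one_of_OU (Nm : L.LocNorm) {v : ι} {x : (L.R v)ˣ} (h : x ∈ OU (L.O v)) :
    Nm.nm v x = 1 := by
  have h1 := Nm.le_one v x h.1
  have h2 := Nm.le_one v x⁻¹ h.2
  have h3 : Nm.nm v x * Nm.nm v x⁻¹ = 1 := by rw [← map_mul, mul_inv_cancel, map_one]
  have := Nm.pos v x
  have := Nm.pos v x⁻¹
  nlinarith

/-- **Displacement lemma** -/
theorem LocNorm.disp (Nm : L.LocNorm) {A : Auto L} (hA : Nm.Inv A) {v : ι} {N : ℕ} (hN : N ≠ 0)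
    {x y : GL (Fin 2) (L.R v)} {a d z : (L.R v)ˣ} {t : L.R v} (hy : Bd (L.O v) N y)
    (h : x⁻¹ * tri a d t * GeneralLinearGroup.map (A.s v : L.R v →+* L.R v) x = sc z * y) :
    Nm.nm v (natU v N hN) ^ 2 ≤ Nm.nm v (a * d⁻¹) ∧
      Nm.nm v (natU v N hN) ^ 2 * Nm.nm v (a * d⁻¹) ≤ 1 := by
  obtain ⟨a', d', t', k, hk, rfl⟩ := L.iwasawa v x
  set s : (L.R v)ˣ →* (L.R v)ˣ := Units.map ((A.s v : L.R v →+* L.R v) : L.R v →* L.R v) with hs
  set sk := GeneralLinearGroup.map (A.s v : L.R v →+* L.R v) k with hsk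
  have hskm : sk ∈ GLO (L.O v) := A.map_mem_GLO hk
  have e1 : (tri a' d' t')⁻¹ * tri a d t * tri (s a') (s d') (A.s v t') =
      sc z * (k * y * sk⁻¹) := by
    rw [map_mul, map_tri, _root_.mul_inv_rev] at h
    have h2 : (tri a' d' t')⁻¹ * tri a d t * tri (s a') (s d') (A.s v t') =
        k * (k⁻¹ * (tri a' d' t')⁻¹ * tri a d t * (tri (s a') (s d') (A.s v t') * sk)) * sk⁻¹ := by
      group
    rw [h2]
    have h3 : k⁻¹ * (tri a' d' t')⁻¹ * tri a d t * (tri (s a') (s d') (A.s v t') * sk) = sc z * y := h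
    rw [h3]
    have h4 : k * (sc z * y) * sk⁻¹ = sc z * (k * y * sk⁻¹) := by
      rw [← mul_assoc k, ← sc_comm z k]
      simp only [mul_assoc]
    exact h4
  have e2 : (tri a' d' t')⁻¹ = tri a'⁻¹ d'⁻¹ (-(((a'⁻¹ : (L.R v)ˣ) : L.R v) * t' *
      ((d'⁻¹ : (L.R v)ˣ) : L.R v))) := by
    apply Units.ext
    rw [tri_inv_coe, tri_coe]
  rw [e2, tri_mul, tri_mul] at e1
  have hBd : Bd (L.O v) N (k * y * sk⁻¹) := (hy.mul_left hk).mul_right (inv_mem hskm)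
  rw [← inv_mul_eq_iff_eq_mul, ← map_inv] at e1
  rw [← e1] at hBd
  obtain ⟨h5, h6⟩ := hBd.ratio
  have hnm : ∀ b c : (L.R v)ˣ, Nm.nm v (a'⁻¹ * b * s a' * (d'⁻¹ * c * s d')⁻¹) = Nm.nm v (b * c⁻¹) := by
    intro b c
    have ha : Nm.nm v (s a') = Nm.nm v a' := hA v a'
    have hd : Nm.nm v (s d') = Nm.nm v d' := hA v d'
    have i1 : Nm.nm v a'⁻¹ * Nm.nm v a' = 1 := by rw [← map_mul, inv_mul_cancel, map_one]
    have i2 : Nm.nm v d' * Nm.nm v d'⁻¹ = 1 := by rw [← map_mul, mul_inv_cancel, map_one]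
    have i3 : Nm.nm v (s d')⁻¹ = Nm.nm v d'⁻¹ := by
      have : Nm.nm v (s d')⁻¹ * Nm.nm v (s d') = 1 := by rw [← map_mul, inv_mul_cancel, map_one]
      rw [hd] at this
      have hp := Nm.pos v d'
      have h9 : Nm.nm v d'⁻¹ * Nm.nm v d' = 1 := by rw [← map_mul, inv_mul_cancel, map_one]
      exact mul_right_cancel₀ hp.ne' (this.trans h9.symm)
    rw [show a'⁻¹ * b * s a' * (d'⁻¹ * c * s d')⁻¹ = a'⁻¹ * b * s a' * ((s d')⁻¹ * c⁻¹ * d') by
      group]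
    simp only [map_mul]
    rw [ha, i3]
    linear_combination (Nm.nm v b * Nm.nm v c⁻¹ * (Nm.nm v d' * Nm.nm v d'⁻¹)) * i1 +
      (Nm.nm v b * Nm.nm v c⁻¹) * i2
  have hsq : ∀ x : (L.R v)ˣ, (N : L.R v) ^ 2 * (x : L.R v) ∈ L.O v →
      Nm.nm v (natU v N hN) ^ 2 * Nm.nm v x ≤ 1 := by
    intro x hx
    have := Nm.le_one v ((natU v N hN) ^ 2 * x) (by
      rw [Units.val_mul, Units.val_pow_eq_pow_val, natU_coe]; exact hx)
    rwa [map_mul, map_pow] at this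
  have h7 := hsq _ h5
  have h8 := hsq _ h6
  rw [hnm] at h7
  rw [show d'⁻¹ * d * s d' * (a'⁻¹ * a * s a')⁻¹ = (a'⁻¹ * a * s a' * (d'⁻¹ * d * s d')⁻¹)⁻¹ by
    group] at h8
  refine ⟨?_, h7⟩
  have h9 : Nm.nm v (a'⁻¹ * a * s a' * (d'⁻¹ * d * s d')⁻¹)⁻¹ *
      Nm.nm v (a'⁻¹ * a * s a' * (d'⁻¹ * d * s d')⁻¹) = 1 := by
    rw [← map_mul, inv_mul_cancel, map_one]
  rw [hnm] at h9
  have hp := Nm.pos v (a * d⁻¹)
  calc Nm.nm v (natU v N hN) ^ 2 = Nm.nm v (natU v N hN) ^ 2 *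
        (Nm.nm v (a'⁻¹ * a * s a' * (d'⁻¹ * d * s d')⁻¹)⁻¹ * Nm.nm v (a * d⁻¹)) := by
        rw [h9, mul_one]
    _ = (Nm.nm v (natU v N hN) ^ 2 * Nm.nm v (a'⁻¹ * a * s a' * (d'⁻¹ * d * s d')⁻¹)⁻¹) *
        Nm.nm v (a * d⁻¹) := by ring
    _ ≤ 1 * Nm.nm v (a * d⁻¹) := by gcongr
    _ = _ := one_mul _

omit [NumberField F] in
/-- the multiplier of an upper triangular matrix over `F`, as a unit -/
theorem un_div (v : ι) (a d : Fˣ) : L.un v (a * d⁻¹) = L.un v a * (L.un v d)⁻¹ := by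
  rw [map_mul, map_inv]

omit [NumberField F] in
theorem emb_tri (v : ι) (a d : Fˣ) (t : F) :
    L.emb v (tri a d t) = ProjGenLinGroup.mk (tri (L.un v a) (L.un v d) (L.loc v t)) := by
  rw [emb_eq, map_tri]; rfl

/-- displacement for a pair of cosets -/
theorem LocNorm.disp' (Nm : L.LocNorm) {A : Auto L} (hA : Nm.Inv A) {v : ι} {N : ℕ} (hN : N ≠ 0)
    {x : L.G v} {a d : Fˣ} {t : F} {Y : GL (Fin 2) (L.R v)} (hY : Bd (L.O v) N Y)
    (h : x⁻¹ * L.emb v (tri a d t) * A.g v x = ProjGenLinGroup.mk Y) :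
    Nm.nm v (natU v N hN) ^ 2 ≤ Nm.nm v (L.un v (a * d⁻¹)) ∧
      Nm.nm v (natU v N hN) ^ 2 * Nm.nm v (L.un v (a * d⁻¹)) ≤ 1 := by
  induction x using ProjGenLinGroup.induction_on with
  | mk x =>
    rw [Auto.g, ProjGenLinGroup.map_mk, emb_tri, ← map_inv, ← map_mul, ← map_mul] at h
    obtain ⟨z, hz⟩ := ProjGenLinGroup.mk_eq_mk_iff.mp h.symm
    have h2 : x⁻¹ * tri (L.un v a) (L.un v d) (L.loc v t) *
        GeneralLinearGroup.map (A.s v : L.R v →+* L.R v) x = sc z * Y := by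
      rw [sc_comm]; exact hz.symm
    rw [un_div]
    exact Nm.disp hA hN hY h2

/-- **Global hyperbolicity from local hyperbolicity at one place.** -/
theorem LocNorm.hyp_bound (Nm : L.LocNorm) {A : Auto L} (hA : Nm.Inv A) (N : ι → ℕ)
    (hN0 : ∀ v, N v ≠ 0) (hN1 : ∀ᶠ v in cofinite, N v = 1) (v₀ : ι) :
    ∃ C : ℝ, 1 ≤ C ∧ ∀ (S : ∀ v, Set (L.G v)),
      (∀ v, v ≠ v₀ → ∀ y ∈ S v, ∃ Y, ProjGenLinGroup.mk Y = y ∧ Bd (L.O v) (N v) Y) →
      ∀ Q B : ℝ, 1 ≤ B → C * B < Q →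
      (∀ (x : L.G v₀) (a d : Fˣ) (t : F), x⁻¹ * L.emb v₀ (tri a d t) * A.g v₀ x ∈ S v₀ →
        Q ≤ Nm.nm v₀ (L.un v₀ (a * d⁻¹)) ∨ Q * Nm.nm v₀ (L.un v₀ (a * d⁻¹)) ≤ 1) →
      ∀ (x : ∀ v, L.G v) (a d : Fˣ) (t : F),
        (∀ v, (x v)⁻¹ * L.emb v (tri a d t) * A.g v (x v) ∈ S v) →
        ¬ (((|Algebra.norm ℚ ((a : F) / d)| : ℚ) : ℝ) ≤ B ∧
          1 ≤ B * ((|Algebra.norm ℚ ((a : F) / d)| : ℚ) : ℝ)) := by
  classical
  obtain ⟨E, hE⟩ := exists_finset_compl hN1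
  set c : ι → ℝ := fun v => Nm.nm v (natU v (N v) (hN0 v)) ^ 2 with hc
  have hc0 : ∀ v, 0 < c v := fun v => pow_pos (Nm.pos v _) 2
  have hc1 : ∀ v, c v ≤ 1 := by
    intro v
    refine pow_le_one₀ (Nm.pos v _).le (Nm.le_one v _ ?_)
    rw [natU_coe]
    exact natCast_mem _ _
  have hcE : ∀ v, v ∉ E → c v = 1 := by
    intro v hv
    have h1 : Nm.nm v (natU v (N v) (hN0 v)) = 1 := by
      have h2 : natU (L := L) v (N v) (hN0 v) = 1 := by
        apply Units.ext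
        rw [natU_coe, hE v hv]; simp
      rw [h2, map_one]
    simp only [hc, h1, one_pow]
  have hprod0 : 0 < ∏ v ∈ E.erase v₀, c v := Finset.prod_pos fun v _ => hc0 v
  have hprod1 : ∏ v ∈ E.erase v₀, c v ≤ 1 := Finset.prod_le_one (fun v _ => (hc0 v).le) fun v _ => hc1 v
  refine ⟨(∏ v ∈ E.erase v₀, c v)⁻¹, (one_le_inv₀ hprod0).mpr hprod1, ?_⟩
  intro S hS Q B hB hQ h0 x a d t hx ⟨hn1, hn2⟩
  set n : ℝ := ((|Algebra.norm ℚ ((a : F) / d)| : ℚ) : ℝ) with hn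
  set m : ι → ℝ := fun v => Nm.nm v (L.un v (a * d⁻¹)) with hm
  have hm0 : ∀ v, 0 < m v := fun v => Nm.pos v _
  have hloc : ∀ v, v ≠ v₀ → c v ≤ m v ∧ c v * m v ≤ 1 := by
    intro v hv
    obtain ⟨Y, hY, hb⟩ := hS v hv _ (hx v)
    exact Nm.disp' hA (hN0 v) hb hY.symm
  have hmE : ∀ v, v ∉ E → v ≠ v₀ → m v = 1 := by
    intro v hv hv0
    have h1 := hloc v hv0
    rw [hcE v hv, one_mul] at h1
    exact le_antisymm h1.2 h1.1
  have hpf := Nm.prod (a * d⁻¹)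
  have hfin : ∏ᶠ v, m v = m v₀ * ∏ v ∈ E.erase v₀, m v := by
    rw [finprod_eq_prod_of_mulSupport_subset (s := insert v₀ (E.erase v₀))]
    · rw [Finset.prod_insert (Finset.notMem_erase v₀ E)]
    · intro v hv
      by_contra h1
      rw [Finset.coe_insert, Set.mem_insert_iff, not_or, Finset.mem_coe, Finset.mem_erase,
        not_and] at h1
      exact hv (hmE v (h1.2 h1.1) h1.1)
  have hn' : n * (m v₀ * ∏ v ∈ E.erase v₀, m v) = 1 := by
    rw [← hfin, ← hpf]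
    congr 2
    rw [hn]
    congr 4
    rw [Units.val_mul, Units.val_inv_eq_inv_val, div_eq_mul_inv]
  set P : ℝ := ∏ v ∈ E.erase v₀, m v with hP
  set K : ℝ := ∏ v ∈ E.erase v₀, c v with hK
  have hP0 : 0 < P := Finset.prod_pos fun v _ => hm0 v
  have hKP : K ≤ P := Finset.prod_le_prod (fun v _ => (hc0 v).le) fun v hv =>
    (hloc v (Finset.ne_of_mem_erase hv)).1
  have hKP1 : K * P ≤ 1 := by
    rw [hK, hP, ← Finset.prod_mul_distrib]
    exact Finset.prod_le_one (fun v _ => (mul_pos (hc0 v) (hm0 v)).le) fun v hv =>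
      (hloc v (Finset.ne_of_mem_erase hv)).2
  have hn0 : 0 < n := by
    by_contra h1
    push Not at h1
    nlinarith
  have hQB : B < Q * K := by
    rw [inv_mul_lt_iff₀ hprod0] at hQ
    rwa [mul_comm] at hQ
  have hm₀ : 0 < m v₀ := hm0 v₀
  rcases h0 (x v₀) a d t (hx v₀) with h1 | h1
  · -- `m v₀` large
    have h2 : Q * K ≤ m v₀ * P := mul_le_mul h1 hKP hprod0.le hm₀.le
    have h3 : n * (Q * K) ≤ 1 := by
      rw [← hn']
      gcongr
    have h4 : B * n < 1 := by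
      calc B * n < (Q * K) * n := by gcongr
        _ ≤ 1 := by rw [mul_comm]; exact h3
    linarith
  · -- `m v₀` small
    have h2 : Q * K ≤ n := by
      have h3 : (Q * m v₀) * (K * P) ≤ 1 * 1 :=
        mul_le_mul h1 hKP1 (mul_pos hprod0 hP0).le zero_le_one
      have h5 : Q * K = n * ((Q * m v₀) * (K * P)) := by
        calc Q * K = Q * K * (n * (m v₀ * P)) := by rw [hn', mul_one]
          _ = _ := by ring
      rw [h5]
      calc n * ((Q * m v₀) * (K * P)) ≤ n * (1 * 1) := by gcongr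
        _ = n := by ring
    linarith

variable {U : L.Level}

/-- a relation on `D` given by local conditions -/
def relD (S : ∀ v, Set (L.G v)) (x x' : D U) : Prop :=
  ∀ v, ∃ g g' : L.G v, x v = (g : L.G v ⧸ U.U v) ∧ x' v = (g' : L.G v ⧸ U.U v) ∧ g⁻¹ * g' ∈ S v

/-- **`HypSupp` for product relations.** -/
theorem LocNorm.hypSupp (Nm : L.LocNorm) {A : Auto L} (hA : Nm.Inv A) (N : ι → ℕ)
    (hN0 : ∀ v, N v ≠ 0) (hN1 : ∀ᶠ v in cofinite, N v = 1) (v₀ : ι) :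
    ∃ C : ℝ, 1 ≤ C ∧ ∀ (S : ∀ v, Set (L.G v)),
      (∀ v, v ≠ v₀ → ∀ y ∈ S v, ∃ Y, ProjGenLinGroup.mk Y = y ∧ Bd (L.O v) (N v) Y) →
      (∀ v, ∀ y ∈ S v, ∀ u ∈ U.U v, y * u ∈ S v) →
      ∀ Q B : ℝ, 1 ≤ B → C * B < Q →
      (∀ (x : L.G v₀) (a d : Fˣ) (t : F), x⁻¹ * L.emb v₀ (tri a d t) * A.g v₀ x ∈ S v₀ →
        Q ≤ Nm.nm v₀ (L.un v₀ (a * d⁻¹)) ∨ Q * Nm.nm v₀ (L.un v₀ (a * d⁻¹)) ≤ 1) →
      ∀ (T : Sp.Twist F (D U)) (h : A.Pres U), (∀ x, T.dm x = Auto.dmap h x) →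
        Sp.HypSupp T (relD S) B := by
  obtain ⟨C, hC1, hC⟩ := Nm.hyp_bound hA N hN0 hN1 v₀
  refine ⟨C, hC1, fun S hS hSU Q B hB hQ h0 T h hT x g hg hrel => ?_⟩
  obtain ⟨a, d, t, rfl⟩ := exists_tri hg
  have e00 : (tri a d t : GL (Fin 2) F) 0 0 = a := by rw [tri_coe]; simp
  have e11 : (tri a d t : GL (Fin 2) F) 1 1 = d := by rw [tri_coe]; simp
  rw [e00, e11]
  rw [hT] at hrel
  choose y y' hy hy' hS' using hrel
  refine hC S hS Q B hB hQ h0 y a d t fun v => ?_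
  have h1 : ((L.emb v (tri a d t) * A.g v (y v) : L.G v) : L.G v ⧸ U.U v) =
      ((y' v : L.G v) : L.G v ⧸ U.U v) := by
    rw [← hy' v, smul_apply, Auto.dmap_apply, hy v, Auto.xmap_mk]
    rfl
  rw [QuotientGroup.eq] at h1
  have h2 := hSU v _ (hS' v) _ (inv_mem h1)
  have h3 : (y v)⁻¹ * y' v * ((L.emb v (tri a d t) * A.g v (y v))⁻¹ * y' v)⁻¹ =
      (y v)⁻¹ * L.emb v (tri a d t) * A.g v (y v) := by group
  rwa [h3] at h2

end LocFam

end Fermat.Agent.LT.Glob
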