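import Fermat.Agent.LT.Glob.HypLoc
import Fermat.Agent.LT.Glob.Ker
import Fermat.Agent.LT.V0.Hyp

set_option autoImplicit false

/-!
# Hyperbolic support of the kernels of factorizable functions
-/

namespace Fermat.Agent.LT.Sp

variable {F : Type*} [Field F] [NumberField F] {D : Type*} [MulAction (GL (Fin 2) F) D]

theorem HypSupp.mono {T : Twist F D} {κ κ' : D → D → Prop} {B : ℝ} (h : HypSupp T κ B)
    (hκ : ∀ d d', κ' d d' → κ d d') : HypSupp T κ' B :=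
  fun d g hg hd => h d g hg (hκ _ _ hd)

theorem HypSupp.or {T : Twist F D} {κ κ' : D → D → Prop} {B : ℝ} (h : HypSupp T κ B)
    (h' : HypSupp T κ' B) : HypSupp T (fun d d' => κ d d' ∨ κ' d d') B :=
  fun d g hg hd => hd.elim (h d g hg) (h' d g hg)

theorem HypSupp.iUnion {T : Twist F D} {α : Type*} {κ : α → D → D → Prop} {B : ℝ}
    (h : ∀ a, HypSupp T (κ a) B) : HypSupp T (fun d d' => ∃ a, κ a d d') B :=
  fun d g hg ⟨a, hd⟩ => h a d g hg hd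

theorem HypSupp.anti {T : Twist F D} {κ : D → D → Prop} {B B' : ℝ} (h : HypSupp T κ B')
    (hB : B ≤ B') : HypSupp T κ B := by
  intro d g hg hd hcon
  refine h d g hg hd ⟨hcon.1.trans hB, hcon.2.trans ?_⟩
  have h0 : (0 : ℝ) ≤ ((|Algebra.norm ℚ (g 0 0 / g 1 1)| : ℚ) : ℝ) := by
    exact_mod_cast abs_nonneg _
  gcongr

end Fermat.Agent.LT.Sp

namespace Fermat.Agent.LT.Glob

open Matrix Filter
open scoped MatrixGroups Pointwise

universe w u i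

section Strong

open V0

variable {K : Type w} [Field K] {O : Subring K} {ϖ : Kˣ} {B : Finset K}

/-- **The sets `SU m` of the Iwahori–Hecke algebra are strongly hyperbolic.** -/
theorem strong_SU (h : Unif O ϖ B) (hval : ∀ x : K, x ∈ O ∨ x⁻¹ ∈ O) {m : ℕ} (hm : 1 ≤ m) :
    Strong O ϖ m (SU O ϖ m) := by
  intro x a d t hx
  have e00 : (tri a d t : GL (Fin 2) K) 0 0 = a := by rw [tri_coe]; simp
  have e11 : (tri a d t : GL (Fin 2) K) 1 1 = d := by rw [tri_coe]; simp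
  have e10 : (tri a d t : GL (Fin 2) K) 1 0 = 0 := by rw [tri_coe]; simp
  have key := val_of_conj_mem_SU h hval hm e10 hx
  rw [e00, e11] at key
  set v := (vring O hval).valuation with hv
  have hϖ0 : v (ϖ : K) ^ m ≠ 0 := pow_ne_zero _ ((map_ne_zero _).mpr ϖ.ne_zero)
  -- elements of valuation one
  have hOU : ∀ u : Kˣ, v (u : K) = 1 → u ∈ OU O := by
    intro u hu
    refine ⟨(val_le_one hval).mp hu.le, (val_le_one hval).mp ?_⟩
    rw [Units.val_inv_eq_inv_val, map_inv₀]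
    show (v (u : K))⁻¹ ≤ 1
    rw [hu, inv_one]
  refine ⟨m, le_rfl, ?_⟩
  rcases key with key | key
  · refine ⟨(ϖ ^ m)⁻¹ * (a * d⁻¹), hOU _ ?_, Or.inl ?_⟩
    · have e : (((ϖ ^ m)⁻¹ * (a * d⁻¹) : Kˣ) : K) = ((ϖ : K) ^ m)⁻¹ * ((a : K) / d) := by
        push_cast
        rw [div_eq_mul_inv]
      rw [e, map_mul, map_inv₀, map_pow, key, inv_mul_cancel₀ hϖ0]
    · rw [mul_inv_cancel_left]
  · refine ⟨(ϖ ^ m) * (a * d⁻¹), hOU _ ?_, Or.inr ?_⟩
    · have e : (((ϖ ^ m) * (a * d⁻¹) : Kˣ) : K) = ((ϖ : K) ^ m) * ((d : K) / a)⁻¹ := by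
        push_cast
        rw [inv_div, div_eq_mul_inv]
      rw [e, map_mul, map_inv₀, map_pow, key, mul_inv_cancel₀ hϖ0]
    · rw [inv_mul_cancel_left]

/-- a union of the sets `SU m'`, `m' ≥ m` -/
theorem strong_iUnion_SU (h : Unif O ϖ B) (hval : ∀ x : K, x ∈ O ∨ x⁻¹ ∈ O) {m : ℕ} (hm : 1 ≤ m) :
    Strong O ϖ m {g | ∃ m', m ≤ m' ∧ g ∈ SU O ϖ m'} := by
  intro x a d t ⟨m', hm', hx⟩
  exact (strong_SU h hval (hm.trans hm')).anti hm' x a d t hx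

end Strong

namespace LocFam

section Fam

variable {F : Type u} [Field F] {ι : Type i} {L : LocFam.{w} F ι} {U : L.Level}

/-- bounded denominators of a representative -/
theorem exists_bd_mk (v : ι) (Y : GL (Fin 2) (L.R v)) : ∃ N : ℕ, N ≠ 0 ∧ Bd (L.O v) N Y := by
  have h1 : ∀ i j, ∃ N : ℕ, N ≠ 0 ∧ (N : L.R v) * Y i j ∈ L.O v := fun i j => L.denom v _
  have h2 : ∀ i j, ∃ N : ℕ, N ≠ 0 ∧ (N : L.R v) * Y⁻¹ i j ∈ L.O v := fun i j => L.denom v _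
  choose N hN0 hN using h1
  choose M hM0 hM using h2
  refine ⟨(∏ i, ∏ j, N i j) * ∏ i, ∏ j, M i j, mul_ne_zero ?_ ?_, ?_, ?_⟩
  · exact Finset.prod_ne_zero_iff.mpr fun i _ => Finset.prod_ne_zero_iff.mpr fun j _ => hN0 i j
  · exact Finset.prod_ne_zero_iff.mpr fun i _ => Finset.prod_ne_zero_iff.mpr fun j _ => hM0 i j
  · intro i j
    have hd : N i j ∣ (∏ i, ∏ j, N i j) * ∏ i, ∏ j, M i j :=
      ((Finset.dvd_prod_of_mem (fun j => N i j) (Finset.mem_univ j)).trans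
        (Finset.dvd_prod_of_mem (fun i => ∏ j, N i j) (Finset.mem_univ i))).trans
        (dvd_mul_right _ _)
    obtain ⟨k, hk⟩ := hd
    rw [hk, show ((N i j * k : ℕ) : L.R v) * Y i j = (k : L.R v) * ((N i j : L.R v) * Y i j) by
      push_cast; ring]
    exact (L.O v).mul_mem (natCast_mem _ k) (hN i j)
  · intro i j
    have hd : M i j ∣ (∏ i, ∏ j, N i j) * ∏ i, ∏ j, M i j :=
      ((Finset.dvd_prod_of_mem (fun j => M i j) (Finset.mem_univ j)).trans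
        (Finset.dvd_prod_of_mem (fun i => ∏ j, M i j) (Finset.mem_univ i))).trans
        (dvd_mul_left _ _)
    obtain ⟨k, hk⟩ := hd
    rw [hk, show ((M i j * k : ℕ) : L.R v) * Y⁻¹ i j = (k : L.R v) * ((M i j : L.R v) * Y⁻¹ i j) by
      push_cast; ring]
    exact (L.O v).mul_mem (natCast_mem _ k) (hM i j)

/-- bounded denominators of a set finite modulo an integral group -/
theorem exists_bd (v : ι) {K : Subgroup (L.G v)} (hK : K ≤ PO (L.O v)) {S : Set (L.G v)}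
    (hS : {x : L.G v ⧸ K | ∃ g : L.G v, (g : L.G v ⧸ K) = x ∧ g ∈ S}.Finite) :
    ∃ N : ℕ, N ≠ 0 ∧ ∀ y ∈ S, ∃ Y, ProjGenLinGroup.mk Y = y ∧ Bd (L.O v) N Y := by
  classical
  have h1 : ∀ x : L.G v ⧸ K, ∃ Y : GL (Fin 2) (L.R v),
      ((ProjGenLinGroup.mk Y : L.G v) : L.G v ⧸ K) = x := by
    intro x
    induction x using QuotientGroup.induction_on with
    | H x =>
    induction x using ProjGenLinGroup.induction_on with
    | mk x => exact ⟨x, rfl⟩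
  choose Y hY using h1
  choose N hN0 hN using fun x : L.G v ⧸ K => exists_bd_mk v (Y x)
  refine ⟨∏ x ∈ hS.toFinset, N x, Finset.prod_ne_zero_iff.mpr fun x _ => hN0 x, fun y hy => ?_⟩
  have hx : ((y : L.G v) : L.G v ⧸ K) ∈ hS.toFinset := hS.mem_toFinset.mpr ⟨y, rfl, hy⟩
  have h2 := hY ((y : L.G v) : L.G v ⧸ K)
  rw [QuotientGroup.eq] at h2
  obtain ⟨k, hk, hk'⟩ := hK h2
  refine ⟨Y y * k, ?_, ((hN _).mul_right hk).mono (Finset.dvd_prod_of_mem N hx)⟩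
  rw [map_mul, hk', mul_inv_cancel_left]

variable (U) in
/-- a family of local supports: right `U`-invariant, finite modulo `U`, integral almost
everywhere -/
structure SFam where
  S : ∀ v, Set (L.G v)
  bd : ∀ v, ∃ N : ℕ, N ≠ 0 ∧ ∀ y ∈ S v, ∃ Y, ProjGenLinGroup.mk Y = y ∧ Bd (L.O v) N Y
  ev : ∀ᶠ v in cofinite, S v ⊆ PO (L.O v)
  inv : ∀ v, ∀ y ∈ S v, ∀ u ∈ U.U v, y * u ∈ S v

theorem bd_one_of_PO {v : ι} {y : L.G v} (hy : y ∈ PO (L.O v)) :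
    ∃ Y, ProjGenLinGroup.mk Y = y ∧ Bd (L.O v) 1 Y := by
  obtain ⟨Y, hY, e⟩ := hy
  exact ⟨Y, e, bd_one_iff.mpr hY⟩

theorem SFam.exists_N (S : SFam U) : ∃ N : ι → ℕ, (∀ v, N v ≠ 0) ∧ (∀ᶠ v in cofinite, N v = 1) ∧
    ∀ v, ∀ y ∈ S.S v, ∃ Y, ProjGenLinGroup.mk Y = y ∧ Bd (L.O v) (N v) Y := by
  classical
  choose N hN0 hN using S.bd
  refine ⟨fun v => if S.S v ⊆ PO (L.O v) then 1 else N v, fun v => ?_, ?_, fun v y hy => ?_⟩
  · show (if S.S v ⊆ PO (L.O v) then 1 else N v) ≠ 0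
    split_ifs
    · exact one_ne_zero
    · exact hN0 v
  · filter_upwards [S.ev] with v hv
    exact if_pos hv
  · by_cases h : S.S v ⊆ PO (L.O v)
    · obtain ⟨Y, e, hY⟩ := bd_one_of_PO (h hy)
      exact ⟨Y, e, by simpa only [if_pos h] using hY⟩
    · obtain ⟨Y, e, hY⟩ := hN v y hy
      exact ⟨Y, e, by simpa only [if_neg h] using hY⟩

/-- products of bounded elements -/
theorem _root_.Fermat.Agent.LT.Glob.Bd.mul {R : Type*} [CommRing R] {O : Subring R} {N M : ℕ}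
    {y z : GL (Fin 2) R} (hy : Bd O N y) (hz : Bd O M z) : Bd O (N * M) (y * z) := by
  refine ⟨fun i j => ?_, fun i j => ?_⟩
  · rw [Units.val_mul, Matrix.mul_apply, Finset.mul_sum]
    refine O.sum_mem fun l _ => ?_
    rw [show ((N * M : ℕ) : R) * (y i l * z l j) = ((N : R) * y i l) * ((M : R) * z l j) by
      push_cast; ring]
    exact O.mul_mem (hy.1 _ _) (hz.1 _ _)
  · rw [_root_.mul_inv_rev, Units.val_mul, Matrix.mul_apply, Finset.mul_sum]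
    refine O.sum_mem fun l _ => ?_
    rw [show ((N * M : ℕ) : R) * (z⁻¹ i l * y⁻¹ l j) = ((M : R) * z⁻¹ i l) * ((N : R) * y⁻¹ l j) by
      push_cast; ring]
    exact O.mul_mem (hz.2 _ _) (hy.2 _ _)

/-- products of families -/
def SFam.mul (S S' : SFam U) : SFam U where
  S v := S.S v * S'.S v
  bd v := by
    obtain ⟨N, hN0, hN⟩ := S.bd v
    obtain ⟨M, hM0, hM⟩ := S'.bd v
    refine ⟨N * M, mul_ne_zero hN0 hM0, ?_⟩
    rintro _ ⟨y, hy, z, hz, rfl⟩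
    obtain ⟨Y, rfl, hY⟩ := hN y hy
    obtain ⟨Z, rfl, hZ⟩ := hM z hz
    exact ⟨Y * Z, map_mul _ _ _, hY.mul hZ⟩
  ev := by
    filter_upwards [S.ev, S'.ev] with v h h'
    rintro _ ⟨y, hy, z, hz, rfl⟩
    exact mul_mem (h hy) (h' hz)
  inv v := by
    rintro _ ⟨y, hy, z, hz, rfl⟩ u hu
    exact ⟨y, hy, z * u, S'.inv v z hz u hu, (mul_assoc y z u).symm⟩

/-- the local supports of a factorizable function -/
def GFun.supp (φ : GFun U) (v : ι) : Set (L.G v) := {y | (φ.f v).f y ≠ 0}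

theorem GFun.mem_supp {φ : GFun U} {v : ι} {y : L.G v} : y ∈ φ.supp v ↔ (φ.f v).f y ≠ 0 := Iff.rfl

theorem GFun.supp_inv (φ : GFun U) (v : ι) (y : L.G v) (hy : y ∈ φ.supp v) (u : L.G v)
    (hu : u ∈ U.U v) : y * u ∈ φ.supp v := by
  rw [mem_supp] at hy ⊢
  have h := (φ.f v).inv 1 (one_mem _) u hu y
  rw [one_mul] at h
  rwa [h]

/-- the family of supports -/
def GFun.sfam (φ : GFun U) : SFam U where
  S := φ.supp
  bd v := exists_bd v (U.le v) ((φ.fin v))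
  ev := by
    filter_upwards [φ.unit] with v hv y hy
    rw [mem_supp, hv] at hy
    exact U.le v (Loc.BiInv.mem_of_unit_ne hy)
  inv := φ.supp_inv

theorem GFun.relD_supp {φ : GFun U} {d d' : D U} (h : φ.ker d d' ≠ 0) : relD φ.supp d d' := by
  intro v
  have h1 := ker_ne_zero h v
  obtain ⟨g, hg⟩ := QuotientGroup.mk_surjective (d v)
  obtain ⟨g', hg'⟩ := QuotientGroup.mk_surjective (d' v)
  refine ⟨g, g', hg.symm, hg'.symm, ?_⟩
  rw [← hg, ← hg'] at h1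
  exact h1

theorem relD_mul {S S' : ∀ v, Set (L.G v)} (hS : ∀ v, ∀ y ∈ S v, ∀ u ∈ U.U v, y * u ∈ S v)
    {d e f : D U} (h : relD S d e) (h' : relD S' e f) : relD (fun v => S v * S' v) d f := by
  intro v
  obtain ⟨g, g', hg, hg', h1⟩ := h v
  obtain ⟨γ, γ', hγ, hγ', h2⟩ := h' v
  refine ⟨g, γ', hg, hγ', g⁻¹ * γ, ?_, γ⁻¹ * γ', h2, by group⟩
  rw [hg', QuotientGroup.eq] at hγ
  have h3 := hS v _ h1 _ hγ
  rwa [show g⁻¹ * g' * (g'⁻¹ * γ) = g⁻¹ * γ by group] at h3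

theorem relD_mono {S S' : ∀ v, Set (L.G v)} (hS : ∀ v, S v ⊆ S' v) {d e : D U}
    (h : relD S d e) : relD S' d e := by
  intro v
  obtain ⟨g, g', hg, hg', h1⟩ := h v
  exact ⟨g, g', hg, hg', hS v h1⟩

/-- composition of two kernels -/
theorem GFun.relD_comp {φ ψ : GFun U} {d e d' : D U} (h : φ.ker d e ≠ 0) (h' : ψ.ker e d' ≠ 0) :
    relD (fun v => φ.supp v * ψ.supp v) d d' := relD_mul φ.supp_inv (relD_supp h) (relD_supp h')

end Fam

section Main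

variable {F : Type u} [Field F] [NumberField F] {ι : Type i} {L : LocFam.{w} F ι} {U : L.Level}

theorem exists_pow_gt {c : ℝ} (hc0 : 0 < c) (hc1 : c < 1) (C : ℝ) : ∃ M : ℕ, ∀ m, M ≤ m →
    C < c⁻¹ ^ m := by
  have hi : 1 < c⁻¹ := (one_lt_inv₀ hc0).mpr hc1
  obtain ⟨M, hM⟩ := pow_unbounded_of_one_lt C hi
  exact ⟨M, fun m hm => hM.trans_le (pow_le_pow_right₀ hi.le hm)⟩

/-- **Untwisted case.** -/
theorem LocNorm.exists_hyp (Nm : L.LocNorm) (S₀ : SFam U) {v₀ : ι} {ϖ : (L.R v₀)ˣ}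
    (hϖ : (ϖ : L.R v₀) ∈ L.O v₀) (hϖ1 : Nm.nm v₀ ϖ < 1) (B : ℝ) :
    ∃ M : ℕ, ∀ m, M ≤ m → ∀ S : ∀ v, Set (L.G v), (∀ v, v ≠ v₀ → S v ⊆ S₀.S v) →
      (∀ v, ∀ y ∈ S v, ∀ u ∈ U.U v, y * u ∈ S v) → Strong (L.O v₀) ϖ m (S v₀) →
      ∀ T : Sp.Twist F (D U), (∀ x, T.dm x = x) → Sp.HypSupp T (relD S) B := by
  obtain ⟨N, hN0, hN1, hN⟩ := S₀.exists_N
  obtain ⟨C, hC1, hC⟩ := Nm.hypSupp (U := U) (inv_idAuto Nm) N hN0 hN1 v₀
  obtain ⟨M, hM⟩ := exists_pow_gt (Nm.pos v₀ ϖ) hϖ1 (C * max B 1)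
  refine ⟨M, fun m hm S hS hSU hst T hT => ?_⟩
  have hpres : (idAuto L).Pres U := by
    intro v u hu
    have : (idAuto L).g v u = u := by
      induction u using ProjGenLinGroup.induction_on with
      | mk x =>
        rw [Auto.g, ProjGenLinGroup.map_mk]
        congr 1
    rwa [this]
  refine (hC S (fun v hv y hy => hN v y (hS v hv hy)) hSU _ (max B 1) (le_max_right _ _) (hM m hm)
    (fun x a d t h => Nm.hyp0_of_strong hϖ hst x a d t h) T hpres fun x => ?_).anti (le_max_left _ _)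
  rw [hT]
  apply D.ext
  intro v
  rw [Auto.dmap_apply]
  obtain ⟨g, hg⟩ := QuotientGroup.mk_surjective (x v)
  rw [← hg, Auto.xmap_mk]
  congr 1
  induction g using ProjGenLinGroup.induction_on with
  | mk g =>
    rw [Auto.g, ProjGenLinGroup.map_mk]
    congr 1

open LT.Loc in
/-- **Twisted case.** -/
theorem LocNorm.exists_hyp3 (Nm : L.LocNorm) {A : Auto L} (hA : Nm.Inv A) (S₀ : SFam U) {v₀ : ι}
    {K₀ : Type w} [CommRing K₀] {i : K₀ →+* L.R v₀} {π : L.R v₀ →+* K₀}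
    (hsp : SplitRing (A.s v₀) i π) {O₀ : Subring K₀} (hO : ∀ y ∈ O₀, i y ∈ L.O v₀) {ϖ : K₀ˣ}
    (hϖ : (ϖ : K₀) ∈ O₀) (hϖ1 : Nm.nm v₀ (Units.map (i : K₀ →* L.R v₀) ϖ) < 1) (B : ℝ) :
    ∃ M : ℕ, ∀ m, M ≤ m → ∀ S : ∀ v, Set (L.G v), (∀ v, v ≠ v₀ → S v ⊆ S₀.S v) →
      (∀ v, ∀ y ∈ S v, ∀ u ∈ U.U v, y * u ∈ S v) →
      ∀ S' : Set PGL(2, K₀), Strong O₀ ϖ m S' →
      (∀ y ∈ S v₀, ProjGenLinGroup.map π y * ProjGenLinGroup.map π (A.g v₀ y) *
        ProjGenLinGroup.map π (A.g v₀ (A.g v₀ y)) ∈ S') →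
      ∀ (T : Sp.Twist F (D U)) (h : A.Pres U), (∀ x, T.dm x = Auto.dmap h x) →
        Sp.HypSupp T (relD S) B := by
  obtain ⟨N, hN0, hN1, hN⟩ := S₀.exists_N
  obtain ⟨C, hC1, hC⟩ := Nm.hypSupp (U := U) hA N hN0 hN1 v₀
  set c := Nm.nm v₀ (Units.map (i : K₀ →* L.R v₀) ϖ) with hc
  have hc0 : 0 < c := Nm.pos v₀ _
  set Q : ℝ := C * max B 1 + 1 with hQ
  have hQ0 : 0 < Q := by
    have : 0 ≤ C * max B 1 := mul_nonneg (by linarith) (le_trans zero_le_one (le_max_right _ _))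
    linarith
  obtain ⟨M, hM⟩ := exists_pow_gt hc0 hϖ1 (Q ^ 3)
  refine ⟨M, fun m hm S hS hSU S' hst hSS T hpres hT => ?_⟩
  exact (hC S (fun v hv y hy => hN v y (hS v hv hy)) hSU Q (max B 1) (le_max_right _ _)
    (by linarith) (fun x a d t h => Nm.hyp0_of_strong3 hA hsp hO hϖ hst hSS hQ0.le (hM m hm).le
      x a d t h) T hpres hT).anti (le_max_left _ _)

end Main

end LocFam

end Fermat.Agent.LT.Glob
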