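import Fermat.Agent.LT.Glob.HypG
import Fermat.Agent.LT.Glob.SplitE
import Fermat.Agent.LT.Glob.Twist

set_option autoImplicit false

/-!
# Hyperbolic support for the families `locK` and `locE`
-/

namespace Fermat.Agent.LT.Glob

open Matrix Filter IsDedekindDomain IsDedekindDomain.HeightOneSpectrum WithZero NumberField
open scoped MatrixGroups Topology NNReal Pointwise

universe u

section K

variable {F : Type u} [Field F] [NumberField F]

/-- a strict element has norm less than one -/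
def LocFam.LocNorm.Strict {ι : Type*} {L : LocFam F ι} (Nm : L.LocNorm) : Prop :=
  ∀ v (x : (L.R v)ˣ), (x : L.R v) ∈ L.O v → ((x⁻¹ : (L.R v)ˣ) : L.R v) ∉ L.O v → Nm.nm v x < 1

theorem Oc_total {v : HeightOneSpectrum (𝓞 F)} (x : v.adicCompletion F) :
    x ∈ Oc v ∨ x⁻¹ ∈ Oc v := by
  rw [mem_Oc, mem_Oc]
  rcases le_total (Valued.v x) 1 with h | h
  · exact Or.inl h
  · right
    rw [map_inv₀]
    have h0 : Valued.v x ≠ 0 := (zero_lt_one.trans_le h).ne'
    exact (inv_le_one₀ (zero_lt_iff.mpr h0)).mpr h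

theorem norm_lt_one_of_inv {v : HeightOneSpectrum (𝓞 F)} {x : v.adicCompletion F} (hx : x ≠ 0)
    (h : x⁻¹ ∉ Oc v) : ‖x‖ < 1 := by
  rw [mem_Oc, not_le] at h
  have hv : Valued.v x < 1 := by
    rw [map_inv₀] at h
    have h0 : Valued.v x ≠ 0 := (Valuation.ne_zero_iff _).mpr hx
    exact (one_lt_inv₀ (zero_lt_iff.mpr h0)).mp h
  rw [NumberField.FinitePlace.norm_def]
  have h1 := WithZeroMulInt.toNNReal_strictMono
    (NumberField.HeightOneSpectrum.one_lt_absNorm_nnreal v) hv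
  rw [map_one] at h1
  exact_mod_cast h1

theorem strict_normK : (normK F).Strict := by
  have key : ∀ (v : HeightOneSpectrum (𝓞 F)) (x : (v.adicCompletion F)ˣ),
      ((x⁻¹ : (v.adicCompletion F)ˣ) : v.adicCompletion F) ∉ Oc v →
      ‖(x : v.adicCompletion F)‖ < 1 := by
    intro v x hx'
    rw [Units.val_inv_eq_inv_val] at hx'
    exact norm_lt_one_of_inv x.ne_zero hx'
  intro v x _ hx'
  exact key v x hx'

end K

section E

variable {k : Type u} [Field k] [NumberField k] {E : Type u} [Field E] [NumberField E]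
  [Algebra k E]

theorem strict_normE : (normE k E).Strict := by
  intro v x hx hx'
  show nmE v x < 1
  rw [nmE_apply]
  have h1 : ∃ w : Fib E v, ((x⁻¹ : (RE E v)ˣ) : RE E v) w ∉ Oc w.1 := by
    by_contra hcon
    push Not at hcon
    exact hx' (mem_OE.mpr hcon)
  obtain ⟨w, hw⟩ := h1
  have h2 : ((x⁻¹ : (RE E v)ˣ) : RE E v) w = ((x : RE E v) w)⁻¹ := by
    have h3 : ((evU w x)⁻¹ : (w.1.adicCompletion E)ˣ) = evU w x⁻¹ := (map_inv _ _).symm
    have h4 := congrArg (Units.val) h3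
    rw [Units.val_inv_eq_inv_val] at h4
    exact h4.symm
  rw [h2] at hw
  have h0 : (x : RE E v) w ≠ 0 := (evU w x).ne_zero
  have h5 := norm_lt_one_of_inv h0 hw
  classical
  rw [← Finset.mul_prod_erase Finset.univ _ (Finset.mem_univ w)]
  have h6 : ∏ w' ∈ Finset.univ.erase w, ‖(x : RE E v) w'‖ ≤ 1 :=
    Finset.prod_le_one (fun w' _ => norm_nonneg _) fun w' _ =>
      norm_le_one_of_mem (mem_OE.mp hx w')
  exact mul_lt_one_of_nonneg_of_lt_one_left (norm_nonneg _) h5 h6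

end E

section Final

open V0 LT.Loc LocFam

variable {k : Type u} [Field k] [NumberField k] {E : Type u} [Field E] [NumberField E]
  [Algebra k E]

/-- **Final form for `locK`** -/
theorem exists_hypK {U : (locK k).Level} (S₀ : SFam U) {v₀ : HeightOneSpectrum (𝓞 k)}
    {ϖ : (v₀.adicCompletion k)ˣ} {Bs : Finset (v₀.adicCompletion k)} (h : Unif (Oc v₀) ϖ Bs)
    (B : ℝ) :
    ∃ M : ℕ, ∀ m, M ≤ m → ∀ S : ∀ v, Set ((locK k).G v), (∀ v, v ≠ v₀ → S v ⊆ S₀.S v) →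
      (∀ v, ∀ y ∈ S v, ∀ u ∈ U.U v, y * u ∈ S v) →
      (∀ y ∈ S v₀, ∃ i, m ≤ i ∧ y ∈ SU (Oc v₀) ϖ i) →
      ∀ T : Sp.Twist k (D U), (∀ x, T.dm x = x) → Sp.HypSupp T (relD S) B := by
  obtain ⟨M, hM⟩ := (normK k).exists_hyp S₀ (v₀ := v₀) (ϖ := ϖ) h.mem
    (strict_normK v₀ ϖ h.mem h.not_mem) B
  refine ⟨max M 1, fun m hm S hS hSU hSS T hT => ?_⟩
  refine hM m ((le_max_left _ _).trans hm) S hS hSU ?_ T hT
  exact (strong_iUnion_SU h Oc_total ((le_max_right _ _).trans hm)).mono hSS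

/-- **Final form for `locE`** -/
theorem exists_hypE {U : (locE k E).Level} (S₀ : SFam U) {σ : E ≃ₐ[k] E} (hσ : Gal3 σ)
    {v₀ : HeightOneSpectrum (𝓞 k)} {e : RE E v₀} (he : IsSplitIdem σ e)
    {ϖ : (v₀.adicCompletion k)ˣ} {Bs : Finset (v₀.adicCompletion k)} (h : Unif (Oc v₀) ϖ Bs)
    (B : ℝ) :
    ∃ M : ℕ, ∀ m, M ≤ m → ∀ S : ∀ v, Set ((locE k E).G v), (∀ v, v ≠ v₀ → S v ⊆ S₀.S v) →
      (∀ v, ∀ y ∈ S v, ∀ u ∈ U.U v, y * u ∈ S v) →
      (∀ y ∈ S v₀, ∃ i, m ≤ i ∧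
        ProjGenLinGroup.map (he.pr hσ : RE E v₀ →+* v₀.adicCompletion k) y *
        ProjGenLinGroup.map (he.pr hσ : RE E v₀ →+* v₀.adicCompletion k) ((autoE σ).g v₀ y) *
        ProjGenLinGroup.map (he.pr hσ : RE E v₀ →+* v₀.adicCompletion k)
          ((autoE σ).g v₀ ((autoE σ).g v₀ y)) ∈ SU (Oc v₀) ϖ i) →
      ∀ (T : Sp.Twist E (D U)) (hp : (autoE σ).Pres U), (∀ x, T.dm x = Auto.dmap hp x) →
        Sp.HypSupp T (relD S) B := by
  have h1 : (normE k E).nm v₀ (Units.map (strE E v₀ : v₀.adicCompletion k →* RE E v₀) ϖ) < 1 := by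
    refine strict_normE v₀ _ (strE_mem.mpr h.mem) ?_
    rw [← map_inv]
    intro hcon
    exact h.not_mem (strE_mem.mp hcon)
  obtain ⟨M, hM⟩ := (normE k E).exists_hyp3 (inv_normE σ) S₀ (v₀ := v₀)
    (i := strE E v₀) (π := (he.pr hσ : RE E v₀ →+* v₀.adicCompletion k)) (he.splitRing hσ)
    (O₀ := Oc v₀) (fun y hy => strE_mem.mpr hy) (ϖ := ϖ) h.mem h1 B
  refine ⟨max M 1, fun m hm S hS hSU hSS T hp hT => ?_⟩
  exact hM m ((le_max_left _ _).trans hm) S hS hSU _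
    (strong_iUnion_SU h Oc_total ((le_max_right _ _).trans hm)) hSS T hp hT

end Final

end Fermat.Agent.LT.Glob
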