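import Fermat.Agent.LT.Glob.Nm
import Fermat.Agent.LT.Loc.SplitRing

set_option autoImplicit false

/-!
# Hyperbolicity at the auxiliary place

A set `S ⊆ PGL₂(K₀)` is strongly hyperbolic of length `≥ m` if every upper triangular conjugate of
an element of `S` has diagonal ratio in `ϖ^{± m'} O^×`, `m' ≥ m`.
-/

namespace Fermat.Agent.LT.Glob

open Matrix Filter
open scoped MatrixGroups

universe w u i

section Strong

variable {K₀ : Type*} [CommRing K₀]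

/-- strongly hyperbolic of length at least `m` -/
def Strong (O₀ : Subring K₀) (ϖ : K₀ˣ) (m : ℕ) (S : Set PGL(2, K₀)) : Prop :=
  ∀ (x : PGL(2, K₀)) (a d : K₀ˣ) (t : K₀), x⁻¹ * ProjGenLinGroup.mk (tri a d t) * x ∈ S →
    ∃ m' : ℕ, m ≤ m' ∧ ∃ u ∈ OU O₀, a * d⁻¹ = ϖ ^ m' * u ∨ a * d⁻¹ = (ϖ ^ m')⁻¹ * u

theorem Strong.mono {O₀ : Subring K₀} {ϖ : K₀ˣ} {m : ℕ} {S S' : Set PGL(2, K₀)}
    (h : Strong O₀ ϖ m S) (hS : S' ⊆ S) : Strong O₀ ϖ m S' :=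
  fun x a d t hx => h x a d t (hS hx)

theorem Strong.anti {O₀ : Subring K₀} {ϖ : K₀ˣ} {m n : ℕ} {S : Set PGL(2, K₀)}
    (h : Strong O₀ ϖ m S) (hn : n ≤ m) : Strong O₀ ϖ n S := by
  intro x a d t hx
  obtain ⟨m', hm', u, hu, e⟩ := h x a d t hx
  exact ⟨m', hn.trans hm', u, hu, e⟩

theorem Strong.iUnion {O₀ : Subring K₀} {ϖ : K₀ˣ} {m : ℕ} {ι : Type*} {S : ι → Set PGL(2, K₀)}
    (h : ∀ i, Strong O₀ ϖ m (S i)) : Strong O₀ ϖ m (⋃ i, S i) := by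
  intro x a d t hx
  obtain ⟨i, hi⟩ := Set.mem_iUnion.mp hx
  exact h i x a d t hi

end Strong

namespace LocFam

variable {F : Type u} [Field F] [NumberField F] {ι : Type i} {L : LocFam.{w} F ι}

theorem LocNorm.nm_inv (Nm : L.LocNorm) {v : ι} (x : (L.R v)ˣ) : Nm.nm v x⁻¹ = (Nm.nm v x)⁻¹ := by
  have h : Nm.nm v x⁻¹ * Nm.nm v x = 1 := by rw [← map_mul, inv_mul_cancel, map_one]
  exact eq_inv_of_mul_eq_one_left h

/-- **untwisted case** -/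
theorem LocNorm.hyp0_of_strong (Nm : L.LocNorm) {v₀ : ι} {ϖ : (L.R v₀)ˣ}
    (hϖ : (ϖ : L.R v₀) ∈ L.O v₀) {m : ℕ} {S : Set (L.G v₀)} (hS : Strong (L.O v₀) ϖ m S)
    (x : L.G v₀) (a d : Fˣ) (t : F)
    (h : x⁻¹ * L.emb v₀ (tri a d t) * (idAuto L).g v₀ x ∈ S) :
    (Nm.nm v₀ ϖ)⁻¹ ^ m ≤ Nm.nm v₀ (L.un v₀ (a * d⁻¹)) ∨
      (Nm.nm v₀ ϖ)⁻¹ ^ m * Nm.nm v₀ (L.un v₀ (a * d⁻¹)) ≤ 1 := by
  have hid : (idAuto L).g v₀ x = x := by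
    induction x using ProjGenLinGroup.induction_on with
    | mk x =>
      rw [Auto.g, ProjGenLinGroup.map_mk]
      congr 1
  rw [hid, emb_tri] at h
  obtain ⟨m', hm', u, hu, e⟩ := hS x _ _ _ h
  rw [← un_div] at e
  have hc0 := Nm.pos v₀ ϖ
  have hc1 := Nm.le_one v₀ ϖ hϖ
  have hu1 := Nm.one_of_OU hu
  have hi1 : 1 ≤ (Nm.nm v₀ ϖ)⁻¹ := (one_le_inv₀ hc0).mpr hc1
  rcases e with e | e
  · right
    rw [e, map_mul, hu1, mul_one, map_pow]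
    calc (Nm.nm v₀ ϖ)⁻¹ ^ m * Nm.nm v₀ ϖ ^ m' ≤ (Nm.nm v₀ ϖ)⁻¹ ^ m' * Nm.nm v₀ ϖ ^ m' := by
          gcongr
      _ = 1 := by rw [← mul_pow, inv_mul_cancel₀ hc0.ne', one_pow]
  · left
    rw [e, map_mul, hu1, mul_one, Nm.nm_inv, map_pow, ← inv_pow]
    exact pow_le_pow_right₀ hi1 hm'

open LT.Loc in
/-- **twisted case**: `R_{v₀} = K₀ × K₀ × K₀` with the cyclic shift -/
theorem LocNorm.hyp0_of_strong3 (Nm : L.LocNorm) {A : Auto L} (hA : Nm.Inv A) {v₀ : ι}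
    {K₀ : Type w} [CommRing K₀] {i : K₀ →+* L.R v₀} {π : L.R v₀ →+* K₀}
    (hsp : SplitRing (A.s v₀) i π) {O₀ : Subring K₀} (hO : ∀ y ∈ O₀, i y ∈ L.O v₀) {ϖ : K₀ˣ}
    (hϖ : (ϖ : K₀) ∈ O₀) {m : ℕ} {S : Set PGL(2, K₀)} (hS : Strong O₀ ϖ m S)
    {S₀ : Set (L.G v₀)}
    (hS₀ : ∀ y ∈ S₀, ProjGenLinGroup.map π y * ProjGenLinGroup.map π (A.g v₀ y) *
      ProjGenLinGroup.map π (A.g v₀ (A.g v₀ y)) ∈ S)
    {Q : ℝ} (hQ0 : 0 ≤ Q) (hQ : Q ^ 3 ≤ (Nm.nm v₀ (Units.map (i : K₀ →* L.R v₀) ϖ))⁻¹ ^ m)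
    (x : L.G v₀) (a d : Fˣ) (t : F)
    (h : x⁻¹ * L.emb v₀ (tri a d t) * A.g v₀ x ∈ S₀) :
    Q ≤ Nm.nm v₀ (L.un v₀ (a * d⁻¹)) ∨ Q * Nm.nm v₀ (L.un v₀ (a * d⁻¹)) ≤ 1 := by
  have hcube : ∀ y : L.G v₀, A.g v₀ (A.g v₀ (A.g v₀ y)) = y := by
    intro y
    induction y using ProjGenLinGroup.induction_on with
    | mk y =>
      rw [Auto.g, ProjGenLinGroup.map_mk, ProjGenLinGroup.map_mk, ProjGenLinGroup.map_mk]
      congr 1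
      ext i j
      exact hsp.cube _
  set g : L.G v₀ := L.emb v₀ (tri a d t) with hg
  have h1 := hS₀ _ h
  set p : L.G v₀ →* PGL(2, K₀) := ProjGenLinGroup.map π with hp
  have e1 : p (x⁻¹ * g * A.g v₀ x) * p (A.g v₀ (x⁻¹ * g * A.g v₀ x)) *
      p (A.g v₀ (A.g v₀ (x⁻¹ * g * A.g v₀ x))) =
      (p x)⁻¹ * (p g * p (A.g v₀ g) * p (A.g v₀ (A.g v₀ g))) * p x := by
    simp only [map_mul, map_inv, hcube]
    group
  rw [e1] at h1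
  set s : (L.R v₀)ˣ →* (L.R v₀)ˣ := Units.map ((A.s v₀ : L.R v₀ →+* L.R v₀) : L.R v₀ →* L.R v₀)
    with hs
  set q : (L.R v₀)ˣ →* K₀ˣ := Units.map (π : L.R v₀ →* K₀) with hq
  set a' := L.un v₀ a with ha'
  set d' := L.un v₀ d with hd'
  have e2 : p g * p (A.g v₀ g) * p (A.g v₀ (A.g v₀ g)) = ProjGenLinGroup.mk
      (tri (q a' * q (s a') * q (s (s a'))) (q d' * q (s d') * q (s (s d')))
        ((q a' * q (s a') : K₀ˣ) * π (A.s v₀ (A.s v₀ (L.loc v₀ t))) +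
          ((q a' : K₀) * π (A.s v₀ (L.loc v₀ t)) + π (L.loc v₀ t) * (q (s d') : K₀)) *
            (q (s (s d')) : K₀))) := by
    rw [hg, emb_tri, Auto.g, ProjGenLinGroup.map_mk, ProjGenLinGroup.map_mk, hp,
      ProjGenLinGroup.map_mk, ProjGenLinGroup.map_mk, ProjGenLinGroup.map_mk, ← map_mul,
      ← map_mul, map_tri, map_tri, map_tri, map_tri, map_tri, tri_mul, tri_mul]
    rfl
  rw [e2] at h1
  obtain ⟨m', hm', u, hu, e⟩ := hS _ _ _ _ h1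
  set ρ := L.un v₀ (a * d⁻¹) with hρ
  have hρ' : ρ = a' * d'⁻¹ := un_div v₀ a d
  have e3 : q a' * q (s a') * q (s (s a')) * (q d' * q (s d') * q (s (s d')))⁻¹ =
      q (ρ * s ρ * s (s ρ)) := by
    rw [hρ']
    simp only [map_mul, map_inv, mul_inv]
    rw [mul_mul_mul_comm, mul_mul_mul_comm (q a')]
  rw [e3] at e
  set j : K₀ˣ →* (L.R v₀)ˣ := Units.map (i : K₀ →* L.R v₀) with hj
  have hNρ : ρ * s ρ * s (s ρ) = j (q (ρ * s ρ * s (s ρ))) := by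
    apply Units.ext
    set z : L.R v₀ := ((ρ * s ρ * s (s ρ) : (L.R v₀)ˣ) : L.R v₀) with hz
    have hsz : A.s v₀ z = z := by
      have h5 : z = (ρ : L.R v₀) * A.s v₀ ρ * A.s v₀ (A.s v₀ ρ) := rfl
      rw [h5, map_mul, map_mul, hsp.cube]
      ring
    show z = i (π z)
    refine hsp.inj _ _ ?_ ?_ ?_
    · rw [hsp.ret]
    · rw [hsp.fix, hsp.ret, hsz]
    · rw [hsp.fix, hsp.fix, hsp.ret, hsz, hsz]
  have hnm3 : Nm.nm v₀ ρ ^ 3 = Nm.nm v₀ (ρ * s ρ * s (s ρ)) := by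
    have i1 : Nm.nm v₀ (s ρ) = Nm.nm v₀ ρ := hA v₀ ρ
    have i2 : Nm.nm v₀ (s (s ρ)) = Nm.nm v₀ ρ := (hA v₀ (s ρ)).trans i1
    rw [map_mul, map_mul, i1, i2]
    ring
  have hju : Nm.nm v₀ (j u) = 1 := by
    apply Nm.one_of_OU
    exact ⟨hO _ hu.1, by rw [← map_inv]; exact hO _ hu.2⟩
  set c := Nm.nm v₀ (j ϖ) with hc
  have hc0 : 0 < c := Nm.pos v₀ _
  have hc1 : c ≤ 1 := Nm.le_one v₀ _ (hO _ hϖ)
  have hi1 : 1 ≤ c⁻¹ := (one_le_inv₀ hc0).mpr hc1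
  have hn0 := Nm.pos v₀ ρ
  rw [hNρ] at hnm3
  rcases e with e | e
  · right
    rw [e, map_mul, map_mul, hju, mul_one, map_pow, map_pow] at hnm3
    have h6 : (Q * Nm.nm v₀ ρ) ^ 3 ≤ 1 ^ 3 := by
      rw [mul_pow, hnm3, one_pow]
      calc Q ^ 3 * c ^ m' ≤ c⁻¹ ^ m * c ^ m' := by gcongr
        _ ≤ c⁻¹ ^ m' * c ^ m' := by gcongr
        _ = 1 := by rw [← mul_pow, inv_mul_cancel₀ hc0.ne', one_pow]
    exact le_of_pow_le_pow_left₀ (by norm_num) (by norm_num) h6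
  · left
    rw [e, map_mul, map_mul, hju, mul_one, map_inv, Nm.nm_inv, map_pow, map_pow, ← inv_pow]
      at hnm3
    have h6 : Q ^ 3 ≤ Nm.nm v₀ ρ ^ 3 := by
      rw [hnm3]
      exact hQ.trans (pow_le_pow_right₀ hi1 hm')
    exact le_of_pow_le_pow_left₀ (by norm_num) hn0.le h6

end LocFam

end Fermat.Agent.LT.Glob
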