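import Fermat.Agent.LT.Glob.Def

set_option autoImplicit false

/-!
# Finiteness of idele classes for a local family
-/

namespace Fermat.Agent.LT.Glob

open Matrix Filter NumberField
open scoped MatrixGroups nonZeroDivisors

universe w u i

theorem exists_finset_compl {ι : Type*} {p : ι → Prop} (h : ∀ᶠ v in cofinite, p v) :
    ∃ S : Finset ι, ∀ v, v ∉ S → p v :=
  ⟨(eventually_cofinite.mp h).toFinset, fun v hv => by
    by_contra h'
    exact hv ((Set.Finite.mem_toFinset _).mpr h')⟩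

/-- the units of `O` inside `Rˣ` -/
def OU {R : Type*} [CommRing R] (O : Subring R) : Subgroup Rˣ where
  carrier := {x | (x : R) ∈ O ∧ ((x⁻¹ : Rˣ) : R) ∈ O}
  one_mem' := by simp [O.one_mem]
  mul_mem' := by
    rintro a b ⟨h1, h2⟩ ⟨h3, h4⟩
    refine ⟨by rw [Units.val_mul]; exact O.mul_mem h1 h3, ?_⟩
    rw [_root_.mul_inv_rev, Units.val_mul]
    exact O.mul_mem h4 h2
  inv_mem' := by
    rintro a ⟨h1, h2⟩
    exact ⟨h2, by rw [inv_inv]; exact h1⟩

theorem mem_OU {R : Type*} [CommRing R] {O : Subring R} {x : Rˣ} :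
    x ∈ OU O ↔ (x : R) ∈ O ∧ ((x⁻¹ : Rˣ) : R) ∈ O := Iff.rfl

namespace LocFam

variable {F : Type u} [Field F] {ι : Type i} (L : LocFam.{w} F ι)

theorem natCast_isUnit [CharZero F] (v : ι) {N : ℕ} (hN : N ≠ 0) : IsUnit (N : L.R v) := by
  have : (N : L.R v) = L.loc v (N : F) := by simp
  rw [this]
  exact (IsUnit.mk0 (N : F) (by exact_mod_cast hN)).map (L.loc v)

theorem finite_denom (S : Finset ι) (x : ∀ v, L.R v) :
    ∃ N : ℕ, N ≠ 0 ∧ ∀ v ∈ S, (N : L.R v) * x v ∈ L.O v := by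
  classical
  choose M hM0 hM using fun v => L.denom v (x v)
  refine ⟨∏ v ∈ S, M v, Finset.prod_ne_zero_iff.mpr fun v _ => hM0 v, fun v hv => ?_⟩
  rw [← Finset.mul_prod_erase S M hv]
  push_cast
  rw [mul_comm (M v : L.R v), mul_assoc]
  refine (L.O v).mul_mem ?_ (hM v)
  rw [← Nat.cast_prod]
  exact natCast_mem _ _

variable [NumberField F]

/-- the ideal attached to an idele -/
def idl (t : ∀ v, (L.R v)ˣ) : Ideal (𝓞 F) where
  carrier := {a | ∀ v, (((t v)⁻¹ : (L.R v)ˣ) : L.R v) * L.loc v (a : F) ∈ L.O v}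
  zero_mem' := fun v => by
    show (((t v)⁻¹ : (L.R v)ˣ) : L.R v) * L.loc v ((0 : 𝓞 F) : F) ∈ L.O v
    simp [(L.O v).zero_mem]
  add_mem' := by
    intro a b ha hb v
    show (((t v)⁻¹ : (L.R v)ˣ) : L.R v) * L.loc v ((a : F) + (b : F)) ∈ L.O v
    rw [map_add, mul_add]
    exact (L.O v).add_mem (ha v) (hb v)
  smul_mem' := by
    intro c a ha v
    show (((t v)⁻¹ : (L.R v)ˣ) : L.R v) * L.loc v ((c : F) * (a : F)) ∈ L.O v
    rw [map_mul, mul_left_comm]
    exact (L.O v).mul_mem ((L.isIntegral_iff _).mp c.2 v) (ha v)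

omit [NumberField F] in
theorem mem_idl {t : ∀ v, (L.R v)ˣ} {a : 𝓞 F} : a ∈ L.idl t ↔
    ∀ v, (((t v)⁻¹ : (L.R v)ˣ) : L.R v) * L.loc v (a : F) ∈ L.O v := Iff.rfl

theorem idl_ne_bot {t : ∀ v, (L.R v)ˣ} (ht : ∀ᶠ v in cofinite, t v ∈ OU (L.O v)) :
    L.idl t ≠ ⊥ := by
  obtain ⟨S, hS⟩ := exists_finset_compl ht
  obtain ⟨N, hN, h⟩ := L.finite_denom S (fun v => (((t v)⁻¹ : (L.R v)ˣ) : L.R v))
  intro h0
  have h1 : (N : 𝓞 F) ∈ L.idl t := by
    intro v
    have e : L.loc v ((N : 𝓞 F) : F) = N := by simp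
    rw [e, mul_comm]
    by_cases hv : t v ∈ OU (L.O v)
    · exact (L.O v).mul_mem (natCast_mem _ _) hv.2
    · exact h v (by by_contra h'; exact hv (hS v h'))
  rw [h0, Ideal.mem_bot] at h1
  exact hN (by exact_mod_cast h1)

omit [NumberField F] in
/-- density of the ideal of an integral idele -/
theorem exists_mem_idl {t : ∀ v, (L.R v)ˣ} (ht : ∀ᶠ v in cofinite, t v ∈ OU (L.O v))
    (hint : ∀ v, (t v : L.R v) ∈ L.O v) (v : ι) {N : ℕ} (hN : N ≠ 0) :
    ∃ a ∈ L.idl t, ∃ z ∈ L.O v, L.loc v (a : F) = t v * (1 + N * z) := by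
  classical
  obtain ⟨S₀, hS₀⟩ := exists_finset_compl ht
  set S : Finset ι := insert v S₀ with hS
  obtain ⟨M, hM, h⟩ := L.finite_denom S (fun v => (((t v)⁻¹ : (L.R v)ˣ) : L.R v))
  obtain ⟨a, ha1, ha2⟩ := L.dense S (fun w => if w = v then (t w : L.R w) else 0) (M * N)
    (mul_ne_zero hM hN)
  have hloc : ∀ w, L.loc w a ∈ L.O w := by
    intro w
    by_cases hw : w ∈ S
    · have h1 := NO_le _ _ (ha1 w hw)
      have h2 : (if w = v then (t w : L.R w) else 0) ∈ L.O w := by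
        split_ifs; exacts [hint w, (L.O w).zero_mem]
      have := (L.O w).add_mem h1 h2
      rwa [sub_add_cancel] at this
    · exact ha2 w hw
  have hint' : IsIntegral ℤ a := (L.isIntegral_iff a).mpr hloc
  refine ⟨⟨a, hint'⟩, ?_, ?_⟩
  · intro w
    show (((t w)⁻¹ : (L.R w)ˣ) : L.R w) * L.loc w a ∈ L.O w
    by_cases hw : w ∈ S
    · obtain ⟨y, hy, e⟩ := ha1 w hw
      rw [sub_eq_iff_eq_add] at e
      rw [e, mul_add]
      refine (L.O w).add_mem ?_ ?_
      · push_cast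
        have : (((t w)⁻¹ : (L.R w)ˣ) : L.R w) * ((M : L.R w) * (N : L.R w) * y) =
          ((M : L.R w) * (((t w)⁻¹ : (L.R w)ˣ) : L.R w)) * ((N : L.R w) * y) := by ring
        rw [this]
        exact (L.O w).mul_mem (h w hw) ((L.O w).mul_mem (natCast_mem _ _) hy)
      · split_ifs
        · rw [Units.inv_mul]; exact (L.O w).one_mem
        · rw [mul_zero]; exact (L.O w).zero_mem
    · have hw' : t w ∈ OU (L.O w) := by
        by_contra h'
        exact hw (by rw [hS]; exact Finset.mem_insert_of_mem (by by_contra h''; exact h' (hS₀ w h'')))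
      exact (L.O w).mul_mem hw'.2 (ha2 w hw)
  · obtain ⟨y, hy, e⟩ := ha1 v (by rw [hS]; exact Finset.mem_insert_self _ _)
    rw [if_pos rfl, sub_eq_iff_eq_add] at e
    refine ⟨((M : L.R v) * (((t v)⁻¹ : (L.R v)ˣ) : L.R v)) * y,
      (L.O v).mul_mem (h v (by rw [hS]; exact Finset.mem_insert_self _ _)) hy, ?_⟩
    show L.loc v a = _
    rw [e]
    push_cast
    have : (t v : L.R v) * (((t v)⁻¹ : (L.R v)ˣ) : L.R v) = 1 := Units.mul_inv _
    linear_combination (-(M : L.R v) * N * y) * this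

/-- the unit of the local ring attached to a nonzero element of `F` -/
noncomputable def un (v : ι) : Fˣ →* (L.R v)ˣ := Units.map (L.loc v : F →* L.R v)

omit [NumberField F] in
@[simp] theorem un_coe (v : ι) (a : Fˣ) : ((L.un v a : (L.R v)ˣ) : L.R v) = L.loc v a := rfl

omit [NumberField F] in
theorem eventually_un_mem (a : Fˣ) : ∀ᶠ v in cofinite, L.un v a ∈ OU (L.O v) := by
  filter_upwards [L.eventually_mem a, L.eventually_mem ((a⁻¹ : Fˣ) : F)] with v h1 h2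
  exact ⟨h1, by rw [← map_inv]; exact h2⟩

theorem half_eq {t t' : ∀ v, (L.R v)ˣ} (ht : ∀ᶠ v in cofinite, t v ∈ OU (L.O v))
    (hint : ∀ v, (t v : L.R v) ∈ L.O v) {x y : 𝓞 F}
    (h : Ideal.span {x} * L.idl t ≤ Ideal.span {y} * L.idl t') (v : ι) (z : (L.R v)ˣ)
    (hz : (z : L.R v) * L.loc v (y : F) = 1) :
    (((t' v)⁻¹ : (L.R v)ˣ) : L.R v) * z * L.loc v (x : F) * t v ∈ L.O v := by
  obtain ⟨N, hN, hN'⟩ := L.denom v
    ((((t' v)⁻¹ : (L.R v)ˣ) : L.R v) * z * L.loc v (x : F) * t v)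
  obtain ⟨a, ha, b, hb, e⟩ := L.exists_mem_idl ht hint v hN
  have h1 : x * a ∈ Ideal.span {y} * L.idl t' :=
    h (Ideal.mul_mem_mul (Ideal.mem_span_singleton_self x) ha)
  rw [Ideal.mem_span_singleton_mul] at h1
  obtain ⟨c, hc, e'⟩ := h1
  have h2 := hc v
  have e2 : L.loc v (y : F) * L.loc v (c : F) = L.loc v (x : F) * (t v * (1 + N * b)) := by
    rw [← e, ← map_mul, ← map_mul, ← map_mul, ← map_mul, e']
  have h3 : (((t' v)⁻¹ : (L.R v)ˣ) : L.R v) * z * L.loc v (x : F) * t v =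
      (((t' v)⁻¹ : (L.R v)ˣ) : L.R v) * L.loc v (c : F) -
      ((N : L.R v) * ((((t' v)⁻¹ : (L.R v)ˣ) : L.R v) * z * L.loc v (x : F) * t v)) * b := by
    linear_combination (-(((t' v)⁻¹ : (L.R v)ˣ) : L.R v) * z) * e2 +
      (((t' v)⁻¹ : (L.R v)ˣ) : L.R v) * L.loc v (c : F) * hz
  rw [h3]
  exact (L.O v).sub_mem h2 ((L.O v).mul_mem hN' hb)

/-- integral ideles with equivalent ideals are equivalent -/
theorem equiv_of_idl {t t' : ∀ v, (L.R v)ˣ} (ht : ∀ᶠ v in cofinite, t v ∈ OU (L.O v))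
    (hint : ∀ v, (t v : L.R v) ∈ L.O v) (ht' : ∀ᶠ v in cofinite, t' v ∈ OU (L.O v))
    (hint' : ∀ v, (t' v : L.R v) ∈ L.O v) {x y : 𝓞 F} (hx : x ≠ 0) (hy : y ≠ 0)
    (h : Ideal.span {x} * L.idl t = Ideal.span {y} * L.idl t') :
    ∃ a : Fˣ, ∀ v, L.un v a * t v * (t' v)⁻¹ ∈ OU (L.O v) := by
  have hx' : (x : F) ≠ 0 := by simpa using hx
  have hy' : (y : F) ≠ 0 := by simpa using hy
  set X : Fˣ := Units.mk0 _ hx'
  set Y : Fˣ := Units.mk0 _ hy'
  refine ⟨X * Y⁻¹, fun v => ⟨?_, ?_⟩⟩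
  · have := L.half_eq ht hint h.le v (L.un v Y⁻¹) (by
      rw [map_inv]; exact Units.inv_mul (L.un v Y))
    convert this using 1
    rw [map_mul]
    push_cast
    rw [un_coe]
    show L.loc v (x : F) * _ * _ * _ = _
    ring
  · have := L.half_eq ht' hint' h.ge v (L.un v X⁻¹) (by
      rw [map_inv]; exact Units.inv_mul (L.un v X))
    convert this using 1
    have e : (L.un v (X * Y⁻¹) * t v * (t' v)⁻¹)⁻¹ = (t v)⁻¹ * (L.un v X⁻¹) * L.un v Y * t' v := by
      rw [map_mul, map_inv, map_inv]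
      simp only [_root_.mul_inv_rev, inv_inv]
      rw [mul_comm (t' v)]
      congr 1
      rw [mul_assoc, mul_comm (L.un v Y)]
    rw [e]
    push_cast
    rfl

variable (F) in
/-- **Finiteness of idele classes.** -/
theorem idele_finite : ∃ C : Finset (∀ v, (L.R v)ˣ), (∀ c ∈ C, {v | c v ≠ 1}.Finite) ∧
    ∀ t : ∀ v, (L.R v)ˣ, (∀ᶠ v in cofinite, t v ∈ OU (L.O v)) →
      ∃ a : Fˣ, ∃ c ∈ C, ∀ v, L.un v a * t v * (c v)⁻¹ ∈ OU (L.O v) := by
  classical
  let P := {t : ∀ v, (L.R v)ˣ // (∀ᶠ v in cofinite, t v ∈ OU (L.O v)) ∧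
    ∀ v, (t v : L.R v) ∈ L.O v}
  let f : P → ClassGroup (𝓞 F) := fun p => ClassGroup.mk0
    ⟨L.idl p.1, mem_nonZeroDivisors_iff_ne_zero.mpr (L.idl_ne_bot p.2.1)⟩
  let nrm : (∀ v, (L.R v)ˣ) → (∀ v, (L.R v)ˣ) := fun t v => if t v ∈ OU (L.O v) then 1 else t v
  refine ⟨Finset.univ.image fun κ : ClassGroup (𝓞 F) =>
    if h : ∃ p : P, f p = κ then nrm h.choose.1 else 1, ?_, ?_⟩
  · intro c hc
    obtain ⟨κ, -, rfl⟩ := Finset.mem_image.mp hc
    split_ifs with h
    · obtain ⟨S, hS⟩ := exists_finset_compl h.choose.2.1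
      refine Set.Finite.subset S.finite_toSet fun v hv => ?_
      by_contra h'
      apply hv
      show (if h.choose.1 v ∈ OU (L.O v) then 1 else h.choose.1 v) = 1
      rw [if_pos (hS v h')]
    · simp
  · intro t ht
    -- make `t` integral
    obtain ⟨S, hS⟩ := exists_finset_compl ht
    obtain ⟨N, hN, h⟩ := L.finite_denom S (fun v => (t v : L.R v))
    have hNF : (N : F) ≠ 0 := by exact_mod_cast hN
    set b : Fˣ := Units.mk0 (N : F) hNF
    have hb : ∀ v, ((L.un v b : (L.R v)ˣ) : L.R v) = N := by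
      intro v; rw [un_coe]; show L.loc v (N : F) = N; simp
    let t' : P := ⟨fun v => L.un v b * t v, by
        filter_upwards [ht, L.eventually_un_mem b] with v h1 h2 using mul_mem h2 h1, by
        intro v
        rw [Units.val_mul, hb]
        by_cases hv : t v ∈ OU (L.O v)
        · exact (L.O v).mul_mem (natCast_mem _ _) hv.1
        · exact h v (by by_contra h'; exact hv (hS v h'))⟩
    have hex : ∃ p : P, f p = f t' := ⟨t', rfl⟩
    obtain ⟨x, y, hx, hy, e⟩ := ClassGroup.mk0_eq_mk0_iff.mp hex.choose_spec.symm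
    obtain ⟨a, ha⟩ := L.equiv_of_idl t'.2.1 t'.2.2 hex.choose.2.1 hex.choose.2.2 hx hy e
    refine ⟨a * b, nrm hex.choose.1, ?_, fun v => ?_⟩
    · refine Finset.mem_image.mpr ⟨f t', Finset.mem_univ _, ?_⟩
      rw [dif_pos hex]
    · have h1 := ha v
      have e1 : L.un v (a * b) * t v = L.un v a * t'.1 v := by
        rw [map_mul, mul_assoc]
      rw [e1]
      show L.un v a * t'.1 v * (if hex.choose.1 v ∈ OU (L.O v) then 1 else hex.choose.1 v)⁻¹ ∈
        OU (L.O v)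
      split_ifs with hc
      · have := mul_mem h1 hc
        rw [inv_mul_cancel_right] at this
        rwa [inv_one, mul_one]
      · exact h1

end LocFam

end Fermat.Agent.LT.Glob
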