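import Fermat.Agent.LT.Glob.Ext

set_option autoImplicit false
set_option linter.unusedSectionVars false
set_option linter.unusedVariables false

/-!
# The completions of an extension `E / k` of number fields, as a family over the places of `k`

`RE E v = ∏_{w ∣ v} E_w` for a place `v` of `k`; `locE k E : LocFam E (HeightOneSpectrum (𝓞 k))`.
-/

namespace Fermat.Agent.LT.Glob

open Matrix Filter IsDedekindDomain IsDedekindDomain.HeightOneSpectrum WithZero NumberField
open scoped MatrixGroups Topology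

variable {k : Type*} [Field k] [NumberField k] (E : Type*) [Field E] [NumberField E]
  [Algebra k E]

/-- the places of `E` above `v` -/
abbrev Fib (v : HeightOneSpectrum (𝓞 k)) : Type _ :=
  {w : HeightOneSpectrum (𝓞 E) // w.asIdeal.LiesOver v.asIdeal}

variable {E}

instance (v : HeightOneSpectrum (𝓞 k)) (w : Fib E v) : w.1.asIdeal.LiesOver v.asIdeal := w.2

/-- the place of `k` below `w` -/
noncomputable def below (k : Type*) [Field k] [NumberField k] [Algebra k E]
    (w : HeightOneSpectrum (𝓞 E)) : HeightOneSpectrum (𝓞 k) := w.under (𝓞 k)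

instance liesOver_below (w : HeightOneSpectrum (𝓞 E)) :
    w.asIdeal.LiesOver (below k w).asIdeal := ⟨rfl⟩

theorem Fib.below_eq {v : HeightOneSpectrum (𝓞 k)} (w : Fib E v) : below k w.1 = v := by
  apply HeightOneSpectrum.ext
  exact (w.2.over).symm

theorem liesOver_iff {v : HeightOneSpectrum (𝓞 k)} {w : HeightOneSpectrum (𝓞 E)} :
    w.asIdeal.LiesOver v.asIdeal ↔ below k w = v :=
  ⟨fun h => Fib.below_eq ⟨w, h⟩, fun h => h ▸ liesOver_below w⟩

instance (v : HeightOneSpectrum (𝓞 k)) : Finite (Fib E v) := by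
  have h := IsDedekindDomain.primesOver_finite (p := v.asIdeal) (B := 𝓞 E)
  refine Finite.of_injective (β := v.asIdeal.primesOver (𝓞 E))
    (fun w => ⟨w.1.asIdeal, w.1.isPrime, w.2⟩) fun w w' h => ?_
  exact Subtype.ext (HeightOneSpectrum.ext (congrArg Subtype.val h))

instance (v : HeightOneSpectrum (𝓞 k)) : Nonempty (Fib E v) := by
  obtain ⟨P, hP, hPv⟩ := Ideal.exists_maximal_ideal_liesOver_of_isIntegral (S := 𝓞 E) v.asIdeal
  refine ⟨⟨⟨P, hP.isPrime, ?_⟩, hPv⟩⟩
  exact Ideal.ne_bot_of_mem_primesOver v.ne_bot ⟨hP.isPrime, hPv⟩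

theorem above_fib {v : HeightOneSpectrum (𝓞 k)} (w : Fib E v) :
    Above (algebraMap k E) v w.1 (v.asIdeal.ramificationIdx' w.1.asIdeal) :=
  ⟨Ideal.IsDedekindDomain.ramificationIdx'_ne_zero_of_liesOver w.1.asIdeal v.ne_bot,
    fun x => (valuation_liesOver E v w.1 x).symm⟩

theorem Above.liesOver {v : HeightOneSpectrum (𝓞 k)} {w : HeightOneSpectrum (𝓞 E)} {e : ℕ}
    (h : Above (algebraMap k E) v w e) : w.asIdeal.LiesOver v.asIdeal := by
  rw [liesOver_iff]
  exact Above.unique (above_fib (⟨w, liesOver_below w⟩ : Fib E (below k w))) h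

variable (E) in
/-- **the local ring at `v`**: the product of the completions above `v` -/
abbrev RE (v : HeightOneSpectrum (𝓞 k)) : Type _ := ∀ w : Fib E v, w.1.adicCompletion E

variable (E) in
/-- the ring of integers of `RE E v` -/
noncomputable def OE (v : HeightOneSpectrum (𝓞 k)) : Subring (RE E v) where
  carrier := {x | ∀ w, x w ∈ Oc w.1}
  one_mem' := fun w => one_mem _
  zero_mem' := fun w => zero_mem _
  mul_mem' := fun ha hb w => mul_mem (ha w) (hb w)
  add_mem' := fun ha hb w => add_mem (ha w) (hb w)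
  neg_mem' := fun ha w => neg_mem (ha w)

theorem mem_OE {v : HeightOneSpectrum (𝓞 k)} {x : RE E v} : x ∈ OE E v ↔ ∀ w, x w ∈ Oc w.1 :=
  Iff.rfl

theorem mem_NO_OE {v : HeightOneSpectrum (𝓞 k)} {N : ℕ} {x : RE E v} :
    x ∈ NO (OE E v) N ↔ ∀ w, x w ∈ NO (Oc w.1) N := by
  constructor
  · rintro ⟨y, hy, rfl⟩ w
    exact ⟨y w, hy w, rfl⟩
  · intro h
    choose y hy hy' using h
    exact ⟨y, hy, funext hy'⟩

variable (E) in
/-- the diagonal embedding -/
noncomputable def locHom (v : HeightOneSpectrum (𝓞 k)) : E →+* RE E v :=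
  RingHom.pi fun w => algebraMap E (w.1.adicCompletion E)

theorem locHom_apply (v : HeightOneSpectrum (𝓞 k)) (a : E) (w : Fib E v) :
    locHom E v a w = algebraMap E (w.1.adicCompletion E) a := rfl

theorem approxE (S : Finset (HeightOneSpectrum (𝓞 k))) (x : ∀ v, RE E v) (n : ℕ) :
    ∃ a : E, (∀ v ∈ S, ∀ w, Valued.v ((locHom E v a - x v) w) ≤ exp (-(n : ℤ))) ∧
      ∀ v ∉ S, locHom E v a ∈ OE E v := by
  classical
  have hfin : Set.Finite {w : HeightOneSpectrum (𝓞 E) | below k w ∈ S} := by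
    have h1 : {w : HeightOneSpectrum (𝓞 E) | below k w ∈ S} ⊆
        ⋃ v ∈ S, Set.range (fun w : Fib E v => w.1) := by
      intro w hw
      simp only [Set.mem_iUnion, Set.mem_range]
      exact ⟨_, hw, ⟨w, liesOver_below w⟩, rfl⟩
    exact (Set.Finite.biUnion S.finite_toSet fun v _ => Set.finite_range _).subset h1
  obtain ⟨a, ha, ha'⟩ := LT.Fin.exists_approx hfin.toFinset
    (fun w => x (below k w) ⟨w, liesOver_below w⟩) n
  refine ⟨a, fun v hv w => ?_, fun v hv w => ?_⟩
  · obtain ⟨w, hw⟩ := w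
    have hb : below k w = v := Fib.below_eq (⟨w, hw⟩ : Fib E v)
    subst hb
    exact ha w (by simpa using hv)
  · rw [locHom_apply, mem_Oc, valued_algebraMap]
    refine ha' w.1 ?_
    simpa [w.below_eq] using hv

section GLpi

variable {ι : Type*} {A : ι → Type*} [∀ i, CommRing (A i)]

/-- invertible matrices over a product of rings -/
def glPi (h : ∀ w, GL (Fin 2) (A w)) : GL (Fin 2) (∀ w, A w) where
  val := Matrix.of fun i j w => h w i j
  inv := Matrix.of fun i j w => (h w)⁻¹ i j
  val_inv := by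
    refine Matrix.ext fun i j => funext fun w => ?_
    have h1 : ((h w : Matrix (Fin 2) (Fin 2) (A w)) *
      ((h w)⁻¹ : GL (Fin 2) (A w)).val) i j = (1 : Matrix (Fin 2) (Fin 2) (A w)) i j := by
      rw [Units.mul_inv]
    rw [Matrix.mul_apply, Fin.sum_univ_two] at h1 ⊢
    refine h1.trans ?_
    rw [Matrix.one_apply, Matrix.one_apply]
    split_ifs <;> rfl
  inv_val := by
    refine Matrix.ext fun i j => funext fun w => ?_
    have h1 : (((h w)⁻¹ : GL (Fin 2) (A w)).val *
      (h w : Matrix (Fin 2) (Fin 2) (A w))) i j = (1 : Matrix (Fin 2) (Fin 2) (A w)) i j := by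
      rw [Units.inv_mul]
    rw [Matrix.mul_apply, Fin.sum_univ_two] at h1 ⊢
    refine h1.trans ?_
    rw [Matrix.one_apply, Matrix.one_apply]
    split_ifs <;> rfl

end GLpi

theorem bezout_OE (v : HeightOneSpectrum (𝓞 k)) (c d : RE E v) :
    ∃ h ∈ GLO (OE E v), c * h 0 0 + d * h 1 0 = 0 := by
  have h1 : ∀ w : Fib E v, ∃ h ∈ GLO (Oc w.1), c w * h 0 0 + d w * h 1 0 = 0 :=
    fun w => bezout_Oc w.1 (c w) (d w)
  choose h hh hh' using h1
  exact ⟨glPi h, ⟨fun i j w => (hh w).1 i j, fun i j w => (hh w).2 i j⟩, funext fun w => hh' w⟩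

variable (k E) in
/-- **The family of local rings of `E`, indexed by the places of `k`.** -/
@[reducible] noncomputable def locE : LocFam E (HeightOneSpectrum (𝓞 k)) where
  R v := RE E v
  O v := OE E v
  loc v := locHom E v
  eventually_mem a := by
    have h1 := (HeightOneSpectrum.Support.finite (𝓞 E) a).image (below k)
    refine h1.subset fun v hv => ?_
    have h2 : ¬ ∀ w : Fib E v, locHom E v a w ∈ Oc w.1 := hv
    push Not at h2
    obtain ⟨w, hw⟩ := h2
    rw [locHom_apply, mem_Oc, valued_algebraMap, not_le] at hw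
    exact ⟨w.1, hw, w.below_eq⟩
  dense S x N hN := by
    classical
    have h1 : ∀ w : HeightOneSpectrum (𝓞 E), ∃ n : ℕ,
        exp (-(n : ℤ)) ≤ Valued.v (N : w.adicCompletion E) := fun w =>
      exists_exp_le ((Valuation.ne_zero_iff _).2 (natCast_adicCompletion_ne_zero w hN))
    choose n hn using h1
    have h2 : ∀ v : HeightOneSpectrum (𝓞 k), ∃ m : ℕ, ∀ w : Fib E v, n w.1 ≤ m := by
      intro v
      obtain ⟨m, hm⟩ := (Set.finite_range fun w : Fib E v => n w.1).bddAbove
      exact ⟨m, fun w => hm ⟨w, rfl⟩⟩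
    choose m hm using h2
    obtain ⟨a, ha, ha'⟩ := approxE S x (S.sup m)
    refine ⟨a, fun v hv => mem_NO_OE.2 fun w => ?_, ha'⟩
    refine (mem_NO_Oc (natCast_adicCompletion_ne_zero w.1 hN)).2 ((ha v hv w).trans
        (le_trans ?_ (hn w.1)))
    rw [exp_le_exp]
    have := Finset.le_sup (f := m) hv
    have := hm v w
    omega
  isIntegral_iff a := by
    rw [(locK E).isIntegral_iff a]
    refine ⟨fun h v w => h w.1, fun h w => ?_⟩
    exact h (below k w) ⟨w, liesOver_below w⟩
  denom v x := by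
    classical
    have := Fintype.ofFinite (Fib E v)
    have h1 : ∀ w : Fib E v, ∃ N : ℕ, N ≠ 0 ∧ (N : w.1.adicCompletion E) * x w ∈ Oc w.1 :=
      fun w => exists_natCast_mul_mem w.1 (x w)
    choose N hN hN' using h1
    refine ⟨∏ w, N w, Finset.prod_ne_zero_iff.2 fun w _ => hN w, fun w => ?_⟩
    have h2 : ((∏ w', N w' : ℕ) : w.1.adicCompletion E) * x w =
        ((∏ w' ∈ Finset.univ.erase w, N w' : ℕ) : w.1.adicCompletion E) *
          ((N w : w.1.adicCompletion E) * x w) := by
      rw [← Finset.mul_prod_erase Finset.univ N (Finset.mem_univ w)]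
      push_cast
      ring
    change ((∏ w', N w' : ℕ) : w.1.adicCompletion E) * x w ∈ Oc w.1
    rw [h2]
    exact mul_mem (natCast_mem _ _) (hN' w)
  bezout v := bezout_OE v

end Fermat.Agent.LT.Glob
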