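import Fermat.Agent.LT.Glob.Unip
import Fermat.Agent.LT.Glob.HeckeLoc
import Fermat.Agent.LT.Kill.Def

set_option autoImplicit false

/-!
# Hecke operators on `D` and killing data
-/

namespace Fermat.Agent.LT.Glob

open Matrix Filter NumberField Fermat.Agent.LT.Loc
open scoped MatrixGroups

universe w u i

namespace LocFam

variable {F : Type u} [Field F] {ι : Type i} {L : LocFam.{w} F ι} {U : L.Level}

section Single

variable [DecidableEq ι]

/-- `d` with the coordinate at `v` replaced -/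
def upd (d : D U) (v : ι) (x : X U v) : D U := ⟨Function.update d.1 v x, by
  have h : ∀ᶠ w in cofinite, w ≠ v := by
    rw [eventually_cofinite]
    refine (Set.finite_singleton v).subset fun w hw => ?_
    simpa using hw
  filter_upwards [d.2, h] with w h1 h2
  rw [Function.update_of_ne h2, h1]⟩

theorem upd_self (d : D U) (v : ι) (x : X U v) : upd d v x v = x := Function.update_self ..

theorem upd_of_ne (d : D U) {v w : ι} (h : w ≠ v) (x : X U v) : upd d v x w = d w :=
  Function.update_of_ne h _ _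

theorem upd_injective (d : D U) (v : ι) : Function.Injective (upd d v) := by
  intro x y h
  have := congrArg (fun e : D U => e v) h
  simpa only [upd_self] using this

end Single

/-- `d` and `d'` are neighbours at `v` -/
def IsNb (U : L.Level) (v : ι) (ϖ : (L.R v)ˣ) (d d' : D U) : Prop :=
  (∀ w, w ≠ v → d w = d' w) ∧ ∃ g h : L.G v, (g : X U v) = d v ∧ (h : X U v) = d' v ∧
    g⁻¹ * h ∈ HS (L.O v) ϖ

variable {v : ι} {ϖ : (L.R v)ˣ} {B : Finset (L.R v)}

theorem IsNb.symm {d d' : D U} (h : IsNb U v ϖ d d') : IsNb U v ϖ d' d := by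
  obtain ⟨h1, g, g', hg, hg', h2⟩ := h
  refine ⟨fun w hw => (h1 w hw).symm, g', g, hg', hg, ?_⟩
  have := HS.inv h2
  rwa [_root_.mul_inv_rev, inv_inv] at this

theorem IsNb.smul {d d' : D U} (h : IsNb U v ϖ d d') (a : L.GA) : IsNb U v ϖ (a • d) (a • d') := by
  obtain ⟨h1, g, g', hg, hg', h2⟩ := h
  refine ⟨fun w hw => ?_, a.1 v * g, a.1 v * g', ?_, ?_, ?_⟩
  · rw [GA_smul_apply, GA_smul_apply, h1 w hw]
  · rw [GA_smul_apply, ← hg]; rfl
  · rw [GA_smul_apply, ← hg']; rfl
  · rwa [_root_.mul_inv_rev, mul_assoc, inv_mul_cancel_left]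

theorem isNb_smul_iff {d d' : D U} (a : L.GA) : IsNb U v ϖ (a • d) (a • d') ↔ IsNb U v ϖ d d' := by
  refine ⟨fun h => ?_, fun h => h.smul a⟩
  have := h.smul a⁻¹
  rwa [inv_smul_smul, inv_smul_smul] at this

/-- the neighbours of `d` -/
noncomputable def nbD [DecidableEq ι] (U : L.Level) (v : ι) (ϖ : (L.R v)ˣ) (B : Finset (L.R v))
    (d : D U) (g : L.G v) (o : Option B) : D U :=
  upd d v ((g * ProjGenLinGroup.mk (rp ϖ B o) : L.G v) : X U v)

theorem range_nbD [DecidableEq ι] (h : Unif (L.O v) ϖ B) (hU : U.U v = PO (L.O v)) (d : D U)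
    {g : L.G v} (hg : (g : X U v) = d v) :
    Set.range (nbD U v ϖ B d g) = {d' | IsNb U v ϖ d d'} := by
  ext d'
  constructor
  · rintro ⟨o, rfl⟩
    refine ⟨fun w hw => (upd_of_ne d hw _).symm, g, _, hg, (upd_self d v _).symm, ?_⟩
    rw [inv_mul_cancel_left]
    exact rp_mem_HS h o
  · rintro ⟨h1, g₁, g', hg₁, hg', h2⟩
    have h3 : g⁻¹ * g' ∈ HS (L.O v) ϖ := by
      have h4 : g⁻¹ * g₁ ∈ PO (L.O v) := by
        have := QuotientGroup.eq.1 (hg.trans hg₁.symm)
        rwa [hU] at this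
      have := HS.mul_left h4 h2
      rwa [mul_assoc, mul_inv_cancel_left] at this
    obtain ⟨o, ho⟩ := h.mem_HS_iff.1 h3
    refine ⟨o, ?_⟩
    apply D.ext
    intro w
    by_cases hw : w = v
    · subst hw
      rw [nbD, upd_self, ← hg']
      refine QuotientGroup.eq.2 ?_
      rw [hU, _root_.mul_inv_rev, mul_assoc]
      exact ho
    · rw [nbD, upd_of_ne d hw, h1 w hw]

theorem nbD_injective [DecidableEq ι] (h : Unif (L.O v) ϖ B) (hU : U.U v = PO (L.O v)) (d : D U)
    (g : L.G v) : Function.Injective (nbD U v ϖ B d g) := by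
  intro o o' ho
  have h1 := upd_injective d v ho
  apply h.rp_inj
  have := QuotientGroup.eq.1 h1
  rwa [hU, _root_.mul_inv_rev, mul_assoc, inv_mul_cancel_left] at this

theorem finite_isNb (h : Unif (L.O v) ϖ B) (hU : U.U v = PO (L.O v)) (d : D U) :
    {d' | IsNb U v ϖ d d'}.Finite := by
  classical
  obtain ⟨g, hg⟩ := QuotientGroup.mk_surjective (d v)
  rw [← range_nbD h hU d hg]
  exact Set.finite_range _

variable [NumberField F]

open Classical in
/-- the Hecke kernel at the place `v` -/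
noncomputable def Tker (h : Unif (L.O v) ϖ B) (hU : U.U v = PO (L.O v)) : Sp.DKer F (D U) where
  κ d d' := if IsNb U v ϖ d d' then 1 else 0
  smul g d d' := by rw [smul_eq_diag, smul_eq_diag, isNb_smul_iff]
  finite d := (finite_isNb h hU d).subset fun d' hd' => by
    by_contra hcon
    exact hd' (if_neg hcon)

open Classical in
theorem Tker_κ (h : Unif (L.O v) ϖ B) (hU : U.U v = PO (L.O v)) (d d' : D U) :
    (Tker h hU).κ d d' = if IsNb U v ϖ d d' then 1 else 0 := rfl

theorem Tker_symm (h : Unif (L.O v) ϖ B) (hU : U.U v = PO (L.O v)) (d d' : D U) :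
    (Tker h hU).κ d d' = (Tker h hU).κ d' d := by
  classical
  rw [Tker_κ, Tker_κ]
  congr 1
  exact propext ⟨IsNb.symm, IsNb.symm⟩

/-- the Hecke operator as a sum -/
theorem finsum_Tker [DecidableEq ι] (h : Unif (L.O v) ϖ B) (hU : U.U v = PO (L.O v)) (d : D U)
    {g : L.G v} (hg : (g : X U v) = d v) (Φ : D U → ℂ) :
    ∑ᶠ d', (Tker h hU).κ d d' * Φ d' = ∑ o : Option B, Φ (nbD U v ϖ B d g o) := by
  classical
  rw [← finsum_eq_sum_of_fintype, ← finsum_mem_range (nbD_injective h hU d g), range_nbD h hU d hg,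
    finsum_mem_def]
  refine finsum_congr fun d' => ?_
  rw [Tker_κ]
  by_cases hd' : IsNb U v ϖ d d'
  · rw [if_pos hd', one_mul]
    exact (Set.indicator_of_mem (s := {d' | IsNb U v ϖ d d'}) hd' _).symm
  · rw [if_neg hd', zero_mul]
    exact (Set.indicator_of_notMem (s := {d' | IsNb U v ϖ d d'}) hd' _).symm

/-! ### Neighbours modulo unipotent matrices -/

section Mod

variable [DecidableEq ι]

/-- the idele concentrated at `v` -/
def singleH (v : ι) (t : (L.R v)ˣ) : L.IdH := ⟨Pi.mulSingle v t, by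
  rw [mem_IdH]
  have h : ∀ᶠ w in cofinite, w ≠ v := by
    rw [eventually_cofinite]
    refine (Set.finite_singleton v).subset fun w hw => ?_
    simpa using hw
  filter_upwards [h] with w hw
  rw [Pi.mulSingle_eq_of_ne hw]
  exact one_mem _⟩

omit [NumberField F] in
theorem singleH_inv (v : ι) (t : (L.R v)ˣ) : (singleH v t)⁻¹ = singleH v t⁻¹ := by
  apply Subtype.ext
  show (Pi.mulSingle v t : ∀ w, (L.R w)ˣ)⁻¹ = Pi.mulSingle v t⁻¹
  rw [Pi.mulSingle_inv]

omit [NumberField F] in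
theorem tri_one_zero {R : Type*} [CommRing R] : tri 1 1 (0 : R) = 1 := by
  apply Units.ext
  rw [tri_coe]
  ext i j
  fin_cases i <;> fin_cases j <;> simp

omit [NumberField F] in
/-- `upd d v (diag(t,1) n(s) d_v)` is equivalent to `diag(t, 1) d` -/
theorem prU_upd (d : D U) (v : ι) (t : (L.R v)ˣ) (s : L.R v) :
    prU (upd d v ((ProjGenLinGroup.mk (tri t 1 s) : L.G v) • d v)) = singleH v t • prU d := by
  rw [smul_prU]
  symm
  refine prU_eq_iff.2 ⟨⟨Pi.single v s, ?_⟩, ?_⟩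
  · show ∀ᶠ w in cofinite, (Pi.single v s : ∀ w, L.R w) w ∈ L.O w
    have h : ∀ᶠ w in cofinite, w ≠ v := by
      rw [eventually_cofinite]
      refine (Set.finite_singleton v).subset fun w hw => ?_
      simpa using hw
    filter_upwards [h] with w hw
    rw [Pi.single_eq_of_ne hw]
    exact zero_mem _
  · apply D.ext
    intro w
    show _ = (ProjGenLinGroup.mk (tri 1 1 ((Pi.single v s : ∀ w, L.R w) w)) : L.G w) •
      ((ProjGenLinGroup.mk (tri ((Pi.mulSingle v t : ∀ w, (L.R w)ˣ) w) 1 0) : L.G w) • d w)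
    by_cases hw : w = v
    · subst hw
      rw [upd_self, Pi.single_eq_same, Pi.mulSingle_eq_same, ← mul_smul, ← map_mul, tri_mul]
      congr 3
      · simp
      · simp
      · simp
    · rw [upd_of_ne d hw, Pi.single_eq_of_ne hw, Pi.mulSingle_eq_of_ne hw, tri_one_zero, map_one,
        one_smul, one_smul]

/-- **the Hecke operator modulo unipotent matrices** -/
theorem finsum_Tker_prU (h : Unif (L.O v) ϖ B) (hU : U.U v = PO (L.O v)) (f : QU U → ℂ) (d : D U) :
    ∑ᶠ d', (Tker h hU).κ d d' * f (prU d') =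
      B.card * f (singleH v ϖ • prU d) + f ((singleH v ϖ)⁻¹ • prU d) := by
  -- Iwasawa representative
  obtain ⟨g, hg⟩ := QuotientGroup.mk_surjective (d v)
  obtain ⟨g, rfl⟩ := ProjGenLinGroup.mk_surjective g
  obtain ⟨a, e, s, k, hk, rfl⟩ := L.iwasawa v g
  have hg' : ((ProjGenLinGroup.mk (tri a e s) : L.G v) : X U v) = d v := by
    rw [← hg]
    refine QuotientGroup.eq.2 ?_
    rw [← map_inv, ← map_mul, inv_mul_cancel_left, hU]
    exact mk_mem_PO hk
  have hsome : ∀ b : B, prU (nbD U v ϖ B d (ProjGenLinGroup.mk (tri a e s)) (some b)) =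
      singleH v ϖ • prU d := by
    intro b
    have he : (e : L.R v) * ((e⁻¹ : (L.R v)ˣ) : L.R v) = 1 := Units.mul_inv e
    rw [← prU_upd d v ϖ (((a : L.R v) * b + s - ϖ * s) * ((e⁻¹ : (L.R v)ˣ) : L.R v))]
    refine congrArg prU (congrArg (upd d v) ?_)
    rw [← hg']
    show ((ProjGenLinGroup.mk (tri a e s) * ProjGenLinGroup.mk (rp ϖ B (some b)) : L.G v) : X U v) =
      ((ProjGenLinGroup.mk _ * ProjGenLinGroup.mk (tri a e s) : L.G v) : X U v)
    rw [← map_mul, ← map_mul, rp, tri_mul, tri_mul]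
    congr 3
    · rw [mul_comm]
    · simp
    · simp only [Units.val_one, mul_one]
      linear_combination (-((a : L.R v) * b + s - ϖ * s)) * he
  have hnone : prU (nbD U v ϖ B d (ProjGenLinGroup.mk (tri a e s)) none) =
      (singleH v ϖ)⁻¹ • prU d := by
    have he : (e : L.R v) * ((e⁻¹ : (L.R v)ˣ) : L.R v) = 1 := Units.mul_inv e
    rw [singleH_inv, ← prU_upd d v ϖ⁻¹ ((s - ((ϖ⁻¹ : (L.R v)ˣ) : L.R v) * s) *
      ((e⁻¹ : (L.R v)ˣ) : L.R v))]
    refine congrArg prU (congrArg (upd d v) ?_)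
    rw [← hg']
    show ((ProjGenLinGroup.mk (tri a e s) * ProjGenLinGroup.mk (rp ϖ B none) : L.G v) : X U v) =
      ((ProjGenLinGroup.mk _ * ProjGenLinGroup.mk (tri a e s) : L.G v) : X U v)
    rw [← map_mul, ← map_mul, rp, tri_mul, tri_mul, ← mk_sc_mul ϖ (tri (ϖ⁻¹ * a) (1 * e) _),
      sc_mul_tri]
    have hϖ : (ϖ : L.R v) * ((ϖ⁻¹ : (L.R v)ˣ) : L.R v) = 1 := Units.mul_inv ϖ
    congr 3
    · rw [mul_one, mul_inv_cancel_left]
    · rw [one_mul, mul_comm]
    · simp only [mul_zero, zero_add]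
      linear_combination (-(ϖ : L.R v) * (s - ((ϖ⁻¹ : (L.R v)ˣ) : L.R v) * s)) * he
  rw [finsum_Tker h hU d hg', Fintype.sum_option, hnone, Finset.sum_congr rfl fun b _ =>
    congrArg f (hsome b), Finset.sum_const, nsmul_eq_mul, add_comm]
  simp

omit [NumberField F] in
theorem singleH_pow_val (v : ι) (t : (L.R v)ˣ) (n : ℕ) :
    ((singleH v t ^ n : L.IdH) : ∀ v, (L.R v)ˣ) = Pi.mulSingle v (t ^ n) := by
  show (Pi.mulSingle v t : ∀ w, (L.R w)ˣ) ^ n = _
  rw [Pi.mulSingle_pow]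

omit [DecidableEq ι] [NumberField F] in
theorem _root_.Fermat.Agent.LT.Glob.Unif.card_pos {R : Type*} [CommRing R] {O : Subring R} {ϖ : Rˣ}
    {B : Finset R} (h : Unif O ϖ B) : 0 < B.card := by
  obtain ⟨b, hb, -⟩ := h.cover 0 (zero_mem _)
  exact Finset.card_pos.2 ⟨b, hb⟩

variable {J : Type*} [Fintype J]

/-- **Killing data for `D U`.** -/
noncomputable def killRel (pl : J → ι) (ϖ : ∀ j, (L.R (pl j))ˣ) (B : ∀ j, Finset (L.R (pl j)))
    (h : ∀ j, Unif (L.O (pl j)) (ϖ j) (B j)) (hU : ∀ j, U.U (pl j) = PO (L.O (pl j)))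
    (k : J → ℕ) (x : Fˣ)
    (hx : ∀ v, ∃ c ∈ OU (L.O v), ∃ N : ℕ, PK (L.O v) N ≤ U.U v ∧
      (c : L.R v) - 1 ∈ NO (L.O v) N ∧
      L.un v x = (∏ j, (Pi.mulSingle (pl j) (ϖ j ^ k j) : ∀ v, (L.R v)ˣ) v) * c)
    (hnorm : |Algebra.norm ℚ (x : F)| = ∏ j, ((B j).card : ℚ) ^ k j) :
    Kill.KillRel F (D U) L.IdH (QU U) J where
  q j := (B j).card
  q_pos j := (h j).card_pos
  k := k
  x := x
  norm_eq := hnorm
  T j := Tker (h j) (hU j)
  pr := prU
  pr_surj := prU_surj
  pr_eq _ _ := prU_eq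
  t j := singleH (pl j) (ϖ j)
  sum_T j f d := finsum_Tker_prU (h j) (hU j) f d
  rel d := by
    refine rel_prU _ x (fun v => ?_) d
    obtain ⟨c, hc, N, hN, hcN, e⟩ := hx v
    refine ⟨c, hc, N, hN, hcN, ?_⟩
    rw [e]
    congr 1
    rw [Subgroup.val_finsetProd, Finset.prod_apply]
    refine Finset.prod_congr rfl fun j _ => ?_
    rw [singleH_pow_val]

end Mod

end LocFam

end Fermat.Agent.LT.Glob
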