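import Mathlib

set_option autoImplicit false

/-!
# Open compact subgroups of `GL₂(R)` for a commutative ring `R` with an order `O`

`R` is (typically) a local field or a finite étale algebra over it, `O` its ring of integers;
everything is algebraic, no topology is used.
-/

namespace Fermat.Agent.LT.Glob

open Matrix
open scoped MatrixGroups

section Local

variable {R : Type*} [CommRing R]

/-- scalars -/
noncomputable def sc : Rˣ →* GL (Fin 2) R := GeneralLinearGroup.scalar (Fin 2)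

theorem sc_coe (z : Rˣ) : ((sc z : GL (Fin 2) R) : Matrix (Fin 2) (Fin 2) R) = (z : R) • 1 := by
  rw [sc, GeneralLinearGroup.coe_scalar]
  exact (Matrix.smul_one_eq_diagonal _).symm

theorem sc_comm (z : Rˣ) (g : GL (Fin 2) R) : sc z * g = g * sc z := by
  apply Units.ext
  rw [Units.val_mul, Units.val_mul, sc_coe]
  simp

theorem sc_mul_apply (z : Rˣ) (g : GL (Fin 2) R) (i j : Fin 2) :
    (sc z * g) i j = (z : R) * g i j := by
  show ((sc z * g : GL (Fin 2) R) : Matrix (Fin 2) (Fin 2) R) i j = _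
  rw [Units.val_mul, sc_coe]
  simp

/-- `GL₂(O)` as a subgroup of `GL₂(R)` -/
def GLO (O : Subring R) : Subgroup (GL (Fin 2) R) where
  carrier := {g | (∀ i j, g i j ∈ O) ∧ ∀ i j, g⁻¹ i j ∈ O}
  one_mem' := by
    refine ⟨fun i j => ?_, fun i j => ?_⟩
    · rw [Units.val_one, Matrix.one_apply]; split_ifs; exacts [O.one_mem, O.zero_mem]
    · rw [inv_one, Units.val_one, Matrix.one_apply]; split_ifs; exacts [O.one_mem, O.zero_mem]
  mul_mem' := by
    rintro g h ⟨hg, hg'⟩ ⟨hh, hh'⟩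
    refine ⟨fun i j => ?_, fun i j => ?_⟩
    · rw [Units.val_mul, Matrix.mul_apply]
      exact O.sum_mem fun k _ => O.mul_mem (hg i k) (hh k j)
    · rw [_root_.mul_inv_rev, Units.val_mul, Matrix.mul_apply]
      exact O.sum_mem fun k _ => O.mul_mem (hh' i k) (hg' k j)
  inv_mem' := by
    rintro g ⟨hg, hg'⟩
    exact ⟨hg', by rw [inv_inv]; exact hg⟩

theorem mem_GLO {O : Subring R} {g : GL (Fin 2) R} :
    g ∈ GLO O ↔ (∀ i j, g i j ∈ O) ∧ ∀ i j, g⁻¹ i j ∈ O := Iff.rfl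

/-- the entries of the inverse -/
theorem inv_entries (g : GL (Fin 2) R) :
    ((g⁻¹ : GL (Fin 2) R) : Matrix (Fin 2) (Fin 2) R) =
      ((GeneralLinearGroup.det g)⁻¹ : Rˣ).val • !![g 1 1, -g 0 1; -g 1 0, g 0 0] := by
  have h1 : (g : Matrix (Fin 2) (Fin 2) R) *
      (((GeneralLinearGroup.det g)⁻¹ : Rˣ).val • !![g 1 1, -g 0 1; -g 1 0, g 0 0]) = 1 := by
    have hd : (g : Matrix (Fin 2) (Fin 2) R).det * ((GeneralLinearGroup.det g)⁻¹ : Rˣ).val = 1 :=
      (GeneralLinearGroup.det g).mul_inv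
    rw [Matrix.det_fin_two] at hd
    generalize ((GeneralLinearGroup.det g)⁻¹ : Rˣ).val = d at hd
    ext i j
    fin_cases i <;> fin_cases j <;>
      simp [Matrix.mul_apply, Fin.sum_univ_two]
    · linear_combination hd
    · ring
    · ring
    · linear_combination hd
  have h2 : ((g⁻¹ : GL (Fin 2) R) : Matrix (Fin 2) (Fin 2) R) * (g : Matrix (Fin 2) (Fin 2) R) = 1 := by
    rw [← Units.val_mul, inv_mul_cancel, Units.val_one]
  calc ((g⁻¹ : GL (Fin 2) R) : Matrix (Fin 2) (Fin 2) R)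
      = ((g⁻¹ : GL (Fin 2) R) : Matrix (Fin 2) (Fin 2) R) * ((g : Matrix (Fin 2) (Fin 2) R) *
      (((GeneralLinearGroup.det g)⁻¹ : Rˣ).val • !![g 1 1, -g 0 1; -g 1 0, g 0 0])) := by
        rw [h1, mul_one]
    _ = _ := by rw [← mul_assoc, h2, one_mul]

theorem det_inv_val (g : GL (Fin 2) R) : ((GeneralLinearGroup.det g)⁻¹ : Rˣ).val =
    ((g⁻¹ : GL (Fin 2) R) : Matrix (Fin 2) (Fin 2) R).det := by
  rw [← map_inv]; rfl

theorem mem_GLO_iff {O : Subring R} {g : GL (Fin 2) R} :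
    g ∈ GLO O ↔ (∀ i j, g i j ∈ O) ∧ ((GeneralLinearGroup.det g)⁻¹ : Rˣ).val ∈ O := by
  rw [mem_GLO]
  refine and_congr_right fun h => ⟨fun h' => ?_, fun h' i j => ?_⟩
  · rw [det_inv_val, Matrix.det_fin_two]
    exact O.sub_mem (O.mul_mem (h' _ _) (h' _ _)) (O.mul_mem (h' _ _) (h' _ _))
  · rw [inv_entries]
    fin_cases i <;> fin_cases j <;>
      simp only [Fin.zero_eta, Fin.mk_one, Fin.isValue, Matrix.smul_apply, Matrix.of_apply,
        Matrix.cons_val', Matrix.cons_val_zero, Matrix.cons_val_one, Matrix.cons_val_fin_one,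
        smul_eq_mul, mul_neg]
    · exact O.mul_mem h' (h 1 1)
    · exact O.neg_mem (O.mul_mem h' (h 0 1))
    · exact O.neg_mem (O.mul_mem h' (h 1 0))
    · exact O.mul_mem h' (h 0 0)

/-- the multiples of `N` in `O` -/
def NO (O : Subring R) (N : ℕ) : AddSubgroup R where
  carrier := {x | ∃ y ∈ O, x = N * y}
  zero_mem' := ⟨0, O.zero_mem, by simp⟩
  add_mem' := by
    rintro a b ⟨x, hx, rfl⟩ ⟨y, hy, rfl⟩
    exact ⟨x + y, O.add_mem hx hy, by ring⟩
  neg_mem' := by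
    rintro a ⟨x, hx, rfl⟩
    exact ⟨-x, O.neg_mem hx, by ring⟩

theorem mem_NO {O : Subring R} {N : ℕ} {x : R} : x ∈ NO O N ↔ ∃ y ∈ O, x = N * y := Iff.rfl

theorem NO_le (O : Subring R) (N : ℕ) {x : R} (h : x ∈ NO O N) : x ∈ O := by
  obtain ⟨y, hy, rfl⟩ := h
  exact O.mul_mem (natCast_mem O N) hy

theorem mul_mem_NO {O : Subring R} {N : ℕ} {x y : R} (hx : x ∈ O) (h : y ∈ NO O N) :
    x * y ∈ NO O N := by
  obtain ⟨z, hz, rfl⟩ := h
  exact ⟨x * z, O.mul_mem hx hz, by ring⟩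

theorem mul_mem_NO' {O : Subring R} {N : ℕ} {x y : R} (hx : x ∈ NO O N) (h : y ∈ O) :
    x * y ∈ NO O N := by rw [mul_comm]; exact mul_mem_NO h hx

theorem NO_mul_mem {O : Subring R} {M N : ℕ} {x y : R} (hx : x ∈ NO O M) (h : y ∈ NO O N) :
    x * y ∈ NO O (M * N) := by
  obtain ⟨z, hz, rfl⟩ := h
  obtain ⟨w, hw, rfl⟩ := hx
  exact ⟨w * z, O.mul_mem hw hz, by push_cast; ring⟩

theorem NO_mono {O : Subring R} {M N : ℕ} (h : M ∣ N) {x : R} (hx : x ∈ NO O N) : x ∈ NO O M := by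
  obtain ⟨z, hz, rfl⟩ := hx
  obtain ⟨c, rfl⟩ := h
  exact ⟨c * z, O.mul_mem (natCast_mem O c) hz, by push_cast; ring⟩

theorem NO_one {O : Subring R} {x : R} : x ∈ NO O 1 ↔ x ∈ O :=
  ⟨fun ⟨y, hy, h⟩ => by rw [h, Nat.cast_one, one_mul]; exact hy, fun h => ⟨x, h, by simp⟩⟩

/-- the principal congruence subgroup of level `N` -/
def KN (O : Subring R) (N : ℕ) : Subgroup (GL (Fin 2) R) where
  carrier := {g | g ∈ GLO O ∧ ∀ i j, g i j - (1 : Matrix (Fin 2) (Fin 2) R) i j ∈ NO O N}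
  one_mem' := ⟨one_mem _, fun i j => by rw [Units.val_one, sub_self]; exact zero_mem _⟩
  mul_mem' := by
    rintro g h ⟨hg, hg'⟩ ⟨hh, hh'⟩
    refine ⟨mul_mem hg hh, fun i j => ?_⟩
    have : (g * h : GL (Fin 2) R) i j - (1 : Matrix (Fin 2) (Fin 2) R) i j =
        (∑ k, (g i k - (1 : Matrix (Fin 2) (Fin 2) R) i k) * h k j) +
          (h i j - (1 : Matrix (Fin 2) (Fin 2) R) i j) := by
      have e1 : (∑ k, (1 : Matrix (Fin 2) (Fin 2) R) i k * h k j) = h i j := by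
        rw [← Matrix.mul_apply, one_mul]
      simp_rw [sub_mul]
      rw [Finset.sum_sub_distrib, e1, Units.val_mul, Matrix.mul_apply]
      ring
    rw [this]
    exact add_mem (sum_mem fun k _ => mul_mem_NO' (hg' i k) (hh.1 k j)) (hh' i j)
  inv_mem' := by
    rintro g ⟨hg, hg'⟩
    refine ⟨inv_mem hg, fun i j => ?_⟩
    have : (g⁻¹ : GL (Fin 2) R) i j - (1 : Matrix (Fin 2) (Fin 2) R) i j =
        -∑ k, (g⁻¹ : GL (Fin 2) R) i k * (g k j - (1 : Matrix (Fin 2) (Fin 2) R) k j) := by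
      simp_rw [mul_sub]
      rw [Finset.sum_sub_distrib, ← Matrix.mul_apply, ← Matrix.mul_apply, ← Units.val_mul,
        inv_mul_cancel, mul_one, Units.val_one]
      ring
    rw [this]
    exact neg_mem (sum_mem fun k _ => mul_mem_NO (hg.2 i k) (hg' k j))

theorem mem_KN {O : Subring R} {N : ℕ} {g : GL (Fin 2) R} : g ∈ KN O N ↔
    g ∈ GLO O ∧ ∀ i j, g i j - (1 : Matrix (Fin 2) (Fin 2) R) i j ∈ NO O N := Iff.rfl

theorem KN_le (O : Subring R) (N : ℕ) : KN O N ≤ GLO O := fun _ h => h.1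

theorem KN_mono {O : Subring R} {M N : ℕ} (h : M ∣ N) : KN O N ≤ KN O M :=
  fun _ hg => ⟨hg.1, fun i j => NO_mono h (hg.2 i j)⟩

theorem KN_one (O : Subring R) : KN O 1 = GLO O := by
  refine le_antisymm (KN_le O 1) fun g hg => ⟨hg, fun i j => ?_⟩
  rw [NO_one]
  refine O.sub_mem (hg.1 i j) ?_
  rw [Matrix.one_apply]; split_ifs; exacts [O.one_mem, O.zero_mem]

/-- `KN` is normal in `GL₂(O)` -/
theorem conj_mem_KN {O : Subring R} {N : ℕ} {g h : GL (Fin 2) R} (hg : g ∈ GLO O)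
    (hh : h ∈ KN O N) : g * h * g⁻¹ ∈ KN O N := by
  refine ⟨mul_mem (mul_mem hg hh.1) (inv_mem hg), fun i j => ?_⟩
  have e : ((g * h * g⁻¹ : GL (Fin 2) R) : Matrix (Fin 2) (Fin 2) R) - 1 =
      (g : Matrix (Fin 2) (Fin 2) R) * ((h : Matrix (Fin 2) (Fin 2) R) - 1) *
        ((g⁻¹ : GL (Fin 2) R) : Matrix (Fin 2) (Fin 2) R) := by
    rw [mul_sub, sub_mul, mul_one, ← Units.val_mul, ← Units.val_mul, ← Units.val_mul,
      mul_inv_cancel, Units.val_one]
  rw [← Matrix.sub_apply, e, Matrix.mul_apply]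
  refine sum_mem fun k _ => mul_mem_NO' ?_ (hg.2 k j)
  rw [Matrix.mul_apply]
  exact sum_mem fun l _ => mul_mem_NO (hg.1 i l) (hh.2 l k)

/-- `PGL₂(O)` inside `PGL₂(R)` -/
def PO (O : Subring R) : Subgroup PGL(2, R) := (GLO O).map ProjGenLinGroup.mk

/-- the image of the principal congruence subgroup of level `N` in `PGL₂(R)` -/
def PK (O : Subring R) (N : ℕ) : Subgroup PGL(2, R) := (KN O N).map ProjGenLinGroup.mk

theorem mem_PO {O : Subring R} {g : PGL(2, R)} :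
    g ∈ PO O ↔ ∃ h ∈ GLO O, ProjGenLinGroup.mk h = g := Iff.rfl

theorem mem_PK {O : Subring R} {N : ℕ} {g : PGL(2, R)} :
    g ∈ PK O N ↔ ∃ h ∈ KN O N, ProjGenLinGroup.mk h = g := Iff.rfl

theorem mk_mem_PO {O : Subring R} {g : GL (Fin 2) R} (h : g ∈ GLO O) :
    ProjGenLinGroup.mk g ∈ PO O := ⟨g, h, rfl⟩

theorem mk_mem_PK {O : Subring R} {N : ℕ} {g : GL (Fin 2) R} (h : g ∈ KN O N) :
    ProjGenLinGroup.mk g ∈ PK O N := ⟨g, h, rfl⟩

theorem mk_mem_PO_iff {O : Subring R} {g : GL (Fin 2) R} :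
    ProjGenLinGroup.mk g ∈ PO O ↔ ∃ z : Rˣ, sc z * g ∈ GLO O := by
  rw [mem_PO]
  constructor
  · rintro ⟨h, hh, e⟩
    obtain ⟨u, hu⟩ := ProjGenLinGroup.mk_eq_mk_iff.mp e
    refine ⟨u⁻¹, ?_⟩
    have : sc u⁻¹ * g = h := by
      rw [← hu]
      show sc u⁻¹ * (h * sc u) = h
      rw [← sc_comm, ← mul_assoc, ← map_mul, inv_mul_cancel, map_one, one_mul]
    rw [this]; exact hh
  · rintro ⟨z, hz⟩
    refine ⟨_, hz, ?_⟩
    rw [map_mul, sc, ProjGenLinGroup.mk_scalar, one_mul]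

theorem mk_mem_PK_iff {O : Subring R} {N : ℕ} {g : GL (Fin 2) R} :
    ProjGenLinGroup.mk g ∈ PK O N ↔ ∃ z : Rˣ, sc z * g ∈ KN O N := by
  rw [mem_PK]
  constructor
  · rintro ⟨h, hh, e⟩
    obtain ⟨u, hu⟩ := ProjGenLinGroup.mk_eq_mk_iff.mp e
    refine ⟨u⁻¹, ?_⟩
    have : sc u⁻¹ * g = h := by
      rw [← hu]
      show sc u⁻¹ * (h * sc u) = h
      rw [← sc_comm, ← mul_assoc, ← map_mul, inv_mul_cancel, map_one, one_mul]
    rw [this]; exact hh
  · rintro ⟨z, hz⟩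
    refine ⟨_, hz, ?_⟩
    rw [map_mul, sc, ProjGenLinGroup.mk_scalar, one_mul]

theorem PK_le_PO (O : Subring R) (N : ℕ) : PK O N ≤ PO O := Subgroup.map_mono (KN_le O N)

theorem PK_mono {O : Subring R} {M N : ℕ} (h : M ∣ N) : PK O N ≤ PK O M :=
  Subgroup.map_mono (KN_mono h)

theorem PK_one (O : Subring R) : PK O 1 = PO O := by rw [PK, KN_one]; rfl

theorem conj_mem_PK {O : Subring R} {N : ℕ} {g h : PGL(2, R)} (hg : g ∈ PO O) (hh : h ∈ PK O N) :
    g * h * g⁻¹ ∈ PK O N := by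
  obtain ⟨g, hg, rfl⟩ := hg
  obtain ⟨h, hh, rfl⟩ := hh
  exact ⟨_, conj_mem_KN hg hh, by rw [map_mul, map_mul, map_inv]⟩

end Local

end Fermat.Agent.LT.Glob
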