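import Fermat.Agent.LT.Glob.Hyp
import Fermat.Agent.LT.Glob.ActE

set_option autoImplicit false

/-!
# The norms of the families `locK` and `locE`
-/

namespace Fermat.Agent.LT.Glob

open Matrix Filter IsDedekindDomain IsDedekindDomain.HeightOneSpectrum WithZero NumberField
open scoped MatrixGroups Topology NNReal

section K

variable {F : Type*} [Field F] [NumberField F]

theorem norm_le_one_of_mem {v : HeightOneSpectrum (𝓞 F)} {x : v.adicCompletion F}
    (h : x ∈ Oc v) : ‖x‖ ≤ 1 := by
  rw [NumberField.FinitePlace.norm_def]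
  have h1 : WithZeroMulInt.toNNReal (NumberField.HeightOneSpectrum.absNorm_ne_zero v) (Valued.v x) ≤
      WithZeroMulInt.toNNReal (NumberField.HeightOneSpectrum.absNorm_ne_zero v) 1 :=
    (WithZeroMulInt.toNNReal_strictMono (NumberField.HeightOneSpectrum.one_lt_absNorm_nnreal v)).monotone (mem_Oc.1 h)
  rw [map_one] at h1
  exact_mod_cast h1

/-- the local norm -/
noncomputable def nmc (v : HeightOneSpectrum (𝓞 F)) : (v.adicCompletion F)ˣ →* ℝ :=
  (normHom : v.adicCompletion F →*₀ ℝ).toMonoidHom.comp (Units.coeHom _)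

theorem nmc_apply (v : HeightOneSpectrum (𝓞 F)) (x : (v.adicCompletion F)ˣ) :
    nmc v x = ‖(x : v.adicCompletion F)‖ := rfl

theorem nmc_pos (v : HeightOneSpectrum (𝓞 F)) (x : (v.adicCompletion F)ˣ) : 0 < nmc v x :=
  norm_pos_iff.mpr x.ne_zero

theorem finprod_norm {a : F} (ha : a ≠ 0) :
    ∏ᶠ v : HeightOneSpectrum (𝓞 F), ‖algebraMap F (v.adicCompletion F) a‖ =
      (((|Algebra.norm ℚ a| : ℚ) : ℝ))⁻¹ := by
  have h := FinitePlace.prod_eq_inv_abs_norm ha
  rw [← finprod_comp_equiv (FinitePlace.equivHeightOneSpectrum (K := F)).symm] at h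
  push_cast at h ⊢
  rw [← h]
  refine finprod_congr fun v => ?_
  rw [FinitePlace.equivHeightOneSpectrum_symm_apply]
  rfl

theorem finite_norm {a : F} (ha : a ≠ 0) :
    {v : HeightOneSpectrum (𝓞 F) | ‖algebraMap F (v.adicCompletion F) a‖ ≠ 1}.Finite := by
  have h := FinitePlace.hasFiniteMulSupport ha
  have h2 : {w : FinitePlace F | w a ≠ 1}.Finite := h
  refine (h2.image (FinitePlace.equivHeightOneSpectrum (K := F))).subset fun v hv => ?_
  refine ⟨(FinitePlace.equivHeightOneSpectrum (K := F)).symm v, ?_, Equiv.apply_symm_apply _ _⟩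
  show ((FinitePlace.equivHeightOneSpectrum (K := F)).symm v) a ≠ 1
  rw [FinitePlace.equivHeightOneSpectrum_symm_apply]
  exact hv

variable (F) in
/-- **norms for `locK`** -/
noncomputable def normK : (locK F).LocNorm where
  nm v := nmc v
  pos v x := nmc_pos v x
  le_one v x hx := norm_le_one_of_mem hx
  prod a := by
    show ((|Algebra.norm ℚ (a : F)| : ℚ) : ℝ) *
        ∏ᶠ v : HeightOneSpectrum (𝓞 F), ‖algebraMap F (v.adicCompletion F) (a : F)‖ = 1
    rw [finprod_norm a.ne_zero, mul_inv_cancel₀]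
    have : |Algebra.norm ℚ (a : F)| ≠ 0 := abs_ne_zero.mpr (Algebra.norm_ne_zero_iff.mpr a.ne_zero)
    exact_mod_cast this

/-- the trivial automorphism -/
def idAuto {F ι : Type*} [Field F] (L : LocFam F ι) : LocFam.Auto L where
  θ := RingEquiv.refl F
  s _ := RingEquiv.refl _
  s_loc _ _ := rfl
  mem_O_iff _ _ := Iff.rfl

theorem inv_idAuto {F ι : Type*} [Field F] [NumberField F] {L : LocFam F ι} (Nm : L.LocNorm) :
    Nm.Inv (idAuto L) := by
  intro v x
  congr 1

end K

section E

variable {k : Type*} [Field k] [NumberField k] {E : Type*} [Field E] [NumberField E]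
  [Algebra k E]

noncomputable instance (v : HeightOneSpectrum (𝓞 k)) : Fintype (Fib E v) := Fintype.ofFinite _

/-- evaluation of units -/
noncomputable def evU {v : HeightOneSpectrum (𝓞 k)} (w : Fib E v) : (RE E v)ˣ →* (w.1.adicCompletion E)ˣ :=
  Units.map (Pi.evalMonoidHom _ w)

omit [NumberField k] in
theorem evU_coe {v : HeightOneSpectrum (𝓞 k)} (w : Fib E v) (x : (RE E v)ˣ) :
    ((evU w x : (w.1.adicCompletion E)ˣ) : w.1.adicCompletion E) = (x : RE E v) w := rfl

/-- the norm on the local ring -/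
noncomputable def nmE (v : HeightOneSpectrum (𝓞 k)) : (RE E v)ˣ →* ℝ :=
  ∏ w : Fib E v, (nmc w.1).comp (evU w)

theorem nmE_apply (v : HeightOneSpectrum (𝓞 k)) (x : (RE E v)ˣ) :
    nmE v x = ∏ w : Fib E v, ‖(x : RE E v) w‖ := by
  rw [nmE, MonoidHom.finsetProd_apply]
  rfl

open scoped Classical in
theorem prod_fib {v : HeightOneSpectrum (𝓞 k)} (f : HeightOneSpectrum (𝓞 E) → ℝ)
    (S : Finset (HeightOneSpectrum (𝓞 E))) (hS : ∀ w, w ∉ S → f w = 1) :
    ∏ w : Fib E v, f w.1 = ∏ w ∈ S with below k w = v, f w := by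
  classical
  have h1 : ∏ w ∈ S with below k w = v, f w =
      ∏ w ∈ (Finset.univ : Finset (Fib E v)).map (Function.Embedding.subtype _), f w := by
    refine Finset.prod_subset (fun w hw => ?_) (fun w hw hw' => ?_)
    · rw [Finset.mem_filter] at hw
      rw [Finset.mem_map]
      exact ⟨⟨w, liesOver_iff.mpr hw.2⟩, Finset.mem_univ _, rfl⟩
    · rw [Finset.mem_map] at hw
      obtain ⟨w', -, rfl⟩ := hw
      apply hS
      intro hmem
      exact hw' (Finset.mem_filter.mpr ⟨hmem, Fib.below_eq w'⟩)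
  rw [h1, Finset.prod_map]
  rfl

theorem finprod_fib (f : HeightOneSpectrum (𝓞 E) → ℝ) (hf : {w | f w ≠ 1}.Finite) :
    ∏ᶠ v : HeightOneSpectrum (𝓞 k), ∏ w : Fib E v, f w.1 = ∏ᶠ w, f w := by
  classical
  set S := hf.toFinset with hS
  have hS' : ∀ w, w ∉ S → f w = 1 := by
    intro w hw
    by_contra h
    exact hw (hf.mem_toFinset.mpr h)
  have h1 : ∏ᶠ w, f w = ∏ w ∈ S, f w := by
    refine finprod_eq_prod_of_mulSupport_subset f ?_
    intro w hw
    exact Finset.mem_coe.mpr (hf.mem_toFinset.mpr hw)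
  have h2 : ∏ᶠ v : HeightOneSpectrum (𝓞 k), ∏ w : Fib E v, f w.1 =
      ∏ v ∈ S.image (below k), ∏ w : Fib E v, f w.1 := by
    refine finprod_eq_prod_of_mulSupport_subset _ ?_
    intro v hv
    by_contra h
    apply hv
    show ∏ w : Fib E v, f w.1 = 1
    refine Finset.prod_eq_one fun w _ => hS' _ fun hw => h ?_
    rw [Finset.mem_coe, Finset.mem_image]
    exact ⟨w.1, hw, w.below_eq⟩
  rw [h1, h2, Finset.prod_congr rfl fun v _ => prod_fib (v := v) f S hS']
  exact Finset.prod_fiberwise_of_maps_to (fun w hw => Finset.mem_image_of_mem _ hw) f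

variable (k E) in
/-- **norms for `locE`** -/
noncomputable def normE : (locE k E).LocNorm where
  nm v := nmE v
  pos v x := by
    rw [nmE_apply]
    exact Finset.prod_pos fun w _ => nmc_pos w.1 (evU w x)
  le_one v x hx := by
    rw [nmE_apply]
    exact Finset.prod_le_one (fun w _ => norm_nonneg _) fun w _ => norm_le_one_of_mem (hx w)
  prod a := by
    have h1 : ∏ᶠ v, nmE v ((locE k E).un v a) =
        ∏ᶠ v : HeightOneSpectrum (𝓞 k), ∏ w : Fib E v,
          ‖algebraMap E (w.1.adicCompletion E) (a : E)‖ := by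
      refine finprod_congr fun v => ?_
      rw [nmE_apply]
      rfl
    rw [h1, finprod_fib (k := k) (fun w : HeightOneSpectrum (𝓞 E) =>
      ‖algebraMap E (w.adicCompletion E) (a : E)‖) (finite_norm a.ne_zero),
      finprod_norm a.ne_zero, mul_inv_cancel₀]
    have : |Algebra.norm ℚ (a : E)| ≠ 0 := abs_ne_zero.mpr (Algebra.norm_ne_zero_iff.mpr a.ne_zero)
    exact_mod_cast this

omit [NumberField k] in
theorem absNorm_act (θ : E ≃ₐ[k] E) (w : HeightOneSpectrum (𝓞 E)) :
    Ideal.absNorm (act θ w).asIdeal = Ideal.absNorm w.asIdeal := by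
  set f := RingOfIntegers.mapRingEquiv (θ : E ≃+* E) with hf
  have h1 : (act θ w).asIdeal = Ideal.comap (f.symm : 𝓞 E →+* 𝓞 E) w.asIdeal := rfl
  rw [h1, Ideal.absNorm_apply, Ideal.absNorm_apply, Submodule.cardQuot_apply,
    Submodule.cardQuot_apply]
  refine Nat.card_congr (Ideal.quotientEquiv _ _ f.symm ?_).toEquiv
  rw [Ideal.map_comap_of_surjective]
  exact f.symm.surjective

theorem norm_ext_one {w w' : HeightOneSpectrum (𝓞 E)} {θ : E →+* E} (h : Above θ w w' 1)
    (hN : Ideal.absNorm w.asIdeal = Ideal.absNorm w'.asIdeal) (x : w.adicCompletion E) :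
    ‖ext h x‖ = ‖x‖ := by
  rw [NumberField.FinitePlace.norm_def, NumberField.FinitePlace.norm_def, valued_ext, pow_one]
  have key : ∀ (a b : ℕ) (ha : (a : ℝ≥0) ≠ 0) (hb : (b : ℝ≥0) ≠ 0), a = b → ∀ z : ℤᵐ⁰,
      WithZeroMulInt.toNNReal ha z = WithZeroMulInt.toNNReal hb z := by
    rintro a b ha hb rfl z
    rfl
  congr 1
  exact key _ _ _ _ hN.symm _

theorem actF_injective {v : HeightOneSpectrum (𝓞 k)} (θ : E ≃ₐ[k] E) :
    Function.Injective (actF θ : Fib E v → Fib E v) := by
  intro w w' h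
  apply Subtype.ext
  have h1 : act θ w.1 = act θ w'.1 := congrArg Subtype.val h
  exact (equivOfRingEquiv (RingOfIntegers.mapRingEquiv (θ : E ≃+* E))).injective h1

/-- **the norms are invariant under automorphisms** -/
theorem inv_normE (θ : E ≃ₐ[k] E) : (normE k E).Inv (autoE θ) := by
  intro v x
  show nmE v _ = nmE v x
  rw [nmE_apply, nmE_apply]
  have h1 : ∀ w : Fib E v, ‖(Units.map (((autoE θ).s v : RE E v →+* RE E v) : RE E v →* RE E v) x :
      RE E v) w‖ = ‖(x : RE E v) (actF θ.symm w)‖ := by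
    intro w
    have e : (Units.map (((autoE θ).s v : RE E v →+* RE E v) : RE E v →* RE E v) x : RE E v) w =
        ext (above_actF_symm θ w) ((x : RE E v) (actF θ.symm w)) := rfl
    rw [e]
    exact norm_ext_one _ (absNorm_act θ.symm w.1) _
  rw [Finset.prod_congr rfl fun w _ => h1 w]
  exact Equiv.prod_comp (Equiv.ofBijective (actF θ.symm : Fib E v → Fib E v)
    (Finite.injective_iff_bijective.mp (actF_injective θ.symm))) fun w => ‖(x : RE E v) w‖

end E

end Fermat.Agent.LT.Glob
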