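import Fermat.Agent.LT.Glob.Fin
import Fermat.Agent.LT.Sp.Def

set_option autoImplicit false

/-!
# The quotient of `D` by unipotent matrices

`L.IdH` is the group of finite ideles; it acts, through `diag(t, 1)`, on the quotient `QU U` of
`D U` by the unipotent upper triangular matrices of the restricted product.
-/

namespace Fermat.Agent.LT.Glob

open Matrix Filter NumberField
open scoped MatrixGroups

universe w u i

namespace LocFam

variable {F : Type u} [Field F] {ι : Type i} (L : LocFam.{w} F ι)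

/-- finite ideles -/
def IdH : Subgroup (∀ v, (L.R v)ˣ) where
  carrier := {t | ∀ᶠ v in cofinite, t v ∈ OU (L.O v)}
  one_mem' := by
    show ∀ᶠ v in cofinite, (1 : ∀ v, (L.R v)ˣ) v ∈ OU (L.O v)
    exact Eventually.of_forall fun v => one_mem _
  mul_mem' := fun {a b} ha hb => by
    show ∀ᶠ v in cofinite, (a * b) v ∈ OU (L.O v)
    filter_upwards [ha, hb] with v h1 h2 using mul_mem h1 h2
  inv_mem' := fun {a} ha => by
    show ∀ᶠ v in cofinite, a⁻¹ v ∈ OU (L.O v)
    filter_upwards [ha] with v h1 using inv_mem h1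

theorem mem_IdH {t : ∀ v, (L.R v)ˣ} : t ∈ L.IdH ↔ ∀ᶠ v in cofinite, t v ∈ OU (L.O v) := Iff.rfl

/-- the element `diag(t, 1)` of the restricted product -/
def diagA (t : L.IdH) : L.GA := ⟨fun v => ProjGenLinGroup.mk (tri (t.1 v) 1 0), by
  rw [mem_GA]
  filter_upwards [t.2] with v hv
  exact mk_mem_PO (tri_mem hv (one_mem _) (zero_mem _))⟩

/-- finite adeles -/
def AdH : AddSubgroup (∀ v, L.R v) where
  carrier := {s | ∀ᶠ v in cofinite, s v ∈ L.O v}
  zero_mem' := by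
    show ∀ᶠ v in cofinite, (0 : ∀ v, L.R v) v ∈ L.O v
    exact Eventually.of_forall fun v => zero_mem _
  add_mem' := fun {a b} ha hb => by
    show ∀ᶠ v in cofinite, (a + b) v ∈ L.O v
    filter_upwards [ha, hb] with v h1 h2 using add_mem h1 h2
  neg_mem' := fun {a} ha => by
    show ∀ᶠ v in cofinite, (-a) v ∈ L.O v
    filter_upwards [ha] with v h1 using neg_mem h1

/-- the unipotent element attached to `s` -/
def uniA (s : L.AdH) : L.GA := ⟨fun v => ProjGenLinGroup.mk (tri 1 1 (s.1 v)), by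
  rw [mem_GA]
  filter_upwards [s.2] with v hv
  exact mk_mem_PO (tri_mem (one_mem _) (one_mem _) hv)⟩

theorem diagA_apply (t : L.IdH) (v : ι) :
    (L.diagA t : ∀ v, L.G v) v = ProjGenLinGroup.mk (tri (t.1 v) 1 0) := rfl

theorem uniA_apply (s : L.AdH) (v : ι) :
    (L.uniA s : ∀ v, L.G v) v = ProjGenLinGroup.mk (tri 1 1 (s.1 v)) := rfl

theorem diagA_one : L.diagA 1 = 1 := by
  apply Subtype.ext; funext v
  rw [diagA_apply]
  have : tri ((1 : L.IdH).1 v) 1 (0 : L.R v) = 1 := by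
    apply Units.ext
    rw [tri_coe]
    ext i j
    fin_cases i <;> fin_cases j <;> simp
  rw [this, map_one]; rfl

theorem diagA_mul (t t' : L.IdH) : L.diagA (t * t') = L.diagA t * L.diagA t' := by
  apply Subtype.ext; funext v
  show _ = (L.diagA t : ∀ v, L.G v) v * (L.diagA t' : ∀ v, L.G v) v
  rw [diagA_apply, diagA_apply, diagA_apply, ← map_mul, tri_mul]
  congr 1
  simp

theorem uniA_zero : L.uniA 0 = 1 := by
  apply Subtype.ext; funext v
  rw [uniA_apply]
  have : tri 1 1 ((0 : L.AdH).1 v) = (1 : GL (Fin 2) (L.R v)) := by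
    apply Units.ext
    rw [tri_coe]
    ext i j
    fin_cases i <;> fin_cases j <;> simp
  rw [this, map_one]; rfl

theorem uniA_add (s s' : L.AdH) : L.uniA (s + s') = L.uniA s * L.uniA s' := by
  apply Subtype.ext; funext v
  show _ = (L.uniA s : ∀ v, L.G v) v * (L.uniA s' : ∀ v, L.G v) v
  rw [uniA_apply, uniA_apply, uniA_apply, ← map_mul, tri_mul]
  congr 1
  simp [add_comm]

/-- the action of ideles on adeles -/
def mulH (t : L.IdH) (s : L.AdH) : L.AdH := ⟨fun v => (t.1 v : L.R v) * s.1 v, by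
  show ∀ᶠ v in cofinite, (t.1 v : L.R v) * s.1 v ∈ L.O v
  filter_upwards [t.2, s.2] with v h1 h2 using (L.O v).mul_mem h1.1 h2⟩

theorem diagA_mul_uniA (t : L.IdH) (s : L.AdH) :
    L.diagA t * L.uniA s = L.uniA (L.mulH t s) * L.diagA t := by
  apply Subtype.ext; funext v
  show (L.diagA t : ∀ v, L.G v) v * (L.uniA s : ∀ v, L.G v) v =
    (L.uniA (L.mulH t s) : ∀ v, L.G v) v * (L.diagA t : ∀ v, L.G v) v
  rw [diagA_apply, uniA_apply, uniA_apply, ← map_mul, ← map_mul, tri_mul, tri_mul]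
  congr 1
  simp [mulH]

variable {L} (U : L.Level)

/-- equivalence modulo unipotent matrices -/
def uniSetoid : Setoid (D U) where
  r d d' := ∃ s : L.AdH, d' = L.uniA s • d
  iseqv := {
    refl := fun d => ⟨0, by rw [uniA_zero, one_smul]⟩
    symm := by
      rintro d d' ⟨s, rfl⟩
      refine ⟨-s, ?_⟩
      rw [← mul_smul, ← uniA_add, neg_add_cancel, uniA_zero, one_smul]
    trans := by
      rintro d d' d'' ⟨s, rfl⟩ ⟨s', rfl⟩
      exact ⟨s' + s, by rw [← mul_smul, ← uniA_add]⟩ }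

/-- the quotient of `D` by unipotent matrices -/
def QU : Type (max i w) := Quotient (uniSetoid U)

variable {U}

/-- the projection -/
def prU (d : D U) : QU U := Quotient.mk (uniSetoid U) d

theorem prU_surj : Function.Surjective (prU (U := U)) := Quotient.exists_rep

theorem prU_eq_iff {d d' : D U} : prU d = prU d' ↔ ∃ s : L.AdH, d' = L.uniA s • d :=
  ⟨fun h => Quotient.exact h, fun h => Quotient.sound h⟩

theorem prU_uniA (s : L.AdH) (d : D U) : prU (L.uniA s • d) = prU d :=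
  (prU_eq_iff.2 ⟨s, rfl⟩).symm

instance : MulAction L.IdH (QU U) where
  smul t := Quotient.map (L.diagA t • ·) (by
    rintro d d' ⟨s, rfl⟩
    exact ⟨L.mulH t s, by simp only [← mul_smul, diagA_mul_uniA]⟩)
  one_smul q := by
    obtain ⟨d, rfl⟩ := prU_surj q
    show prU (L.diagA 1 • d) = prU d
    rw [diagA_one, one_smul]
  mul_smul t t' q := by
    obtain ⟨d, rfl⟩ := prU_surj q
    show prU (L.diagA (t * t') • d) = prU (L.diagA t • L.diagA t' • d)
    rw [diagA_mul, mul_smul]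

theorem smul_prU (t : L.IdH) (d : D U) : t • prU d = prU (L.diagA t • d) := rfl

/-! ### Strong approximation -/

theorem exists_uni_fix (v : ι) (x : X U v) : ∃ N : ℕ, N ≠ 0 ∧ ∀ s ∈ NO (L.O v) N,
    (ProjGenLinGroup.mk (tri 1 1 s) : L.G v) • x = x := by
  classical
  induction x using QuotientGroup.induction_on with
  | H g =>
  obtain ⟨h, rfl⟩ := ProjGenLinGroup.mk_surjective g
  obtain ⟨N, hN, hU⟩ := U.deep v
  obtain ⟨M₁, hM₁, hM₁'⟩ := finite_denom_mat (L := L) {v} (fun w => if e : w = v then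
    ((h : GL (Fin 2) (L.R v)) : Matrix (Fin 2) (Fin 2) (L.R v)).map (e ▸ id) else 0)
  obtain ⟨M₂, hM₂, hM₂'⟩ := finite_denom_mat (L := L) {v} (fun w => if e : w = v then
    ((h⁻¹ : GL (Fin 2) (L.R v)) : Matrix (Fin 2) (Fin 2) (L.R v)).map (e ▸ id) else 0)
  have h1 := hM₁' v (Finset.mem_singleton_self v)
  have h2 := hM₂' v (Finset.mem_singleton_self v)
  rw [dif_pos rfl] at h1 h2
  simp only [Matrix.map_id] at h1 h2
  refine ⟨N * (M₁ * M₂), mul_ne_zero hN (mul_ne_zero hM₁ hM₂), ?_⟩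
  have key : ∀ s ∈ NO (L.O v) (N * (M₁ * M₂)), ∀ i j,
      ((h⁻¹ * tri 1 1 s * h : GL (Fin 2) (L.R v)) : Matrix (Fin 2) (Fin 2) (L.R v)) i j -
      (1 : Matrix (Fin 2) (Fin 2) (L.R v)) i j ∈ NO (L.O v) N := by
    rintro s ⟨y, hy, rfl⟩ i j
    have e1 : ((h⁻¹ * tri 1 1 (((N * (M₁ * M₂) : ℕ) : L.R v) * y) * h : GL (Fin 2) (L.R v)) :
          Matrix (Fin 2) (Fin 2) (L.R v)) - 1 =
        ((h⁻¹ : GL (Fin 2) (L.R v)) : Matrix (Fin 2) (Fin 2) (L.R v)) *
        (((tri 1 1 (((N * (M₁ * M₂) : ℕ) : L.R v) * y) : GL (Fin 2) (L.R v)) :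
          Matrix (Fin 2) (Fin 2) (L.R v)) - 1) * (h : Matrix (Fin 2) (Fin 2) (L.R v)) := by
      rw [mul_sub, sub_mul, mul_one, ← Units.val_mul, ← Units.val_mul, ← Units.val_mul,
        inv_mul_cancel, Units.val_one]
    rw [← Matrix.sub_apply, e1]
    refine ⟨((M₂ : L.R v) * (h⁻¹ : GL (Fin 2) (L.R v)) i 0) *
      ((M₁ : L.R v) * (h : GL (Fin 2) (L.R v)) 1 j) * y,
      (L.O v).mul_mem ((L.O v).mul_mem (h2 i 0) (h1 1 j)) hy, ?_⟩
    rw [tri_coe, Matrix.mul_apply, Fin.sum_univ_two, Matrix.mul_apply, Matrix.mul_apply,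
      Fin.sum_univ_two, Fin.sum_univ_two]
    simp
    ring
  intro s hs
  have hneg : -s ∈ NO (L.O v) (N * (M₁ * M₂)) := neg_mem hs
  have hO : ∀ {x : L.R v} {i j : Fin 2}, x - (1 : Matrix (Fin 2) (Fin 2) (L.R v)) i j ∈
      NO (L.O v) N → x ∈ L.O v := by
    intro x i j hx
    have h1 := NO_le _ _ hx
    have h2 : (1 : Matrix (Fin 2) (Fin 2) (L.R v)) i j ∈ L.O v := by
      rw [Matrix.one_apply]; split_ifs; exacts [(L.O v).one_mem, (L.O v).zero_mem]
    have := (L.O v).add_mem h1 h2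
    rwa [sub_add_cancel] at this
  have hinv : (h⁻¹ * tri 1 1 s * h)⁻¹ = h⁻¹ * tri 1 1 (-s) * h := by
    have : (tri 1 1 s)⁻¹ = tri 1 1 (-s) := by
      apply Units.ext
      rw [tri_inv_coe, tri_coe]
      simp
    rw [_root_.mul_inv_rev, _root_.mul_inv_rev, inv_inv, this, mul_assoc]
  have hmem : h⁻¹ * tri 1 1 s * h ∈ KN (L.O v) N :=
    ⟨⟨fun i j => hO (key s hs i j), fun i j => by rw [hinv]; exact hO (key _ hneg i j)⟩, key s hs⟩
  show ((ProjGenLinGroup.mk (tri 1 1 s) * ProjGenLinGroup.mk h : L.G v) : L.G v ⧸ U.U v) =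
    ((ProjGenLinGroup.mk h : L.G v) : L.G v ⧸ U.U v)
  symm
  refine QuotientGroup.eq.2 ?_
  rw [← map_inv, ← map_mul, ← map_mul, ← mul_assoc]
  exact hU (mk_mem_PK hmem)

omit U in
theorem emb_nMat (v : ι) (t : F) : L.emb v (nMat t) =
    ProjGenLinGroup.mk (tri 1 1 (L.loc v t)) := by
  rw [emb_eq]
  congr 1
  apply Units.ext
  ext i j
  show L.loc v ((nMat t : GL (Fin 2) F) i j) = _
  rw [nMat_coe, tri_coe]
  fin_cases i <;> fin_cases j <;> simp

theorem mk_tri_add (v : ι) (s s' : L.R v) : (ProjGenLinGroup.mk (tri 1 1 (s + s')) : L.G v) =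
    ProjGenLinGroup.mk (tri 1 1 s) * ProjGenLinGroup.mk (tri 1 1 s') := by
  rw [← map_mul, tri_mul]
  congr 1
  simp [add_comm]

/-- **strong approximation for unipotent matrices** -/
theorem exists_nMat (d : D U) (s : L.AdH) : ∃ t : F, L.uniA s • d = nMat t • d := by
  classical
  have hev : ∀ᶠ v in cofinite, (d v = X.base U v ∧ U.U v = PO (L.O v)) ∧ s.1 v ∈ L.O v := by
    filter_upwards [d.2, U.eventually_eq, s.2] with v h1 h2 h3 using ⟨⟨h1, h2⟩, h3⟩
  obtain ⟨S, hS⟩ := exists_finset_compl hev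
  choose N hN hNfix using fun v => exists_uni_fix v (d v)
  obtain ⟨t, ht, ht'⟩ := L.dense S s.1 (∏ v ∈ S, N v)
    (Finset.prod_ne_zero_iff.mpr fun v _ => hN v)
  refine ⟨t, ?_⟩
  apply D.ext
  intro v
  rw [GA_smul_apply, smul_apply, emb_nMat, uniA_apply]
  by_cases hv : v ∈ S
  · have h1 := hNfix v _ (NO_mono (Finset.dvd_prod_of_mem N hv) (ht v hv))
    have h2 : L.loc v t = s.1 v + (L.loc v t - s.1 v) := by ring
    rw [h2, mk_tri_add, mul_smul, h1]
  · obtain ⟨⟨h1, h2⟩, h3⟩ := hS v hv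
    rw [h1, smul_base, smul_base]
    · rw [h2]
      exact mk_mem_PO (tri_mem (one_mem _) (one_mem _) (ht' v hv))
    · rw [h2]
      exact mk_mem_PO (tri_mem (one_mem _) (one_mem _) h3)

theorem prU_eq {d d' : D U} (h : prU d = prU d') : ∃ t : F, d' = nMat t • d := by
  obtain ⟨s, rfl⟩ := prU_eq_iff.1 h
  exact exists_nMat d s

theorem prU_nMat (t : F) (d : D U) : prU (nMat t • d) = prU d := by
  symm
  refine prU_eq_iff.2 ⟨⟨fun v => L.loc v t, L.eventually_mem t⟩, ?_⟩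
  apply D.ext
  intro v
  rw [smul_apply, emb_nMat, GA_smul_apply, uniA_apply]

/-! ### Global diagonal matrices -/

omit U in
theorem emb_aMat [NumberField F] (v : ι) (x : Fˣ) : L.emb v (Sp.aMat x) =
    ProjGenLinGroup.mk (tri (L.un v x) 1 0) := by
  rw [emb_eq]
  congr 1
  apply Units.ext
  ext i j
  show L.loc v ((Sp.aMat x : GL (Fin 2) F) i j) = _
  rw [Sp.aMat_coe, tri_coe]
  fin_cases i <;> fin_cases j <;> simp

theorem tri_mem_KN {v : ι} {c : (L.R v)ˣ} (hc : c ∈ OU (L.O v)) {N : ℕ}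
    (hN : (c : L.R v) - 1 ∈ NO (L.O v) N) : tri c 1 (0 : L.R v) ∈ KN (L.O v) N := by
  refine ⟨tri_mem hc (one_mem _) (zero_mem _), fun i j => ?_⟩
  rw [tri_coe]
  fin_cases i <;> fin_cases j
  · simpa using hN
  · simp [zero_mem]
  · simp [zero_mem]
  · simp [zero_mem]

/-- the local computation -/
theorem exists_rel_loc (v : ι) (x : X U v) {t c : (L.R v)ˣ} (hc : c ∈ OU (L.O v)) {N : ℕ}
    (hU : PK (L.O v) N ≤ U.U v) (hN : (c : L.R v) - 1 ∈ NO (L.O v) N) :
    ∃ s : L.R v, (ProjGenLinGroup.mk (tri (t * c) 1 0) : L.G v) • x =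
      (ProjGenLinGroup.mk (tri 1 1 s) : L.G v) • (ProjGenLinGroup.mk (tri t 1 0) : L.G v) • x := by
  induction x using QuotientGroup.induction_on with
  | H g =>
  obtain ⟨h, rfl⟩ := ProjGenLinGroup.mk_surjective g
  obtain ⟨a, d, s₀, k, hk, rfl⟩ := L.iwasawa v h
  refine ⟨(t : L.R v) * (c - 1) * s₀ * ((d⁻¹ : (L.R v)ˣ) : L.R v), ?_⟩
  show ((ProjGenLinGroup.mk (tri (t * c) 1 0) * ProjGenLinGroup.mk (tri a d s₀ * k) : L.G v) :
      L.G v ⧸ U.U v) = ((ProjGenLinGroup.mk (tri 1 1 _) * (ProjGenLinGroup.mk (tri t 1 0) *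
        ProjGenLinGroup.mk (tri a d s₀ * k)) : L.G v) : L.G v ⧸ U.U v)
  symm
  refine QuotientGroup.eq.2 ?_
  rw [← map_mul, ← map_mul, ← map_mul, ← map_inv, ← map_mul]
  have hd : (d : L.R v) * ((d⁻¹ : (L.R v)ˣ) : L.R v) = 1 := Units.mul_inv d
  have e1 : tri 1 1 ((t : L.R v) * (c - 1) * s₀ * ((d⁻¹ : (L.R v)ˣ) : L.R v)) *
      (tri t 1 0 * (tri a d s₀ * k)) = tri (t * a) d (t * c * s₀) * k := by
    rw [← mul_assoc (tri t 1 0), tri_mul, ← mul_assoc, tri_mul]
    congr 1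
    simp only [one_mul, zero_mul, add_zero, Units.val_one]
    congr 1
    linear_combination ((t : L.R v) * (c - 1) * s₀) * hd
  have e2 : tri (t * c) 1 0 * (tri a d s₀ * k) =
      tri (t * a) d (t * c * s₀) * (tri c 1 0 * k) := by
    rw [← mul_assoc, tri_mul, ← mul_assoc, tri_mul]
    congr 1
    simp only [one_mul, zero_mul, add_zero, Units.val_one, mul_one, mul_zero, zero_add,
      Units.val_mul]
    congr 1
    rw [mul_assoc, mul_comm c a, ← mul_assoc]
  rw [e1, e2, _root_.mul_inv_rev, mul_assoc, inv_mul_cancel_left]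
  refine hU (mk_mem_PK ?_)
  have := conj_mem_KN (inv_mem hk) (tri_mem_KN hc hN)
  rwa [inv_inv, mul_assoc] at this

theorem rel_prU [NumberField F] (t : L.IdH) (x : Fˣ) (h : ∀ v, ∃ c ∈ OU (L.O v), ∃ N : ℕ,
    PK (L.O v) N ≤ U.U v ∧ (c : L.R v) - 1 ∈ NO (L.O v) N ∧ L.un v x = t.1 v * c) (d : D U) :
    t • prU d = prU (Sp.aMat x • d) := by
  classical
  have key : ∀ v, ∃ s : L.R v, (Sp.aMat x • d) v =
      (ProjGenLinGroup.mk (tri 1 1 s) : L.G v) • (L.diagA t • d) v ∧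
        ((Sp.aMat x • d) v = (L.diagA t • d) v → s = 0) := by
    intro v
    by_cases hv : (Sp.aMat x • d) v = (L.diagA t • d) v
    · refine ⟨0, ?_, fun _ => rfl⟩
      have : (tri 1 1 (0 : L.R v)) = 1 := by
        apply Units.ext
        rw [tri_coe]
        ext i j
        fin_cases i <;> fin_cases j <;> simp
      rw [this, map_one, one_smul, hv]
    · obtain ⟨c, hc, N, hN, hcN, e⟩ := h v
      obtain ⟨s, hs⟩ := exists_rel_loc v (d v) (t := t.1 v) hc hN hcN
      refine ⟨s, ?_, fun h' => absurd h' hv⟩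
      rw [smul_apply, emb_aMat, e, hs, GA_smul_apply, diagA_apply]
  choose s hs hs' using key
  rw [smul_prU]
  refine prU_eq_iff.2 ⟨⟨s, ?_⟩, ?_⟩
  · show ∀ᶠ v in cofinite, s v ∈ L.O v
    filter_upwards [(Sp.aMat x • d).2, (L.diagA t • d).2] with v h1 h2
    rw [hs' v (h1.trans h2.symm)]
    exact zero_mem _
  · apply D.ext
    intro v
    exact hs v

end LocFam

end Fermat.Agent.LT.Glob
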